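import Fermat.Agent.S55.G.Defs
import Fermat.Agent.S55.H.TUnit
import Fermat.Agent.S55.H.U.TClass

/-!
# S55 G-IDX: the index computation  `|V_S| = |Cl_S / p| * p ^ (r₂ + s)`   (pure number fields)

`K` totally complex number field containing `μ_p`, `S₀` a finite set of primes.
`V := VS p S₀ / Kˣᵖ`, `C := Dv p S₀ / PD p S₀`.  Claim: `C` finite and `|V| = |C| * p ^ (r₂ + |S₀|)`.

PROOF.  Choose a finite `T ⊇ S₀` with `H.TPrincipal K T` (`H.exists_tprincipal`, applied to
`T0 ∪ S₀`).  `E := H.TUnit K T`, `|E / Eᵖ| = p ^ (rank K + |T| + 1) = p ^ (r₂ + |T|)`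
(`H.index_range_pow_tunit_of_primitiveRoot`; `Units.rank K = r₁ + r₂ - 1 = r₂ - 1`, `[K:ℚ] = 2 r₂`).
`λ : E → (T \ S₀ → ZMod p)`, `e ↦ (ordv v e mod p)_v`; it kills `Eᵖ`.
(1) `ker λ / Eᵖ ≃ V`: injective since `E ∩ Kˣᵖ = Eᵖ` (a `p`-th root of a `T`-unit is a `T`-unit);
surjective: for `a ∈ VS p S₀` take (TPrincipal) `c ∈ Kˣ` with `ordv v c = ordv v a / p` for `v ∉ T`;
then `a / c ^ p ∈ E ∩ VS = ker λ`.
(2) `coker λ ≃ C` via extension by zero `(T \ S₀ → ZMod p) → Dv p S₀`: surjective mod `PD`: given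
`d`, lift its values outside `T` to `ℤ` (finitely supported) and take `c` with these `ordv` outside
`T`; `d - div c` is supported in `T \ S₀`.  Injective: if `ext d = div a`, then `p ∣ ordv v a` for
`v ∉ T`, so `a = e * c ^ p` with `e ∈ E` as in (1), and `d = λ e`.
(3) for a homomorphism `λ̄ : X → Y` of finite groups `|ker| * |Y| = |coker| * |X|`; here
`|X| = p ^ (r₂ + |T|)`, `|Y| = p ^ (|T| - |S₀|)`.
-/

set_option autoImplicit false

namespace Fermat.Agent.S55.G

open NumberField IsDedekindDomain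

section idxAux

variable (p : ℕ) {K : Type*} [Field K] [NumberField K]

lemma idx_ordv_mul (v : H.Pl K) (a b : Kˣ) : ordv v (a * b) = ordv v a + ordv v b := by
  simp [ordv]

lemma idx_ordv_one (v : H.Pl K) : ordv v (1 : Kˣ) = 0 := by simp [ordv]

lemma idx_ordv_inv (v : H.Pl K) (a : Kˣ) : ordv v a⁻¹ = - ordv v a := by simp [ordv]

lemma idx_ordv_pow (v : H.Pl K) (a : Kˣ) (n : ℕ) : ordv v (a ^ n) = n * ordv v a := by
  simp [ordv]

lemma idx_ordv_eq_zero_iff (v : H.Pl K) (a : Kˣ) :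
    ordv v a = 0 ↔ v.valuation K (a : K) = 1 := by
  rw [← HeightOneSpectrum.valuationOfNeZero_eq, ordv]
  constructor
  · intro h
    have : v.valuationOfNeZero a = 1 := by
      apply Multiplicative.toAdd.injective
      rw [h]; rfl
    rw [this]; rfl
  · intro h
    have : v.valuationOfNeZero a = 1 := by exact_mod_cast h
    rw [this]; rfl

lemma idx_finite_ordv_ne_zero (a : Kˣ) : {v : H.Pl K | ordv v a ≠ 0}.Finite := by
  refine ((HeightOneSpectrum.Support.finite (𝓞 K) (a : K)).union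
    (HeightOneSpectrum.Support.finite (𝓞 K) ((a⁻¹ : Kˣ) : K))).subset ?_
  intro v hv
  have hv' : ¬ v.valuation K (a : K) = 1 := fun h => hv ((idx_ordv_eq_zero_iff v a).mpr h)
  rcases lt_or_gt_of_ne hv' with h | h
  · right
    change 1 < v.valuation K ((a⁻¹ : Kˣ) : K)
    rw [Units.val_inv_eq_inv_val, map_inv₀]
    exact (one_lt_inv₀ (zero_lt_iff.mpr ((Valuation.ne_zero_iff _).mpr a.ne_zero))).mpr h
  · left
    exact h

lemma idx_mem_TUnit_iff {T : Finset (H.Pl K)} {x : Kˣ} :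
    x ∈ H.TUnit K T ↔ ∀ v : H.Pl K, v ∉ T → ordv v x = 0 := by
  rw [H.mem_TUnit_iff]
  exact forall₂_congr fun v _ => (idx_ordv_eq_zero_iff v x).symm

open Classical in
/-- the divisor mod `p` outside `S₀` of an element of `Kˣ` -/
noncomputable def idxDiv (S₀ : Set (H.Pl K)) : Kˣ →* Multiplicative (Dv p S₀) where
  toFun a := Multiplicative.ofAdd
    (Finsupp.onFinset ((idx_finite_ordv_ne_zero a).toFinset.subtype (· ∉ S₀))
      (fun v => ((ordv v.1 a : ℤ) : ZMod p)) (by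
        intro v hv
        rw [Finset.mem_subtype, Set.Finite.mem_toFinset]
        intro h0
        apply hv
        rw [h0, Int.cast_zero]))
  map_one' := by
    apply Multiplicative.toAdd.injective
    ext v
    simp [idx_ordv_one]
  map_mul' a b := by
    apply Multiplicative.toAdd.injective
    ext v
    simp [idx_ordv_mul]

lemma idxDiv_apply (S₀ : Set (H.Pl K)) (a : Kˣ) (v : {v : H.Pl K // v ∉ S₀}) :
    (Multiplicative.toAdd (idxDiv p S₀ a)) v = ((ordv v.1 a : ℤ) : ZMod p) := rfl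

lemma idx_mem_PD_iff (S₀ : Set (H.Pl K)) (d : Dv p S₀) :
    d ∈ PD p S₀ ↔ ∃ a : Kˣ, Multiplicative.toAdd (idxDiv p S₀ a) = d := by
  constructor
  · rintro ⟨a, ha⟩
    exact ⟨a, by ext v; rw [idxDiv_apply, ha v]⟩
  · rintro ⟨a, rfl⟩
    exact ⟨a, fun v => idxDiv_apply p S₀ a v⟩

lemma idx_mem_VS_iff (S₀ : Set (H.Pl K)) (a : Kˣ) :
    a ∈ VS p S₀ ↔ idxDiv p S₀ a = 1 := by
  constructor
  · intro h
    apply Multiplicative.toAdd.injective
    ext v
    rw [idxDiv_apply]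
    exact (ZMod.intCast_zmod_eq_zero_iff_dvd _ _).mpr (h v.1 v.2)
  · intro h v hv
    have h1 := idxDiv_apply p S₀ a ⟨v, hv⟩
    rw [h] at h1
    exact (ZMod.intCast_zmod_eq_zero_iff_dvd _ _).mp h1.symm

/-- the key decomposition: if `p ∣ ord_v a` outside `T` (with `Cl_T = 1`), then `a ∈ E_T Kˣᵖ`. -/
lemma idx_exists_pow {T : Finset (H.Pl K)} (hT : H.TPrincipal K (T : Set (H.Pl K)))
    (a : Kˣ) (ha : ∀ v : H.Pl K, v ∉ T → (p : ℤ) ∣ ordv v a) :
    ∃ c : Kˣ, a * (c ^ p)⁻¹ ∈ H.TUnit K T := by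
  classical
  let b : H.Pl K →₀ ℤ := Finsupp.onFinset (idx_finite_ordv_ne_zero a).toFinset
    (fun v => ordv v a / p) (by
      intro v hv
      rw [Set.Finite.mem_toFinset]
      intro h0
      apply hv
      rw [h0, Int.zero_ediv])
  obtain ⟨c, hc⟩ := hT b
  refine ⟨c, idx_mem_TUnit_iff.mpr fun v hv => ?_⟩
  have h1 : ordv v c = ordv v a / p := by
    rw [ordv, hc v (by simpa using hv)]
    rfl
  rw [idx_ordv_mul, idx_ordv_inv, idx_ordv_pow, h1, Int.mul_ediv_cancel' (ha v hv), add_neg_cancel]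

end idxAux

theorem idx {p : ℕ} (hp : p.Prime) (hp2 : p ≠ 2) {K : Type*} [Field K] [NumberField K]
    [IsTotallyComplex K] {ζ : K} (hζ : IsPrimitiveRoot ζ p) (S₀ : Set (H.Pl K))
    (hS₀ : S₀.Finite) :
    (PD p S₀).index ≠ 0 ∧
      (H.powRange p K).relIndex (VS p S₀) =
        (PD p S₀).index * p ^ (Module.finrank ℚ K / 2 + S₀.ncard) := by
  classical
  have hp0 : p ≠ 0 := hp.ne_zero
  have : Fact p.Prime := ⟨hp⟩
  obtain ⟨T0, hT0fin, hT0⟩ := H.exists_tprincipal K
  let T : Finset (H.Pl K) := hT0fin.toFinset ∪ hS₀.toFinset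
  have hTP : H.TPrincipal K (T : Set (H.Pl K)) := hT0 _ (by intro v hv; simp [T, hv])
  have hST : ∀ v, v ∈ S₀ → v ∈ T := by intro v hv; simp [T, hv]
  set E : Subgroup Kˣ := H.TUnit K T with hE
  set P : Subgroup Kˣ := H.powRange p K with hP
  set V : Subgroup Kˣ := VS p S₀ with hV
  have hPV : P ≤ V := by
    rintro _ ⟨c, rfl⟩ v hv
    change (p : ℤ) ∣ ordv v (c ^ p)
    rw [idx_ordv_pow]
    exact dvd_mul_right _ _
  -- (1) `[E : E ∩ P] = p ^ (r₂ + |T|)`
  have h1 : P.relIndex E = p ^ (Module.finrank ℚ K / 2 + T.card) := by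
    have h11 : P.subgroupOf E = (powMonoidHom p : E →* E).range := by
      ext x
      rw [Subgroup.mem_subgroupOf]
      constructor
      · rintro ⟨c, hc⟩
        have hc' : c ^ p = (x : Kˣ) := hc
        have hcE : c ∈ E := idx_mem_TUnit_iff.mpr fun v hv => by
          have h2 := idx_mem_TUnit_iff.mp x.2 v hv
          rw [← hc', idx_ordv_pow] at h2
          rcases mul_eq_zero.mp h2 with h | h
          · exact absurd (by exact_mod_cast h) hp0
          · exact h
        exact ⟨⟨c, hcE⟩, Subtype.ext hc'⟩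
      · rintro ⟨c, rfl⟩
        exact ⟨c, rfl⟩
    rw [Subgroup.relIndex, h11, H.index_range_pow_tunit_of_primitiveRoot K T p hp0 hζ]
    congr 1
    have h12 : Units.rank K = Fintype.card (InfinitePlace K) - 1 := rfl
    have h13 := InfinitePlace.card_eq_nrRealPlaces_add_nrComplexPlaces K
    have h14 : InfinitePlace.nrRealPlaces K = 0 := IsTotallyComplex.nrRealPlaces_eq_zero K
    have h15 : Module.finrank ℚ K = 2 * InfinitePlace.nrComplexPlaces K := IsTotallyComplex.finrank K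
    have h16 : 0 < Fintype.card (InfinitePlace K) := Fintype.card_pos
    omega
  -- (2) `V = (V ∩ E) P`
  have h2 : (V ⊓ E) ⊔ P = V := by
    apply le_antisymm (sup_le inf_le_left hPV)
    intro a ha
    obtain ⟨c, hc⟩ := idx_exists_pow p hTP a (fun v hv => ha v (fun h => hv (hST v h)))
    have hcP : c ^ p ∈ P := ⟨c, rfl⟩
    have h21 : a = (a * (c ^ p)⁻¹) * c ^ p := by group
    rw [h21]
    exact Subgroup.mul_mem_sup ⟨V.mul_mem ha (V.inv_mem (hPV hcP)), hc⟩ hcP
  have h3 : P.relIndex V = P.relIndex (V ⊓ E) := by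
    conv_lhs => rw [← h2]
    exact Subgroup.relIndex_sup_right _ _
  -- (A) `[V : P] * [E : V ∩ E] = p ^ (r₂ + |T|)`
  have hA : P.relIndex V * V.relIndex E = p ^ (Module.finrank ℚ K / 2 + T.card) := by
    have h41 := Subgroup.relIndex_mul_relIndex (P ⊓ E) (V ⊓ E) E
      (inf_le_inf_right _ hPV) inf_le_right
    rw [Subgroup.inf_relIndex_right, Subgroup.inf_relIndex_right, h1] at h41
    have h42 : P ⊓ E = P ⊓ (V ⊓ E) := by
      rw [← inf_assoc, inf_eq_left.mpr hPV]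
    rw [h42, Subgroup.inf_relIndex_right, ← h3] at h41
    exact h41
  -- the divisors supported in `T`
  let sT : Finset {v : H.Pl K // v ∉ S₀} := T.subtype (· ∉ S₀)
  let Y : AddSubgroup (Dv p S₀) :=
    (Finsupp.supported (ZMod p) (ZMod p) (sT : Set {v : H.Pl K // v ∉ S₀})).toAddSubgroup
  have hY : ∀ d : Dv p S₀, d ∈ Y ↔ ∀ v : {v : H.Pl K // v ∉ S₀}, v.1 ∉ T → d v = 0 := by
    intro d
    change d ∈ Finsupp.supported (ZMod p) (ZMod p) (sT : Set {v : H.Pl K // v ∉ S₀}) ↔ _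
    rw [Finsupp.mem_supported']
    simp [sT]
  -- (5) `[E : V ∩ E] = |PD ∩ Y|`
  have h5 : V.relIndex E = Nat.card ((PD p S₀ ⊓ Y : AddSubgroup (Dv p S₀))) := by
    let φ : E →* Multiplicative (Dv p S₀) := (idxDiv p S₀).comp E.subtype
    have h51 : φ.ker = V.subgroupOf E := by
      ext x
      rw [MonoidHom.mem_ker, Subgroup.mem_subgroupOf, idx_mem_VS_iff]
      rfl
    rw [Subgroup.relIndex, ← h51, Subgroup.index_ker]
    refine Nat.card_congr (Equiv.subtypeEquiv Multiplicative.toAdd fun d => ?_)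
    constructor
    · rintro ⟨e, rfl⟩
      refine ⟨(idx_mem_PD_iff p S₀ _).mpr ⟨e, rfl⟩, (hY _).mpr fun v hv => ?_⟩
      change (Multiplicative.toAdd (idxDiv p S₀ (e : Kˣ))) v = 0
      rw [idxDiv_apply, idx_mem_TUnit_iff.mp e.2 v.1 hv, Int.cast_zero]
    · rintro ⟨hPD, hdY⟩
      obtain ⟨a, ha⟩ := (idx_mem_PD_iff p S₀ _).mp hPD
      obtain ⟨c, hc⟩ := idx_exists_pow p hTP a (fun v hv => by
        have hvS : v ∉ S₀ := fun h => hv (hST v h)
        have h52 := (hY _).mp hdY ⟨v, hvS⟩ hv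
        rw [← ha, idxDiv_apply] at h52
        exact (ZMod.intCast_zmod_eq_zero_iff_dvd _ _).mp h52)
      refine ⟨⟨_, hc⟩, ?_⟩
      change idxDiv p S₀ (a * (c ^ p)⁻¹) = d
      have h53 : idxDiv p S₀ (c ^ p) = 1 := (idx_mem_VS_iff p S₀ _).mp (hPV ⟨c, rfl⟩)
      rw [map_mul, map_inv, h53, inv_one, mul_one]
      exact Multiplicative.toAdd.injective ha
  -- (6) `Y + PD = ⊤`
  have h6 : Y ⊔ PD p S₀ = ⊤ := by
    rw [eq_top_iff]
    intro d _
    let b : H.Pl K →₀ ℤ := (d.mapRange (fun z => (z.val : ℤ)) (by simp)).embDomain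
      ⟨Subtype.val, Subtype.val_injective⟩
    obtain ⟨c, hc⟩ := hTP b
    have h61 : d = (d - Multiplicative.toAdd (idxDiv p S₀ c)) +
        Multiplicative.toAdd (idxDiv p S₀ c) := by abel
    rw [h61]
    refine AddSubgroup.add_mem_sup ((hY _).mpr fun v hv => ?_) ((idx_mem_PD_iff p S₀ _).mpr ⟨c, rfl⟩)
    have h62 : ordv v.1 c = ((d v).val : ℤ) := by
      rw [ordv, hc v.1 (by simpa using hv)]
      change b v.1 = _
      have := Finsupp.embDomain_apply_self (⟨Subtype.val, Subtype.val_injective⟩ :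
        {v : H.Pl K // v ∉ S₀} ↪ H.Pl K) (d.mapRange (fun z => (z.val : ℤ)) (by simp)) v
      exact this
    rw [Finsupp.sub_apply, idxDiv_apply, h62]
    simp
  have h7 : (PD p S₀).index = (PD p S₀ ⊓ Y).relIndex Y := by
    rw [AddSubgroup.inf_relIndex_right, ← AddSubgroup.relIndex_top_right, ← h6]
    exact AddSubgroup.relIndex_sup_right _ _
  -- (7) `|Y| = p ^ (|T| - |S₀|)`
  have h8 : Nat.card Y = p ^ sT.card := by
    have e1 : Y ≃ ((sT : Set {v : H.Pl K // v ∉ S₀}) →₀ ZMod p) :=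
      (Finsupp.supportedEquivFinsupp (M := ZMod p) (R := ZMod p)
        (sT : Set {v : H.Pl K // v ∉ S₀})).toEquiv
    rw [Nat.card_congr e1, Nat.card_congr Finsupp.equivFunOnFinite, Nat.card_fun, Nat.card_zmod,
      Nat.card_coe_set_eq, Set.ncard_coe_finset]
  have h9 : sT.card + S₀.ncard = T.card := by
    rw [Finset.card_subtype, Set.ncard_eq_toFinset_card S₀ hS₀]
    have h91 : hS₀.toFinset = T.filter (fun v => ¬ v ∉ S₀) := by
      ext v
      simp only [Set.Finite.mem_toFinset, Finset.mem_filter, not_not]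
      exact ⟨fun h => ⟨hST v h, h⟩, fun h => h.2⟩
    rw [h91]
    exact Finset.card_filter_add_card_filter_not _
  -- (B) `|PD ∩ Y| * [Dv : PD] = p ^ (|T| - |S₀|)`
  have hB : Nat.card ((PD p S₀ ⊓ Y : AddSubgroup (Dv p S₀))) * (PD p S₀).index = p ^ sT.card := by
    have := AddSubgroup.relIndex_mul_relIndex ⊥ (PD p S₀ ⊓ Y) Y bot_le inf_le_right
    rw [AddSubgroup.relIndex_bot_left, AddSubgroup.relIndex_bot_left, h8, ← h7] at this
    exact this
  have hpos : 0 < p ^ sT.card := pow_pos hp.pos _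
  have hm : Nat.card ((PD p S₀ ⊓ Y : AddSubgroup (Dv p S₀))) ≠ 0 := by
    intro h
    rw [h, zero_mul] at hB
    omega
  refine ⟨?_, ?_⟩
  · intro h
    rw [h, mul_zero] at hB
    omega
  · rw [h5] at hA
    apply Nat.eq_of_mul_eq_mul_right (Nat.pos_of_ne_zero hm)
    rw [hA, ← h9]
    calc p ^ (Module.finrank ℚ K / 2 + (sT.card + S₀.ncard))
        = p ^ sT.card * p ^ (Module.finrank ℚ K / 2 + S₀.ncard) := by
          rw [← pow_add]; congr 1; omega
      _ = _ := by rw [← hB]; ring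

end Fermat.Agent.S55.G
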