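import Fermat.Agent.S55.G.Defs

/-!
# S55 G-K2A: the second Kummer sequence (abstract)

`(Γ, L)` a group with levels, `A` a discrete `Γ`-module with `H¹(Γ, A) = 0`; `z ∈ A^Γ` generates
`A[p]`, `z ≠ 0`.  `A` is NOT assumed to be `p`-divisible.  Then
`{c ∈ H²(Γ, 𝔽_p) | z_* c = 0 in H²(Γ, A)}  ≃  B / T`,  `B = Bgrp ρ p = {b | g b - b ∈ pA ∀ g}`,
`T = Tgrp ρ p = A^Γ + pA`.

PROOF.  For `b ∈ B` choose `h_b : Γ → A` with `p • h_b g = ρ g b - b`, as a function of the VALUE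
`ρ g b - b` (`h_b g := Classical.choose` applied to the element `ρ g b - b ∈ pA`), so that `h_b` is a
level cochain (`g ↦ ρ g b` is level as `A` is discrete).  `p • d1 h_b = d1 (d0 b) = 0`, so
`d1 h_b (g, k) ∈ A[p] = ⟨z⟩`: `d1 h_b = vz z x_b` for a unique `x_b : Γ × Γ → ZMod p`
(`i ↦ i.val • z` is injective on `ZMod p`, as `z ≠ 0`, `p` prime), `x_b` is level and a cocycle for
the trivial action (`d2 d1 = 0`, `z` is fixed, injectivity; careful: `(i + j).val • z =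
i.val • z + j.val • z` because `p • z = 0`).  `Ψ b := [x_b]`.
* independent of the choice of `h`: two choices differ by a level cochain with values in `A[p]`,
  i.e. `vz z ξ`, and `x` changes by `d1 ξ`.   * additive: `h_b + h_b'` is a choice for `b + b'`.
* the image is the set of split classes: if `vz z x = d1 h`, `h` level, then `p • h` is a level
  1-cocycle, so `p • h g = ρ g b - b` (`H1VanishOn`), `b ∈ B` and `h` is a choice for `b`.
* kernel: `x_b = d1 ξ` ⇒ `h_b - vz z ξ` is a level 1-cocycle `= d0 c` ⇒ `d0 (b - p • c) = 0` ⇒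
  `b ∈ A^Γ + pA`.  Conversely for `b = a + p • c` the choice `h = d0 c` gives `x = 0`.
-/

set_option autoImplicit false

namespace Fermat.Agent.S55.G

variable {Γ : Type} [Group Γ] (L : Lev Γ) {A : Type*} [AddCommGroup A]
  (ρ : Representation ℤ Γ A) {p : ℕ} [Fact p.Prime]

/-- the classes in `H²(Γ, 𝔽_p)` which die in `H²(Γ, A)` -/
def splitClasses (z : A) : Set (H2 L (Representation.trivial (ZMod p) Γ (ZMod p))) :=
  {c | ∃ x : ↥(Z2 L (Representation.trivial (ZMod p) Γ (ZMod p))),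
    H2π L (Representation.trivial (ZMod p) Γ (ZMod p)) x = c ∧ vz z (x : Γ × Γ → ZMod p) ∈ B2 L ρ}

/-! ### the map `i ↦ i.val • z` -/

section iota

omit [Fact p.Prime] in
theorem k2_mod_smul {z : A} (hpz : p • z = 0) (n : ℕ) : (n % p) • z = n • z := by
  conv_rhs => rw [← Nat.mod_add_div n p, add_smul, mul_comm, mul_smul, hpz, smul_zero, add_zero]

/-- `i ↦ i.val • z` as an additive map -/
def k2Iota (z : A) (hpz : p • z = 0) : ZMod p →+ A where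
  toFun i := i.val • z
  map_zero' := by simp
  map_add' i j := by rw [ZMod.val_add, k2_mod_smul hpz, add_smul]

theorem k2Iota_apply (z : A) (hpz : p • z = 0) (i : ZMod p) : k2Iota z hpz i = i.val • z := rfl

theorem k2_vz_eq_comp {X : Type*} (z : A) (hpz : p • z = 0) (x : X → ZMod p) :
    vz z x = k2Iota z hpz ∘ x := rfl

theorem k2Iota_injective (z : A) (hz0 : z ≠ 0) (hpz : p • z = 0) :
    Function.Injective (k2Iota z hpz) := by
  rw [injective_iff_map_eq_zero]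
  intro i hi
  rw [k2Iota_apply, ← addOrderOf_dvd_iff_nsmul_eq_zero, addOrderOf_eq_prime hpz hz0] at hi
  have := Nat.eq_zero_of_dvd_of_lt hi (ZMod.val_lt i)
  exact (ZMod.val_eq_zero i).mp this

theorem k2Iota_fix (z : A) (hpz : p • z = 0) (hfix : ∀ g, ρ g z = z) (g : Γ) (i : ZMod p) :
    ρ g (k2Iota z hpz i) = k2Iota z hpz i := by
  rw [k2Iota_apply, map_nsmul, hfix]

theorem k2Iota_exists (z : A) (hpz : p • z = 0) (htors : ∀ a : A, p • a = 0 → ∃ i : ℕ, a = i • z)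
    (a : A) (ha : p • a = 0) : ∃ i : ZMod p, k2Iota z hpz i = a := by
  obtain ⟨i, rfl⟩ := htors a ha
  exact ⟨(i : ZMod p), by rw [k2Iota_apply, ZMod.val_natCast, k2_mod_smul hpz]⟩

theorem k2_p_smul_k2Iota (z : A) (hpz : p • z = 0) (i : ZMod p) : p • k2Iota z hpz i = 0 := by
  rw [k2Iota_apply, smul_comm, hpz, smul_zero]

theorem k2_vz_add {X : Type*} (z : A) (hpz : p • z = 0) (x y : X → ZMod p) :
    vz z (x + y) = vz z x + vz z y := by
  funext t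
  exact map_add (k2Iota z hpz) _ _

theorem k2_vz_sub {X : Type*} (z : A) (hpz : p • z = 0) (x y : X → ZMod p) :
    vz z (x - y) = vz z x - vz z y := by
  funext t
  exact map_sub (k2Iota z hpz) _ _

theorem k2_vz_zero {X : Type*} (z : A) : vz z (0 : X → ZMod p) = 0 := by
  funext t
  simp [vz]

theorem k2_vz_injective {X : Type*} (z : A) (hz0 : z ≠ 0) (hpz : p • z = 0) {x y : X → ZMod p}
    (h : vz z x = vz z y) : x = y := by
  funext t
  exact k2Iota_injective z hz0 hpz (congrFun h t)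

theorem k2_d1_vz (z : A) (hpz : p • z = 0) (hfix : ∀ g, ρ g z = z) (ξ : Γ → ZMod p) :
    d1 ρ (vz z ξ) = vz z (d1 (Representation.trivial (ZMod p) Γ (ZMod p)) ξ) := by
  funext ⟨g, h⟩
  show ρ g (k2Iota z hpz (ξ h)) - k2Iota z hpz (ξ (g * h)) + k2Iota z hpz (ξ g) =
    k2Iota z hpz (ξ h - ξ (g * h) + ξ g)
  rw [k2Iota_fix ρ z hpz hfix, map_add, map_sub]

omit [Fact p.Prime] in
theorem k2_vz_isLev₁ (z : A) {ξ : Γ → ZMod p} (hξ : IsLev₁ L ξ) : IsLev₁ L (vz z ξ) :=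
  hξ.comp fun i => i.val • z

omit [Fact p.Prime] in
theorem k2_vz_isLev₂ (z : A) {x : Γ × Γ → ZMod p} (hx : IsLev₂ L x) : IsLev₂ L (vz z x) :=
  hx.comp fun i => i.val • z

/-- a level cochain with values in `A[p]` comes from a `ZMod p`-valued level cochain -/
theorem k2_exists_vz_eq₁ (z : A) (hpz : p • z = 0)
    (htors : ∀ a : A, p • a = 0 → ∃ i : ℕ, a = i • z) (h : Γ → A) (hh : IsLev₁ L h)
    (hp : ∀ g, p • h g = 0) : ∃ ξ : Γ → ZMod p, IsLev₁ L ξ ∧ vz z ξ = h := by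
  refine ⟨Function.invFun (k2Iota z hpz) ∘ h, hh.comp _, ?_⟩
  funext g
  exact Function.invFun_eq (k2Iota_exists z hpz htors (h g) (hp g))

theorem k2_exists_vz_eq₂ (z : A) (hpz : p • z = 0)
    (htors : ∀ a : A, p • a = 0 → ∃ i : ℕ, a = i • z) (y : Γ × Γ → A) (hy : IsLev₂ L y)
    (hp : ∀ t, p • y t = 0) : ∃ x : Γ × Γ → ZMod p, IsLev₂ L x ∧ vz z x = y := by
  refine ⟨Function.invFun (k2Iota z hpz) ∘ y, hy.comp _, ?_⟩
  funext g
  exact Function.invFun_eq (k2Iota_exists z hpz htors (y g) (hp g))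

end iota

/-- the condition does not depend on the representative -/
theorem vz_mem_B2_of_mem_B2 (z : A) (hpz : p • z = 0) (hfix : ∀ g, ρ g z = z)
    {x : Γ × Γ → ZMod p} (hx : x ∈ B2 L (Representation.trivial (ZMod p) Γ (ZMod p))) :
    vz z x ∈ B2 L ρ := by
  obtain ⟨ξ, hξ, rfl⟩ := hx
  exact ⟨vz z ξ, k2_vz_isLev₁ L z hξ, k2_d1_vz ρ z hpz hfix ξ⟩

theorem mem_splitClasses_iff (z : A) (hpz : p • z = 0) (hfix : ∀ g, ρ g z = z)
    (x : ↥(Z2 L (Representation.trivial (ZMod p) Γ (ZMod p)))) :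
    H2π L (Representation.trivial (ZMod p) Γ (ZMod p)) x ∈ splitClasses L ρ z ↔ vz z (x : Γ × Γ → ZMod p) ∈ B2 L ρ := by
  constructor
  · rintro ⟨x', hx', hB⟩
    have hb : (x : Γ × Γ → ZMod p) - (x' : Γ × Γ → ZMod p) ∈
        B2 L (Representation.trivial (ZMod p) Γ (ZMod p)) := by
      have h := hx'.symm
      rw [← sub_eq_zero, ← map_sub, H2π_eq_zero_iff] at h
      exact h
    have h2 := vz_mem_B2_of_mem_B2 L ρ z hpz hfix hb
    rw [k2_vz_sub z hpz] at h2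
    have := (B2 L ρ).add_mem h2 hB
    rwa [sub_add_cancel] at this
  · intro h
    exact ⟨x, rfl, h⟩

theorem vz_mem_Z2 (z : A) (hpz : p • z = 0) (hfix : ∀ g, ρ g z = z)
    (x : ↥(Z2 L (Representation.trivial (ZMod p) Γ (ZMod p)))) :
    vz z (x : Γ × Γ → ZMod p) ∈ Z2 L ρ := by
  rw [mem_Z2_iff]
  refine ⟨k2_vz_isLev₂ L z (Z2.isLev x), fun g h j => ?_⟩
  have := congrArg (k2Iota z hpz) (Z2.cocycle x g h j)
  rw [map_add, map_add] at this
  show k2Iota z hpz _ + k2Iota z hpz _ = ρ g (k2Iota z hpz _) + k2Iota z hpz _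
  rw [k2Iota_fix ρ z hpz hfix]
  exact this

theorem Tgrp_le_Bgrp : Tgrp ρ p ≤ Bgrp ρ p := by
  rintro _ ⟨a, c, ha, rfl⟩ g
  exact ⟨ρ g c - c, by rw [map_add, ha g, map_nsmul, smul_sub]; abel⟩

/-! ### the correspondence `b ↔ [x_b]` -/

/-- `c = [x]`, `vz z x = d1 h`, `p • h = d0 b`, `h` a level cochain -/
def K2Rel (z : A) (b : A) (c : H2 L (Representation.trivial (ZMod p) Γ (ZMod p))) : Prop :=
  ∃ (h : Γ → A) (x : ↥(Z2 L (Representation.trivial (ZMod p) Γ (ZMod p)))),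
    IsLev₁ L h ∧ (∀ g, p • h g = ρ g b - b) ∧ d1 ρ h = vz z (x : Γ × Γ → ZMod p) ∧
      H2π L (Representation.trivial (ZMod p) Γ (ZMod p)) x = c

section rel

variable {L ρ}

theorem K2Rel.exists (hρ : IsDiscrete L ρ) (z : A) (hz0 : z ≠ 0) (hpz : p • z = 0)
    (hfix : ∀ g, ρ g z = z) (htors : ∀ a : A, p • a = 0 → ∃ i : ℕ, a = i • z)
    {b : A} {h : Γ → A} (hh : IsLev₁ L h) (hb : ∀ g, p • h g = ρ g b - b) :
    ∃ x : ↥(Z2 L (Representation.trivial (ZMod p) Γ (ZMod p))),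
      d1 ρ h = vz z (x : Γ × Γ → ZMod p) := by
  have hp : ∀ t, p • d1 ρ h t = 0 := by
    intro t
    have h1 : p • h = d0 ρ b := funext hb
    have h2 : p • d1 ρ h = 0 := by rw [← map_nsmul, h1, d1_d0]
    exact congrFun h2 t
  obtain ⟨x, hx, hxy⟩ := k2_exists_vz_eq₂ L z hpz htors (d1 ρ h) (d1_isLev₂ hρ hh) hp
  refine ⟨⟨x, (mem_Z2_iff _ _ _).2 ⟨hx, fun g k j => ?_⟩⟩, hxy.symm⟩
  apply k2Iota_injective z hz0 hpz
  have hZ : d1 ρ h ∈ Z2 L ρ := B2_le_Z2 hρ ⟨h, hh, rfl⟩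
  have hc := ((mem_Z2_iff _ _ _).1 hZ).2 g k j
  rw [← hxy] at hc
  rw [map_add, map_add]
  change k2Iota z hpz _ + k2Iota z hpz _ = ρ g (k2Iota z hpz _) + k2Iota z hpz _ at hc
  rw [k2Iota_fix ρ z hpz hfix] at hc
  exact hc

theorem K2Rel.exists_of_mem (hρ : IsDiscrete L ρ) (z : A) (hz0 : z ≠ 0) (hpz : p • z = 0)
    (hfix : ∀ g, ρ g z = z) (htors : ∀ a : A, p • a = 0 → ∃ i : ℕ, a = i • z)
    {b : A} (hb : b ∈ Bgrp ρ p) : ∃ c, K2Rel L ρ (p := p) z b c := by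
  classical
  let φ : A → A := fun v => if hv : ∃ c, v = p • c then hv.choose else 0
  have hφ : ∀ g, p • φ (d0 ρ b g) = ρ g b - b := by
    intro g
    have hv : ∃ c, d0 ρ b g = p • c := hb g
    show p • (if hv : ∃ c, d0 ρ b g = p • c then hv.choose else 0) = _
    rw [dif_pos hv]
    exact hv.choose_spec.symm
  have hh : IsLev₁ L (φ ∘ d0 ρ b) := (d0_isLev₁ hρ b).comp φ
  obtain ⟨x, hx⟩ := K2Rel.exists hρ z hz0 hpz hfix htors hh hφ
  exact ⟨_, _, x, hh, hφ, hx, rfl⟩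

theorem K2Rel.add (z : A) (hpz : p • z = 0) {b b' : A}
    {c c' : H2 L (Representation.trivial (ZMod p) Γ (ZMod p))}
    (h : K2Rel L ρ z b c) (h' : K2Rel L ρ z b' c') : K2Rel L ρ z (b + b') (c + c') := by
  obtain ⟨h, x, hh, hb, hx, rfl⟩ := h
  obtain ⟨h', x', hh', hb', hx', rfl⟩ := h'
  refine ⟨h + h', x + x', hh.map₂ hh' (· + ·), fun g => ?_, ?_, map_add _ _ _⟩
  · rw [Pi.add_apply, smul_add, hb, hb', map_add]
    abel
  · rw [map_add, hx, hx', Submodule.coe_add, k2_vz_add z hpz]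

theorem K2Rel.unique (z : A) (hz0 : z ≠ 0) (hpz : p • z = 0)
    (hfix : ∀ g, ρ g z = z) (htors : ∀ a : A, p • a = 0 → ∃ i : ℕ, a = i • z) {b : A}
    {c c' : H2 L (Representation.trivial (ZMod p) Γ (ZMod p))}
    (h : K2Rel L ρ z b c) (h' : K2Rel L ρ z b c') : c = c' := by
  obtain ⟨h, x, hh, hb, hx, rfl⟩ := h
  obtain ⟨h', x', hh', hb', hx', rfl⟩ := h'
  obtain ⟨ξ, hξ, hξh⟩ := k2_exists_vz_eq₁ L z hpz htors (h - h') (hh.map₂ hh' (· - ·)) (fun g => by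
    rw [Pi.sub_apply, smul_sub, hb, hb', sub_self])
  rw [← sub_eq_zero, ← map_sub, H2π_eq_zero_iff]
  refine ⟨ξ, hξ, ?_⟩
  apply k2_vz_injective z hz0 hpz
  rw [← k2_d1_vz ρ z hpz hfix, hξh, map_sub, hx, hx', Submodule.coe_sub, k2_vz_sub z hpz]

theorem K2Rel.mem_Tgrp (hH1 : Fermat.Agent.S55.L.C0.H1VanishOn L ρ ⊤) (z : A) (hpz : p • z = 0)
    (hfix : ∀ g, ρ g z = z) {b : A} (h : K2Rel L ρ (p := p) z b 0) : b ∈ Tgrp ρ p := by
  obtain ⟨h, x, hh, hb, hx, hx0⟩ := h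
  rw [H2π_eq_zero_iff] at hx0
  obtain ⟨ξ, hξ, hξx⟩ := hx0
  have hlev : IsLev₁ L (h - vz z ξ) := hh.map₂ (k2_vz_isLev₁ L z hξ) (· - ·)
  have hd : d1 ρ (h - vz z ξ) = 0 := by
    rw [map_sub, k2_d1_vz ρ z hpz hfix, hξx, hx, sub_self]
  have hZ : h - vz z ξ ∈ Z1 L ρ := ⟨hlev, hd⟩
  obtain ⟨m, hm⟩ := hH1 _ hlev fun v _ w _ => ((mem_Z1_iff _ _ _).1 hZ).2 v w
  refine ⟨b - p • m, m, fun g => ?_, by abel⟩
  have h1 := hm g trivial
  have h2 : p • h g = p • (ρ g m - m) := by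
    rw [← h1, Pi.sub_apply, smul_sub]
    have : p • vz z ξ g = 0 := k2_p_smul_k2Iota z hpz _
    rw [this, sub_zero]
  rw [hb g, smul_sub] at h2
  rw [map_sub, map_nsmul]
  have h3 : ρ g b = b + (p • ρ g m - p • m) := by rw [← h2]; abel
  rw [h3]
  abel

theorem K2Rel.of_mem_Tgrp (hρ : IsDiscrete L ρ) (z : A) {b : A} (hb : b ∈ Tgrp ρ p) :
    K2Rel L ρ (p := p) z b 0 := by
  obtain ⟨a, c, ha, rfl⟩ := hb
  refine ⟨d0 ρ c, 0, d0_isLev₁ hρ c, fun g => ?_, ?_, map_zero _⟩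
  · rw [d0_apply, map_add, ha g, map_nsmul, smul_sub]
    abel
  · rw [d1_d0, Submodule.coe_zero, k2_vz_zero]

theorem K2Rel.mem_splitClasses {z : A} {b : A}
    {c : H2 L (Representation.trivial (ZMod p) Γ (ZMod p))} (h : K2Rel L ρ z b c) :
    c ∈ splitClasses L ρ z := by
  obtain ⟨h, x, hh, -, hx, rfl⟩ := h
  exact ⟨x, rfl, h, hh, hx⟩

theorem K2Rel.exists_of_mem_splitClasses (hH1 : Fermat.Agent.S55.L.C0.H1VanishOn L ρ ⊤) (z : A)
    (hpz : p • z = 0) {c : H2 L (Representation.trivial (ZMod p) Γ (ZMod p))}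
    (hc : c ∈ splitClasses L ρ z) : ∃ b ∈ Bgrp ρ p, K2Rel L ρ z b c := by
  obtain ⟨x, rfl, h, hh, hx⟩ := hc
  have hlev : IsLev₁ L (p • h) := IsLev₁.comp hh (p • ·)
  have hd : d1 ρ (p • h) = 0 := by
    rw [map_nsmul, hx]
    funext t
    exact k2_p_smul_k2Iota z hpz _
  have hZ : p • h ∈ Z1 L ρ := ⟨hlev, hd⟩
  obtain ⟨b, hb⟩ := hH1 _ hlev fun v _ w _ => ((mem_Z1_iff _ _ _).1 hZ).2 v w
  exact ⟨b, fun g => ⟨h g, (hb g trivial).symm⟩, h, x, hh, fun g => hb g trivial, hx, rfl⟩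

end rel

theorem card_splitClasses (hρ : IsDiscrete L ρ) (hH1 : Fermat.Agent.S55.L.C0.H1VanishOn L ρ ⊤)
    (z : A) (hz0 : z ≠ 0) (hpz : p • z = 0) (hfix : ∀ g, ρ g z = z)
    (htors : ∀ a : A, p • a = 0 → ∃ i : ℕ, a = i • z) :
    Nat.card (splitClasses L ρ (p := p) z) = (Tgrp ρ p).relIndex (Bgrp ρ p) := by
  have hex : ∀ b : Bgrp ρ p, ∃ c, K2Rel L ρ (p := p) z (b : A) c := fun b =>
    K2Rel.exists_of_mem hρ z hz0 hpz hfix htors b.2
  choose Ψ hΨ using hex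
  let Ψh : Bgrp ρ p →+ H2 L (Representation.trivial (ZMod p) Γ (ZMod p)) :=
    AddMonoidHom.mk' Ψ fun a b =>
      K2Rel.unique z hz0 hpz hfix htors (hΨ (a + b)) ((hΨ a).add z hpz (hΨ b))
  have hker : Ψh.ker = (Tgrp ρ p).addSubgroupOf (Bgrp ρ p) := by
    ext b
    rw [AddMonoidHom.mem_ker, AddSubgroup.mem_addSubgroupOf]
    constructor
    · intro h0
      have := hΨ b
      rw [show Ψ b = 0 from h0] at this
      exact this.mem_Tgrp hH1 z hpz hfix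
    · intro hb
      exact K2Rel.unique z hz0 hpz hfix htors (hΨ b) (K2Rel.of_mem_Tgrp hρ z hb)
  have hrange : (Ψh.range : Set (H2 L (Representation.trivial (ZMod p) Γ (ZMod p)))) =
      splitClasses L ρ z := by
    ext c
    constructor
    · rintro ⟨b, rfl⟩
      exact (hΨ b).mem_splitClasses
    · intro hc
      obtain ⟨b, hb, hbc⟩ := K2Rel.exists_of_mem_splitClasses hH1 z hpz hc
      exact ⟨⟨b, hb⟩, K2Rel.unique z hz0 hpz hfix htors (hΨ ⟨b, hb⟩) hbc⟩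
  rw [AddSubgroup.relIndex, ← hker, AddSubgroup.index_ker, ← hrange]
  rfl

end Fermat.Agent.S55.G
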