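import Fermat.Agent.S55.G.K1
import Fermat.Agent.S55.G.K2Abs
import Fermat.Agent.S55.P.Trans

/-!
# S55 G-K2D-2 (auxiliary file): `dv b` principal iff `b ∈ Kˣ 𝕂_Sˣᵖ`

The statement `dv_mem_PD_iff_aux` is `dv_mem_PD_iff` of `G/K2Div.lean` with `IsDv` unfolded.
-/

set_option autoImplicit false

namespace Fermat.Agent.S55.G

open ExtCitation NumberField IsDedekindDomain
open scoped Pointwise

local notation "Qbar" => AlgebraicClosure ℚ
local notation "GQ" => (AlgebraicClosure ℚ ≃ₐ[ℚ] AlgebraicClosure ℚ)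

variable {p : ℕ} [Fact p.Prime] {S : Finset Nat.Primes}

theorem K2DivPD.toQ_add (m n : KSx S) : toQ (m + n) = toQ m * toQ n := rfl

theorem K2DivPD.toQ_ne_zero (m : KSx S) : toQ m ≠ 0 :=
  (Additive.toMul (m : Additive Qbarˣ) : Qbarˣ).ne_zero

theorem K2DivPD.toQ_nsmul (k : ℕ) (m : KSx S) : toQ (k • m) = toQ m ^ k := by
  induction k with
  | zero => simp [toQ]
  | succ k ih => rw [succ_nsmul, K2DivPD.toQ_add, ih, pow_succ]

theorem K2DivPD.toQ_injective : Function.Injective (toQ (S := S)) := by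
  intro m n h
  apply Subtype.ext
  apply Additive.toMul.injective
  exact Units.ext h

theorem K2DivPD.hasOrd_toQ {q : Nat.Primes} (hq : q ∉ S) {A : ValuationSubring Qbar}
    (hA : A.LiesOverPrime (q : ℕ)) (m : KSx S) : HasOrd A q (toQ m) :=
  hasOrd_of_mem_KSx hq hA m

/-- every `v ∉ SK S K` lies under a place over some `q ∉ S` -/
theorem K2DivPD.exists_place (K : IntermediateField ℚ Qbar) [NumberField K]
    (v : H.Pl K) (hv : v ∉ SK S K) :
    ∃ (q : Nat.Primes) (A : ValuationSubring Qbar), q ∉ S ∧ A.LiesOverPrime (q : ℕ) ∧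
      v.asIdeal = P.primeUnder K A := by
  obtain ⟨q, hq, g, hg⟩ := P.exists_place_over K v
  have hA : (g • padicPlace q).LiesOverPrime q :=
    (P.liesOverPrime_smul_iff _ g q).2 (P.padicPlace_liesOverPrime q)
  refine ⟨⟨q, hq.out⟩, g • padicPlace q, fun hqS => hv ⟨⟨q, hq.out⟩, hqS, ?_⟩, hA, hg⟩
  rw [hg]
  exact P.natCast_mem_primeUnder hA

/-- the prime of `K` under a place over `q ∉ S` is not in `SK S K` -/
theorem K2DivPD.notMem_SK (K : IntermediateField ℚ Qbar) [NumberField K] {q : Nat.Primes}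
    (hq : q ∉ S) {A : ValuationSubring Qbar} (hA : A.LiesOverPrime (q : ℕ)) (v : H.Pl K)
    (hv : v.asIdeal = P.primeUnder K A) : v ∉ SK S K := by
  rintro ⟨q', hq'S, hq'⟩
  rw [hv, P.mem_primeUnder] at hq'
  have hne : (q' : ℕ) ≠ (q : ℕ) := by
    intro h
    apply hq
    rw [← Subtype.ext h]
    exact hq'S
  have hu := P.isUnitAt_natCast (A := A) q'.2 q.2 hne hA
  rw [P.isUnitAt_iff] at hu
  apply hu.2
  have h : ((((q' : ℕ) : 𝓞 K) : K) : Qbar) = ((q' : ℕ) : Qbar) := by simp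
  rw [← h]
  exact hq'

/-- an element of `𝕂_Sˣ` fixed by `Gal(ℚ̄/K)` lies in `K` -/
theorem K2DivPD.toQ_mem_of_fixed (K : IntermediateField ℚ Qbar) (a : KSx S)
    (ha : ∀ g : K.fixingSubgroup, rhoS S K.fixingSubgroup g a = a) : toQ a ∈ K := by
  have hgal : IsGalois ℚ Qbar := Fermat.Agent.Lib.FrobeniusExists.isGalois_algebraicClosure_rat
  rw [← InfiniteGalois.fixedField_fixingSubgroup K, IntermediateField.mem_fixedField_iff]
  intro f hf
  have h := congrArg toQ (ha ⟨f, hf⟩)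
  exact h

/-- an element of `Kˣ` as an element of `𝕂_Sˣ` -/
theorem K2DivPD.exists_toQ_eq (K : IntermediateField ℚ Qbar) (hK : K.IsUnramifiedOutside S)
    {x : Qbar} (hx0 : x ≠ 0) (hx : x ∈ K) : ∃ a : KSx S, toQ a = x :=
  ⟨⟨Additive.ofMul (Units.mk0 x hx0), (mem_KSx_iff S _).2 ⟨K, hK, hx⟩⟩, rfl⟩

theorem K2DivPD.fixed_of_toQ_mem (K : IntermediateField ℚ Qbar) (a : KSx S) (ha : toQ a ∈ K)
    (g : K.fixingSubgroup) : rhoS S K.fixingSubgroup g a = a := by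
  apply K2DivPD.toQ_injective
  exact (IntermediateField.mem_fixingSubgroup_iff _ _).1 g.2 _ ha

/-- the Kummer step: if `p ∣ ordA A q b'` at all places outside `S` then `b'` is a `p`-th power in
`𝕂_Sˣ`. -/
theorem K2DivPD.exists_nsmul_eq (hpS : pPrime p ∈ S) (b' : KSx S)
    (h : ∀ q : Nat.Primes, q ∉ S → ∀ A : ValuationSubring Qbar, A.LiesOverPrime (q : ℕ) →
      (p : ℤ) ∣ ordA A q (toQ b')) : ∃ c : KSx S, b' = p • c := by
  have hp : p.Prime := Fact.out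
  obtain ⟨F, hF, hbF⟩ := (mem_KSx_iff S (b' : Additive Qbarˣ)).1 b'.2
  change toQ b' ∈ F at hbF
  obtain ⟨β, hβ⟩ := IsAlgClosed.exists_pow_nat_eq (toQ b') hp.pos
  have hβ0 : β ≠ 0 := by
    intro h0
    apply K2DivPD.toQ_ne_zero b'
    rw [← hβ, h0, zero_pow hp.ne_zero]
  have hunr := P.isUnramifiedOutside_adjoin_root hF hp.pos (fun q hq => by
      have : (q : ℕ) = p := (Nat.prime_dvd_prime_iff_eq q.2 hp).1 hq
      have h2 : q = pPrime p := Subtype.ext this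
      rw [h2]; exact hpS) hbF hβ (fun q hq A hA => by
      obtain ⟨k, hk⟩ := h q hq A hA
      have hq0 : ((q : ℕ) : Qbar) ≠ 0 := by exact_mod_cast q.2.ne_zero
      refine ⟨((q : ℕ) : Qbar) ^ k, zpow_mem (natCast_mem F _) k, zpow_ne_zero _ hq0, ?_⟩
      have h1 := (ordA_eq_iff hA _ (K2DivPD.hasOrd_toQ hq hA b')).1 hk
      have h2 : toQ b' / (((q : ℕ) : Qbar) ^ k) ^ p = toQ b' * ((q : ℕ) : Qbar) ^ (-((p : ℤ) * k)) := by
        rw [zpow_neg, div_eq_mul_inv, mul_comm (p : ℤ) k, zpow_mul, zpow_natCast]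
      rw [h2]
      exact h1)
  obtain ⟨c, hc⟩ := K2DivPD.exists_toQ_eq _ hunr hβ0
    ((le_sup_right : _ ≤ F ⊔ IntermediateField.adjoin ℚ {β})
      (IntermediateField.mem_adjoin_simple_self ℚ β))
  refine ⟨c, K2DivPD.toQ_injective ?_⟩
  rw [K2DivPD.toQ_nsmul, hc, hβ]

theorem dv_mem_PD_iff_aux (hpS : pPrime p ∈ S) (K : IntermediateField ℚ Qbar) [NumberField K]
    (hK : K.IsUnramifiedOutside S)
    (dv : ↥(Bgrp (rhoS S K.fixingSubgroup) p) →+ Dv p (SK S K))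
    (hdv : ∀ (b : ↥(Bgrp (rhoS S K.fixingSubgroup) p)) (v : {v : H.Pl K // v ∉ SK S K})
      (q : Nat.Primes) (A : ValuationSubring Qbar), q ∉ S → A.LiesOverPrime (q : ℕ) →
      v.1.asIdeal = P.primeUnder K A → dv b v = ((- ordA A q (toQ (b : KSx S)) : ℤ) : ZMod p))
    (b : ↥(Bgrp (rhoS S K.fixingSubgroup) p)) :
    dv b ∈ PD p (SK S K) ↔ (b : KSx S) ∈ Tgrp (rhoS S K.fixingSubgroup) p := by
  constructor
  · rintro ⟨a, ha⟩
    obtain ⟨a₀, ha₀⟩ := K2DivPD.exists_toQ_eq (S := S) K hK (x := ((a : K) : Qbar))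
      (by simp) (a : K).2
    have hfix : ∀ g, rhoS S K.fixingSubgroup g a₀ = a₀ :=
      K2DivPD.fixed_of_toQ_mem K a₀ (by rw [ha₀]; exact (a : K).2)
    obtain ⟨c, hc⟩ := K2DivPD.exists_nsmul_eq hpS ((b : KSx S) - a₀) (fun q hq A hA => by
      have hne : P.primeUnder K A ≠ ⊥ := P.primeUnder_ne_bot q.2.ne_zero hA
      let v : H.Pl K := ⟨P.primeUnder K A, inferInstance, hne⟩
      have hv : v ∉ SK S K := K2DivPD.notMem_SK K hq hA v rfl
      have h1 := hdv b ⟨v, hv⟩ q A hq hA rfl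
      rw [ha ⟨v, hv⟩, ordv_eq_neg_ordA K hK hq A hA v rfl a, ← ha₀] at h1
      have h2 : toQ (b : KSx S) = toQ ((b : KSx S) - a₀) * toQ a₀ := by
        rw [← K2DivPD.toQ_add, sub_add_cancel]
      rw [h2, ordA_mul hA (K2DivPD.hasOrd_toQ hq hA _) (K2DivPD.hasOrd_toQ hq hA _)] at h1
      rw [← (ZMod.intCast_zmod_eq_zero_iff_dvd _ p)]
      push_cast at h1 ⊢
      linear_combination h1)
    exact ⟨a₀, c, hfix, by rw [← hc]; abel⟩
  · rintro ⟨a, c, ha, hb⟩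
    have haK : toQ a ∈ K := K2DivPD.toQ_mem_of_fixed K a ha
    refine ⟨Units.mk0 (⟨toQ a, haK⟩ : K) (fun h => K2DivPD.toQ_ne_zero a (congrArg Subtype.val h)),
      fun v => ?_⟩
    obtain ⟨q, A, hq, hA, hv⟩ := K2DivPD.exists_place K v.1 v.2
    rw [hdv b v q A hq hA hv, ordv_eq_neg_ordA K hK hq A hA v.1 hv, hb, K2DivPD.toQ_add,
      K2DivPD.toQ_nsmul, ordA_mul hA (K2DivPD.hasOrd_toQ hq hA _)
        ((K2DivPD.toQ_nsmul p c) ▸ K2DivPD.hasOrd_toQ hq hA (p • c)),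
      ordA_pow hA (K2DivPD.hasOrd_toQ hq hA _)]
    push_cast
    simp

end Fermat.Agent.S55.G
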