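import Fermat.Agent.S55.G.K1
import Fermat.Agent.S55.G.K2Abs
import Fermat.Agent.S55.P.Trans

/-!
# S55 G-K2D-3: the divisor map `dv : B → Div_{∉ S}(K) / p` is surjective

(auxiliary file for `G/K2Div.lean`; the hypothesis `IsDv K dv` is written out.)
-/

set_option autoImplicit false

namespace Fermat.Agent.S55.G

open ExtCitation NumberField IsDedekindDomain
open scoped Pointwise nonZeroDivisors

local notation "Qbar" => AlgebraicClosure ℚ
local notation "GQ" => (AlgebraicClosure ℚ ≃ₐ[ℚ] AlgebraicClosure ℚ)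

section general

variable {K : Type*} [Field K] [NumberField K]

/-- a power of a prime ideal is principal -/
theorem K2DivSurj_exists_pow_principal (v : H.Pl K) :
    ∃ (h : ℕ) (α : 𝓞 K), 0 < h ∧ α ≠ 0 ∧ v.asIdeal ^ h = Ideal.span {α} := by
  classical
  have hv : v.asIdeal ∈ (Ideal (𝓞 K))⁰ := mem_nonZeroDivisors_of_ne_zero v.ne_bot
  have h1 : (ClassGroup.mk0 ⟨v.asIdeal, hv⟩) ^ (Fintype.card (ClassGroup (𝓞 K))) = 1 :=
    pow_card_eq_one
  rw [← map_pow] at h1
  have h2 : (⟨v.asIdeal, hv⟩ : (Ideal (𝓞 K))⁰) ^ (Fintype.card (ClassGroup (𝓞 K)))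
      = ⟨v.asIdeal ^ (Fintype.card (ClassGroup (𝓞 K))), pow_mem hv _⟩ := by
    apply Subtype.ext
    simp
  rw [h2, ClassGroup.mk0_eq_one_iff] at h1
  obtain ⟨α, hα⟩ := h1
  refine ⟨Fintype.card (ClassGroup (𝓞 K)), α, Fintype.card_pos, ?_, hα⟩
  rintro rfl
  have h3 : v.asIdeal ^ (Fintype.card (ClassGroup (𝓞 K))) = ⊥ := by
    rw [hα]; simp
  exact v.ne_bot (pow_eq_zero_iff (Fintype.card_pos).ne' |>.mp h3)

theorem K2DivSurj_ordv_eq (v : H.Pl K) (h : ℕ) (α : 𝓞 K) (hα : α ≠ 0)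
    (hv : v.asIdeal ^ h = Ideal.span {α}) (a : Kˣ) (ha : (a : K) = algebraMap (𝓞 K) K α) :
    ordv v a = -(h : ℤ) := by
  have h1 : ((v.valuationOfNeZero a : Multiplicative ℤ) : WithZero (Multiplicative ℤ))
      = WithZero.exp (-(h : ℤ)) := by
    rw [HeightOneSpectrum.valuationOfNeZero_eq, ha, HeightOneSpectrum.valuation_of_algebraMap,
      v.intValuation_eq_exp_neg_multiplicity hα, ← hv,
      multiplicity_pow_self_of_prime v.prime]
  have h2 : v.valuationOfNeZero a = Multiplicative.ofAdd (-(h : ℤ)) := WithZero.coe_inj.mp h1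
  rw [ordv, h2]
  rfl

end general

variable {p : ℕ} [Fact p.Prime] {S : Finset Nat.Primes}

/-- a nonzero element of an `S`-unramified field, as an element of `𝕂_Sˣ` -/
noncomputable def K2DivSurj_mk (S : Finset Nat.Primes) (x : Qbar) (hx : x ≠ 0)
    (F : IntermediateField ℚ Qbar) (hF : F.IsUnramifiedOutside S) (hxF : x ∈ F) : KSx S :=
  ⟨Additive.ofMul (Units.mk0 x hx), (mem_KSx_iff S _).2 ⟨F, hF, hxF⟩⟩

theorem K2DivSurj_toQ_mk (x : Qbar) (hx : x ≠ 0)
    (F : IntermediateField ℚ Qbar) (hF : F.IsUnramifiedOutside S) (hxF : x ∈ F) :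
    toQ (K2DivSurj_mk S x hx F hF hxF) = x := rfl

theorem K2DivSurj_hasOrd {x : Qbar} (hx : x ≠ 0)
    {F : IntermediateField ℚ Qbar} (hF : F.IsUnramifiedOutside S) (hxF : x ∈ F)
    {q : Nat.Primes} (hq : q ∉ S) {A : ValuationSubring Qbar} (hA : A.LiesOverPrime (q : ℕ)) :
    HasOrd A q x :=
  hasOrd_of_mem_KSx hq hA (K2DivSurj_mk S x hx F hF hxF)

theorem K2DivSurj_dvd_pow_mem (hpS : pPrime p ∈ S) (e : ℕ) (q : Nat.Primes)
    (h : (q : ℕ) ∣ p ^ e) : q ∈ S := by
  have h1 : (q : ℕ) ∣ p := q.2.dvd_of_dvd_pow h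
  have h2 : (q : ℕ) = p := (Nat.prime_dvd_prime_iff_eq q.2 Fact.out).mp h1
  have h3 : q = pPrime p := Subtype.ext h2
  rw [h3]; exact hpS

/-- the element `β = α ^ (1 / p ^ e)` -/
theorem K2DivSurj_exists (hpS : pPrime p ∈ S) (K : IntermediateField ℚ Qbar) [NumberField K]
    (hK : K.IsUnramifiedOutside S) (v : H.Pl K) :
    ∃ (b : ↥(Bgrp (rhoS S K.fixingSubgroup) p)) (h' : ℕ), ¬ p ∣ h' ∧
      ∀ (q : Nat.Primes) (A : ValuationSubring Qbar), q ∉ S → A.LiesOverPrime (q : ℕ) →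
        (v.asIdeal = P.primeUnder K A → ordA A q (toQ (b : KSx S)) = h') ∧
        (v.asIdeal ≠ P.primeUnder K A → ordA A q (toQ (b : KSx S)) = 0) := by
  have hp : p.Prime := Fact.out
  obtain ⟨h, α, hh, hα0, hvα⟩ := K2DivSurj_exists_pow_principal v
  obtain ⟨e, h', hph', rfl⟩ := Nat.exists_eq_pow_mul_and_not_dvd hh.ne' p hp.ne_one
  have hpe : 0 < p ^ e := pow_pos hp.pos e
  set a : Qbar := ((α : K) : Qbar) with ha
  have hαK : (α : K) ≠ 0 := by
    intro h0
    exact hα0 (RingOfIntegers.ext h0)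
  have ha0 : a ≠ 0 := by
    intro h0
    exact hαK (Subtype.ext h0)
  have haK : a ∈ K := (α : K).2
  obtain ⟨β, hβ⟩ := IsAlgClosed.exists_pow_nat_eq a hpe
  have hβ0 : β ≠ 0 := by
    rintro rfl
    rw [zero_pow hpe.ne'] at hβ
    exact ha0 hβ.symm
  -- the valuations of `a`
  have key1 : ∀ (q : Nat.Primes) (A : ValuationSubring Qbar), q ∉ S → A.LiesOverPrime (q : ℕ) →
      v.asIdeal = P.primeUnder K A → ordA A q a = ((p ^ e * h' : ℕ) : ℤ) := by
    intro q A hq hA hv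
    have h1 := ordv_eq_neg_ordA K hK hq A hA v hv (Units.mk0 (α : K) hαK)
    rw [K2DivSurj_ordv_eq v _ α hα0 hvα (Units.mk0 (α : K) hαK) rfl] at h1
    have h2 : ordA A q ((((Units.mk0 (α : K) hαK : Kˣ) : K) : Qbar)) = ordA A q a := rfl
    rw [h2] at h1
    omega
  have key2 : ∀ (A : ValuationSubring Qbar), v.asIdeal ≠ P.primeUnder K A → P.IsUnitAt A a := by
    intro A hv
    rw [P.isUnitAt_iff]
    refine ⟨P.coe_mem_valuationSubring K A α, fun hmem => hv ?_⟩
    have h1 : α ∈ P.primeUnder K A := P.mem_primeUnder.2 hmem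
    have h2 : v.asIdeal ^ (p ^ e * h') ≤ P.primeUnder K A := by
      rw [hvα, Ideal.span_singleton_le_iff_mem]; exact h1
    have h3 : v.asIdeal ≤ P.primeUnder K A :=
      (P.primeUnder_isPrime K A).le_of_pow_le h2
    exact v.isMaximal.eq_of_le (P.primeUnder_isPrime K A).ne_top h3
  -- `K(β)` is unramified outside `S`
  have hF : (K ⊔ IntermediateField.adjoin ℚ {β}).IsUnramifiedOutside S := by
    refine P.isUnramifiedOutside_adjoin_root hK hpe (K2DivSurj_dvd_pow_mem hpS e) haK hβ ?_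
    intro q hq A hA
    have hq0 : ((q : ℕ) : Qbar) ≠ 0 := by exact_mod_cast q.2.ne_zero
    by_cases hv : v.asIdeal = P.primeUnder K A
    · refine ⟨((q : ℕ) : Qbar) ^ h', pow_mem (natCast_mem K _) _, pow_ne_zero _ hq0, ?_⟩
      have h1 := (ordA_eq_iff hA _ (K2DivSurj_hasOrd ha0 hK haK hq hA)).1 (key1 q A hq hA hv)
      have h2 : a / (((q : ℕ) : Qbar) ^ h') ^ (p ^ e)
          = a * ((q : ℕ) : Qbar) ^ (-((p ^ e * h' : ℕ) : ℤ)) := by
        rw [zpow_neg, zpow_natCast, ← pow_mul, mul_comm h', div_eq_mul_inv]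
      rw [h2]; exact h1
    · exact ⟨1, one_mem _, one_ne_zero, by simpa using key2 A hv⟩
  have hβF : β ∈ K ⊔ IntermediateField.adjoin ℚ {β} :=
    (le_sup_right : IntermediateField.adjoin ℚ {β} ≤ _)
      (IntermediateField.mem_adjoin_simple_self ℚ β)
  set mβ : KSx S := K2DivSurj_mk S β hβ0 _ hF hβF with hmβ
  have hB : mβ ∈ Bgrp (rhoS S K.fixingSubgroup) p := by
    intro g
    have hga : (g : GQ) a = a := (IntermediateField.mem_fixingSubgroup_iff _ _).1 g.2 a haK
    have hgβ0 : (g : GQ) β ≠ 0 := by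
      rw [Ne, map_eq_zero]; exact hβ0
    obtain ⟨η, hη⟩ := IsAlgClosed.exists_pow_nat_eq ((g : GQ) β / β) hp.pos
    have hη0 : η ≠ 0 := by
      rintro rfl
      rw [zero_pow hp.ne_zero] at hη
      exact div_ne_zero hgβ0 hβ0 hη.symm
    have hη1 : η ^ (p ^ (e + 1)) = 1 := by
      rw [pow_succ', pow_mul, hη, div_pow, ← map_pow, hβ, hga, div_self ha0]
    refine ⟨K2DivSurj_mk S η hη0 _
      (P.isUnramifiedOutside_adjoin_rootOfUnity (pow_pos hp.pos (e + 1))
        (K2DivSurj_dvd_pow_mem hpS (e + 1)) hη1)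
      (IntermediateField.mem_adjoin_simple_self ℚ η), ?_⟩
    apply Subtype.ext
    apply Additive.toMul.injective
    apply Units.ext
    show (g : GQ) β / β = η ^ p
    exact hη.symm
  refine ⟨⟨mβ, hB⟩, h', hph', fun q A hq hA => ⟨fun hv => ?_, fun hv => ?_⟩⟩
  · show ordA A q β = h'
    have h1 := ordA_pow hA (K2DivSurj_hasOrd hβ0 hF hβF hq hA) (p ^ e)
    rw [hβ, key1 q A hq hA hv] at h1
    have h2 : ((p ^ e : ℕ) : ℤ) ≠ 0 := by exact_mod_cast hpe.ne'
    push_cast at h1 h2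
    exact (mul_left_cancel₀ h2 h1).symm
  · show ordA A q β = 0
    exact ordA_eq_zero_of_isUnitAt hA (P.isUnitAt_of_pow hpe (by rw [hβ]; exact key2 A hv))

/-- **G-K2D-3** with `IsDv K dv` written out. -/
theorem K2DivSurj_main (hpS : pPrime p ∈ S) (K : IntermediateField ℚ Qbar) [NumberField K]
    (hK : K.IsUnramifiedOutside S)
    (dv : ↥(Bgrp (rhoS S K.fixingSubgroup) p) →+ Dv p (SK S K))
    (hdv : ∀ (b : ↥(Bgrp (rhoS S K.fixingSubgroup) p)) (v : {v : H.Pl K // v ∉ SK S K})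
      (q : Nat.Primes) (A : ValuationSubring Qbar), q ∉ S → A.LiesOverPrime (q : ℕ) →
      v.1.asIdeal = P.primeUnder K A → dv b v = ((- ordA A q (toQ (b : KSx S)) : ℤ) : ZMod p)) :
    Function.Surjective dv := by
  classical
  have hp : p.Prime := Fact.out
  have hsingle : ∀ v : {v : H.Pl K // v ∉ SK S K},
      Finsupp.single v (1 : ZMod p) ∈ dv.range := by
    intro v
    obtain ⟨b, h', hph', hb⟩ := K2DivSurj_exists hpS K hK v.1
    have h1 : dv b = Finsupp.single v (-(h' : ZMod p)) := by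
      ext w
      obtain ⟨q, hq, g, hw⟩ := P.exists_place_over K w.1
      have hA : (g • padicPlace q).LiesOverPrime q :=
        (P.liesOverPrime_smul_iff _ g q).2 (P.padicPlace_liesOverPrime q)
      have hqS : (⟨q, hq.out⟩ : Nat.Primes) ∉ S := by
        intro hmem
        apply w.2
        refine ⟨⟨q, hq.out⟩, hmem, ?_⟩
        rw [hw]
        exact P.natCast_mem_primeUnder hA
      rw [hdv b w ⟨q, hq.out⟩ _ hqS hA hw]
      by_cases hvw : v = w
      · subst hvw
        rw [(hb ⟨q, hq.out⟩ _ hqS hA).1 hw, Finsupp.single_eq_same]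
        push_cast
        rfl
      · have hne : v.1.asIdeal ≠ P.primeUnder K (g • padicPlace q) := by
          rw [← hw]
          intro h
          exact hvw (Subtype.ext (HeightOneSpectrum.ext h))
        rw [(hb ⟨q, hq.out⟩ _ hqS hA).2 hne, Finsupp.single_eq_of_ne (Ne.symm hvw)]
        simp
    have hu : (-(h' : ZMod p)) ≠ 0 := by
      rw [neg_ne_zero, Ne, ZMod.natCast_eq_zero_iff]
      exact hph'
    refine ⟨((-(h' : ZMod p))⁻¹).val • b, ?_⟩
    rw [map_nsmul, h1, Finsupp.smul_single, nsmul_eq_mul, ZMod.natCast_zmod_val,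
      inv_mul_cancel₀ hu]
  intro d
  have : d ∈ dv.range := by
    induction d using Finsupp.induction_linear with
    | zero => exact zero_mem _
    | add f g hf hg => exact add_mem hf hg
    | single v c =>
      have h2 : Finsupp.single v c = c.val • Finsupp.single v (1 : ZMod p) := by
        rw [Finsupp.smul_single, nsmul_eq_mul, mul_one, ZMod.natCast_zmod_val]
      rw [h2]
      exact nsmul_mem (hsingle v) _
  exact this

end Fermat.Agent.S55.G
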