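import Fermat.Agent.S55.G.K1
import Fermat.Agent.S55.G.K2Abs
import Fermat.Agent.S55.P.Trans
import Fermat.Agent.S55.G.K2DivPD
import Fermat.Agent.S55.G.K2DivSurj

/-!
# S55 G-K2D: `B / (Kˣ 𝕂_Sˣᵖ) ≃ Div_{∉ S}(K) / (p, principal)`

`K` unramified outside `S ∋ p`, `U = K.fixingSubgroup`, `A = 𝕂_Sˣ = KSx S`, `ρ = rhoS S U`,
`B = Bgrp ρ p = {b ∈ 𝕂_Sˣ | g b / b ∈ 𝕂_Sˣᵖ for all g ∈ U}`, `T = Tgrp ρ p = Kˣ 𝕂_Sˣᵖ`.
The divisor map `dv : B → Dv p (SK S K)`, `dv b v = - ord_A b mod p` for ANY place `A` of `ℚ̄` above `v`.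
-/

set_option autoImplicit false

namespace Fermat.Agent.S55.G

open ExtCitation NumberField IsDedekindDomain
open scoped Pointwise

local notation "Qbar" => AlgebraicClosure ℚ
local notation "GQ" => (AlgebraicClosure ℚ ≃ₐ[ℚ] AlgebraicClosure ℚ)

variable {p : ℕ} [Fact p.Prime] {S : Finset Nat.Primes}

/-- `dv` is the divisor map mod `p` -/
def IsDv (K : IntermediateField ℚ Qbar) [NumberField K]
    (dv : ↥(Bgrp (rhoS S K.fixingSubgroup) p) →+ Dv p (SK S K)) : Prop :=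
  ∀ (b : ↥(Bgrp (rhoS S K.fixingSubgroup) p)) (v : {v : H.Pl K // v ∉ SK S K}) (q : Nat.Primes)
    (A : ValuationSubring Qbar), q ∉ S → A.LiesOverPrime (q : ℕ) →
    v.1.asIdeal = P.primeUnder K A → dv b v = ((- ordA A q (toQ (b : KSx S)) : ℤ) : ZMod p)

/-- two rational primes in the same prime ideal are equal -/
theorem K2Div_prime_eq (K : IntermediateField ℚ Qbar) {q q' : Nat.Primes}
    {A A' : ValuationSubring Qbar} (hA : A.LiesOverPrime (q : ℕ)) (hA' : A'.LiesOverPrime (q' : ℕ))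
    (h : P.primeUnder K A = P.primeUnder K A') : q = q' := by
  by_contra hne
  have hcop : Nat.Coprime (q : ℕ) (q' : ℕ) :=
    (Nat.coprime_primes q.2 q'.2).mpr fun h => hne (Subtype.ext h)
  obtain ⟨a, b, hab⟩ := Nat.isCoprime_iff_coprime.mpr hcop
  have h1 : ((q : ℕ) : 𝓞 K) ∈ P.primeUnder K A' := h ▸ P.natCast_mem_primeUnder hA
  have h2 : ((q' : ℕ) : 𝓞 K) ∈ P.primeUnder K A' := P.natCast_mem_primeUnder hA'
  have h3 : (1 : 𝓞 K) ∈ P.primeUnder K A' := by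
    have h4 : (1 : 𝓞 K) = (a : 𝓞 K) * ((q : ℕ) : 𝓞 K) + (b : 𝓞 K) * ((q' : ℕ) : 𝓞 K) := by
      have := congrArg (Int.cast : ℤ → 𝓞 K) hab
      push_cast at this
      exact this.symm
    rw [h4]
    exact Ideal.add_mem _ (Ideal.mul_mem_left _ _ h1) (Ideal.mul_mem_left _ _ h2)
  exact (P.primeUnder_isPrime K A').ne_top ((Ideal.eq_top_iff_one _).mpr h3)

theorem K2Div_toQ_add (a b : KSx S) : toQ (a + b) = toQ a * toQ b := rfl

theorem K2Div_toQ_nsmul (n : ℕ) (a : KSx S) : toQ (n • a) = toQ a ^ n := rfl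

theorem K2Div_toQ_ne_zero (a : KSx S) : toQ a ≠ 0 :=
  (Additive.toMul (a : Additive Qbarˣ) : Qbarˣ).ne_zero

/-- **G-K2D-1**.  PROOF.  If `primeUnder K A = primeUnder K A'` then `q = q'` and `A' = u • A`, `u ∈ U`
(`P.exists_smul_eq_of_primeUnder_eq`); `ordA (u • A) q b = ordA A q (u⁻¹ b)` (`ordA_smul`) and
`u⁻¹ b = b * c ^ p`, `c ∈ 𝕂_Sˣ`, so the two differ by `p * ordA A q c`. -/
theorem ordA_mod_eq (K : IntermediateField ℚ Qbar) [NumberField K]
    (b : ↥(Bgrp (rhoS S K.fixingSubgroup) p)) {q q' : Nat.Primes} (hq : q ∉ S) (hq' : q' ∉ S)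
    {A A' : ValuationSubring Qbar} (hA : A.LiesOverPrime (q : ℕ)) (hA' : A'.LiesOverPrime (q' : ℕ))
    (h : P.primeUnder K A = P.primeUnder K A') :
    ((ordA A q (toQ (b : KSx S)) : ℤ) : ZMod p) = ((ordA A' q' (toQ (b : KSx S)) : ℤ) : ZMod p) := by
  obtain rfl := K2Div_prime_eq K hA hA' h
  obtain ⟨u, hu, rfl⟩ := P.exists_smul_eq_of_primeUnder_eq K q.2 A A' hA h
  obtain ⟨c, hc⟩ := b.2 (⟨u, hu⟩⁻¹ : K.fixingSubgroup)
  have h1 : rhoS S K.fixingSubgroup (⟨u, hu⟩⁻¹ : K.fixingSubgroup) (b : KSx S)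
      = (b : KSx S) + p • c := eq_add_of_sub_eq' hc
  have h2 : u⁻¹ (toQ (b : KSx S)) = toQ (b : KSx S) * toQ c ^ p := by
    rw [← K2Div_toQ_nsmul, ← K2Div_toQ_add, ← h1]
    rfl
  have h3 : toQ (b : KSx S) = u (u⁻¹ (toQ (b : KSx S))) := (u.apply_symm_apply _).symm
  conv_rhs => rw [h3, ordA_smul, h2]
  have hb : HasOrd A q (toQ (b : KSx S)) := hasOrd_of_mem_KSx hq hA _
  have hcO : HasOrd A q (toQ c) := hasOrd_of_mem_KSx hq hA _
  have hcp : HasOrd A q (toQ c ^ p) := by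
    rw [← K2Div_toQ_nsmul]
    exact hasOrd_of_mem_KSx hq hA _
  rw [ordA_mul hA hb hcp, ordA_pow hA hcO]
  push_cast
  rw [ZMod.natCast_self, zero_mul, add_zero]

/-- **G-K2D-1**.  Choose a place above every `v` (`P.exists_place_over`; the prime `q` below
`v ∉ SK S K` is not in `S`), finite support by `finite_setOf_not_isUnitAt`, additivity by `ordA_mul`,
independence by `ordA_mod_eq`. -/
theorem exists_isDv (K : IntermediateField ℚ Qbar) [NumberField K] :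
    ∃ dv : ↥(Bgrp (rhoS S K.fixingSubgroup) p) →+ Dv p (SK S K), IsDv K dv := by
  classical
  -- a place above every `v`
  have hpl : ∀ v : {v : H.Pl K // v ∉ SK S K}, ∃ (q : Nat.Primes) (A : ValuationSubring Qbar),
      q ∉ S ∧ A.LiesOverPrime (q : ℕ) ∧ v.1.asIdeal = P.primeUnder K A := by
    intro v
    obtain ⟨q, hq, g, hg⟩ := P.exists_place_over K v.1
    have hA : (g • padicPlace q).LiesOverPrime q :=
      (P.liesOverPrime_smul_iff _ g q).mpr (P.padicPlace_liesOverPrime q)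
    refine ⟨⟨q, hq.out⟩, g • padicPlace q, fun hqS => v.2 ⟨⟨q, hq.out⟩, hqS, ?_⟩, hA, hg⟩
    rw [hg]
    exact P.natCast_mem_primeUnder hA
  choose qv Av hqS hAv hv using hpl
  let f : ↥(Bgrp (rhoS S K.fixingSubgroup) p) → {v : H.Pl K // v ∉ SK S K} → ZMod p :=
    fun b v => ((- ordA (Av v) (qv v) (toQ (b : KSx S)) : ℤ) : ZMod p)
  have hfin : ∀ b, (Function.support (f b)).Finite := by
    intro b
    have h1 := finite_setOf_not_isUnitAt K (K2Div_toQ_ne_zero (b : KSx S))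
    refine (h1.preimage Subtype.val_injective.injOn).subset ?_
    intro v hvs
    refine ⟨Av v, hv v, fun hu => hvs ?_⟩
    show ((- ordA (Av v) (qv v) (toQ (b : KSx S)) : ℤ) : ZMod p) = 0
    rw [ordA_eq_zero_of_isUnitAt (hAv v) hu]
    simp
  let dv : ↥(Bgrp (rhoS S K.fixingSubgroup) p) →+ Dv p (SK S K) := AddMonoidHom.mk'
    (fun b => Finsupp.ofSupportFinite (f b) (hfin b)) (by
      intro b b'
      ext v
      show f (b + b') v = f b v + f b' v
      show ((- ordA (Av v) (qv v) (toQ ((b : KSx S) + (b' : KSx S))) : ℤ) : ZMod p) = _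
      have hb : HasOrd (Av v) (qv v) (toQ (b : KSx S)) := hasOrd_of_mem_KSx (hqS v) (hAv v) _
      have hb' : HasOrd (Av v) (qv v) (toQ (b' : KSx S)) := hasOrd_of_mem_KSx (hqS v) (hAv v) _
      rw [K2Div_toQ_add, ordA_mul (hAv v) hb hb']
      show _ = ((- ordA (Av v) (qv v) (toQ (b : KSx S)) : ℤ) : ZMod p)
        + ((- ordA (Av v) (qv v) (toQ (b' : KSx S)) : ℤ) : ZMod p)
      push_cast
      ring)
  refine ⟨dv, fun b v q A hq hA hvA => ?_⟩
  show ((- ordA (Av v) (qv v) (toQ (b : KSx S)) : ℤ) : ZMod p) = _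
  push_cast
  rw [ordA_mod_eq K b (hqS v) hq (hAv v) hA ((hv v).symm.trans hvA)]

/-- **G-K2D-2**.  PROOF.  (⇐) `b = a + p • c`, `a` fixed by `U`, so `a ∈ Kˣ` (Galois theory);
`dv b v = - ordA a = ordv v a` mod `p` (`ordv_eq_neg_ordA`).
(⇒) `dv b = div a`; `b' := b - a` has `p ∣ ordA A q b'` for ALL places `A` over all `q ∉ S`.
`b' ∈ F`, `F ⊇ K` unramified outside `S`.  Let `β ^ p = b'` in `ℚ̄`;
`F(β)` is unramified outside `S` by `P.isUnramifiedOutside_adjoin_root` (`c := q ^ (ordA A q b' / p)`),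
so `β ∈ 𝕂_Sˣ` (`mem_KSx_iff`) and `b = a + p • β`. -/
theorem dv_mem_PD_iff (hpS : pPrime p ∈ S) (K : IntermediateField ℚ Qbar) [NumberField K]
    (hK : K.IsUnramifiedOutside S)
    (dv : ↥(Bgrp (rhoS S K.fixingSubgroup) p) →+ Dv p (SK S K)) (hdv : IsDv K dv)
    (b : ↥(Bgrp (rhoS S K.fixingSubgroup) p)) :
    dv b ∈ PD p (SK S K) ↔ (b : KSx S) ∈ Tgrp (rhoS S K.fixingSubgroup) p :=
  dv_mem_PD_iff_aux hpS K hK dv hdv b

/-- **G-K2D-3**.  PROOF.  It suffices to hit `Finsupp.single v 1`.  `v.asIdeal ^ h = (α)`, `h` the class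
number (`ClassGroup`, `pow_card_eq_one`), `h = p ^ e * h'`, `p ∤ h'`.  Let `β ^ (p ^ e) = α` in `ℚ̄`.
`K(β)` is unramified outside `S` (`P.isUnramifiedOutside_adjoin_root`, `n = p ^ e`: at `A` above `v`
(over `q`) take `c = q ^ h'`, since `ordA A q α = h`; at the other places `α` is a unit, `c = 1`).
`β ∈ B`: `g β / β` is a `p ^ e`-th root of unity, which is the `p`-th power of a `p ^ (e+1)`-th root of
unity, and these lie in `𝕂_S` (`P.isUnramifiedOutside_adjoin_rootOfUnity`).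
`ordA A q β = h'` above `v`, `0` elsewhere: `dv β = - h' • single v 1`; multiply by an inverse of
`- h'` mod `p`. -/
theorem dv_surjective (hpS : pPrime p ∈ S) (K : IntermediateField ℚ Qbar) [NumberField K]
    (hK : K.IsUnramifiedOutside S)
    (dv : ↥(Bgrp (rhoS S K.fixingSubgroup) p) →+ Dv p (SK S K)) (hdv : IsDv K dv) :
    Function.Surjective dv :=
  K2DivSurj_main hpS K hK dv hdv

/-- **G-K2D-4** (group theory: `f : B → D` onto, `f⁻¹ (PD) = T`). -/
theorem relIndex_Tgrp_Bgrp (hpS : pPrime p ∈ S) (K : IntermediateField ℚ Qbar) [NumberField K]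
    (hK : K.IsUnramifiedOutside S) :
    (Tgrp (rhoS S K.fixingSubgroup) p).relIndex (Bgrp (rhoS S K.fixingSubgroup) p) =
      (PD p (SK S K)).index := by
  obtain ⟨dv, hdv⟩ := exists_isDv (p := p) (S := S) K
  have h1 : (PD p (SK S K)).comap dv =
      (Tgrp (rhoS S K.fixingSubgroup) p).addSubgroupOf (Bgrp (rhoS S K.fixingSubgroup) p) := by
    ext b
    rw [AddSubgroup.mem_comap, AddSubgroup.mem_addSubgroupOf]
    exact dv_mem_PD_iff hpS K hK dv hdv b
  rw [AddSubgroup.relIndex, ← h1,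
    AddSubgroup.index_comap_of_surjective _ (dv_surjective hpS K hK dv hdv)]

end Fermat.Agent.S55.G
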