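import Fermat.Agent.S55.G.Sha2
import Fermat.Agent.S55.G.K2Div
import Fermat.Agent.S55.G.Idx
import Fermat.Agent.S55.P.Doset
import Fermat.Agent.S55.L.C0.BaseRing

/-!
# S55 G-N1: the numerical input (N1), in the form of `LocSys.CoreNumbers.n1`
-/

set_option autoImplicit false

namespace Fermat.Agent.S55.G

open ExtCitation NumberField IsDedekindDomain Module

local notation "Qbar" => AlgebraicClosure ℚ
local notation "GQ" => (AlgebraicClosure ℚ ≃ₐ[ℚ] AlgebraicClosure ℚ)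

variable {p : ℕ} [Fact p.Prime] {S : Finset Nat.Primes}

/-- two distinct rational primes do not lie in the same prime ideal -/
theorem n1_prime_unique {R : Type*} [CommRing R] (P : Ideal R) (hP : P.IsPrime) {q q' : ℕ}
    (hq : q.Prime) (hq' : q'.Prime) (h : (q : R) ∈ P) (h' : (q' : R) ∈ P) : q = q' := by
  by_contra hne
  have hco : IsCoprime (q : ℤ) (q' : ℤ) :=
    Nat.isCoprime_iff_coprime.2 ((Nat.coprime_primes hq hq').2 hne)
  obtain ⟨a, b, hab⟩ := hco
  apply hP.ne_top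
  rw [Ideal.eq_top_iff_one]
  have h1 : ((a : R) * (q : R) + (b : R) * (q' : R)) = 1 := by
    have := congrArg (Int.cast : ℤ → R) hab
    push_cast at this
    exact this
  rw [← h1]
  exact P.add_mem (P.mul_mem_left _ h) (P.mul_mem_left _ h')

theorem n1_SK_finite (K : Type*) [Field K] [NumberField K] : (SK S K).Finite := by
  have h : SK S K ⊆ ⋃ q ∈ (S : Set Nat.Primes),
      {v : H.Pl K | v.asIdeal ∣ Ideal.span {(((q : ℕ) : 𝓞 K))}} := by
    rintro v ⟨q, hq, hv⟩
    simp only [Set.mem_iUnion]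
    refine ⟨q, hq, ?_⟩
    show v.asIdeal ∣ _
    rw [Ideal.dvd_span_singleton]
    exact hv
  refine Set.Finite.subset (Set.Finite.biUnion S.finite_toSet fun q _ => ?_) h
  apply Ideal.finite_factors
  intro h0
  have h1 : (((q : ℕ) : 𝓞 K)) = 0 := Ideal.span_singleton_eq_bot.1 h0
  exact q.2.ne_zero (by exact_mod_cast h1)

/-- **G-N1a**.  `SK S K = ⋃_{q ∈ S} {primes containing q}` (disjoint, each finite),
`P.card_primes_eq_card_doset`, `P.decGrp_eq_decompositionSubgroup`. -/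
theorem ncard_SK (K : IntermediateField ℚ Qbar) [NumberField K] :
    (SK S K).Finite ∧ (SK S K).ncard = (locSys S).sU K.fixingSubgroup := by
  classical
  have hfin : (SK S K).Finite := n1_SK_finite K
  refine ⟨hfin, ?_⟩
  have : Finite (SK S K) := hfin
  let g : (Σ q : S, {P : Ideal (𝓞 K) // P.IsPrime ∧ (((q.1 : ℕ) : 𝓞 K)) ∈ P}) → SK S K :=
    fun x => ⟨⟨x.2.1, x.2.2.1, by
      intro h0
      have h1 := x.2.2.2
      rw [h0, Ideal.mem_bot] at h1
      exact x.1.1.2.ne_zero (by exact_mod_cast h1)⟩, x.1.1, x.1.2, x.2.2.2⟩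
  have hginj : Function.Injective g := by
    rintro ⟨q, P, hP, hqP⟩ ⟨q', P', hP', hqP'⟩ h
    have h1 : P = P' := congrArg (fun v : SK S K => v.1.asIdeal) h
    subst h1
    have h2 : (q.1 : ℕ) = (q'.1 : ℕ) := n1_prime_unique P hP q.1.2 q'.1.2 hqP hqP'
    have h3 : q = q' := Subtype.ext (Subtype.ext h2)
    subst h3
    rfl
  have hgsurj : Function.Surjective g := by
    rintro ⟨v, q, hq, hv⟩
    exact ⟨⟨⟨q, hq⟩, v.asIdeal, v.isPrime, hv⟩, rfl⟩
  have hfinSig : Finite (Σ q : S, {P : Ideal (𝓞 K) // P.IsPrime ∧ (((q.1 : ℕ) : 𝓞 K)) ∈ P}) :=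
    Finite.of_injective g hginj
  have hfinq : ∀ q : S, Finite {P : Ideal (𝓞 K) // P.IsPrime ∧ (((q.1 : ℕ) : 𝓞 K)) ∈ P} :=
    fun q => Finite.of_injective
      (Sigma.mk q : _ → (Σ q : S, {P : Ideal (𝓞 K) // P.IsPrime ∧ (((q.1 : ℕ) : 𝓞 K)) ∈ P}))
      sigma_mk_injective
  rw [← Nat.card_coe_set_eq, ← Nat.card_congr (Equiv.ofBijective g ⟨hginj, hgsurj⟩),
    Nat.card_sigma]
  show _ = ∑ v : S, Nat.card (DoubleCoset.Quotient (K.fixingSubgroup : Set GQ)
    (P.decGrp v.1 : Set GQ))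
  refine Finset.sum_congr rfl fun q _ => ?_
  have : Fact (q.1 : ℕ).Prime := ⟨q.1.2⟩
  rw [P.card_primes_eq_card_doset K (q.1 : ℕ), P.decGrp_eq_decompositionSubgroup]
  rfl

/-- **G-N1b**.  `K ∋ ζ_p`, `p` odd: no real embedding (a real root of unity is `±1`). -/
theorem exists_zeta_isTotallyComplex (hp2 : p ≠ 2) (K : IntermediateField ℚ Qbar) [NumberField K]
    (hω : K.fixingSubgroup ≤ (cycloChar p).ker) :
    (∃ ζ : K, IsPrimitiveRoot ζ p) ∧ IsTotallyComplex K := by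
  have hp : p.Prime := Fact.out
  have : IsGalois ℚ Qbar := Fermat.Agent.Lib.FrobeniusExists.isGalois_algebraicClosure_rat
  obtain ⟨ζ0, hζ0⟩ := exists_primitiveRoot_pow p 1
  rw [pow_one] at hζ0
  have hmem : ζ0 ∈ K := by
    rw [← InfiniteGalois.fixedField_fixingSubgroup K, IntermediateField.mem_fixedField_iff]
    intro σ hσ
    have h1 : cycloChar p σ = 1 := hω hσ
    have h2 := n3_cycloChar_spec (p := p) σ hζ0.pow_eq_one
    have : Fact (1 < p) := ⟨hp.one_lt⟩
    rw [h1, Units.val_one, ZMod.val_one, pow_one] at h2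
    exact h2
  have hζ : IsPrimitiveRoot (⟨ζ0, hmem⟩ : K) p :=
    IsPrimitiveRoot.of_map_of_injective (f := algebraMap K Qbar) hζ0 (algebraMap K Qbar).injective
  refine ⟨⟨_, hζ⟩, ?_⟩
  rw [← nrRealPlaces_eq_zero_iff]
  exact NumberField.InfinitePlace.IsPrimitiveRoot.nrRealPlaces_eq_zero_of_two_lt
    (lt_of_le_of_ne hp.two_le (Ne.symm hp2)) hζ

/-- **G-N1b**.  `[K : ℚ] = 2 r₂`. -/
theorem even_finrank_of_isTotallyComplex (K : Type*) [Field K] [NumberField K]
    [IsTotallyComplex K] : 2 * (finrank ℚ K / 2) = finrank ℚ K := by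
  rw [IsTotallyComplex.finrank K]
  omega

/-- the `p`-torsion of `𝕂_Sˣ` is generated by `z` -/
theorem torsion_KSx {z : KSx S} (hz : IsZeta p z) (a : KSx S) (ha : p • a = 0) :
    ∃ i : ℕ, a = i • z := by
  have h1 : (((Additive.toMul (a : Additive Qbarˣ)) : Qbarˣ) : Qbar) ^ p = 1 := by
    have h2 := congrArg (fun m : KSx S => (((Additive.toMul (m : Additive Qbarˣ)) : Qbarˣ) : Qbar)) ha
    simpa using h2
  obtain ⟨i, -, hi⟩ := hz.eq_pow_of_pow_eq_one h1
  refine ⟨i, ?_⟩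
  apply Subtype.ext
  apply Additive.toMul.injective
  apply Units.ext
  simpa using hi.symm

theorem n1_card_pow {V : Type*} [AddCommGroup V] [Module (ZMod p) V] (h : Nat.card V ≠ 0) :
    Module.Finite (ZMod p) V ∧ Nat.card V = p ^ finrank (ZMod p) V := by
  have : Finite V := Nat.finite_of_card_ne_zero h
  refine ⟨Module.Finite.of_finite, ?_⟩
  rw [Module.natCard_eq_pow_finrank (K := ZMod p) (V := V), Nat.card_zmod]

theorem n1_arith {q C a b n s : ℕ} (hq : q.Prime) (c1 : C * q ^ (n / 2 + s) = q ^ a)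
    (c2 : C = q ^ b) (e2 : 2 * (n / 2) = n) : 2 * a = 2 * b + n + 2 * s := by
  have e1 : a = b + (n / 2 + s) := by
    apply Nat.pow_right_injective hq.two_le
    show q ^ _ = q ^ _
    rw [← c1, c2, ← pow_add]
  omega

/-- `|Ш²(U)| = |Div / (p, principal)|` -/
theorem n1_card_sha2U (hp2 : p ≠ 2) (hpS : pPrime p ∈ S) (K : IntermediateField ℚ Qbar)
    [NumberField K] (hK : K.IsUnramifiedOutside S) (hω : K.fixingSubgroup ≤ (cycloChar p).ker) :
    Nat.card ((locSys S).sha2U (ZMod p) K.fixingSubgroup) = (PD p (SK S K)).index := by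
  have hp : p.Prime := Fact.out
  have hU' : (P.levS S).IsOpen K.fixingSubgroup := ⟨_, ⟨K, hK, rfl⟩, le_rfl⟩
  obtain ⟨z, hz⟩ := exists_isZeta (p := p) hpS
  have hz0 : z ≠ 0 := by
    rintro rfl
    have h1 : IsPrimitiveRoot (1 : Qbar) p := by simpa [IsZeta] using hz
    have h2 : p ∣ 1 := h1.dvd_of_pow_eq_one 1 (by simp)
    exact hp.one_lt.ne' (Nat.dvd_one.1 h2)
  have hpz : p • z = 0 := by
    apply Subtype.ext
    apply Additive.toMul.injective
    apply Units.ext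
    simpa using hz.pow_eq_one
  have hfix : ∀ g : K.fixingSubgroup, rhoS S K.fixingSubgroup g z = z :=
    fun g => unitsRepS_zeta hz (hω g.2)
  have hdisc : IsDiscrete ((P.levS S).sub K.fixingSubgroup) (rhoS S K.fixingSubgroup) := by
    intro m
    obtain ⟨V, hV, h⟩ := smoothRep_isDiscrete (P.levS S) unitsRep m
    exact ⟨V.comap K.fixingSubgroup.subtype, ⟨V, hV, rfl⟩, fun u hu => h u hu⟩
  have hH1v : L.C0.H1VanishOn ((P.levS S).sub K.fixingSubgroup) (rhoS S K.fixingSubgroup) ⊤ :=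
    h90_S S K.fixingSubgroup.subtype ⊤
  rw [← relIndex_Tgrp_Bgrp hpS K hK,
    ← card_splitClasses ((P.levS S).sub K.fixingSubgroup) (rhoS S K.fixingSubgroup) hdisc hH1v
      z hz0 hpz hfix (torsion_KSx hz)]
  exact Nat.card_congr (Equiv.subtypeEquivRight
    fun c => sha2U_eq_splitClasses hp2 hpS hU' hω hz c)

/-- `|H¹(U)| = |Div / (p, principal)| * p ^ (n / 2 + s)` -/
theorem n1_card_H1 (hp2 : p ≠ 2) (hpS : pPrime p ∈ S) (K : IntermediateField ℚ Qbar)
    [NumberField K] (hK : K.IsUnramifiedOutside S) (hω : K.fixingSubgroup ≤ (cycloChar p).ker) :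
    (PD p (SK S K)).index ≠ 0 ∧
    Nat.card (H1 ((locSys S).L.sub K.fixingSubgroup)
      (Representation.trivial (ZMod p) K.fixingSubgroup (ZMod p))) =
      (PD p (SK S K)).index * p ^ (finrank ℚ K / 2 + (SK S K).ncard) := by
  have hp : p.Prime := Fact.out
  obtain ⟨⟨ζ, hζ⟩, htc⟩ := exists_zeta_isTotallyComplex hp2 K hω
  obtain ⟨hC0, hidx⟩ := idx hp hp2 hζ (SK S K) (ncard_SK (S := S) K).1
  exact ⟨hC0, (card_H1 hpS K hK hω).trans hidx⟩

/-- **G-N1c** (assembly): field `n1` of `LocSys.CoreNumbers` for `G.sys S`. -/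
theorem n1 (hp2 : p ≠ 2) (hpS : pPrime p ∈ S) (U : Subgroup GQ) (hU : (locSys S).L.IsOpen U)
    (hω : U ≤ (cycloChar p).ker) :
    Module.Finite (ZMod p) (H1 ((locSys S).L.sub U) (Representation.trivial (ZMod p) U (ZMod p))) ∧
    Module.Finite (ZMod p) ((locSys S).sha2U (ZMod p) U) ∧
    2 * finrank (ZMod p) (H1 ((locSys S).L.sub U) (Representation.trivial (ZMod p) U (ZMod p)))
      = 2 * finrank (ZMod p) ((locSys S).sha2U (ZMod p) U) + U.index + 2 * (locSys S).sU U := by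
  have hp : p.Prime := Fact.out
  obtain ⟨_, ⟨F, hF, rfl⟩, hFU⟩ := hU
  obtain ⟨K, hK, -, rfl⟩ := P.exists_isUnramifiedOutside_of_le hF U hFU
  have hfd : FiniteDimensional ℚ K := hK.1
  have : NumberField K := { to_charZero := inferInstance, to_finiteDimensional := hK.1 }
  have htc : IsTotallyComplex K := (exists_zeta_isTotallyComplex hp2 K hω).2
  have hSKcard := (ncard_SK (S := S) K).2
  obtain ⟨hC0, hH1'⟩ := n1_card_H1 hp2 hpS K hK hω
  have hsha := n1_card_sha2U hp2 hpS K hK hω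
  obtain ⟨f1, c1⟩ := n1_card_pow (p := p) (V := H1 ((locSys S).L.sub K.fixingSubgroup)
      (Representation.trivial (ZMod p) K.fixingSubgroup (ZMod p))) (by
    rw [hH1']
    exact Nat.mul_ne_zero hC0 (pow_ne_zero _ hp.ne_zero))
  obtain ⟨f2, c2⟩ := n1_card_pow (p := p) (V := (locSys S).sha2U (ZMod p) K.fixingSubgroup) (by
    rw [hsha]; exact hC0)
  refine ⟨f1, f2, ?_⟩
  rw [P.index_fixingSubgroup K, ← hSKcard]
  exact n1_arith hp (hH1'.symm.trans c1) (hsha.symm.trans c2)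
    (even_finrank_of_isTotallyComplex K)

end Fermat.Agent.S55.G
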