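import Fermat.Agent.S55.G.Ord
import Fermat.Agent.S55.P.HensDec
import Fermat.Agent.S55.P.Close

/-!
# S55 G-N2G2 (auxiliary file): `ordA` of a rational number, the product formula for `θ`
-/

set_option autoImplicit false

namespace Fermat.Agent.S55.G

open ExtCitation

local notation "Qbar" => AlgebraicClosure ℚ

/-! ### decomposition of a rational number -/

theorem n2g2_padicValRat_eq {l : ℕ} (hl : l.Prime) (a₀ : ℚ) :
    padicValRat l a₀ = (a₀.num.natAbs.factorization l : ℤ) - (a₀.den.factorization l : ℤ) := by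
  rw [padicValRat_def, Nat.factorization_def _ hl, Nat.factorization_def _ hl]
  rfl

theorem n2g2_decomp_aux (r : ℕ) (hr0 : r ≠ 0) (a₀ : ℚ) (s : ℤ) (a b N' D' : ℕ)
    (hnum : a₀.num = s * ((r ^ a * N' : ℕ) : ℤ)) (hden : a₀.den = r ^ b * D') (hD : D' ≠ 0) :
    a₀ = (r : ℚ) ^ ((a : ℤ) - (b : ℤ)) * (((s * (N' : ℤ) : ℤ) : ℚ) / (((D' : ℕ) : ℤ) : ℚ)) := by
  have hr0' : (r : ℚ) ≠ 0 := Nat.cast_ne_zero.2 hr0
  have hD0 : (D' : ℚ) ≠ 0 := Nat.cast_ne_zero.2 hD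
  conv_lhs => rw [← Rat.num_div_den a₀, hnum, hden]
  rw [zpow_sub₀ hr0', zpow_natCast, zpow_natCast]
  push_cast
  field_simp

/-- `a₀ = r ^ v_r(a₀) * (N / D)` with `N`, `D` prime to `r`. -/
theorem n2g2_decomp {r : ℕ} (hr : r.Prime) (a₀ : ℚ) :
    a₀ = (r : ℚ) ^ (padicValRat r a₀) *
      (((a₀.num.sign * ((ordCompl[r] a₀.num.natAbs : ℕ) : ℤ) : ℤ) : ℚ) /
        (((ordCompl[r] a₀.den : ℕ) : ℤ) : ℚ)) := by
  rw [n2g2_padicValRat_eq hr]
  refine n2g2_decomp_aux r hr.ne_zero a₀ _ _ _ _ _ ?_ ?_ (Nat.ordCompl_pos r a₀.den_ne_zero).ne'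
  · rw [Nat.ordProj_mul_ordCompl_eq_self, Int.sign_mul_natAbs]
  · rw [Nat.ordProj_mul_ordCompl_eq_self]

theorem n2g2_not_dvd_N {r : ℕ} (hr : r.Prime) {a₀ : ℚ} (ha₀ : a₀ ≠ 0) :
    ¬ (r : ℤ) ∣ a₀.num.sign * ((ordCompl[r] a₀.num.natAbs : ℕ) : ℤ) := by
  have hn : a₀.num ≠ 0 := Rat.num_ne_zero.2 ha₀
  have h0 : a₀.num.natAbs ≠ 0 := Int.natAbs_ne_zero.2 hn
  intro h
  have hu : IsUnit a₀.num.sign := by
    rw [Int.isUnit_iff]
    rcases lt_or_gt_of_ne hn with h | h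
    · right; exact Int.sign_eq_neg_one_of_neg h
    · left; exact Int.sign_eq_one_of_pos h
  have h1 : (r : ℤ) ∣ ((ordCompl[r] a₀.num.natAbs : ℕ) : ℤ) := (hu.dvd_mul_left).1 h
  exact Nat.not_dvd_ordCompl hr h0 (Int.natCast_dvd_natCast.1 h1)

theorem n2g2_not_dvd_D {r : ℕ} (hr : r.Prime) (a₀ : ℚ) :
    ¬ (r : ℤ) ∣ ((ordCompl[r] a₀.den : ℕ) : ℤ) := fun h =>
  Nat.not_dvd_ordCompl hr a₀.den_ne_zero (Int.natCast_dvd_natCast.1 h)

/-! ### `ordA` of a rational number -/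

/-- an integer prime to `q` is a unit at every place over `q`. -/
theorem n2g2_intCast_isUnitAt {A : ValuationSubring Qbar} {q : ℕ} (hq : q.Prime)
    (hA : A.LiesOverPrime q) (m : ℤ) (hm : ¬ (q : ℤ) ∣ m) : P.IsUnitAt A (m : Qbar) := by
  rw [P.isUnitAt_iff]
  refine ⟨intCast_mem A m, fun hmem => ?_⟩
  have hcop : IsCoprime (q : ℤ) m := (Nat.prime_iff_prime_int.1 hq).coprime_iff_not_dvd.2 hm
  obtain ⟨a, b, hab⟩ := hcop
  have hq' : A.valuation (q : Qbar) < 1 := (A.mem_nonunits_iff).1 hA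
  have hm' : A.valuation (m : Qbar) < 1 := (A.mem_nonunits_iff).1 hmem
  have ha : A.valuation (a : Qbar) ≤ 1 := (A.valuation_le_one_iff _).2 (intCast_mem A a)
  have hb : A.valuation (b : Qbar) ≤ 1 := (A.valuation_le_one_iff _).2 (intCast_mem A b)
  have h1 : (1 : Qbar) = (a : Qbar) * (q : Qbar) + (b : Qbar) * (m : Qbar) := by
    exact_mod_cast hab.symm
  have h2 : A.valuation (1 : Qbar) < 1 := by
    rw [h1]
    refine lt_of_le_of_lt (A.valuation.map_add _ _) (max_lt ?_ ?_)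
    · rw [map_mul]
      exact lt_of_le_of_lt (mul_le_of_le_one_left' ha) hq'
    · rw [map_mul]
      exact lt_of_le_of_lt (mul_le_of_le_one_left' hb) hm'
  rw [map_one] at h2
  exact lt_irrefl _ h2

theorem n2g2_ordA_ratCast {A : ValuationSubring Qbar} {q : ℕ} (hq : q.Prime)
    (hA : A.LiesOverPrime q) (a₀ : ℚ) (ha₀ : a₀ ≠ 0) :
    ordA A q (algebraMap ℚ Qbar a₀) = padicValRat q a₀ := by
  apply ordA_eq_of_isUnitAt hA
  have hq0 : (q : Qbar) ≠ 0 := Nat.cast_ne_zero.2 hq.ne_zero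
  have h := n2g2_decomp hq a₀
  have hN := n2g2_intCast_isUnitAt hq hA _ (n2g2_not_dvd_N hq ha₀)
  have hD := n2g2_intCast_isUnitAt hq hA _ (n2g2_not_dvd_D hq a₀)
  generalize padicValRat q a₀ = n at h ⊢
  generalize a₀.num.sign * ((ordCompl[q] a₀.num.natAbs : ℕ) : ℤ) = N at h hN
  generalize ((ordCompl[q] a₀.den : ℕ) : ℤ) = D at h hD
  have h1 : algebraMap ℚ Qbar a₀ * (q : Qbar) ^ (-n) = (N : Qbar) * (D : Qbar)⁻¹ := by
    rw [h, map_mul, map_zpow₀, map_natCast, map_div₀, map_intCast, map_intCast, zpow_neg,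
      div_eq_mul_inv]
    have hz : (q : Qbar) ^ n ≠ 0 := zpow_ne_zero _ hq0
    field_simp
  rw [h1]
  exact hN.mul hD.inv

/-! ### the product formula -/

section prod

open Classical in
/-- the unit of `ZMod r` attached to a natural number prime to `r` (junk value `1`). -/
noncomputable def n2g2U (r n : ℕ) : (ZMod r)ˣ :=
  if h : Nat.Coprime n r then ZMod.unitOfCoprime n h else 1

theorem n2g2U_coe {r n : ℕ} (h : Nat.Coprime n r) : ((n2g2U r n : (ZMod r)ˣ) : ZMod r) = n := by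
  rw [n2g2U, dif_pos h]
  exact ZMod.coe_unitOfCoprime n h

theorem n2g2U_eq_prod {r n : ℕ} (hn : n ≠ 0) (h : Nat.Coprime n r) :
    n2g2U r n = ∏ l ∈ n.primeFactors, n2g2U r l ^ n.factorization l := by
  apply Units.ext
  rw [n2g2U_coe h, Units.coe_prod]
  have h1 : ∀ l ∈ n.primeFactors, ((n2g2U r l ^ n.factorization l : (ZMod r)ˣ) : ZMod r)
      = ((l ^ n.factorization l : ℕ) : ZMod r) := by
    intro l hl
    rw [Units.val_pow_eq_pow_val,
      n2g2U_coe (Nat.Coprime.coprime_dvd_left (Nat.dvd_of_mem_primeFactors hl) h), Nat.cast_pow]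
  rw [Finset.prod_congr rfl h1, ← Nat.cast_prod]
  congr 1
  exact (Nat.prod_factorization_pow_eq_self hn).symm

theorem n2g2_pow_card {n : ℕ} (t : Multiplicative (ZMod n)) : t ^ n = 1 := by
  rw [← ofAdd_toAdd t, ← ofAdd_nsmul, nsmul_eq_mul, ZMod.natCast_self, zero_mul, ofAdd_zero]

theorem n2g2_prod_formula {p : ℕ} [Fact p.Prime] (hp2 : p ≠ 2) {r m : ℕ} [Fact r.Prime]
    (θ : (ZMod r)ˣ →* Multiplicative (ZMod (p ^ m))) (a₀ : ℚ) (ha₀ : a₀ ≠ 0) (l₀ : ℕ)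
    (hl₀ : l₀.Prime) (hl₀r : l₀ ≠ r)
    (h1 : ∀ l : ℕ, l.Prime → l ≠ r → l ≠ l₀ → ∀ u : (ZMod r)ˣ, (u : ZMod r) = (l : ZMod r) →
      (orderOf (θ u) : ℤ) ∣ padicValRat l a₀)
    (h2 : ∀ N D j : ℤ, ¬ (r : ℤ) ∣ N → ¬ (r : ℤ) ∣ D → a₀ = (r : ℚ) ^ j * (N / D) →
      ∀ uN uD : (ZMod r)ˣ, (uN : ZMod r) = (N : ZMod r) → (uD : ZMod r) = (D : ZMod r) →
        θ uN = θ uD)
    (u : (ZMod r)ˣ) (hu : (u : ZMod r) = (l₀ : ZMod r)) :
    (orderOf (θ u) : ℤ) ∣ padicValRat l₀ a₀ := by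
  classical
  have hr : r.Prime := Fact.out
  have hn : a₀.num ≠ 0 := Rat.num_ne_zero.2 ha₀
  have hn0 : a₀.num.natAbs ≠ 0 := Int.natAbs_ne_zero.2 hn
  have hN0 : ordCompl[r] a₀.num.natAbs ≠ 0 := (Nat.ordCompl_pos r hn0).ne'
  have hD0 : ordCompl[r] a₀.den ≠ 0 := (Nat.ordCompl_pos r a₀.den_ne_zero).ne'
  have hNc : Nat.Coprime (ordCompl[r] a₀.num.natAbs) r := (Nat.coprime_ordCompl hr hn0).symm
  have hDc : Nat.Coprime (ordCompl[r] a₀.den) r :=
    (Nat.coprime_ordCompl hr a₀.den_ne_zero).symm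
  have hval : ∀ l : ℕ, l.Prime → l ≠ r → padicValRat l a₀ =
      ((ordCompl[r] a₀.num.natAbs).factorization l : ℤ) -
        ((ordCompl[r] a₀.den).factorization l : ℤ) := by
    intro l hl hlr
    rw [n2g2_padicValRat_eq hl, Nat.factorization_ordCompl, Nat.factorization_ordCompl,
      Finsupp.erase_ne hlr, Finsupp.erase_ne hlr]
  have hdec := n2g2_decomp hr a₀
  have hNd := n2g2_not_dvd_N hr ha₀
  have hDd := n2g2_not_dvd_D hr a₀
  -- `θ (-1) = 1`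
  have hneg : θ (-1) = 1 := by
    have e1 : θ (-1) ^ 2 = 1 := by rw [← map_pow]; simp
    have e2 : θ (-1) ^ (p ^ m) = 1 := n2g2_pow_card _
    have hc : Nat.Coprime 2 (p ^ m) :=
      Nat.Coprime.pow_right m ((Nat.coprime_primes Nat.prime_two Fact.out).2 (Ne.symm hp2))
    have e3 := (pow_gcd_eq_one (a := θ (-1)) (m := 2) (n := p ^ m)).2 ⟨e1, e2⟩
    rwa [hc.gcd_eq_one, pow_one] at e3
  obtain ⟨ε, hε1, hε2⟩ : ∃ ε : (ZMod r)ˣ, (ε : ZMod r) = ((a₀.num.sign : ℤ) : ZMod r) ∧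
      θ ε = 1 := by
    rcases lt_or_gt_of_ne hn with h | h
    · exact ⟨-1, by rw [Int.sign_eq_neg_one_of_neg h]; simp, hneg⟩
    · exact ⟨1, by rw [Int.sign_eq_one_of_pos h]; simp, map_one θ⟩
  generalize ordCompl[r] a₀.num.natAbs = N' at hN0 hNc hval hdec hNd
  generalize ordCompl[r] a₀.den = D' at hD0 hDc hval hdec hDd
  have hND : θ (n2g2U r N') = θ (n2g2U r D') := by
    have := h2 _ _ _ hNd hDd hdec (ε * n2g2U r N') (n2g2U r D')
      (by rw [Units.val_mul, hε1, n2g2U_coe hNc]; push_cast; rfl)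
      (by rw [n2g2U_coe hDc]; push_cast; rfl)
    rwa [map_mul, hε2, one_mul] at this
  -- the finite set of primes
  set Ps : Finset ℕ := insert l₀ (N'.primeFactors ∪ D'.primeFactors) with hPs
  have hP : ∀ l ∈ Ps, l.Prime ∧ l ≠ r := by
    intro l hl
    rw [hPs, Finset.mem_insert, Finset.mem_union] at hl
    rcases hl with rfl | hl | hl
    · exact ⟨hl₀, hl₀r⟩
    · refine ⟨Nat.prime_of_mem_primeFactors hl, ?_⟩
      rintro rfl
      exact hr.one_lt.ne' (Nat.Coprime.eq_one_of_dvd hNc.symm (Nat.dvd_of_mem_primeFactors hl))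
    · refine ⟨Nat.prime_of_mem_primeFactors hl, ?_⟩
      rintro rfl
      exact hr.one_lt.ne' (Nat.Coprime.eq_one_of_dvd hDc.symm (Nat.dvd_of_mem_primeFactors hl))
  have hexp : ∀ n : ℕ, n ≠ 0 → Nat.Coprime n r → n.primeFactors ⊆ Ps →
      θ (n2g2U r n) = ∏ l ∈ Ps, θ (n2g2U r l) ^ n.factorization l := by
    intro n hn0' hnc hsub
    rw [n2g2U_eq_prod hn0' hnc, map_prod]
    rw [← Finset.prod_subset hsub (fun l _ hl => by
      rw [Finsupp.notMem_support_iff.1 (by rwa [Nat.support_factorization]), pow_zero])]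
    exact Finset.prod_congr rfl fun l _ => map_pow θ _ _
  have hfN := hexp N' hN0 hNc (fun l hl => Finset.mem_insert_of_mem (Finset.mem_union_left _ hl))
  have hfD := hexp D' hD0 hDc (fun l hl => Finset.mem_insert_of_mem (Finset.mem_union_right _ hl))
  have hprod : ∏ l ∈ Ps, θ (n2g2U r l) ^ (padicValRat l a₀) = 1 := by
    have e1 : ∀ l ∈ Ps, θ (n2g2U r l) ^ (padicValRat l a₀) =
        θ (n2g2U r l) ^ N'.factorization l * (θ (n2g2U r l) ^ D'.factorization l)⁻¹ := by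
      intro l hl
      rw [hval l (hP l hl).1 (hP l hl).2, zpow_sub, zpow_natCast, zpow_natCast]
    rw [Finset.prod_congr rfl e1, Finset.prod_mul_distrib, Finset.prod_inv_distrib, ← hfN, ← hfD,
      hND, mul_inv_cancel]
  have hsingle : ∏ l ∈ Ps, θ (n2g2U r l) ^ (padicValRat l a₀) =
      θ (n2g2U r l₀) ^ (padicValRat l₀ a₀) := by
    refine Finset.prod_eq_single l₀ (fun l hl hne => ?_)
      (fun hnot => absurd (Finset.mem_insert_self _ _) hnot)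
    exact orderOf_dvd_iff_zpow_eq_one.1 (h1 l (hP l hl).1 (hP l hl).2 hne _
      (n2g2U_coe ((Nat.coprime_primes (hP l hl).1 hr).2 (hP l hl).2)))
  have hu' : u = n2g2U r l₀ :=
    Units.ext (hu.trans (n2g2U_coe ((Nat.coprime_primes hl₀ hr).2 hl₀r)).symm)
  rw [hu']
  exact orderOf_dvd_iff_zpow_eq_one.2 (hsingle ▸ hprod)

end prod

end Fermat.Agent.S55.G
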