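import Mathlib

/-!
# S55 G-N2G1: the auxiliary prime (Mathlib-only part)
-/

set_option autoImplicit false

namespace Fermat.Agent.S55.G

open Finset

/-- the group-theoretic half: a surjection of a finite cyclic group onto `ℤ/p^m` which preserves the order of
elements of order `p` -/
theorem N2GlobAux_theta (p : ℕ) [Fact p.Prime] (G : Type) [CommGroup G] [IsCyclic G] [Finite G] :
    ∃ (m : ℕ) (θ : G →* Multiplicative (ZMod (p ^ m))), Function.Surjective θ ∧
      ∀ u : G, orderOf u = p → orderOf (θ u) = p := by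
  have hp : p.Prime := Fact.out
  obtain ⟨m, t, hpt, hn⟩ := Nat.exists_eq_pow_mul_and_not_dvd (n := Nat.card G) Nat.card_pos.ne' p hp.ne_one
  have hcop : Nat.Coprime p t := (Nat.Prime.coprime_iff_not_dvd hp).2 hpt
  have ht0 : 0 < t := Nat.pos_of_ne_zero (by rintro rfl; exact hpt (dvd_zero _))
  have hgcd : (Nat.card G).gcd t = t := by
    rw [hn]; exact Nat.gcd_eq_right (Dvd.intro_left _ rfl)
  have hcard : Nat.card (powMonoidHom t : G →* G).range = Nat.card (Multiplicative (ZMod (p ^ m))) := by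
    rw [IsCyclic.card_powMonoidHom_range, hgcd, Nat.card_congr Multiplicative.toAdd, Nat.card_zmod, hn,
      Nat.mul_div_cancel _ ht0]
  refine ⟨m, (mulEquivOfCyclicCardEq hcard).toMonoidHom.comp (powMonoidHom t : G →* G).rangeRestrict, ?_, ?_⟩
  · exact (mulEquivOfCyclicCardEq hcard).surjective.comp (MonoidHom.rangeRestrict_surjective _)
  · intro u hu
    have h1 : orderOf (((mulEquivOfCyclicCardEq hcard).toMonoidHom.comp
        (powMonoidHom t : G →* G).rangeRestrict) u)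
        = orderOf ((powMonoidHom t : G →* G).rangeRestrict u) :=
      MulEquiv.orderOf_eq (mulEquivOfCyclicCardEq hcard) _
    rw [h1, ← Subgroup.orderOf_coe]
    have h2 : (((powMonoidHom t : G →* G).rangeRestrict u : (powMonoidHom t : G →* G).range) : G) = u ^ t := rfl
    rw [h2, Nat.Coprime.orderOf_pow (by rw [hu]; exact hcop), hu]

/-- `p² ∤ 1 + l + ⋯ + l^(p-1)` for odd `p` -/
theorem N2GlobAux_not_sq_dvd (p : ℕ) [Fact p.Prime] (hp2 : p ≠ 2) (l : ℕ) (hl : 2 ≤ l) :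
    ¬ p ^ 2 ∣ ∑ i ∈ range p, l ^ i := by
  have hp : p.Prime := Fact.out
  have hodd : Odd p := hp.odd_of_ne_two hp2
  have hgeom : (∑ i ∈ range p, l ^ i) * (l - 1) = l ^ p - 1 := geom_sum_mul_of_one_le (by omega) p
  have hM0 : (∑ i ∈ range p, l ^ i) ≠ 0 := by
    have : 0 < ∑ i ∈ range p, l ^ i :=
      Finset.sum_pos (fun i _ => pow_pos (by omega) i) ⟨0, Finset.mem_range.2 hp.pos⟩
    exact this.ne'
  have hl1 : l - 1 ≠ 0 := by omega
  by_cases h : p ∣ l - 1
  · have hpl : ¬ p ∣ l := by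
      intro h'
      have : p ∣ 1 := by
        have h3 := (Nat.dvd_sub h' h)
        have : l - (l - 1) = 1 := by omega
        rwa [this] at h3
      exact hp.one_lt.ne' (Nat.dvd_one.1 this)
    have hlte := padicValNat.pow_sub_pow (p := p) (x := l) (y := 1) hodd (by omega) h hpl (n := p) hp.ne_zero
    rw [one_pow, ← hgeom, padicValNat.mul hM0 hl1, padicValNat_self] at hlte
    rw [padicValNat_dvd_iff_le hM0]
    omega
  · intro hdvd
    have hpM : p ∣ ∑ i ∈ range p, l ^ i := Dvd.dvd.trans (Dvd.intro_left (p ^ 1) (by ring)) hdvd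
    have h1 : p ∣ l ^ p - 1 := hgeom ▸ Dvd.dvd.mul_right hpM _
    have h2 : ((l ^ p - 1 : ℕ) : ZMod p) = 0 := (ZMod.natCast_eq_zero_iff _ _).2 h1
    rw [Nat.cast_sub (Nat.one_le_pow _ _ (by omega)), Nat.cast_pow, ZMod.pow_card] at h2
    apply h
    rw [← ZMod.natCast_eq_zero_iff, Nat.cast_sub (by omega)]
    exact h2

/-- the arithmetic half: a prime `r ≠ p, l` such that `l` has order `p` modulo `r` -/
theorem N2GlobAux_prime (p : ℕ) [Fact p.Prime] (hp2 : p ≠ 2) (l : ℕ) (hl : 2 ≤ l) :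
    ∃ r : ℕ, r.Prime ∧ r ≠ p ∧ ¬ r ∣ l ∧ ((l : ZMod r) ^ p = 1) ∧ (l : ZMod r) ≠ 1 := by
  have hp : p.Prime := Fact.out
  set M := ∑ i ∈ range p, l ^ i with hM
  have hgeom : M * (l - 1) = l ^ p - 1 := geom_sum_mul_of_one_le (by omega) p
  have hM0 : M ≠ 0 := by
    have : 0 < ∑ i ∈ range p, l ^ i :=
      Finset.sum_pos (fun i _ => pow_pos (by omega) i) ⟨0, Finset.mem_range.2 hp.pos⟩
    exact this.ne'
  have hMp : p < M := by
    have h1 : ∑ i ∈ range p, 1 < ∑ i ∈ range p, l ^ i := by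
      apply Finset.sum_lt_sum
      · intro i _
        exact Nat.one_le_pow _ _ (by omega)
      · exact ⟨1, Finset.mem_range.2 hp.one_lt, by simpa using (by omega : 1 < l)⟩
    simpa using h1
  have hsq := N2GlobAux_not_sq_dvd p hp2 l hl
  obtain ⟨r, hr, hrM, hrp⟩ : ∃ r : ℕ, r.Prime ∧ r ∣ M ∧ r ≠ p := by
    by_contra hcon
    push Not at hcon
    have h1 := Nat.eq_prime_pow_of_unique_prime_dvd (n := M) (p := p) hM0 (fun {d} hd hdM => hcon d hd hdM)
    set k := M.primeFactorsList.length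
    have hk : 2 ≤ k := by
      by_contra hk
      have hk' : k ≤ 1 := by omega
      have : p ^ k ≤ p ^ 1 := Nat.pow_le_pow_right hp.pos hk'
      rw [pow_one] at this
      omega
    apply hsq
    change p ^ 2 ∣ M
    rw [h1]
    exact pow_dvd_pow p hk
  have : Fact r.Prime := ⟨hr⟩
  have hM0r : (M : ZMod r) = 0 := (ZMod.natCast_eq_zero_iff _ _).2 hrM
  refine ⟨r, hr, hrp, ?_, ?_, ?_⟩
  · intro hrl
    obtain ⟨q, rfl⟩ : ∃ q, p = q + 1 := ⟨p - 1, by have := hp.pos; omega⟩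
    have h1 : M = l * ∑ i ∈ range q, l ^ i + 1 := geom_sum_succ
    have h2 : r ∣ 1 := by
      have h3 : r ∣ l * ∑ i ∈ range q, l ^ i := Dvd.dvd.mul_right hrl _
      exact (Nat.dvd_add_right h3).1 (h1 ▸ hrM)
    exact hr.one_lt.ne' (Nat.dvd_one.1 h2)
  · have h1 : ((M * (l - 1) : ℕ) : ZMod r) = ((l ^ p - 1 : ℕ) : ZMod r) := by rw [hgeom]
    rw [Nat.cast_mul, hM0r, zero_mul, Nat.cast_sub (Nat.one_le_pow _ _ (by omega)), Nat.cast_pow, Nat.cast_one] at h1
    exact (sub_eq_zero.1 h1.symm)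
  · intro h1
    have h2 : (M : ZMod r) = (p : ZMod r) := by
      rw [hM, Nat.cast_sum]
      simp [h1]
    rw [hM0r] at h2
    have h3 : r ∣ p := (ZMod.natCast_eq_zero_iff _ _).1 h2.symm
    exact hrp ((Nat.prime_dvd_prime_iff_eq hr hp).1 h3)

/-- **G-N2G1**, raw form -/
theorem N2GlobAux_main (p : ℕ) [Fact p.Prime] (hp2 : p ≠ 2) (l₀ : ℕ) (hl₀ : l₀.Prime) :
    ∃ (r m : ℕ) (_ : Fact r.Prime) (θ : (ZMod r)ˣ →* Multiplicative (ZMod (p ^ m))),
      r ≠ p ∧ r ≠ l₀ ∧ Function.Surjective θ ∧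
        ∀ u : (ZMod r)ˣ, (u : ZMod r) = (l₀ : ZMod r) → orderOf (θ u) = p := by
  obtain ⟨r, hr, hrp, hrl, hpow, hne⟩ := N2GlobAux_prime p hp2 l₀ hl₀.two_le
  have : Fact r.Prime := ⟨hr⟩
  obtain ⟨m, θ, hsurj, hord⟩ := N2GlobAux_theta p (ZMod r)ˣ
  refine ⟨r, m, ⟨hr⟩, θ, hrp, ?_, hsurj, ?_⟩
  · rintro rfl
    exact hrl dvd_rfl
  · intro u hu
    apply hord
    apply orderOf_eq_prime
    · apply Units.ext
      rw [Units.val_pow_eq_pow_val, hu, hpow, Units.val_one]
    · intro h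
      apply hne
      rw [← hu, h, Units.val_one]

end Fermat.Agent.S55.G
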