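import Fermat.Agent.S55.G.N2Defs
import Fermat.Agent.S55.G.N2GlobAux
import Fermat.Agent.S55.G.N2G2Aux

/-!
# S55 G-N2G: elementary number theory for (N2): the auxiliary prime and the product formula
-/

set_option autoImplicit false

namespace Fermat.Agent.S55.G

open ExtCitation

local notation "Qbar" => AlgebraicClosure ℚ

variable {p : ℕ} [Fact p.Prime]

/-- **G-N2G1**: the auxiliary prime.  PROOF.  `M := Φ_p(l₀) = 1 + l₀ + ⋯ + l₀^(p-1) > p`.  `p² ∤ M` (if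
`l₀ ≡ 1` mod `p` then `M ≡ p` mod `p²` for `p` odd; otherwise `p ∤ M`: `l₀^p ≡ l₀ ≢ 1`), so `M` has a prime factor
`r ≠ p`.  `r ≠ l₀` as `M ≡ 1` mod `l₀`.  `l₀^p ≡ 1` mod `r` and `l₀ ≢ 1` mod `r` (else `M ≡ p ≢ 0`): `l₀` has order `p`
in `(ℤ/r)ˣ`.  `(ℤ/r)ˣ` is cyclic of order `r - 1 = p ^ m * t`, `p ∤ t`, `m ≥ 1`.  Let `γ` be a generator and
`θ (γ ^ i) := ofAdd (i : ZMod (p ^ m))` (`zmodCyclicMulEquiv`/`IsCyclic` API + `ZMod.castHom`); onto; its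
kernel has order `t` prime to `p`, so `θ` is injective on elements of `p`-power order:
`orderOf (θ u) = orderOf u = p`.
(Mathlib: `ZMod.isCyclic_units_prime`-type instance for `(ZMod r)ˣ`, `Nat.Prime` lemmas,
`orderOf_eq_prime`.) -/
theorem exists_isAux (hp2 : p ≠ 2) (l₀ : ℕ) (hl₀ : l₀.Prime) :
    ∃ (r m : ℕ) (_ : Fact r.Prime) (θ : (ZMod r)ˣ →* Multiplicative (ZMod (p ^ m))),
      IsAux p l₀ r m θ := by
  obtain ⟨r, m, hr, θ, h1, h2, h3, h4⟩ := N2GlobAux_main p hp2 l₀ hl₀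
  exact ⟨r, m, hr, θ, ⟨h1, h2, h3, h4⟩⟩

/-- `ordA` of a rational number is the `l`-adic valuation -/
theorem ordA_ratCast (l : Nat.Primes) (a₀ : ℚ) (ha₀ : a₀ ≠ 0) :
    ordA (primeLocalPlace l) l (algebraMap ℚ Qbar a₀) = padicValRat l a₀ := by
  have : Fact (l : ℕ).Prime := ⟨l.2⟩
  exact n2g2_ordA_ratCast l.2 (P.padicPlace_liesOverPrime (l : ℕ)) a₀ ha₀

/-- **G-N2G2**: the product formula for `θ`.  PROOF.  `a₀ = ± ∏_l l ^ (v_l a₀)`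
(`Nat.factorization_prod_pow_eq_self` for numerator and denominator).  Take
`N := ± ∏_{l ≠ r, v_l > 0} l ^ v_l`, `D := ∏_{l ≠ r, v_l < 0} l ^ (- v_l)`, `j := v_r a₀` in `h2`:
`θ (N) = θ (D)`.  `θ (-1) = 1` (its square is `1` in a group of odd order `p ^ m`).
`θ (l) ^ (v_l) = 1` for `l ≠ r, l₀` by `h1`.  So `θ (l₀) ^ (v_{l₀} a₀) = 1` (`orderOf_dvd_iff_zpow_eq_one`). -/
theorem prod_formula (hp2 : p ≠ 2) {r m : ℕ} [Fact r.Prime]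
    (θ : (ZMod r)ˣ →* Multiplicative (ZMod (p ^ m))) (a₀ : ℚ) (ha₀ : a₀ ≠ 0) (l₀ : ℕ)
    (hl₀ : l₀.Prime) (hl₀r : l₀ ≠ r)
    (h1 : ∀ l : ℕ, l.Prime → l ≠ r → l ≠ l₀ → ∀ u : (ZMod r)ˣ, (u : ZMod r) = (l : ZMod r) →
      (orderOf (θ u) : ℤ) ∣ padicValRat l a₀)
    (h2 : ∀ N D j : ℤ, ¬ (r : ℤ) ∣ N → ¬ (r : ℤ) ∣ D → a₀ = (r : ℚ) ^ j * (N / D) →
      ∀ uN uD : (ZMod r)ˣ, (uN : ZMod r) = (N : ZMod r) → (uD : ZMod r) = (D : ZMod r) →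
        θ uN = θ uD)
    (u : (ZMod r)ˣ) (hu : (u : ZMod r) = (l₀ : ZMod r)) :
    (orderOf (θ u) : ℤ) ∣ padicValRat l₀ a₀ :=
  n2g2_prod_formula hp2 θ a₀ ha₀ l₀ hl₀ hl₀r h1 h2 u hu

end Fermat.Agent.S55.G
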