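import Fermat.Agent.S55.G.N2TameAux

/-!
# S55 G-TAME: the norm group of the tamely ramified extension cut out by `θ ∘ cycloChar r` at `r`

`D := Dq rr` (`rr = r`), `A := primeLocalPlace rr`, `I` inertia, `χ := (psi θ).comp D.subtype`, `K := ker χ`.
-/

set_option autoImplicit false

namespace Fermat.Agent.S55.G

open ExtCitation Fermat.Agent.S55.L.C0

local notation "Qbar" => AlgebraicClosure ℚ
local notation "GQ" => (AlgebraicClosure ℚ ≃ₐ[ℚ] AlgebraicClosure ℚ)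

variable {r n : ℕ} [Fact r.Prime] [NeZero n]

/-- a nonzero rational number as an element of `Additive ℚ̄ˣ` -/
noncomputable def ratA (a₀ : ℚ) (h : a₀ ≠ 0) : Additive Qbarˣ :=
  Additive.ofMul (Units.mk0 (algebraMap ℚ Qbar a₀) (by simpa using h))

theorem unitsRep_ratA (a₀ : ℚ) (h : a₀ ≠ 0) (g : GQ) : unitsRep g (ratA a₀ h) = ratA a₀ h := by
  apply Additive.toMul.injective
  apply Units.ext
  rw [coe_toMul_unitsRep]
  exact g.commutes a₀

/-- `IsNormFrom` is stable under subtraction and integer multiples -/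
theorem IsNormFrom.sub' {G : Type} [Group G] {A : Type*} [AddCommGroup A]
    {ρ : Representation ℤ G A} {V : Subgroup G} [V.FiniteIndex] {a b : A}
    (ha : IsNormFrom ρ V a) (hb : IsNormFrom ρ V b) : IsNormFrom ρ V (a - b) := by
  obtain ⟨x, hx, rfl⟩ := ha
  obtain ⟨y, hy, rfl⟩ := hb
  refine ⟨x - y, fun v hv => by rw [map_sub, hx v hv, hy v hv], ?_⟩
  have := Fintype.ofFinite (G ⧸ V)
  simp only [finsum_eq_sum_of_fintype, map_sub, Finset.sum_sub_distrib]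

theorem IsNormFrom.zsmul' {G : Type} [Group G] {A : Type*} [AddCommGroup A]
    {ρ : Representation ℤ G A} {V : Subgroup G} [V.FiniteIndex] {a : A}
    (ha : IsNormFrom ρ V a) (j : ℤ) : IsNormFrom ρ V (j • a) := by
  obtain ⟨x, hx, rfl⟩ := ha
  refine ⟨j • x, fun v hv => by rw [map_zsmul, hx v hv], ?_⟩
  have := Fintype.ofFinite (G ⧸ V)
  simp only [finsum_eq_sum_of_fintype, map_zsmul, Finset.smul_sum]

theorem coe_toMul_sum {ι : Type*} (s : Finset ι) (x : ι → Additive Qbarˣ) :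
    ((Additive.toMul (∑ i ∈ s, x i) : Qbarˣ) : Qbar) =
      ∏ i ∈ s, ((Additive.toMul (x i) : Qbarˣ) : Qbar) := by
  rw [toMul_sum, Units.coe_prod]

theorem isNormFrom_prime (rr : Nat.Primes) (hrr : (rr : ℕ) = r)
    (θ : (ZMod r)ˣ →* Multiplicative (ZMod n)) :
    IsNormFrom (rhoAll (Dq rr)) ((psi θ).comp (Dq rr).subtype).ker
      (ratA (r : ℚ) (by exact_mod_cast (Fact.out : r.Prime).ne_zero)) := by
  classical
  have hr : r.Prime := Fact.out
  have : NeZero r := ⟨hr.ne_zero⟩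
  obtain ⟨ζ, hζ⟩ : ∃ ζ : Qbar, IsPrimitiveRoot ζ r :=
    HasEnoughRootsOfUnity.exists_primitiveRoot Qbar r
  have := Fintype.ofFinite ((ZMod r)ˣ ⧸ θ.ker)
  obtain ⟨rep, -, hrep, hbij⟩ := tame_exists_reps rr hrr θ
  set f : (ZMod r)ˣ → Qbar := fun u => 1 - ζ ^ (u : ZMod r).val with hf
  have hπ0 : ∏ u : θ.ker, f u ≠ 0 :=
    Finset.prod_ne_zero_iff.2 fun u _ => tame_one_sub_ne_zero hζ _
  have hg : ∀ g : GQ, g (∏ u : θ.ker, f u) = ∏ u : θ.ker, f (cycloChar r g * u) := by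
    intro g
    rw [map_prod]
    exact Finset.prod_congr rfl fun u _ => tame_apply_one_sub hζ g u
  have hb : ∀ v ∈ ((psi θ).comp (Dq rr).subtype).ker,
      rhoAll (Dq rr) v (Additive.ofMul (Units.mk0 _ hπ0)) = Additive.ofMul (Units.mk0 _ hπ0) := by
    intro v hv
    have hc : cycloChar r (v : GQ) ∈ θ.ker := hv
    apply Additive.toMul.injective
    apply Units.ext
    show (v : GQ) (∏ u : θ.ker, f u) = ∏ u : θ.ker, f u
    rw [hg]
    exact Fintype.prod_equiv (Equiv.mulLeft (⟨_, hc⟩ : θ.ker)) _ _ (fun _ => rfl)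
  refine ⟨Additive.ofMul (Units.mk0 _ hπ0), hb, ?_⟩
  rw [finsum_out_eq_sum rep hbij hb]
  apply Additive.toMul.injective
  apply Units.ext
  rw [coe_toMul_sum]
  show algebraMap ℚ Qbar (r : ℚ) = ∏ q, ((rep q : ↥(Dq rr)) : GQ) (∏ u : θ.ker, f u)
  simp only [hg, hrep]
  rw [tame_prod_quot θ.ker f, tame_prod_units hζ, map_natCast]

/-- **G-TAME2**: a rational `r`-unit which is a norm is killed by `θ`. -/
theorem theta_eq_of_isNormFrom (rr : Nat.Primes) (hrr : (rr : ℕ) = r)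
    (θ : (ZMod r)ˣ →* Multiplicative (ZMod n)) (N D : ℤ) (hN : ¬ (r : ℤ) ∣ N) (hD : ¬ (r : ℤ) ∣ D)
    (h0 : (N / D : ℚ) ≠ 0)
    (h : IsNormFrom (rhoAll (Dq rr)) ((psi θ).comp (Dq rr).subtype).ker (ratA (N / D : ℚ) h0))
    (uN uD : (ZMod r)ˣ) (huN : (uN : ZMod r) = (N : ZMod r)) (huD : (uD : ZMod r) = (D : ZMod r)) :
    θ uN = θ uD := by
  classical
  have hr : r.Prime := Fact.out
  have : NeZero r := ⟨hr.ne_zero⟩
  have := Fintype.ofFinite ((ZMod r)ˣ ⧸ θ.ker)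
  obtain ⟨rep, hrepI, hrep, hbij⟩ := tame_exists_reps rr hrr θ
  obtain ⟨b, hb, hsum⟩ := h
  rw [finsum_out_eq_sum rep hbij hb] at hsum
  have hDq : Dq rr = (primeLocalPlace rr).decompositionSubgroup ℚ :=
    P.decGrp_eq_decompositionSubgroup rr
  have hA : (primeLocalPlace rr).LiesOverPrime r := by
    subst hrr
    exact P.padicPlace_liesOverPrime _
  set β : Qbar := ((Additive.toMul b : Qbarˣ) : Qbar) with hβ
  have hD0 : (D : Qbar) ≠ 0 := by
    intro h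
    have : D = 0 := by exact_mod_cast h
    exact hD (this ▸ dvd_zero _)
  have hprod : (D : Qbar) * ∏ q, ((rep q : ↥(Dq rr)) : GQ) β = N := by
    have h1 := congrArg (fun x : Additive Qbarˣ => ((Additive.toMul x : Qbarˣ) : Qbar)) hsum
    simp only [coe_toMul_sum] at h1
    have h2 : algebraMap ℚ Qbar (N / D : ℚ) = ∏ q, ((rep q : ↥(Dq rr)) : GQ) β := h1
    rw [← h2, map_div₀, map_intCast, map_intCast]
    field_simp
  have hfix : ∀ d ∈ (primeLocalPlace rr).decompositionSubgroup ℚ,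
      ∃ i ∈ (primeLocalPlace rr).inertiaSubgroupIn ℚ, d β = i β := by
    intro d hd
    obtain ⟨i, hi, hic⟩ := inertia_cyclo_surjective rr hrr (cycloChar r d)
    refine ⟨i, hi, ?_⟩
    have hiD : i ∈ Dq rr := hDq ▸ P.inertiaSubgroupIn_le_decompositionSubgroup _ hi
    have hdD : d ∈ Dq rr := hDq ▸ hd
    have hk : (⟨i⁻¹ * d, mul_mem (inv_mem hiD) hdD⟩ : ↥(Dq rr)) ∈
        ((psi θ).comp (Dq rr).subtype).ker := by
      rw [MonoidHom.mem_ker]
      show θ (cycloChar r (i⁻¹ * d)) = 1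
      rw [map_mul, map_inv, hic, inv_mul_cancel, map_one]
    have h1 := congrArg (fun x : Additive Qbarˣ => ((Additive.toMul x : Qbarˣ) : Qbar)) (hb _ hk)
    have h2 : (i⁻¹ * d) β = β := h1
    have h3 : i ((i⁻¹ * d) β) = d β := by
      show i (i⁻¹ (d β)) = d β
      exact i.apply_symm_apply _
    rw [← h3, h2]
  obtain ⟨c, hc⟩ := tame_core _ hr hA (fun q => ((rep q : ↥(Dq rr)) : GQ)) hrepI hfix hN hD hprod
  have h1 : (N : ZMod r) = (D : ZMod r) * (c : ZMod r) ^ Fintype.card ((ZMod r)ˣ ⧸ θ.ker) := by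
    have := (ZMod.intCast_zmod_eq_zero_iff_dvd _ r).2 hc
    push_cast at this
    exact sub_eq_zero.1 this
  have hc0 : (c : ZMod r) ≠ 0 := by
    intro h0
    rw [h0, zero_pow Fintype.card_ne_zero, mul_zero, ZMod.intCast_zmod_eq_zero_iff_dvd] at h1
    exact hN h1
  have h2 : uN = uD * (Units.mk0 _ hc0) ^ Fintype.card ((ZMod r)ˣ ⧸ θ.ker) := by
    apply Units.ext
    push_cast
    rw [huN, huD, h1, Units.val_mk0]
  have h3 : (Units.mk0 _ hc0) ^ Fintype.card ((ZMod r)ˣ ⧸ θ.ker) ∈ θ.ker := by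
    rw [← QuotientGroup.eq_one_iff, QuotientGroup.mk_pow, pow_card_eq_one]
  rw [h2, map_mul, MonoidHom.mem_ker.1 h3, mul_one]

/-- **G-TAME3** (assembly): `cycH2_eq_zero_iff` gives `IsNormFrom .. (ratA a₀)`; subtract `j • ratA r`. -/
theorem theta_eq_of_cyc_mem_B2 (rr : Nat.Primes) (hrr : (rr : ℕ) = r)
    (θ : (ZMod r)ˣ →* Multiplicative (ZMod n)) (a₀ : ℚ) (ha₀ : a₀ ≠ 0)
    (h : cyc ((psi θ).comp (Dq rr).subtype) (ratA a₀ ha₀) ∈
      B2 (P.levAll.sub (Dq rr)) (rhoAll (Dq rr)))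
    (N D j : ℤ) (hN : ¬ (r : ℤ) ∣ N) (hD : ¬ (r : ℤ) ∣ D) (haND : a₀ = (r : ℚ) ^ j * (N / D))
    (uN uD : (ZMod r)ˣ) (huN : (uN : ZMod r) = (N : ZMod r)) (huD : (uD : ZMod r) = (D : ZMod r)) :
    θ uN = θ uD := by
  have hr : r.Prime := Fact.out
  have hχ : (P.levAll.sub (Dq rr)).IsOpen ((psi θ).comp (Dq rr).subtype).ker := by
    have h1 := (isOpen_ker_cyclo (r := r) (S' := {rr})
      ⟨rr, Finset.mem_singleton_self _, hrr⟩).comap (P.cont_decGrp {rr} rr)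
    refine h1.mono ?_
    intro d hd
    rw [MonoidHom.mem_ker]
    show θ (cycloChar r (d : GQ)) = 1
    rw [show cycloChar r (d : GQ) = 1 from hd, map_one]
  have hρ : IsDiscrete (P.levAll.sub (Dq rr)) (rhoAll (Dq rr)) :=
    unitsRep_isDiscrete.comp (P.levAll.cont_comap _)
  have hfi : ((psi θ).comp (Dq rr).subtype).ker.FiniteIndex := hχ.finiteIndex
  have hnorm : IsNormFrom (rhoAll (Dq rr)) ((psi θ).comp (Dq rr).subtype).ker (ratA a₀ ha₀) := by
    refine (cycH2_eq_zero_iff ((psi θ).comp (Dq rr).subtype) hρ hχ (h90_all (Dq rr).subtype _)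
      ⟨ratA a₀ ha₀, fun g => unitsRep_ratA a₀ ha₀ g⟩).1 ?_
    rw [cycH2_apply, H2π_eq_zero_iff]
    exact h
  have hN0 : (N : ℚ) ≠ 0 := by
    intro h
    have : N = 0 := by exact_mod_cast h
    exact hN (this ▸ dvd_zero _)
  have hD0 : (D : ℚ) ≠ 0 := by
    intro h
    have : D = 0 := by exact_mod_cast h
    exact hD (this ▸ dvd_zero _)
  have h0 : (N / D : ℚ) ≠ 0 := div_ne_zero hN0 hD0
  have hr0 : (r : ℚ) ≠ 0 := by exact_mod_cast hr.ne_zero
  have heq : ratA (N / D : ℚ) h0 = ratA a₀ ha₀ - j • ratA (r : ℚ) hr0 := by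
    apply Additive.toMul.injective
    apply Units.ext
    rw [toMul_sub, toMul_zsmul, Units.val_div_eq_div_val, Units.val_zpow_eq_zpow_val]
    show algebraMap ℚ Qbar (N / D) = algebraMap ℚ Qbar a₀ / (algebraMap ℚ Qbar r) ^ j
    rw [← map_zpow₀, ← map_div₀, haND]
    congr 1
    field_simp
  exact theta_eq_of_isNormFrom rr hrr θ N D hN hD h0
    (heq ▸ IsNormFrom.sub' hnorm (IsNormFrom.zsmul' (isNormFrom_prime rr hrr θ) j)) uN uD huN huD

end Fermat.Agent.S55.G
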