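import Fermat.Agent.S55.G.N2Tame
import Fermat.Agent.S55.L.C0.CycSurj

/-!
# S55 G-N2d/e: auxiliary forms of `splitOn_ker_psi`, `exists_rat_cyc` (`G/N2.lean`)

Everything is stated for a set `S'` containing `p` and `r`, with `LocTriv` as a hypothesis.
-/

set_option autoImplicit false

namespace Fermat.Agent.S55.G

open ExtCitation Fermat.Agent.S55.L.C0

local notation "Qbar" => AlgebraicClosure ℚ
local notation "GQ" => (AlgebraicClosure ℚ ≃ₐ[ℚ] AlgebraicClosure ℚ)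

variable {p : ℕ} [Fact p.Prime] {S' : Finset Nat.Primes}

theorem n2de_ker_cyclo_le_ker_psi {r n : ℕ} [Fact r.Prime]
    (θ : (ZMod r)ˣ →* Multiplicative (ZMod n)) : (cycloChar r).ker ≤ (psi θ).ker := by
  intro g hg
  rw [MonoidHom.mem_ker] at hg ⊢
  show θ (cycloChar r g) = 1
  rw [hg, map_one]

theorem n2de_isOpen_ker_psi {r n : ℕ} [Fact r.Prime] (hr : ∃ rr ∈ S', (rr : ℕ) = r)
    (θ : (ZMod r)ˣ →* Multiplicative (ZMod n)) : (P.levS S').IsOpen (psi θ).ker :=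
  (isOpen_ker_cyclo hr).mono (n2de_ker_cyclo_le_ker_psi θ)

theorem n2de_isOpen_ker_omega (hpS' : pPrime p ∈ S') : (P.levS S').IsOpen (cycloChar p).ker :=
  isOpen_ker_cyclo ⟨pPrime p, hpS', rfl⟩

/-- `[V : V ∩ ker ω]` divides `p - 1` -/
theorem n2de_coprime_relIndex (V : Subgroup GQ) :
    Nat.Coprime ((V ⊓ (cycloChar p).ker).relIndex V) p := by
  have hp : p.Prime := Fact.out
  rw [Subgroup.inf_relIndex_left]
  have h1 : (cycloChar p).ker.relIndex V ∣ (cycloChar p).ker.index :=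
    Subgroup.relIndex_dvd_index_of_normal _ _
  have h2 : (cycloChar p).ker.index ∣ p - 1 := by
    rw [Subgroup.index_ker, ← ZMod.card_units p, ← Nat.card_eq_fintype_card]
    exact Subgroup.card_subgroup_dvd_card _
  have h3 : Nat.Coprime (p - 1) p := by
    refine ((Nat.Prime.coprime_iff_not_dvd hp).2 fun h => ?_).symm
    have := Nat.le_of_dvd (by have := hp.two_le; omega) h
    have := hp.two_le
    omega
  exact Nat.Coprime.coprime_dvd_left (h1.trans h2) h3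

/-- **G-N2d**, auxiliary form -/
theorem n2de_splitOn_ker_psi (hp2 : p ≠ 2) (hpS' : pPrime p ∈ S') {r n : ℕ} [Fact r.Prime]
    (hr : ∃ rr ∈ S', (rr : ℕ) = r) {X : GQ × GQ → ZMod p} (hX : X ∈ Z2 (P.levS S') (muG p))
    (θ : (ZMod r)ˣ →* Multiplicative (ZMod n))
    (hloc : LocTriv S' ((psi θ).ker ⊓ (cycloChar p).ker) X) {z : KSx S'} (hz : IsZeta p z) :
    SplitOn (P.levS S') (unitsRepS S') (psi θ).ker (vz z X) := by
  have hU : (P.levS S').IsOpen ((psi θ).ker ⊓ (cycloChar p).ker) :=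
    (n2de_isOpen_ker_psi hr θ).inf (n2de_isOpen_ker_omega hpS')
  have hω : (psi θ).ker ⊓ (cycloChar p).ker ≤ (cycloChar p).ker := inf_le_right
  have h := hp_main hp2 hpS' hU hω ((mem_Z2_iff _ _ _).1 hX).1 (cocOn_triv_of_mem_Z2_mu hX hω)
    hloc hz
  refine splitOn_of_coprime_relIndex (smoothRep_isDiscrete _ _) (vz_mem_Z2_mu hX hz) (n := p)
    (fun t => ?_) hU inf_le_left (n2de_coprime_relIndex _) h
  rw [vz_apply, smul_comm, hp5_nsmul_zeta hz, smul_zero]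

/-- `ζ ∈ 𝕂_{S'}ˣ` -/
theorem n2de_zeta_mem_KSx (hpS' : pPrime p ∈ S') {ζ : Additive Qbarˣ}
    (hζ : IsPrimitiveRoot ((Additive.toMul ζ : Qbarˣ) : Qbar) p) : ζ ∈ KSx S' := by
  obtain ⟨V, hV, hVk⟩ := n2de_isOpen_ker_omega (p := p) hpS'
  refine ⟨V, hV, fun g hg => ?_⟩
  have : Fact (1 < p) := ⟨(Fact.out : p.Prime).one_lt⟩
  rw [n2_unitsRep_zeta hζ g, MonoidHom.mem_ker.1 (hVk hg), Units.val_one, ZMod.val_one, one_smul]

theorem n2de_h1VanishOn (V : Subgroup GQ) : H1VanishOn (P.levS S') (unitsRepS S') V := by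
  intro z hz hcoc
  obtain ⟨U, hU, h⟩ := hz
  exact h90_S S' (MonoidHom.id GQ) V z ⟨_, ⟨U, hU, rfl⟩, h⟩ hcoc

/-- a `GQ`-invariant element of `ℚ̄ˣ` is rational -/
theorem n2de_exists_ratA (a : Additive Qbarˣ) (ha : ∀ g, unitsRep g a = a) :
    ∃ (a₀ : ℚ) (ha₀ : a₀ ≠ 0), ratA a₀ ha₀ = a := by
  have : IsGalois ℚ Qbar := Fermat.Agent.Lib.FrobeniusExists.isGalois_algebraicClosure_rat
  have h1 : ((Additive.toMul a : Qbarˣ) : Qbar) ∈ (⊥ : IntermediateField ℚ Qbar) := by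
    rw [InfiniteGalois.mem_bot_iff_fixed]
    intro g
    exact (h90_unitsRep_eq_iff g a a).1 (ha g)
  obtain ⟨a₀, h2⟩ := IntermediateField.mem_bot.1 h1
  have ha₀ : a₀ ≠ 0 := by
    rintro rfl
    rw [map_zero] at h2
    exact (Units.ne_zero (Additive.toMul a)) h2.symm
  exact ⟨a₀, ha₀, Additive.toMul.injective (Units.ext h2)⟩

/-- **G-N2e**, auxiliary form -/
theorem n2de_exists_rat_cyc (hpS' : pPrime p ∈ S') {r n : ℕ} [Fact r.Prime] [NeZero n]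
    (hr : ∃ rr ∈ S', (rr : ℕ) = r) {X : GQ × GQ → ZMod p} (hX : X ∈ Z2 (P.levS S') (muG p))
    {θ : (ZMod r)ˣ →* Multiplicative (ZMod n)} (hθ : Function.Surjective θ)
    (hs : ∀ z : KSx S', IsZeta p z → SplitOn (P.levS S') (unitsRepS S') (psi θ).ker (vz z X))
    {ζ : Additive Qbarˣ} (hζ : IsPrimitiveRoot ((Additive.toMul ζ : Qbarˣ) : Qbar) p) :
    ∃ (a₀ : ℚ) (ha₀ : a₀ ≠ 0), vz ζ X - cyc (psi θ) (ratA a₀ ha₀) ∈ B2 P.levAll unitsRep := by
  set z : KSx S' := ⟨ζ, n2de_zeta_mem_KSx hpS' hζ⟩ with hzdef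
  have hz : IsZeta p z := hζ
  obtain ⟨rr, hrS, hrr⟩ := hr
  obtain ⟨u, hu⟩ := hθ (Multiplicative.ofAdd 1)
  obtain ⟨σ, -, hσ⟩ := inertia_cyclo_surjective rr hrr u
  have hσ' : psi θ σ = Multiplicative.ofAdd 1 := by
    show θ (cycloChar r σ) = _
    rw [hσ, hu]
  obtain ⟨a, ha, hxa⟩ := exists_cyc_of_splitOn (smoothRep_isDiscrete (P.levS S') unitsRep)
    (n2de_isOpen_ker_psi ⟨rr, hrS, hrr⟩ θ) (n2de_h1VanishOn _) hσ' ⟨vz z X, vz_mem_Z2_mu hX hz⟩ (hs z hz)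
  obtain ⟨a₀, ha₀, h0⟩ := n2de_exists_ratA (a : Additive Qbarˣ)
    (fun g => congrArg Subtype.val (ha g))
  refine ⟨a₀, ha₀, ?_⟩
  obtain ⟨y, hy, h⟩ := (mem_B2_iff _ _ _).1 hxa
  refine (mem_B2_iff _ _ _).2 ⟨fun g => (y g : Additive Qbarˣ),
    (hy.comp Subtype.val).precomp (P.cont_levAll_levS S'), fun g g' => ?_⟩
  rw [h0]
  exact congrArg Subtype.val (h g g')

end Fermat.Agent.S55.G
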