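import Fermat.Agent.S55.G.UR
import Fermat.Agent.S55.G.N2Tame
import Fermat.Agent.S55.G.N2Glob
import Fermat.Agent.S55.G.N2deAux

/-!
# S55 G-N2: the numerical input (N2) (`β_ℚ`), in the form of `LocSys.CoreNumbers.n2`

`X ∈ Z2 (P.levS S) (muG p)`, `l₀ ∈ S`; `X` splits on `Dq l` for all `l ∈ S`, `l ≠ l₀`.  Claim: it splits on
`Dq l₀`.   `r, m, θ` auxiliary (`IsAux p l₀ r m θ`), `ψ := psi θ`, `S' := insert r S`.
-/

set_option autoImplicit false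

namespace Fermat.Agent.S55.G

open ExtCitation Fermat.Agent.S55.L.C0

local notation "Qbar" => AlgebraicClosure ℚ
local notation "GQ" => (AlgebraicClosure ℚ ≃ₐ[ℚ] AlgebraicClosure ℚ)

variable {p : ℕ} [Fact p.Prime] {S : Finset Nat.Primes}

/-- the restriction of `ψ` to `D_l`, `l ≠ r`, is an unramified character
(`inertia_le_ker_cyclo`, `isOpen_ker_cyclo`) -/
theorem isUnrChar_psi {r n : ℕ} [Fact r.Prime] (θ : (ZMod r)ˣ →* Multiplicative (ZMod n))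
    (l : Nat.Primes) (hl : (l : ℕ) ≠ r) : IsUnrChar l ((psi θ).comp (Dq l).subtype) := by
  refine ⟨?_, fun i hi => ?_⟩
  · obtain ⟨U, ⟨F, hF, rfl⟩, hU⟩ := isOpen_ker_cyclo (r := r)
      (S' := {(⟨r, (Fact.out : r.Prime)⟩ : Nat.Primes)}) ⟨_, Finset.mem_singleton_self _, rfl⟩
    refine ⟨F.fixingSubgroup.comap (Dq l).subtype, ⟨_, ⟨F, hF.1, rfl⟩, rfl⟩, fun x hx => ?_⟩
    have h1 : cycloChar r (x : GQ) = 1 := hU hx
    show θ (cycloChar r (x : GQ)) = 1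
    rw [h1, map_one]
  · have h1 : cycloChar r (i : GQ) = 1 := inertia_le_ker_cyclo l hl hi
    show θ (cycloChar r (i : GQ)) = 1
    rw [h1, map_one]

/-- **G-N2a**: `X` splits at all primes `l ≠ l₀` (hypothesis for `l ∈ S`, `ur_split` for `l ∉ S`). -/
theorem good_of_ne (hpS : pPrime p ∈ S) {X : GQ × GQ → ZMod p} (hX : X ∈ Z2 (P.levS S) (muG p))
    (l₀ : Nat.Primes) (hyp : ∀ l ∈ S, l ≠ l₀ → SplitOn P.levAll (muG p) (Dq l) X)
    (l : Nat.Primes) (hl : l ≠ l₀) : SplitOn P.levAll (muG p) (Dq l) X := by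
  by_cases h : l ∈ S
  · exact hyp l h hl
  · exact ur_split hpS hX h

/-- **G-N2b**: at `l₀` the class dies on `D_{l₀} ∩ ker ψ`.  PROOF.  `χ := ψ|D` is an unramified character
(`isUnrChar_psi`), nontrivial (`exists_frob_cyclo` + `IsAux.ord`).  `Y := rs D (vz ζ X)` is a `p`-torsion cocycle:
`splitOn_ker_of_torsion`; go back to the ambient group (`splitOn_subgroupOf_iff`-type glue for the
non-open subgroup `D`: use `splitOn_iff_rs_mem_B2` twice, or extend the cochain by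
`exists_extend_of_subgroup`); `splitOn_mu_of_splitOn_units`. -/
theorem splitOn_l₀_inf_ker {X : GQ × GQ → ZMod p} (hX : X ∈ Z2 (P.levS S) (muG p))
    (l₀ : Nat.Primes) {r m : ℕ} [Fact r.Prime] {θ : (ZMod r)ˣ →* Multiplicative (ZMod (p ^ m))}
    (hθ : IsAux p l₀ r m θ) : SplitOn P.levAll (muG p) (Dq l₀ ⊓ (psi θ).ker) X := by
  have hp : p.Prime := Fact.out
  have hl : (l₀ : ℕ) ≠ r := hθ.ne_l.symm
  have hχ := isUnrChar_psi θ l₀ hl
  -- `χ` is nontrivial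
  have hne : ∃ τ, ((psi θ).comp (Dq l₀).subtype) τ ≠ 1 := by
    obtain ⟨d, hd, hdl⟩ := exists_frob_cyclo (r := r) l₀ hl
    refine ⟨⟨d, hd⟩, fun h1 => ?_⟩
    have h2 : θ (cycloChar r d) = 1 := h1
    have h3 := hθ.ord (cycloChar r d) hdl
    rw [h2, orderOf_one] at h3
    exact hp.one_lt.ne h3
  -- a primitive `p`-th root of unity
  obtain ⟨ζ₀, hζ₀⟩ : ∃ ζ : Qbar, IsPrimitiveRoot ζ p :=
    HasEnoughRootsOfUnity.exists_primitiveRoot Qbar p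
  set ζ : Additive Qbarˣ := Additive.ofMul (Units.mk0 ζ₀ (hζ₀.ne_zero hp.ne_zero)) with hζdef
  have hζ : IsPrimitiveRoot ((Additive.toMul ζ : Qbarˣ) : Qbar) p := hζ₀
  have hpζ : p • ζ = 0 := by
    have h2 : (Additive.toMul ζ) ^ p = 1 := Units.ext (by simpa using hζ.pow_eq_one)
    exact congrArg Additive.ofMul h2
  -- the restricted cocycle
  have hZ : vz ζ X ∈ Z2 P.levAll unitsRep := vz_mem_Z2_mu_all (mem_Z2_levAll hX) hζ
  have hY : rs (Dq l₀) (vz ζ X) ∈ Z2 (P.levAll.sub (Dq l₀)) (rhoAll (Dq l₀)) := by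
    rw [mem_Z2_iff] at hZ ⊢
    exact ⟨hZ.1.precomp (P.levAll.cont_comap (Dq l₀).subtype), fun g h j => hZ.2 g h j⟩
  obtain ⟨y, hy, hxy⟩ := splitOn_ker_of_torsion l₀ hχ hne ⟨_, hY⟩ (fun t => by
    show p • ((X (Prod.map (Dq l₀).subtype (Dq l₀).subtype t)).val • ζ) = 0
    rw [smul_comm, hpζ, smul_zero])
  obtain ⟨y', hy', hyy⟩ := exists_extend_of_subgroup P.levAll (Dq l₀) y hy
  refine splitOn_mu_of_splitOn_units _ hζ ⟨y', hy', fun u hu u' hu' => ?_⟩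
  have h1 := hxy ⟨u, hu.1⟩ hu.2 ⟨u', hu'.1⟩ hu'.2
  have h2 := hyy ⟨u, hu.1⟩
  have h3 := hyy ⟨u', hu'.1⟩
  have h4 := hyy (⟨u, hu.1⟩ * ⟨u', hu'.1⟩)
  simp only [Subgroup.coe_mul] at h2 h3 h4
  rw [h2, h3, h4]
  exact h1

/-- **G-N2c**: `LocTriv` for `S' = insert r S` and `U = ker ψ ⊓ ker ω`.  PROOF.  `U` is normal in `GQ`, so
`U ⊓ conjSub (Dq q) g = conjSub (U ⊓ Dq q) g`; by `splitOn_conjSub` (`mem_Z2_levAll`) it suffices to split on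
`U ⊓ Dq q`: `SplitOn.mono` from `good_of_ne` (`q ≠ l₀`) or `splitOn_l₀_inf_ker` (`q = l₀`);
`splitOn_mu_iff_triv`. -/
theorem locTriv_insert (hpS : pPrime p ∈ S) {X : GQ × GQ → ZMod p}
    (hX : X ∈ Z2 (P.levS S) (muG p)) (l₀ : Nat.Primes)
    (hyp : ∀ l ∈ S, l ≠ l₀ → SplitOn P.levAll (muG p) (Dq l) X)
    {r m : ℕ} [hr : Fact r.Prime] {θ : (ZMod r)ˣ →* Multiplicative (ZMod (p ^ m))}
    (hθ : IsAux p l₀ r m θ) :
    LocTriv (insert (⟨r, hr.out⟩ : Nat.Primes) S) ((psi θ).ker ⊓ (cycloChar p).ker) X := by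
  intro q _ g
  have hloc : SplitOn P.levAll (muG p) (((psi θ).ker ⊓ (cycloChar p).ker) ⊓ Dq q) X := by
    by_cases hq : q = l₀
    · subst hq
      exact (splitOn_l₀_inf_ker hX q hθ).mono
        (le_inf inf_le_right (inf_le_left.trans inf_le_left))
    · exact (good_of_ne hpS hX l₀ hyp q hq).mono inf_le_right
  have hconj := splitOn_conjSub (mem_Z2_levAll hX) _ g hloc
  refine (splitOn_mu_iff_triv (inf_le_left.trans inf_le_right) X).1 (hconj.mono fun x hx => ?_)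
  rw [mem_conjSub]
  refine ⟨⟨?_, ?_⟩, mem_conjSub.1 hx.2⟩
  · have h1 : psi θ x = 1 := hx.1.1
    show psi θ (g⁻¹ * x * g) = 1
    rw [map_mul, map_mul, h1, map_inv, mul_one, inv_mul_cancel]
  · have h1 : cycloChar p x = 1 := hx.1.2
    show cycloChar p (g⁻¹ * x * g) = 1
    rw [map_mul, map_mul, h1, map_inv, mul_one, inv_mul_cancel]

/-- **G-N2d**: `ζ ^ X` splits on `ker ψ` in `𝕂_{S'}ˣ`.  PROOF.  `hp_main` for `S'`, `U = ker ψ ⊓ ker ω` (open: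
`isOpen_ker_cyclo` for `r` and for `p`, `IsOpen.inf`, `ker (cycloChar r) ≤ ker ψ`), `mem_Z2_levS_mono`,
`cocOn_triv_of_mem_Z2_mu`, `locTriv_insert`.  Then `splitOn_of_coprime_relIndex` with `n = p`:
`[ker ψ : U]` divides `|(ℤ/p)ˣ| = p - 1`. -/
theorem splitOn_ker_psi (hp2 : p ≠ 2) (hpS : pPrime p ∈ S) {X : GQ × GQ → ZMod p}
    (hX : X ∈ Z2 (P.levS S) (muG p)) (l₀ : Nat.Primes)
    (hyp : ∀ l ∈ S, l ≠ l₀ → SplitOn P.levAll (muG p) (Dq l) X)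
    {r m : ℕ} [hr : Fact r.Prime] {θ : (ZMod r)ˣ →* Multiplicative (ZMod (p ^ m))}
    (hθ : IsAux p l₀ r m θ) {z : KSx (insert (⟨r, hr.out⟩ : Nat.Primes) S)} (hz : IsZeta p z) :
    SplitOn (P.levS (insert (⟨r, hr.out⟩ : Nat.Primes) S))
      (unitsRepS (insert (⟨r, hr.out⟩ : Nat.Primes) S)) (psi θ).ker (vz z X) :=
  n2de_splitOn_ker_psi hp2 (Finset.mem_insert_of_mem hpS) ⟨_, Finset.mem_insert_self _ _, rfl⟩
    (mem_Z2_levS_mono (Finset.subset_insert _ _) hX) θ (locTriv_insert hpS hX l₀ hyp hθ) hz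

/-- **G-N2e**: `ζ ^ X ∼ cyc ψ a₀`, `a₀ ∈ ℚˣ`, as all-level cochains with values in `ℚ̄ˣ`.  PROOF.
`exists_cyc_of_splitOn` on the ambient group `GQ` with `L = P.levS S'`, `ρ = unitsRepS S'`
(`smoothRep_isDiscrete`, `h90_S S' (MonoidHom.id GQ) _` up to `Lev.comap id`, `σ` with `ψ σ = ofAdd 1`: `ψ` is
onto since `θ` and `cycloChar r` are onto).  `a` is fixed by `GQ`, so `toQ a ∈ ℚ`
(`IsGalois.mem_bot_iff_fixed`/`fixedField_top`).  Coerce to `Additive ℚ̄ˣ`, all levels. -/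
theorem exists_rat_cyc (hp2 : p ≠ 2) (hpS : pPrime p ∈ S) {X : GQ × GQ → ZMod p}
    (hX : X ∈ Z2 (P.levS S) (muG p)) (l₀ : Nat.Primes)
    (hyp : ∀ l ∈ S, l ≠ l₀ → SplitOn P.levAll (muG p) (Dq l) X)
    {r m : ℕ} [Fact r.Prime] {θ : (ZMod r)ˣ →* Multiplicative (ZMod (p ^ m))}
    (hθ : IsAux p l₀ r m θ) {ζ : Additive Qbarˣ}
    (hζ : IsPrimitiveRoot ((Additive.toMul ζ : Qbarˣ) : Qbar) p) :
    ∃ (a₀ : ℚ) (ha₀ : a₀ ≠ 0), vz ζ X - cyc (psi θ) (ratA a₀ ha₀) ∈ B2 P.levAll unitsRep :=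
  n2de_exists_rat_cyc (S' := insert (⟨r, Fact.out⟩ : Nat.Primes) S) (Finset.mem_insert_of_mem hpS)
    ⟨_, Finset.mem_insert_self _ _, rfl⟩ (mem_Z2_levS_mono (Finset.subset_insert _ _) hX) hθ.surj
    (fun _ hz => splitOn_ker_psi hp2 hpS hX l₀ hyp hθ hz) hζ

/-- **G-N2f**: `X` splits on `D_l` ⇔ `cyc (ψ|D_l) a₀` is a coboundary.  (`splitOn_iff_rs_mem_B2`,
`splitOn_units_of_splitOn_mu`, `splitOn_mu_of_splitOn_units`, `cyc_comp`.) -/
theorem splitOn_iff_cyc_mem_B2 {X : GQ × GQ → ZMod p} {n : ℕ} [NeZero n]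
    (ψ : GQ →* Multiplicative (ZMod n)) {ζ : Additive Qbarˣ}
    (hζ : IsPrimitiveRoot ((Additive.toMul ζ : Qbarˣ) : Qbar) p) {a : Additive Qbarˣ}
    (h : vz ζ X - cyc ψ a ∈ B2 P.levAll unitsRep) (l : Nat.Primes) :
    SplitOn P.levAll (muG p) (Dq l) X ↔
      cyc (ψ.comp (Dq l).subtype) a ∈ B2 (P.levAll.sub (Dq l)) (rhoAll (Dq l)) := by
  have h1 : SplitOn P.levAll unitsRep (Dq l) (vz ζ X - cyc ψ a) := splitOn_of_mem_B2 _ h
  have h2 : SplitOn P.levAll unitsRep (Dq l) (cyc ψ a) ↔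
      cyc (ψ.comp (Dq l).subtype) a ∈ B2 (P.levAll.sub (Dq l)) (rhoAll (Dq l)) :=
    splitOn_iff_rs_mem_B2 P.levAll unitsRep (Dq l) (cyc ψ a)
  rw [← h2]
  constructor
  · intro hs
    have h3 := (splitOn_units_of_splitOn_mu (Dq l) hζ hs).sub h1
    simpa using h3
  · intro hs
    have h3 := h1.add hs
    exact splitOn_mu_of_splitOn_units (Dq l) hζ (by simpa using h3)

omit [Fact p.Prime] in
/-- the index of the kernel of `ψ|D_{l₀}` is `p` -/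
theorem n2_index_ker (l₀ : Nat.Primes) {r m : ℕ} [Fact r.Prime]
    {θ : (ZMod r)ˣ →* Multiplicative (ZMod (p ^ m))} (hθ : IsAux p l₀ r m θ) :
    ((psi θ).comp (Dq l₀).subtype).ker.index = p := by
  obtain ⟨d₀, hd₀, hdl₀⟩ := exists_frob_cyclo (r := r) l₀ hθ.ne_l.symm
  have hrange : ((psi θ).comp (Dq l₀).subtype).range = Subgroup.zpowers (θ (cycloChar r d₀)) := by
    apply le_antisymm
    · rintro _ ⟨d, rfl⟩
      obtain ⟨k, hk⟩ := cyclo_mem_powers (r := r) l₀ hθ.ne_l.symm d.1 d.2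
      have hu : cycloChar r d.1 = (cycloChar r d₀) ^ k := by
        apply Units.ext
        rw [hk, Units.val_pow_eq_pow_val, hdl₀]
      refine ⟨(k : ℤ), ?_⟩
      show (θ (cycloChar r d₀)) ^ (k : ℤ) = θ (cycloChar r d.1)
      rw [hu, map_pow, zpow_natCast]
    · rw [Subgroup.zpowers_le]
      exact ⟨⟨d₀, hd₀⟩, rfl⟩
  rw [Subgroup.index_ker, hrange, Nat.card_zpowers, hθ.ord _ hdl₀]

/-- **G-N2g** (core).  PROOF.  `exists_isAux`, `exists_rat_cyc`.  For `l ≠ r, l₀`: `good_of_ne`,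
`splitOn_iff_cyc_mem_B2`, `orderOf_dvd_ord_of_cyc_mem_B2` with `τ` from `exists_frob_cyclo`, `ordA_ratCast`:
hypothesis `h1` of `prod_formula`.  For `l = r`: `theta_eq_of_cyc_mem_B2`: hypothesis `h2`.
So `p = orderOf (θ l₀) ∣ v_{l₀} a₀`.  `χ := ψ|D_{l₀}` has `χ.ker.index = |range χ| = p`
(`exists_frob_cyclo`, `cyclo_mem_powers`: the range is generated by `θ l₀`).
`cyc_mem_B2_of_dvd_ord`, `splitOn_iff_cyc_mem_B2`. -/
theorem n2_core (hp2 : p ≠ 2) (hpS : pPrime p ∈ S) {X : GQ × GQ → ZMod p}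
    (hX : X ∈ Z2 (P.levS S) (muG p)) (l₀ : Nat.Primes)
    (hyp : ∀ l ∈ S, l ≠ l₀ → SplitOn P.levAll (muG p) (Dq l) X) :
    SplitOn P.levAll (muG p) (Dq l₀) X := by
  have hp : p.Prime := Fact.out
  obtain ⟨r, m, hr, θ, hθ⟩ := exists_isAux (p := p) hp2 l₀ l₀.2
  obtain ⟨ζ', hζ'⟩ := L.c3_exists_primitiveRoot p
  have hζ : IsPrimitiveRoot ((Additive.toMul (Additive.ofMul ζ') : Qbarˣ) : Qbar) p :=
    IsPrimitiveRoot.coe_units_iff.2 hζ'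
  obtain ⟨a₀, ha₀, hB⟩ := exists_rat_cyc hp2 hpS hX l₀ hyp hθ hζ
  have : NeZero (p ^ m) := ⟨pow_ne_zero _ hp.ne_zero⟩
  have hgood : ∀ l : Nat.Primes, l ≠ l₀ → cyc ((psi θ).comp (Dq l).subtype) (ratA a₀ ha₀) ∈
      B2 (P.levAll.sub (Dq l)) (rhoAll (Dq l)) := fun l hl =>
    (splitOn_iff_cyc_mem_B2 (psi θ) hζ hB l).1 (good_of_ne hpS hX l₀ hyp l hl)
  have hfix : ∀ (l : Nat.Primes), ∀ g ∈ Dq l, unitsRep g (ratA a₀ ha₀) = ratA a₀ ha₀ :=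
    fun _ g _ => unitsRep_ratA a₀ ha₀ g
  have hordA : ∀ l : Nat.Primes,
      ordA (primeLocalPlace l) l ((Additive.toMul (ratA a₀ ha₀) : Qbarˣ) : Qbar)
        = padicValRat l a₀ := fun l => ordA_ratCast l a₀ ha₀
  have h1 : ∀ l : ℕ, l.Prime → l ≠ r → l ≠ l₀ → ∀ u : (ZMod r)ˣ, (u : ZMod r) = (l : ZMod r) →
      (orderOf (θ u) : ℤ) ∣ padicValRat l a₀ := by
    intro l hl hlr hll u hu
    obtain ⟨d, hd, hdl⟩ := exists_frob_cyclo (r := r) (⟨l, hl⟩ : Nat.Primes) hlr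
    have hne : (⟨l, hl⟩ : Nat.Primes) ≠ l₀ := fun h => hll (congrArg Subtype.val h)
    have h3 := orderOf_dvd_ord_of_cyc_mem_B2 (⟨l, hl⟩ : Nat.Primes)
      (isUnrChar_psi θ (⟨l, hl⟩ : Nat.Primes) hlr) (hfix _) (hgood _ hne) ⟨d, hd⟩
    have h5 := hordA (⟨l, hl⟩ : Nat.Primes)
    rw [h5] at h3
    have hud : cycloChar r d = u := Units.ext (hdl.trans hu.symm)
    have h4 : ((psi θ).comp (Dq (⟨l, hl⟩ : Nat.Primes)).subtype) ⟨d, hd⟩ = θ u := by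
      show θ (cycloChar r d) = θ u
      rw [hud]
    rw [h4] at h3
    exact h3
  have hrne : (⟨r, hr.out⟩ : Nat.Primes) ≠ l₀ := fun h => hθ.ne_l (congrArg Subtype.val h)
  have h2 : ∀ N D j : ℤ, ¬ (r : ℤ) ∣ N → ¬ (r : ℤ) ∣ D → a₀ = (r : ℚ) ^ j * (N / D) →
      ∀ uN uD : (ZMod r)ˣ, (uN : ZMod r) = (N : ZMod r) → (uD : ZMod r) = (D : ZMod r) →
        θ uN = θ uD := fun N D j hN hD haND uN uD huN huD =>
    theta_eq_of_cyc_mem_B2 (⟨r, hr.out⟩ : Nat.Primes) rfl θ a₀ ha₀ (hgood _ hrne) N D j hN hD haND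
      uN uD huN huD
  obtain ⟨d₀, hd₀, hdl₀⟩ := exists_frob_cyclo (r := r) l₀ hθ.ne_l.symm
  have hord := prod_formula hp2 θ a₀ ha₀ l₀ l₀.2 hθ.ne_l.symm h1 h2 (cycloChar r d₀) hdl₀
  rw [hθ.ord _ hdl₀] at hord
  refine (splitOn_iff_cyc_mem_B2 (psi θ) hζ hB l₀).2
    (cyc_mem_B2_of_dvd_ord l₀ (isUnrChar_psi θ l₀ hθ.ne_l.symm) (n2_index_ker l₀ hθ) (hfix _) ?_)
  rw [hordA]
  exact hord

theorem n2_res_eq_zero_iff (X : ↥(Z2 (P.levS S) (muG p))) (l : Nat.Primes)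
    (hc : Lev.Cont (P.levAll.sub (Dq l)) (P.levS S) (Dq l).subtype) :
    (PairHom.res (muG p) (Dq l).subtype hc).H2map (H2π (P.levS S) (muG p) X) = 0 ↔
      SplitOn P.levAll (muG p) (Dq l) (X : GQ × GQ → ZMod p) := by
  rw [PairHom.H2map_mk, H2π_eq_zero_iff, splitOn_iff_rs_mem_B2]
  rfl

/-- **G-N2h**: field `n2` of `CoreNumbers` (`H2_induction`, `PairHom.H2map` on `H2π`, `H2π_eq_zero_iff`,
`splitOn_iff_rs_mem_B2`). -/
theorem n2 (hp2 : p ≠ 2) (hpS : pPrime p ∈ S) (x : H2 (locSys S).L (F.mu (cycloChar p)))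
    (v : (locSys S).ι)
    (h : ∀ w, w ≠ v → (PairHom.res (F.mu (cycloChar p)) ((locSys S).Dv w).subtype
      ((locSys S).cont_subtype _)).H2map x = 0) :
    (PairHom.res (F.mu (cycloChar p)) ((locSys S).Dv v).subtype
      ((locSys S).cont_subtype _)).H2map x = 0 := by
  induction x using H2_induction with
  | h X =>
    have hv : ∀ w : ↥S, (PairHom.res (F.mu (cycloChar p)) ((locSys S).Dv w).subtype
        ((locSys S).cont_subtype _)).H2map (H2π (locSys S).L (F.mu (cycloChar p)) X) = 0 ↔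
        SplitOn P.levAll (muG p) (Dq w.1) (X : GQ × GQ → ZMod p) := fun w =>
      n2_res_eq_zero_iff X w.1 _
    refine (hv v).2 ?_
    refine n2_core hp2 hpS X.2 v.1 fun l hl hne => ?_
    exact (hv ⟨l, hl⟩).1 (h ⟨l, hl⟩ fun h' => hne (congrArg Subtype.val h'))

end Fermat.Agent.S55.G
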