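/-
S55, block G, (N3), group theory (helper76).

* `ndc U D` : number of double cosets `U \ G / D`; bounds.
* `chain_relIndex` : the `ℤ_p`-tower attached to a character `χ : G →* ℤ_[p]ˣ`.
-/
import Mathlib

set_option autoImplicit false

namespace Fermat.Agent.S55.G

open DoubleCoset

section DC

variable {G : Type*} [Group G]

/-- number of double cosets `U \ G / D` -/
noncomputable def ndc (U D : Subgroup G) : ℕ := Nat.card (DoubleCoset.Quotient (U : Set G) D)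

theorem finite_dc (U D : Subgroup G) [U.FiniteIndex] :
    Finite (DoubleCoset.Quotient (U : Set G) D) := by
  refine Finite.of_surjective (fun t : G ⧸ U => DoubleCoset.mk U D (t.out)⁻¹) ?_
  intro x
  obtain ⟨g, rfl⟩ := Quotient.exists_rep x
  obtain ⟨u, hu⟩ := QuotientGroup.mk_out_eq_mul U g⁻¹
  refine ⟨(g⁻¹ : G), ?_⟩
  change DoubleCoset.mk U D _ = DoubleCoset.mk U D g
  rw [DoubleCoset.eq]
  refine ⟨u, u.2, 1, D.one_mem, ?_⟩
  rw [hu]; group

theorem ndc_le_relIndex_mul (W V D : Subgroup G) (hWV : W ≤ V) [W.FiniteIndex] :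
    ndc W D ≤ W.relIndex V * ndc V D := by
  have hV : V.FiniteIndex := Subgroup.finiteIndex_of_le hWV
  have := finite_dc V D
  have h1 : Function.Surjective (fun x : (V ⧸ W.subgroupOf V) × DoubleCoset.Quotient (V : Set G) D =>
      DoubleCoset.mk W D (((x.1.out : V) : G)⁻¹ * x.2.out)) := by
    intro y
    obtain ⟨g, rfl⟩ := Quotient.exists_rep y
    obtain ⟨v, d, hv, hd, hx⟩ := DoubleCoset.mk_out_eq_mul V D g
    obtain ⟨w, hw⟩ := QuotientGroup.mk_out_eq_mul (W.subgroupOf V) (⟨v, hv⟩ : V)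
    refine ⟨(((⟨v, hv⟩ : V) : V ⧸ W.subgroupOf V), DoubleCoset.mk V D g), ?_⟩
    change DoubleCoset.mk W D _ = DoubleCoset.mk W D g
    rw [DoubleCoset.eq]
    refine ⟨((w : V) : G), Subgroup.mem_subgroupOf.1 w.2, d⁻¹, D.inv_mem hd, ?_⟩
    simp only [hx, hw]
    push_cast
    group
  have h2 := Nat.card_le_card_of_surjective _ h1
  rw [Nat.card_prod] at h2
  exact h2

theorem ndc_ker_le {A : Type*} [Group A] [Finite A] (χ : G →* A) (D : Subgroup G) :
    ndc χ.ker D ≤ (D.map χ).index := by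
  let f : DoubleCoset.Quotient (χ.ker : Set G) D → A ⧸ (D.map χ) :=
    Quotient.lift (fun g => ((χ g : A) : A ⧸ (D.map χ))) (by
      intro a b hab
      obtain ⟨v, hv, d, hd, rfl⟩ := DoubleCoset.rel_iff.1 hab
      rw [QuotientGroup.eq]
      refine ⟨d, hd, ?_⟩
      rw [map_mul, map_mul, MonoidHom.mem_ker.1 hv]; group)
  have hf : Function.Injective f := by
    intro x y hxy
    obtain ⟨a, rfl⟩ := Quotient.exists_rep x
    obtain ⟨b, rfl⟩ := Quotient.exists_rep y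
    have h1 : ((χ a : A) : A ⧸ (D.map χ)) = ((χ b : A) : A ⧸ (D.map χ)) := hxy
    rw [QuotientGroup.eq] at h1
    obtain ⟨d, hd, hd'⟩ := h1
    change DoubleCoset.mk χ.ker D a = DoubleCoset.mk χ.ker D b
    rw [DoubleCoset.eq]
    refine ⟨b * (a * d)⁻¹, ?_, d, hd, by group⟩
    rw [MonoidHom.mem_ker, map_mul, map_inv, map_mul, hd']; group
  exact Nat.card_le_card_of_injective f hf

theorem ndc_inf_ker_le {A : Type*} [Group A] [Finite A] (χ : G →* A) (U D : Subgroup G)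
    [U.FiniteIndex] : ndc (U ⊓ χ.ker) D ≤ U.index * (D.map χ).index := by
  have hK : χ.ker.FiniteIndex := ⟨by
    rw [Subgroup.index_ker]; exact Nat.card_pos.ne'⟩
  have h1 := ndc_le_relIndex_mul (U ⊓ χ.ker) χ.ker D inf_le_right
  rw [Subgroup.inf_relIndex_right] at h1
  have h2 : U.relIndex χ.ker ≤ U.index := by
    have h3 := Subgroup.relIndex_le_of_le_right (H := U) (le_top : χ.ker ≤ ⊤)
      (by rw [Subgroup.relIndex_top_right]; exact Subgroup.FiniteIndex.index_ne_zero)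
    rwa [Subgroup.relIndex_top_right] at h3
  exact h1.trans (Nat.mul_le_mul h2 (ndc_ker_le χ D))

end DC

section Chain

variable {G : Type*} [Group G] {p : ℕ} [Fact p.Prime] (χ : G →* ℤ_[p]ˣ)

/-- `χ mod p ^ m` -/
noncomputable def chiMod (m : ℕ) : G →* (ZMod (p ^ m))ˣ :=
  (Units.map (PadicInt.toZModPow m).toMonoidHom).comp χ

@[simp] lemma chiMod_coe (m : ℕ) (g : G) :
    ((chiMod χ m g : (ZMod (p ^ m))ˣ) : ZMod (p ^ m)) = PadicInt.toZModPow m (χ g : ℤ_[p]) := rfl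

lemma mem_ker_chiMod_iff (m : ℕ) (g : G) :
    g ∈ (chiMod χ m).ker ↔ (p : ℤ_[p]) ^ m ∣ (χ g : ℤ_[p]) - 1 := by
  rw [MonoidHom.mem_ker, ← Ideal.mem_span_singleton, ← PadicInt.ker_toZModPow, RingHom.mem_ker,
    map_sub, map_one, sub_eq_zero, Units.ext_iff, chiMod_coe, Units.val_one]

lemma ker_chiMod_anti {m n : ℕ} (h : m ≤ n) : (chiMod χ n).ker ≤ (chiMod χ m).ker := by
  intro g hg
  rw [mem_ker_chiMod_iff] at hg ⊢
  exact (pow_dvd_pow _ h).trans hg

lemma unitsMap_chiMod {m n : ℕ} (h : m ≤ n) (g : G) :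
    ZMod.unitsMap (pow_dvd_pow p h) (chiMod χ n g) = chiMod χ m g := by
  apply Units.ext
  rw [chiMod_coe, ← PadicInt.zmod_cast_comp_toZModPow m n h]
  rfl

lemma card_ker_unitsMap (n : ℕ) (hn : 1 ≤ n) :
    Nat.card (ZMod.unitsMap (pow_dvd_pow p (Nat.le_add_right n 1))).ker = p := by
  have hp : p.Prime := Fact.out
  have : NeZero (p ^ n) := ⟨pow_ne_zero _ hp.ne_zero⟩
  have : NeZero (p ^ (n + 1)) := ⟨pow_ne_zero _ hp.ne_zero⟩
  set f := ZMod.unitsMap (pow_dvd_pow p (Nat.le_add_right n 1)) with hf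
  have hsurj : Function.Surjective f := ZMod.unitsMap_surjective _
  have hc : ∀ (N : ℕ) [NeZero N], Nat.card (ZMod N)ˣ = N.totient := by
    intro N _
    rw [Nat.card_eq_fintype_card, ZMod.card_units_eq_totient]
  have h1 := Subgroup.card_mul_index f.ker
  rw [Subgroup.index_ker, MonoidHom.range_eq_top.2 hsurj, Nat.card_congr
    (Subgroup.topEquiv (G := (ZMod (p ^ n))ˣ)).toEquiv, hc, hc,
    Nat.totient_prime_pow_succ hp] at h1
  obtain ⟨k, rfl⟩ : ∃ k, n = k + 1 := ⟨n - 1, by omega⟩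
  rw [Nat.totient_prime_pow_succ hp] at h1
  have hpos : 0 < p ^ k * (p - 1) := Nat.mul_pos (pow_pos hp.pos _) (by have := hp.two_le; omega)
  have h2 : Nat.card f.ker * (p ^ k * (p - 1)) = p * (p ^ k * (p - 1)) := by
    rw [h1, pow_succ]; ring
  exact Nat.eq_of_mul_eq_mul_right hpos h2

theorem chain_relIndex (hp2 : p ≠ 2) (U : Subgroup G) (a : ℕ) (ha : 1 ≤ a)
    (hUa : U ≤ (chiMod χ a).ker) (hUa' : ¬ U ≤ (chiMod χ (a + 1)).ker) (i : ℕ) :
    (U ⊓ (chiMod χ (a + (i + 1))).ker).relIndex (U ⊓ (chiMod χ (a + i)).ker) = p := by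
  have hp : p.Prime := Fact.out
  have hodd : Odd p := hp.odd_of_ne_two hp2
  rw [← add_assoc]
  set A := U ⊓ (chiMod χ (a + i)).ker with hA
  set f := chiMod χ (a + i + 1) with hf
  have hle : f.ker ≤ (chiMod χ (a + i)).ker := ker_chiMod_anti χ (by omega)
  have h1 : U ⊓ f.ker = A ⊓ f.ker := by
    rw [hA, inf_assoc, inf_eq_right.2 hle]
  rw [h1, Subgroup.inf_relIndex_left, Subgroup.relIndex_ker]
  have hK : A.map f ≤ (ZMod.unitsMap (pow_dvd_pow p (Nat.le_add_right (a + i) 1))).ker := by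
    rintro _ ⟨g, hg, rfl⟩
    rw [MonoidHom.mem_ker]
    exact (unitsMap_chiMod χ (Nat.le_add_right (a + i) 1) g).trans (MonoidHom.mem_ker.1 hg.2)
  have hdvd := Subgroup.card_dvd_of_le hK
  rw [card_ker_unitsMap (a + i) (by omega)] at hdvd
  rcases (Nat.dvd_prime hp).1 hdvd with h | h
  · exfalso
    have hbot := Subgroup.eq_bot_of_card_eq _ h
    obtain ⟨u, hu, hu'⟩ := SetLike.not_le_iff_exists.1 hUa'
    have hua := (mem_ker_chiMod_iff χ a u).1 (hUa hu)
    rw [mem_ker_chiMod_iff] at hu'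
    have hem : emultiplicity (p : ℤ_[p]) ((χ u : ℤ_[p]) - 1) = a := emultiplicity_eq_coe.2 ⟨hua, hu'⟩
    have hpd : (p : ℤ_[p]) ∣ (χ u : ℤ_[p]) - 1 := (dvd_pow_self _ (by omega)).trans hua
    have hnd : ¬ (p : ℤ_[p]) ∣ (χ u : ℤ_[p]) := fun hd =>
      PadicInt.prime_p.not_isUnit (isUnit_of_dvd_unit hd (χ u).isUnit)
    have hlte := emultiplicity_pow_prime_pow_sub_pow_prime_pow (R := ℤ_[p]) PadicInt.prime_p hodd
      hpd hnd i
    rw [one_pow, hem] at hlte
    have hlte' : emultiplicity (p : ℤ_[p]) ((χ u : ℤ_[p]) ^ p ^ i - 1) = ((a + i : ℕ) : ℕ∞) := by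
      rw [hlte]; push_cast; rfl
    obtain ⟨h3, h4⟩ := emultiplicity_eq_coe.1 hlte'
    have hmemA : u ^ p ^ i ∈ A := by
      refine ⟨U.pow_mem hu _, ?_⟩
      change u ^ p ^ i ∈ (chiMod χ (a + i)).ker
      rw [mem_ker_chiMod_iff, map_pow, Units.val_pow_eq_pow_val]
      exact h3
    have h5 : f (u ^ p ^ i) ∈ A.map f := ⟨_, hmemA, rfl⟩
    rw [hbot, Subgroup.mem_bot, ← MonoidHom.mem_ker, hf, mem_ker_chiMod_iff, map_pow,
      Units.val_pow_eq_pow_val] at h5
    exact h4 h5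
  · exact h

theorem chain_normal (U : Subgroup G) (m n : ℕ) :
    ((U ⊓ (chiMod χ n).ker).subgroupOf (U ⊓ (chiMod χ m).ker)).Normal := by
  have h : (U ⊓ (chiMod χ n).ker).subgroupOf (U ⊓ (chiMod χ m).ker)
      = ((chiMod χ n).ker).subgroupOf (U ⊓ (chiMod χ m).ker) := by
    ext x
    simp only [Subgroup.mem_subgroupOf, Subgroup.mem_inf]
    exact ⟨fun h => h.2, fun h => ⟨x.2.1, h⟩⟩
  rw [h]
  exact Subgroup.normal_subgroupOf

/-- the maximal `a` with `U ≤ ker (χ mod p ^ a)` -/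
theorem exists_max_level (U : Subgroup G) (h1 : U ≤ (chiMod χ 1).ker)
    (h2 : ∃ m, ¬ U ≤ (chiMod χ m).ker) :
    ∃ a, 1 ≤ a ∧ U ≤ (chiMod χ a).ker ∧ ¬ U ≤ (chiMod χ (a + 1)).ker := by
  classical
  obtain ⟨m, hm⟩ := h2
  by_contra hcon
  push Not at hcon
  have : ∀ a, 1 ≤ a → U ≤ (chiMod χ a).ker := by
    intro a ha
    induction a, ha using Nat.le_induction with
    | base => exact h1
    | succ n hn ih => exact hcon n hn ih
  rcases Nat.eq_zero_or_pos m with rfl | hpos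
  · exact hm ((this 1 le_rfl).trans (ker_chiMod_anti χ (Nat.zero_le 1)))
  · exact hm (this m hpos)

end Chain

section Index

variable {p : ℕ} [Fact p.Prime]

lemma dvd_sub_one_of_natCast_pow_eq_one {N q t : ℕ} (hq : 0 < q) (h : ((q : ZMod N)) ^ t = 1) :
    N ∣ q ^ t - 1 := by
  have h1 : ((q ^ t : ℕ) : ZMod N) = ((1 : ℕ) : ZMod N) := by push_cast; exact h
  rw [ZMod.natCast_eq_natCast_iff] at h1
  exact (Nat.modEq_iff_dvd' (Nat.one_le_pow _ _ hq)).1 h1.symm

/-- the subgroup generated by an integer `q ≥ 2` prime to `p` has bounded index in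
`(ℤ / p ^ m)ˣ`. -/
theorem index_le_of_natCast_mem (hp2 : p ≠ 2) {q : ℕ} (hq : 2 ≤ q) (hqp : ¬ p ∣ q) (m : ℕ)
    (H : Subgroup (ZMod (p ^ m))ˣ) (x : (ZMod (p ^ m))ˣ) (hx : x ∈ H)
    (hxq : (x : ZMod (p ^ m)) = q) : H.index ≤ p ^ padicValNat p (q ^ (p - 1) - 1) := by
  have hp : p.Prime := Fact.out
  have hodd : Odd p := hp.odd_of_ne_two hp2
  have : NeZero (p ^ m) := ⟨pow_ne_zero _ hp.ne_zero⟩
  set b := padicValNat p (q ^ (p - 1) - 1) with hb
  set t := orderOf x with ht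
  have ht0 : t ≠ 0 := (orderOf_pos x).ne'
  have h1 : H.index ≤ (Subgroup.zpowers x).index :=
    Nat.le_of_dvd (Nat.pos_of_ne_zero Subgroup.FiniteIndex.index_ne_zero)
      (Subgroup.index_dvd_of_le ((Subgroup.zpowers_le).2 hx))
  have h2 : t * (Subgroup.zpowers x).index ≤ p ^ m := by
    have h3 := Subgroup.card_mul_index (Subgroup.zpowers x)
    rw [Nat.card_zpowers, Nat.card_eq_fintype_card, ZMod.card_units_eq_totient] at h3
    rw [ht, h3]; exact Nat.totient_le _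
  -- `p ^ m ∣ q ^ t - 1`
  have h4 : p ^ m ∣ q ^ t - 1 := by
    apply dvd_sub_one_of_natCast_pow_eq_one (by omega)
    rw [← hxq, ← Units.val_pow_eq_pow_val, ht, pow_orderOf_eq_one, Units.val_one]
  have h5 : p ^ m ∣ (q ^ (p - 1)) ^ t - 1 ^ t := by
    rw [one_pow, ← pow_mul, mul_comm, pow_mul]
    exact h4.trans (Nat.sub_one_dvd_pow_sub_one _ _)
  have hp1 : 0 < p - 1 := by have := hp.two_le; omega
  have hlt : 1 < q ^ (p - 1) := Nat.one_lt_pow hp1.ne' (by omega)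
  have hfermat : p ∣ q ^ (p - 1) - 1 := by
    apply dvd_sub_one_of_natCast_pow_eq_one (by omega)
    exact ZMod.pow_card_sub_one_eq_one (fun h0 => hqp ((ZMod.natCast_eq_zero_iff q p).1 h0))
  have hlte := padicValNat.pow_sub_pow hodd hlt hfermat (fun h0 => hqp (hp.dvd_of_dvd_pow h0)) ht0
  have hne : (q ^ (p - 1)) ^ t - 1 ^ t ≠ 0 := by
    rw [one_pow]
    have : 1 < (q ^ (p - 1)) ^ t := Nat.one_lt_pow ht0 hlt
    omega
  have h6 : m ≤ b + padicValNat p t := by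
    rw [hb, ← hlte]; exact (padicValNat_dvd_iff_le hne).1 h5
  have h7 : p ^ (m - b) ≤ t := by
    refine Nat.le_of_dvd (Nat.pos_of_ne_zero ht0) ((pow_dvd_pow p ?_).trans pow_padicValNat_dvd)
    omega
  refine h1.trans ?_
  rcases le_total m b with hmb | hmb
  · calc (Subgroup.zpowers x).index ≤ t * (Subgroup.zpowers x).index :=
          Nat.le_mul_of_pos_left _ (Nat.pos_of_ne_zero ht0)
      _ ≤ p ^ m := h2
      _ ≤ p ^ b := Nat.pow_le_pow_right hp.pos hmb
  · have h8 : p ^ (m - b) * (Subgroup.zpowers x).index ≤ p ^ (m - b) * p ^ b := by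
      rw [← pow_add, Nat.sub_add_cancel hmb]
      exact (Nat.mul_le_mul_right _ h7).trans h2
    exact Nat.le_of_mul_le_mul_left h8 (pow_pos hp.pos _)

end Index

end Fermat.Agent.S55.G
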