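/-
S55, block G, (N3), local part (helper76).

* `exists_frob_root`  : for `q ∤ n` there is `σ ∈ Gal(PadicAlgCl q / ℚ_q)` with `σ μ = μ ^ q` for a
  primitive `n`-th root of unity `μ` (hence for all `n`-th roots of unity).
* `exists_aut_root_pow` : for every `k` prime to `p` there is `σ ∈ Gal(PadicAlgCl p / ℚ_p)` with
  `σ μ = μ ^ k`, `μ` a primitive `p ^ m`-th root of unity (`Φ_{p^m}` is Eisenstein over `ℤ_p`).
-/
import Mathlib

set_option autoImplicit false

namespace Fermat.Agent.S55.G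

open Polynomial

section Frob

variable {q : ℕ} [Fact q.Prime]

/-- Mathlib's `IsPrimitiveRoot.minpoly_eq_pow` transplanted from `ℤ` to `ℤ_[q]`. -/
theorem minpoly_padicInt_eq_pow {K : Type*} [Field K] [Algebra ℤ_[q] K]
    [Module.IsTorsionFree ℤ_[q] K] {n : ℕ} {μ : K} (h : IsPrimitiveRoot μ n) (hdiv : ¬ q ∣ n) :
    minpoly ℤ_[q] μ = minpoly ℤ_[q] (μ ^ q) := by
  have hq : q.Prime := Fact.out
  have hn : n ≠ 0 := by rintro rfl; exact hdiv (dvd_zero q)
  have hpos := Nat.pos_of_ne_zero hn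
  have hint : ∀ {ν : K}, IsPrimitiveRoot ν n → IsIntegral ℤ_[q] ν := fun {ν} hν =>
    ⟨X ^ n - 1, monic_X_pow_sub_C 1 hn, by simp [hν.pow_eq_one]⟩
  have hdvd1 : ∀ {ν : K}, IsPrimitiveRoot ν n → minpoly ℤ_[q] ν ∣ X ^ n - 1 := fun {ν} hν =>
    minpoly.isIntegrallyClosed_dvd (hint hν) (by simp [hν.pow_eq_one])
  have h' : IsPrimitiveRoot (μ ^ q) n := h.pow_of_prime hq hdiv
  set φ : ℤ_[q] →+* ZMod q := PadicInt.toZMod with hφ
  by_contra hdiff
  set P := minpoly ℤ_[q] μ with hP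
  set Q := minpoly ℤ_[q] (μ ^ q) with hQ
  have Pmonic : P.Monic := minpoly.monic (hint h)
  have Qmonic : Q.Monic := minpoly.monic (hint h')
  have Pirr : Irreducible P := minpoly.irreducible (hint h)
  have Qirr : Irreducible Q := minpoly.irreducible (hint h')
  have hfree : Squarefree (X ^ n - 1 : (ZMod q)[X]) :=
    (separable_X_pow_sub_C 1 (fun h0 => hdiv <| (ZMod.natCast_eq_zero_iff n q).1 h0)
        one_ne_zero).squarefree
  have hmapX : map φ (X ^ n - 1 : ℤ_[q][X]) = X ^ n - 1 := by simp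
  -- `P ∣ Q(X^q)`
  have hexp : P ∣ expand ℤ_[q] q Q := by
    refine minpoly.isIntegrallyClosed_dvd (hint h) ?_
    rw [aeval_def, coe_expand, ← comp, eval₂_eq_eval_map, map_comp, Polynomial.map_pow, map_X,
      eval_comp, eval_X_pow, ← eval₂_eq_eval_map, ← aeval_def]
    exact minpoly.aeval _ _
  have hpow : map φ P ∣ map φ Q ^ q := by
    have hfrob : map φ Q ^ q = map φ (expand ℤ_[q] q Q) := by
      rw [← ZMod.expand_card, map_expand]
    rw [hfrob]
    exact _root_.map_dvd (mapRingHom φ) hexp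
  have hPfree : Squarefree (map φ P) :=
    hfree.squarefree_of_dvd (hmapX ▸ _root_.map_dvd (mapRingHom φ) (hdvd1 h))
  have hmod : map φ P ∣ map φ Q := hPfree.isRadical _ _ hpow
  -- `P * Q ∣ X ^ n - 1`
  have prod : P * Q ∣ X ^ n - 1 := by
    obtain ⟨c, hc⟩ := hdvd1 h'
    have hPprime : Prime P := Pirr.prime
    have h1 : P ∣ Q * c := hc ▸ hdvd1 h
    rcases hPprime.dvd_or_dvd h1 with h2 | h2
    · exact absurd (eq_of_monic_of_associated Pmonic Qmonic
        (associated_of_dvd_dvd h2 (Pirr.dvd_symm Qirr h2))) hdiff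
    · obtain ⟨d, rfl⟩ := h2
      exact ⟨d, by rw [hc]; ring⟩
  replace prod := _root_.map_dvd (mapRingHom φ) prod
  rw [coe_mapRingHom, hmapX, Polynomial.map_mul] at prod
  obtain ⟨R, hR⟩ := hmod
  have hsq : map φ P * map φ P ∣ X ^ n - 1 := by
    refine dvd_trans ?_ prod
    rw [hR, ← mul_assoc]
    exact Dvd.intro _ rfl
  have hunit := hfree _ hsq
  replace hunit := degree_eq_zero_of_isUnit hunit
  rw [Pmonic.degree_map] at hunit
  exact (minpoly.degree_pos (hint h)).ne' hunit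

instance instTorsionFreePadicAlgCl : Module.IsTorsionFree ℤ_[q] (PadicAlgCl q) := by
  have hinj : Function.Injective (algebraMap ℤ_[q] (PadicAlgCl q)) := by
    rw [IsScalarTower.algebraMap_eq ℤ_[q] ℚ_[q] (PadicAlgCl q)]
    exact (algebraMap ℚ_[q] (PadicAlgCl q)).injective.comp (IsFractionRing.injective _ _)
  exact (faithfulSMul_iff_algebraMap_injective _ _).2 hinj |>.to_isTorsionFree

/-- Frobenius on roots of unity of order prime to `q`. -/
theorem exists_frob_root {n : ℕ} {μ : PadicAlgCl q} (h : IsPrimitiveRoot μ n) (hdiv : ¬ q ∣ n) :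
    ∃ σ : PadicAlgCl q ≃ₐ[ℚ_[q]] PadicAlgCl q, σ μ = μ ^ q := by
  have hq : q.Prime := Fact.out
  have hn : n ≠ 0 := by rintro rfl; exact hdiv (dvd_zero q)
  have hint : ∀ {ν : PadicAlgCl q}, IsPrimitiveRoot ν n → IsIntegral ℤ_[q] ν := fun {ν} hν =>
    ⟨X ^ n - 1, monic_X_pow_sub_C 1 hn, by simp [hν.pow_eq_one]⟩
  have h1 : IsConjRoot ℚ_[q] (μ ^ q) μ := by
    rw [isConjRoot_def, minpoly.isIntegrallyClosed_eq_field_fractions' ℚ_[q] (hint h),
      minpoly.isIntegrallyClosed_eq_field_fractions' ℚ_[q] (hint (h.pow_of_prime hq hdiv)),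
      minpoly_padicInt_eq_pow h hdiv]
  exact h1.exists_algEquiv

end Frob

section Eis

variable {p : ℕ} [Fact p.Prime]

theorem irreducible_cyclotomic_padicInt (m : ℕ) : Irreducible (cyclotomic (p ^ (m + 1)) ℤ_[p]) := by
  have hp : p.Prime := Fact.out
  have hprime : Prime (p : ℤ_[p]) := PadicInt.prime_p
  set f : ℤ_[p][X] := (cyclotomic (p ^ (m + 1)) ℤ_[p]).comp (X + 1) with hf
  have hmap : f = ((cyclotomic (p ^ (m + 1)) ℤ).comp (X + 1)).map (Int.castRingHom ℤ_[p]) := by
    rw [hf, map_comp, map_cyclotomic]; simp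
  have hmonic : f.Monic := by
    rw [hf]
    have : (X + 1 : ℤ_[p][X]) = X + C 1 := by simp
    rw [this]
    exact (cyclotomic.monic _ _).comp_X_add_C 1
  have hE := cyclotomic_prime_pow_comp_X_add_one_isEisensteinAt p m
  have hideal : Ideal.map (Int.castRingHom ℤ_[p]) (Submodule.span ℤ {(p : ℤ)} : Ideal ℤ)
      = Ideal.span {(p : ℤ_[p])} := by
    rw [← Ideal.span, Ideal.map_span]; simp
  have hEis : f.IsEisensteinAt (Ideal.span {(p : ℤ_[p])}) := by
    refine ⟨?_, ?_, ?_⟩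
    · rw [hmonic.leadingCoeff, Ideal.mem_span_singleton]
      exact fun h => hprime.not_isUnit (isUnit_of_dvd_one h)
    · intro n hn
      have h1 := (hE.isWeaklyEisensteinAt.map (Int.castRingHom ℤ_[p])).mem (n := n)
      rw [← hmap, hideal] at h1
      exact h1 hn
    · have h0 : f.coeff 0 = p := by
        rw [coeff_zero_eq_eval_zero, hf, eval_comp]
        simp [eval_one_cyclotomic_prime_pow]
      rw [h0, Ideal.span_singleton_pow, Ideal.mem_span_singleton, sq]
      intro h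
      have h2 : (p : ℤ_[p]) * p ∣ p * 1 := by simpa using h
      exact hprime.not_isUnit (isUnit_of_dvd_one ((mul_dvd_mul_iff_left hprime.ne_zero).1 h2))
  have hirr : Irreducible f := by
    refine hEis.irreducible ((Ideal.span_singleton_prime hprime.ne_zero).2 hprime)
      hmonic.isPrimitive ?_
    rw [hf]
    have : (X + 1 : ℤ_[p][X]) = X + C 1 := by simp
    rw [this, natDegree_comp, natDegree_X_add_C, mul_one, natDegree_cyclotomic]
    exact Nat.totient_pos.2 (pow_pos hp.pos _)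
  have h3 : f = algEquivAevalXAddC (1 : ℤ_[p]) (cyclotomic (p ^ (m + 1)) ℤ_[p]) := by
    rw [hf, algEquivAevalXAddC_apply]
    simp [aeval_def, eval₂_eq_eval_map, comp]
  rw [h3] at hirr
  exact (MulEquiv.irreducible_iff (algEquivAevalXAddC (1 : ℤ_[p])).toMulEquiv).1 hirr

theorem irreducible_cyclotomic_padic (m : ℕ) : Irreducible (cyclotomic (p ^ m) ℚ_[p]) := by
  rcases m with _ | m
  · simpa using irreducible_X_sub_C (1 : ℚ_[p])
  · have h := (Monic.irreducible_iff_irreducible_map_fraction_map (K := ℚ_[p])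
      (cyclotomic.monic (p ^ (m + 1)) ℤ_[p])).1 (irreducible_cyclotomic_padicInt m)
    rwa [map_cyclotomic] at h

/-- all primitive `p ^ m`-th roots of unity are conjugate over `ℚ_p`. -/
theorem exists_aut_root {m : ℕ} {μ ν : PadicAlgCl p} (h : IsPrimitiveRoot μ (p ^ m))
    (h' : IsPrimitiveRoot ν (p ^ m)) :
    ∃ σ : PadicAlgCl p ≃ₐ[ℚ_[p]] PadicAlgCl p, σ μ = ν := by
  have hp : p.Prime := Fact.out
  have : NeZero (p ^ m) := ⟨pow_ne_zero _ hp.ne_zero⟩
  have h1 : IsConjRoot ℚ_[p] ν μ := by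
    rw [isConjRoot_def, ← h.minpoly_eq_cyclotomic_of_irreducible (irreducible_cyclotomic_padic m),
      ← h'.minpoly_eq_cyclotomic_of_irreducible (irreducible_cyclotomic_padic m)]
  exact h1.exists_algEquiv

end Eis

end Fermat.Agent.S55.G
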