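/-
S55, block G, (N3), the cyclotomic character of `G_ℚ` (helper76).
-/
import Mathlib
import Fermat.Prelude.Def_GroupCohomology_ContinuousUnramified
import Fermat.Agent.S55.G.N3Local
import Fermat.Agent.S55.G.N3Group

set_option autoImplicit false

namespace Fermat.Agent.S55.G

open ExtCitation ValuationSubring Polynomial

local notation "Qbar" => AlgebraicClosure ℚ
local notation "GQ" => (AlgebraicClosure ℚ ≃ₐ[ℚ] AlgebraicClosure ℚ)

/-! ### Open subgroups for the `S`-levels -/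

/-- `U` contains the fixing subgroup of a number field unramified outside `S`. -/
def IsOpenS (S : Finset Nat.Primes) (U : Subgroup GQ) : Prop :=
  ∃ F : IntermediateField ℚ Qbar, F.IsUnramifiedOutside S ∧ F.fixingSubgroup ≤ U

theorem IsOpenS.mono {S : Finset Nat.Primes} {U V : Subgroup GQ} (h : IsOpenS S U) (hUV : U ≤ V) :
    IsOpenS S V := by
  obtain ⟨F, hF, hFU⟩ := h
  exact ⟨F, hF, hFU.trans hUV⟩

theorem IsOpenS.inf {S : Finset Nat.Primes} {U V : Subgroup GQ} (hU : IsOpenS S U)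
    (hV : IsOpenS S V) : IsOpenS S (U ⊓ V) := by
  obtain ⟨F, hF, hFU⟩ := hU
  obtain ⟨F', hF', hFV⟩ := hV
  refine ⟨F ⊔ F', hF.sup hF', ?_⟩
  rw [IntermediateField.fixingSubgroup_sup]
  exact inf_le_inf hFU hFV

theorem finiteIndex_fixingSubgroup (F : IntermediateField ℚ Qbar) [FiniteDimensional ℚ F] :
    F.fixingSubgroup.FiniteIndex := by
  let f : GQ ⧸ F.fixingSubgroup → (F →ₐ[ℚ] Qbar) :=
    Quotient.lift (fun g : GQ => (g : Qbar →ₐ[ℚ] Qbar).comp F.val) (by
      intro a b hab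
      have h1 : a⁻¹ * b ∈ F.fixingSubgroup := QuotientGroup.leftRel_apply.1 hab
      ext x
      have h2 := (IntermediateField.mem_fixingSubgroup_iff F _).1 h1 x x.2
      change a (x : Qbar) = b (x : Qbar)
      have h3 : a ((a⁻¹ * b) (x : Qbar)) = b (x : Qbar) := by
        rw [AlgEquiv.mul_apply]
        exact AlgEquiv.apply_symm_apply a _
      rw [← h3, h2])
  have hf : Function.Injective f := by
    intro x y hxy
    obtain ⟨a, rfl⟩ := Quotient.exists_rep x
    obtain ⟨b, rfl⟩ := Quotient.exists_rep y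
    apply Quotient.sound
    change QuotientGroup.leftRel _ a b
    rw [QuotientGroup.leftRel_apply, IntermediateField.mem_fixingSubgroup_iff]
    intro z hz
    have h1 : a z = b z := congrArg (fun φ : F →ₐ[ℚ] Qbar => φ ⟨z, hz⟩) hxy
    rw [AlgEquiv.mul_apply, ← h1]
    exact AlgEquiv.symm_apply_apply a z
  have : Finite (GQ ⧸ F.fixingSubgroup) := Finite.of_injective f hf
  exact Subgroup.finiteIndex_of_finite_quotient

theorem IsOpenS.finiteIndex {S : Finset Nat.Primes} {U : Subgroup GQ} (h : IsOpenS S U) :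
    U.FiniteIndex := by
  obtain ⟨F, hF, hFU⟩ := h
  have := hF.1
  have := finiteIndex_fixingSubgroup F
  exact Subgroup.finiteIndex_of_le hFU

/-! ### Inertia acts trivially on roots of unity of order prime to the residue characteristic -/

theorem n3_inertia_spec (A : ValuationSubring Qbar) (σ : GQ)
    (hσ : σ ∈ A.inertiaSubgroupIn ℚ) (a : Qbar) (ha : a ∈ A) :
    ∃ h : σ a ∈ A, IsLocalRing.residue A ⟨σ a, h⟩ = IsLocalRing.residue A ⟨a, ha⟩ := by
  obtain ⟨τ, hτ, rfl⟩ := hσ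
  have hmem : (τ : GQ) a ∈ A := ((A.subMulAction ℚ).smul_mem τ ha)
  refine ⟨hmem, ?_⟩
  have h1 : MulSemiringAction.toRingAut (A.decompositionSubgroup ℚ)
      (IsLocalRing.ResidueField A) τ = 1 := hτ
  have h2 := congrArg (fun f => f (IsLocalRing.residue A ⟨a, ha⟩)) h1
  simp only [RingAut.one_apply] at h2
  exact h2

theorem n3_mem_of_pow_eq_one (A : ValuationSubring Qbar) {ζ : Qbar} {n : ℕ} (hn : n ≠ 0)
    (hζ : ζ ^ n = 1) : ζ ∈ A := by
  have h1 : IsIntegral A ζ := ⟨X ^ n - 1, monic_X_pow_sub_C 1 hn, by simp [hζ]⟩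
  obtain ⟨y, hy⟩ := (IsIntegrallyClosed.isIntegral_iff (R := A) (K := Qbar)).1 h1
  rw [← hy]; exact y.2

theorem inertia_fixes_root (A : ValuationSubring Qbar) {q N : ℕ} (hq : q.Prime)
    (hA : A.LiesOverPrime q) (hN : ¬ q ∣ N) (σ : GQ) (hσ : σ ∈ A.inertiaSubgroupIn ℚ)
    {ζ : Qbar} (hζ : IsPrimitiveRoot ζ N) : σ ζ = ζ := by
  have hN0 : N ≠ 0 := by rintro rfl; exact hN (dvd_zero q)
  have hmem : ζ ∈ A := n3_mem_of_pow_eq_one A hN0 hζ.pow_eq_one
  set r := IsLocalRing.residue A with hr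
  have hq0 : (q : IsLocalRing.ResidueField A) = 0 := by
    have h3 : ((q : A)) ∈ IsLocalRing.maximalIdeal A := by
      rw [← coe_mem_nonunits_iff]
      have hA' : (q : Qbar) ∈ A.nonunits := hA
      simpa using hA'
    have := (IsLocalRing.residue_eq_zero_iff _).mpr h3
    simpa using this
  have hNk : NeZero (N : IsLocalRing.ResidueField A) := by
    refine ⟨fun hN0' => ?_⟩
    have hcop : Nat.Coprime q N := (Nat.Prime.coprime_iff_not_dvd hq).2 hN
    have hb := Nat.gcd_eq_gcd_ab q N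
    rw [hcop.gcd_eq_one] at hb
    have := congrArg (fun z : ℤ => (z : IsLocalRing.ResidueField A)) hb
    simp only [Int.cast_add, Int.cast_mul, Int.cast_natCast, hN0', hq0, zero_mul, add_zero] at this
    simp at this
  have hNA : NeZero (N : A) := ⟨by exact_mod_cast hN0⟩
  have hNN : NeZero N := ⟨hN0⟩
  have hζA : IsPrimitiveRoot (⟨ζ, hmem⟩ : A) N :=
    IsPrimitiveRoot.of_map_of_injective (f := A.subtype) hζ Subtype.val_injective
  have hroot : IsRoot (cyclotomic N A) (⟨ζ, hmem⟩ : A) := (isRoot_cyclotomic_iff).2 hζA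
  have hroot' : IsRoot (cyclotomic N (IsLocalRing.ResidueField A)) (r ⟨ζ, hmem⟩) := by
    have := hroot.map (f := r)
    rwa [map_cyclotomic] at this
  have hprim : IsPrimitiveRoot (r ⟨ζ, hmem⟩) N := (isRoot_cyclotomic_iff).1 hroot'
  obtain ⟨i, hi, hiζ⟩ := hζ.eq_pow_of_pow_eq_one (ξ := σ ζ) (by
    rw [← map_pow, hζ.pow_eq_one, map_one])
  obtain ⟨hmem', hres⟩ := n3_inertia_spec A σ hσ ζ hmem
  have h1 : (r ⟨ζ, hmem⟩) ^ i = (r ⟨ζ, hmem⟩) ^ 1 := by
    rw [pow_one, ← map_pow]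
    calc r (⟨ζ, hmem⟩ ^ i) = r ⟨σ ζ, hmem'⟩ := by
          congr 1
          apply Subtype.ext
          simpa using hiζ
      _ = r ⟨ζ, hmem⟩ := hres
  rcases Nat.lt_or_ge 1 N with h1N | h1N
  · have := hprim.pow_inj hi h1N h1
    rw [← hiζ, this, pow_one]
  · have hN1 : N = 1 := by omega
    subst hN1
    have : ζ = 1 := by simpa using hζ
    rw [this, map_one]

/-! ### The `p`-adic cyclotomic character -/

variable (p : ℕ) [Fact p.Prime]

instance n3_hasEnough (i : ℕ) : HasEnoughRootsOfUnity Qbar (p ^ i) := by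
  have : NeZero ((p ^ i : ℕ) : Qbar) :=
    ⟨Nat.cast_ne_zero.mpr (pow_ne_zero _ (Fact.out : p.Prime).ne_zero)⟩
  infer_instance

/-- the `p`-adic cyclotomic character of `G_ℚ`. -/
noncomputable def chiP : GQ →* ℤ_[p]ˣ :=
  (cyclotomicCharacter Qbar p).comp (MulSemiringAction.toRingAut GQ Qbar)

theorem chiP_spec (σ : GQ) (n : ℕ) {ζ : Qbar} (hζ : ζ ^ p ^ n = 1) :
    σ ζ = ζ ^ ((chiMod (chiP p) n σ : (ZMod (p ^ n))ˣ) : ZMod (p ^ n)).val :=
  cyclotomicCharacter.spec p (MulSemiringAction.toRingAut GQ Qbar σ) ζ hζ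

theorem exists_primitiveRoot_pow (n : ℕ) : ∃ ζ : Qbar, IsPrimitiveRoot ζ (p ^ n) :=
  HasEnoughRootsOfUnity.exists_primitiveRoot Qbar (p ^ n)

/-- the value of the character modulo `p ^ n` is detected on one primitive root. -/
theorem chiMod_chiP_eq (σ : GQ) (n : ℕ) (c : ℕ) {ζ : Qbar} (hζ : IsPrimitiveRoot ζ (p ^ n))
    (h : σ ζ = ζ ^ c) : ((chiMod (chiP p) n σ : (ZMod (p ^ n))ˣ) : ZMod (p ^ n)) = c := by
  have : NeZero (p ^ n) := ⟨pow_ne_zero _ (Fact.out : p.Prime).ne_zero⟩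
  have h1 := chiP_spec p σ n hζ.pow_eq_one
  rw [h] at h1
  have hfin : IsOfFinOrder ζ :=
    isOfFinOrder_iff_pow_eq_one.mpr ⟨p ^ n, pow_pos (Fact.out : p.Prime).pos _, hζ.pow_eq_one⟩
  have h2 := hfin.pow_eq_pow_iff_modEq.mp h1
  rw [← hζ.eq_orderOf] at h2
  have h3 := (ZMod.natCast_eq_natCast_iff _ _ _).mpr h2
  rw [h3, ZMod.natCast_val, ZMod.cast_id]

theorem mem_ker_chiMod_chiP (σ : GQ) (n : ℕ) {ζ : Qbar} (hζ : IsPrimitiveRoot ζ (p ^ n)) :
    σ ∈ (chiMod (chiP p) n).ker ↔ σ ζ = ζ := by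
  have hp : p.Prime := Fact.out
  constructor
  · intro h
    have h1 := chiP_spec p σ n hζ.pow_eq_one
    rw [MonoidHom.mem_ker.1 h, Units.val_one] at h1
    rcases Nat.eq_zero_or_pos n with rfl | hn
    · have : ζ = 1 := by simpa using hζ
      rw [this, map_one]
    · have : Fact (1 < p ^ n) := ⟨Nat.one_lt_pow hn.ne' hp.one_lt⟩
      rwa [ZMod.val_one, pow_one] at h1
  · intro h
    rw [MonoidHom.mem_ker]
    apply Units.ext
    rw [chiMod_chiP_eq p σ n 1 hζ (by rw [pow_one, h])]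
    simp

theorem isOpenS_ker_chiMod {S : Finset Nat.Primes} (hpS : pPrime p ∈ S) (n : ℕ) :
    IsOpenS S (chiMod (chiP p) n).ker := by
  have hp : p.Prime := Fact.out
  obtain ⟨ζ, hζ⟩ := exists_primitiveRoot_pow p n
  have hint : IsIntegral ℚ ζ := (hζ.isIntegral (pow_pos hp.pos _)).tower_top
  refine ⟨IntermediateField.adjoin ℚ {ζ},
    ⟨IntermediateField.adjoin.finiteDimensional hint, ?_⟩, ?_⟩
  · intro q hq A hA σ hσ
    have hne : ¬ (q : ℕ) ∣ p ^ n := by
      intro hd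
      have h1 := (Nat.prime_dvd_prime_iff_eq q.2 hp).1 (q.2.dvd_of_dvd_pow hd)
      exact hq ((Subtype.ext h1 : q = pPrime p) ▸ hpS)
    have h2 := inertia_fixes_root A q.2 hA hne σ hσ hζ
    rw [IntermediateField.mem_fixingSubgroup_iff]
    intro x hx
    have h3 : ((σ : Qbar →ₐ[ℚ] Qbar).comp (IntermediateField.adjoin ℚ {ζ}).val)
        = (IntermediateField.adjoin ℚ {ζ}).val := by
      apply IntermediateField.adjoin_algHom_ext
      rintro y rfl
      exact h2
    exact congrArg (fun φ : (IntermediateField.adjoin ℚ {ζ}) →ₐ[ℚ] Qbar => φ ⟨x, hx⟩) h3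
  · intro σ hσ
    rw [mem_ker_chiMod_chiP p σ n hζ]
    exact (IntermediateField.mem_fixingSubgroup_iff _ _).1 hσ ζ
      (IntermediateField.mem_adjoin_simple_self ℚ ζ)

theorem n3_cycloChar_spec (σ : GQ) {ζ : Qbar} (hζ : ζ ^ p = 1) :
    σ ζ = ζ ^ ((cycloChar p σ : (ZMod p)ˣ) : ZMod p).val := by
  have : NeZero p := ⟨(Fact.out : p.Prime).ne_zero⟩
  have hz : ζ ≠ 0 := by
    rintro rfl
    rw [zero_pow (Fact.out : p.Prime).ne_zero] at hζ
    exact zero_ne_one hζ
  have hmem : Units.mk0 ζ hz ∈ rootsOfUnity p Qbar := by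
    rw [mem_rootsOfUnity]
    ext
    simpa using hζ
  have := modularCyclotomicCharacter.spec (L := Qbar) (card_rootsOfUnity_eq_self p)
    (σ : Qbar ≃+* Qbar) hmem
  exact this

theorem ker_cycloChar_le : (cycloChar p).ker ≤ (chiMod (chiP p) 1).ker := by
  have hp : p.Prime := Fact.out
  intro σ hσ
  obtain ⟨ζ, hζ⟩ := exists_primitiveRoot_pow p 1
  rw [mem_ker_chiMod_chiP p σ 1 hζ]
  have h1 := n3_cycloChar_spec p σ (ζ := ζ) (by simpa using hζ.pow_eq_one)
  have : Fact (1 < p) := ⟨hp.one_lt⟩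
  rwa [MonoidHom.mem_ker.1 hσ, Units.val_one, ZMod.val_one, pow_one] at h1

/-! ### Local groups -/

theorem n3_padicEmbedding_injective (q : ℕ) [Fact q.Prime] :
    Function.Injective (padicEmbedding q) := (padicEmbedding q).toRingHom.injective

/-- `q ≠ p`: the decomposition group at `q` contains an element acting as `ζ ↦ ζ ^ q`. -/
theorem exists_local_frob (q : ℕ) [Fact q.Prime] (hqp : q ≠ p) (n : ℕ) :
    ∃ d ∈ (localGaloisToGlobal q).range,
      ((chiMod (chiP p) n d : (ZMod (p ^ n))ˣ) : ZMod (p ^ n)) = q := by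
  have hp : p.Prime := Fact.out
  have hq : q.Prime := Fact.out
  obtain ⟨ζ, hζ⟩ := exists_primitiveRoot_pow p n
  have hμ : IsPrimitiveRoot (padicEmbedding q ζ) (p ^ n) :=
    hζ.map_of_injective (n3_padicEmbedding_injective q)
  have hdiv : ¬ q ∣ p ^ n := fun hd =>
    hqp ((Nat.prime_dvd_prime_iff_eq hq hp).1 (hq.dvd_of_dvd_pow hd))
  obtain ⟨σ, hσ⟩ := exists_frob_root hμ hdiv
  refine ⟨localGaloisToGlobal q σ, ⟨σ, rfl⟩, chiMod_chiP_eq p _ n q hζ ?_⟩
  apply n3_padicEmbedding_injective q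
  rw [padicEmbedding_localGaloisToGlobal, hσ, map_pow]

/-- the decomposition group at `p` surjects onto `(ℤ / p ^ n)ˣ`. -/
theorem exists_local_at_p (n : ℕ) (x : (ZMod (p ^ n))ˣ) :
    ∃ d ∈ (localGaloisToGlobal p).range, chiMod (chiP p) n d = x := by
  have hp : p.Prime := Fact.out
  have : NeZero (p ^ n) := ⟨pow_ne_zero _ hp.ne_zero⟩
  obtain ⟨ζ, hζ⟩ := exists_primitiveRoot_pow p n
  have hμ : IsPrimitiveRoot (padicEmbedding p ζ) (p ^ n) :=
    hζ.map_of_injective (n3_padicEmbedding_injective p)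
  have hcop : Nat.Coprime (x : ZMod (p ^ n)).val (p ^ n) := ZMod.val_coe_unit_coprime x
  obtain ⟨σ, hσ⟩ := exists_aut_root hμ (hμ.pow_of_coprime _ hcop)
  refine ⟨localGaloisToGlobal p σ, ⟨σ, rfl⟩, Units.ext ?_⟩
  rw [chiMod_chiP_eq p _ n (x : ZMod (p ^ n)).val hζ, ZMod.natCast_val, ZMod.cast_id]
  apply n3_padicEmbedding_injective p
  rw [padicEmbedding_localGaloisToGlobal, hσ, map_pow]

theorem chiMod_chiP_surjective (n : ℕ) : Function.Surjective (chiMod (chiP p) n) := fun x => by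
  obtain ⟨d, -, hd⟩ := exists_local_at_p p n x
  exact ⟨d, hd⟩

end Fermat.Agent.S55.G
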