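/-
S55, block G: statement (N3) (helper76).

Every `S`-open subgroup `U ≤ ker ω` of `G_ℚ` has a chain `U = c 0 > c 1 > ...` of `S`-open
subgroups, `c (i+1)` normal of index `p` in `c i`, such that the number of places over `S` of
`c n` (= number of double cosets `c n \ G_ℚ / D_q`, `q ∈ S`) is `≤ p ^ n` for some `n`.
-/
import Mathlib
import Fermat.Agent.S55.G.N3Cyc

set_option autoImplicit false

namespace Fermat.Agent.S55.G

open ExtCitation

local notation "Qbar" => AlgebraicClosure ℚ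
local notation "GQ" => (AlgebraicClosure ℚ ≃ₐ[ℚ] AlgebraicClosure ℚ)

variable {p : ℕ} [Fact p.Prime]

theorem exists_not_le_ker_chiMod (U : Subgroup GQ) [U.FiniteIndex] :
    ∃ m, ¬ U ≤ (chiMod (chiP p) m).ker := by
  have hp : p.Prime := Fact.out
  refine ⟨U.index + 1, fun hle => ?_⟩
  have : NeZero (p ^ (U.index + 1)) := ⟨pow_ne_zero _ hp.ne_zero⟩
  have h1 : (chiMod (chiP p) (U.index + 1)).ker.index ≤ U.index :=
    Nat.le_of_dvd (Nat.pos_of_ne_zero Subgroup.FiniteIndex.index_ne_zero)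
      (Subgroup.index_dvd_of_le hle)
  rw [Subgroup.index_ker, MonoidHom.range_eq_top.2 (chiMod_chiP_surjective p _), Nat.card_congr
    (Subgroup.topEquiv (G := (ZMod (p ^ (U.index + 1)))ˣ)).toEquiv, Nat.card_eq_fintype_card,
    ZMod.card_units_eq_totient, Nat.totient_prime_pow_succ hp] at h1
  have h2 : U.index < p ^ U.index := Nat.lt_pow_self hp.one_lt
  have h3 : p ^ U.index ≤ p ^ U.index * (p - 1) :=
    Nat.le_mul_of_pos_right _ (by have := hp.two_le; omega)
  omega

/-- the index of the image of the decomposition group at `q` in `(ℤ / p ^ m)ˣ` is bounded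
independently of `m`. -/
theorem exists_index_bound (hp2 : p ≠ 2) (q : Nat.Primes) :
    ∃ C : ℕ, ∀ m, ((primeLocalToGlobal q).range.map (chiMod (chiP p) m)).index ≤ C := by
  have hp : p.Prime := Fact.out
  have : Fact (q : ℕ).Prime := ⟨q.2⟩
  by_cases hqp : (q : ℕ) = p
  · refine ⟨1, fun m => ?_⟩
    have htop : (primeLocalToGlobal q).range.map (chiMod (chiP p) m) = ⊤ := by
      rw [eq_top_iff]
      intro x _
      obtain ⟨q, hq⟩ := q
      subst hqp
      obtain ⟨d, hd, hdx⟩ := exists_local_at_p q m x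
      exact ⟨d, hd, hdx⟩
    rw [htop, Subgroup.index_top]
  · refine ⟨p ^ padicValNat p ((q : ℕ) ^ (p - 1) - 1), fun m => ?_⟩
    obtain ⟨d, hd, hdq⟩ := exists_local_frob p (q : ℕ) hqp m
    exact index_le_of_natCast_mem hp2 q.2.two_le
      (fun h => hqp ((Nat.prime_dvd_prime_iff_eq hp q.2).1 h).symm) m _
      (chiMod (chiP p) m d) ⟨d, hd, rfl⟩ hdq

/-- **(N3)** -/
theorem N3 (hp2 : p ≠ 2) (S : Finset Nat.Primes) (hpS : pPrime p ∈ S) (U : Subgroup GQ)
    (hU : IsOpenS S U) (hω : U ≤ (cycloChar p).ker) :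
    ∃ c : ℕ → Subgroup GQ, c 0 = U ∧
      (∀ i, IsOpenS S (c i) ∧ c (i + 1) ≤ c i ∧ ((c (i + 1)).subgroupOf (c i)).Normal ∧
        (c (i + 1)).relIndex (c i) = p) ∧
      ∃ n, ∑ q ∈ S, ndc (c n) (primeLocalToGlobal q).range ≤ p ^ n := by
  have hp : p.Prime := Fact.out
  have := hU.finiteIndex
  obtain ⟨a, ha, hUa, hUa'⟩ := exists_max_level (chiP p) U (hω.trans (ker_cycloChar_le p))
    (exists_not_le_ker_chiMod U)
  choose C hC using exists_index_bound (p := p) hp2
  refine ⟨fun i => U ⊓ (chiMod (chiP p) (a + i)).ker, inf_eq_left.2 hUa, fun i => ⟨?_, ?_, ?_, ?_⟩,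
    ∑ q ∈ S, U.index * C q, ?_⟩
  · exact hU.inf (isOpenS_ker_chiMod p hpS _)
  · exact inf_le_inf le_rfl (ker_chiMod_anti _ (by omega))
  · exact chain_normal _ _ _ _
  · exact chain_relIndex (chiP p) hp2 U a ha hUa hUa' i
  · refine le_trans (Finset.sum_le_sum fun q _ => ?_) (Nat.lt_pow_self hp.one_lt).le
    have : NeZero (p ^ (a + ∑ q ∈ S, U.index * C q)) := ⟨pow_ne_zero _ hp.ne_zero⟩
    exact (ndc_inf_ker_le _ U _).trans (Nat.mul_le_mul le_rfl (hC q _))

end Fermat.Agent.S55.G
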