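import Fermat.Agent.S55.G.Sys
import Fermat.Agent.S55.Fc.LES.Defs
import Fermat.Agent.S55.P.Lev
import Fermat.Agent.S55.P.HensDec
import Fermat.Agent.S55.L.C0.Defs
import Fermat.Agent.S55.H.Defs

/-!
# S55, block [G] (global arithmetic inputs N1, N2): definitions

* `locSys S`     : the concrete `LocSys GQ` (levels `P.levS S`, `P.levAll`, `D_q = Fix (hens q)`);
* `unitsRep`     : `ℚ̄ˣ` as a `ℤ`-representation of `GQ` (on `Additive ℚ̄ˣ`);
* `smooth L ρ`   : the `L`-smooth vectors of a representation, `smoothRep L ρ`;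
* `KSx S`, `unitsRepS S` : `𝕂_Sˣ`, the units of the maximal extension `𝕂_S` unramified outside `S`;
* `vz z x`       : the cochain `x.val • z` (`= ζ ^ x`) attached to a `ZMod p`-valued cochain `x`;
* `CocOn`, `LocTriv`: cochains on the AMBIENT group `GQ`, conditions on subgroups;
* `Bgrp ρ p`, `Tgrp ρ p`: `{b | g b - b ∈ pA}` and `A^Γ + pA`;
* `SK S K`, `VS p S₀`, `Dv p S₀`, `PD p S₀` : places above `S`, the Kummer group, divisors mod `p`.
-/

set_option autoImplicit false

noncomputable section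

namespace Fermat.Agent.S55.G

open ExtCitation NumberField IsDedekindDomain

local notation "Qbar" => AlgebraicClosure ℚ
local notation "GQ" => (AlgebraicClosure ℚ ≃ₐ[ℚ] AlgebraicClosure ℚ)

/-! ### smooth vectors -/

section smooth

variable {k : Type*} [CommRing k] {G : Type} [Group G] (L : Lev G)
variable {M : Type*} [AddCommGroup M] [Module k M] (ρ : Representation k G M)

/-- the vectors fixed by some level -/
def smooth : Submodule k M where
  carrier := {m | ∃ V ∈ L.sets, ∀ g ∈ V, ρ g m = m}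
  add_mem' := by
    rintro a b ⟨V, hV, ha⟩ ⟨W, hW, hb⟩
    obtain ⟨X, hX, hXVW⟩ := L.directed V hV W hW
    exact ⟨X, hX, fun g hg => by rw [map_add, ha g (hXVW hg).1, hb g (hXVW hg).2]⟩
  zero_mem' := by
    obtain ⟨V, hV⟩ := L.nonempty
    exact ⟨V, hV, fun g _ => map_zero _⟩
  smul_mem' := by
    rintro c a ⟨V, hV, ha⟩
    exact ⟨V, hV, fun g hg => by rw [map_smul, ha g hg]⟩

lemma mem_smooth_iff (m : M) : m ∈ smooth L ρ ↔ ∃ V ∈ L.sets, ∀ g ∈ V, ρ g m = m := Iff.rfl

lemma smooth_stable (g : G) (m : M) (hm : m ∈ smooth L ρ) : ρ g m ∈ smooth L ρ := by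
  obtain ⟨V, hV, h⟩ := hm
  obtain ⟨W, hW, hWV, hWn⟩ := L.normal V hV
  refine ⟨W, hW, fun w hw => ?_⟩
  have h1 : g⁻¹ * w * g ∈ V := hWV (by simpa using hWn.conj_mem w hw g⁻¹)
  have h2 := h _ h1
  calc ρ w (ρ g m) = ρ g (ρ (g⁻¹ * w * g) m) := by
        rw [← Module.End.mul_apply, ← Module.End.mul_apply, ← map_mul, ← map_mul]
        congr 2
        group
    _ = ρ g m := by rw [h2]

/-- the representation on the smooth vectors -/
def smoothRep : Representation k G (smooth L ρ) := subRep ρ (smooth L ρ) (smooth_stable L ρ)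

@[simp] lemma smoothRep_apply_coe (g : G) (m : smooth L ρ) :
    ((smoothRep L ρ g m : smooth L ρ) : M) = ρ g (m : M) := rfl

lemma smoothRep_isDiscrete : IsDiscrete L (smoothRep L ρ) := by
  rintro ⟨m, V, hV, h⟩
  exact ⟨V, hV, fun g hg => Subtype.ext (h g hg)⟩

end smooth

/-! ### the concrete arithmetic situation -/

/-- the decomposition group at `q` (`= P.decGrp q = (P.hens q).fixingSubgroup`) -/
abbrev Dq (q : Nat.Primes) : Subgroup GQ := P.decGrp q

/-- the concrete `LocSys` (`= G.sys S` of `G/Sys.lean`) -/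
abbrev locSys (S : Finset Nat.Primes) : LocSys GQ := sys S

/-- `ℚ̄ˣ` as a representation of `GQ` over `ℤ` -/
def unitsRep : Representation ℤ GQ (Additive Qbarˣ) where
  toFun g := (MonoidHom.toAdditive (Units.map ((g : Qbar ≃* Qbar) : Qbar →* Qbar))).toIntLinearMap
  map_one' := by ext; rfl
  map_mul' a b := by ext; rfl

lemma unitsRep_apply (g : GQ) (u : Qbarˣ) :
    unitsRep g (Additive.ofMul u) =
      Additive.ofMul (Units.map ((g : Qbar ≃* Qbar) : Qbar →* Qbar) u) := rfl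

lemma coe_toMul_unitsRep (g : GQ) (m : Additive Qbarˣ) :
    ((Additive.toMul (unitsRep g m) : Qbarˣ) : Qbar) = g ((Additive.toMul m : Qbarˣ) : Qbar) := rfl

/-- `𝕂_Sˣ` -/
abbrev KSx (S : Finset Nat.Primes) : Submodule ℤ (Additive Qbarˣ) := smooth (P.levS S) unitsRep

/-- `𝕂_Sˣ` as a representation of `GQ` -/
abbrev unitsRepS (S : Finset Nat.Primes) : Representation ℤ GQ (KSx S) :=
  smoothRep (P.levS S) unitsRep

/-- `𝕂_Sˣ` as a representation of a subgroup `U` -/
abbrev rhoS (S : Finset Nat.Primes) (U : Subgroup GQ) : Representation ℤ U (KSx S) :=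
  (unitsRepS S).comp U.subtype

/-- `ℚ̄ˣ` as a representation of a subgroup `W` -/
abbrev rhoAll (W : Subgroup GQ) : Representation ℤ W (Additive Qbarˣ) := unitsRep.comp W.subtype

/-- the underlying algebraic number of an element of `𝕂_Sˣ` -/
def toQ {S : Finset Nat.Primes} (m : KSx S) : Qbar :=
  ((Additive.toMul (m : Additive Qbarˣ) : Qbarˣ) : Qbar)

/-- the cochain `t ↦ (x t).val • z` (think: `ζ ^ x`) -/
def vz {p : ℕ} {X A : Type*} [AddCommGroup A] (z : A) (x : X → ZMod p) : X → A :=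
  fun t => (x t).val • z

@[simp] lemma vz_apply {p : ℕ} {X A : Type*} [AddCommGroup A] (z : A) (x : X → ZMod p) (t : X) :
    vz z x t = (x t).val • z := rfl

/-- the 2-cochain `x` on the ambient group satisfies the cocycle identity on the subgroup `U` -/
def CocOn {k : Type*} [CommRing k] {G : Type} [Group G] {A : Type*} [AddCommGroup A] [Module k A]
    (ρ : Representation k G A) (U : Subgroup G) (x : G × G → A) : Prop :=
  ∀ g ∈ U, ∀ h ∈ U, ∀ j ∈ U, x (g * h, j) + x (g, h) = ρ g (x (h, j)) + x (g, h * j)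

/-- the trivial representation of `GQ` on `𝔽_p` -/
abbrev trivQ (p : ℕ) : Representation (ZMod p) GQ (ZMod p) :=
  Representation.trivial (ZMod p) GQ (ZMod p)

/-- `X` (a cochain on `GQ`) is locally trivial at all places of `U` above `S` -/
def LocTriv {p : ℕ} (S : Finset Nat.Primes) (U : Subgroup GQ) (X : GQ × GQ → ZMod p) : Prop :=
  ∀ q ∈ S, ∀ g : GQ, L.C0.SplitOn P.levAll (trivQ p) (U ⊓ conjSub (Dq q) g) X

lemma LocTriv.mono {p : ℕ} {S : Finset Nat.Primes} {U U' : Subgroup GQ} (h : U' ≤ U)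
    {X : GQ × GQ → ZMod p} (hX : LocTriv S U X) : LocTriv S U' X :=
  fun q hq g => (hX q hq g).mono (inf_le_inf_right _ h)

/-- `z ∈ 𝕂_Sˣ` is a primitive `p`-th root of unity -/
def IsZeta (p : ℕ) {S : Finset Nat.Primes} (z : KSx S) : Prop :=
  IsPrimitiveRoot (((Additive.toMul (z : Additive Qbarˣ)) : Qbarˣ) : Qbar) p

/-! ### the groups of the second Kummer sequence -/

section kummer2

variable {Γ : Type} [Group Γ] {A : Type*} [AddCommGroup A] (ρ : Representation ℤ Γ A) (p : ℕ)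

/-- `{b ∈ A | g b - b ∈ p A for all g}`, i.e. `H⁰(Γ, A / p A)` pulled back to `A` -/
def Bgrp : AddSubgroup A where
  carrier := {b | ∀ g, ∃ c, ρ g b - b = p • c}
  zero_mem' := fun g => ⟨0, by simp⟩
  add_mem' := by
    intro a b ha hb g
    obtain ⟨c, hc⟩ := ha g
    obtain ⟨d, hd⟩ := hb g
    exact ⟨c + d, by rw [map_add, smul_add, ← hc, ← hd]; abel⟩
  neg_mem' := by
    intro a ha g
    obtain ⟨c, hc⟩ := ha g
    exact ⟨-c, by rw [map_neg, smul_neg, ← hc]; abel⟩

/-- `A^Γ + p A` -/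
def Tgrp : AddSubgroup A where
  carrier := {b | ∃ a c, (∀ g, ρ g a = a) ∧ b = a + p • c}
  zero_mem' := ⟨0, 0, fun g => map_zero _, by simp⟩
  add_mem' := by
    rintro _ _ ⟨a, c, ha, rfl⟩ ⟨a', c', ha', rfl⟩
    exact ⟨a + a', c + c', fun g => by rw [map_add, ha g, ha' g], by rw [smul_add]; abel⟩
  neg_mem' := by
    rintro _ ⟨a, c, ha, rfl⟩
    exact ⟨-a, -c, fun g => by rw [map_neg, ha g], by rw [smul_neg]; abel⟩

end kummer2

/-! ### number fields -/

section nf

variable (p : ℕ) {K : Type*} [Field K] [NumberField K]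

/-- `ord_v a` (with the sign of Mathlib: a uniformiser has `ordv = -1`) -/
def ordv (v : H.Pl K) (a : Kˣ) : ℤ := Multiplicative.toAdd (v.valuationOfNeZero a)

/-- `{a ∈ Kˣ | p ∣ ord_v a for all v ∉ S₀}` -/
def VS (S₀ : Set (H.Pl K)) : Subgroup Kˣ where
  carrier := {a | ∀ v, v ∉ S₀ → (p : ℤ) ∣ ordv v a}
  one_mem' := fun v _ => by simp [ordv]
  mul_mem' := fun {a b} ha hb v hv => by
    have : ordv v (a * b) = ordv v a + ordv v b := by simp [ordv]
    rw [this]; exact dvd_add (ha v hv) (hb v hv)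
  inv_mem' := fun {a} ha v hv => by
    have : ordv v a⁻¹ = - ordv v a := by simp [ordv]
    rw [this]; exact (dvd_neg).2 (ha v hv)

/-- divisors outside `S₀` with coefficients mod `p` -/
abbrev Dv (S₀ : Set (H.Pl K)) : Type _ := {v : H.Pl K // v ∉ S₀} →₀ ZMod p

/-- the principal divisors mod `p` -/
def PD (S₀ : Set (H.Pl K)) : AddSubgroup (Dv p S₀) where
  carrier := {d | ∃ a : Kˣ, ∀ v, d v = ((ordv v.1 a : ℤ) : ZMod p)}
  zero_mem' := ⟨1, fun v => by simp [ordv]⟩
  add_mem' := by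
    rintro d e ⟨a, ha⟩ ⟨b, hb⟩
    exact ⟨a * b, fun v => by simp [ordv, ha v, hb v]⟩
  neg_mem' := by
    rintro d ⟨a, ha⟩
    exact ⟨a⁻¹, fun v => by simp [ordv, ha v]⟩

end nf

/-- the places of `K` above `S` -/
def SK (S : Finset Nat.Primes) (K : Type*) [Field K] [NumberField K] : Set (H.Pl K) :=
  {v | ∃ q ∈ S, (((q : ℕ) : 𝓞 K)) ∈ v.asIdeal}

end Fermat.Agent.S55.G

end
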