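import Fermat.Agent.S55.G.Defs

/-!
# S55 G-H90: Hilbert 90 with levels, for arbitrary subgroups, for `ℚ̄ˣ` and for `𝕂_Sˣ`

PROOF (`h90_all`).  `z : H → Additive ℚ̄ˣ` is right invariant under `(F₀.fixingSubgroup).comap f`,
`F₀` a number field, so `z` has finitely many values (`IsLev₁.finite_range`).  Let `F` be a finite
GALOIS extension of `ℚ` inside `ℚ̄` containing `F₀` and all values of `z`
(`IntermediateField.normalClosure` of `F₀ ⊔ adjoin (values)`).  Let `r : GQ →* (F ≃ₐ[ℚ] F)` be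
`AlgEquiv.restrictNormalHom F`, `Γ := (V.map (r.comp f))`, a finite group of automorphisms of the
field `F`.  If `v, v' ∈ V` have the same image in `Γ` then `f (v⁻¹ v') ∈ F.fixingSubgroup ≤
F₀.fixingSubgroup`, so `z v' = z v`: `z` induces `z̄ : Γ → Fˣ`, a 1-cocycle.
Hilbert 90 by hand (Dedekind/Artin independence of characters, `linearIndependent_monoidHom`):
there is `c ∈ F` with `m' := ∑ γ ∈ Γ, z̄ γ * γ c ≠ 0`, and `δ m' = (z̄ δ)⁻¹ * m'`;
so `z̄ δ = m' / δ m' = δ m / m` with `m = m'⁻¹`.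
(Alternatively Mathlib's `groupCohomology.isMulCoboundary₁_of_isMulCocycle₁_of_aut_to_units`
for `F / FixedPoints.subfield Γ F`.)
(`h90_S`) same proof; `F₀` is unramified outside `S`, each value of `z` lies in such a field
(`mem_smooth_iff`: it is fixed by `F'.fixingSubgroup`, so it lies in `F'` by Galois theory:
`IntermediateField.fixedField_fixingSubgroup`, `ℚ̄/ℚ` Galois =
`Fermat.Agent.Lib.FrobeniusExists.isGalois_algebraicClosure_rat`), use `IsUnramifiedOutside.sup` and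
`P.exists_isGalois_isUnramifiedOutside`; `m ∈ Fˣ` is then fixed by the level `F.fixingSubgroup`,
i.e. `m ∈ KSx S`.
-/

set_option autoImplicit false

namespace Fermat.Agent.S55.G

open ExtCitation

local notation "Qbar" => AlgebraicClosure ℚ
local notation "GQ" => (AlgebraicClosure ℚ ≃ₐ[ℚ] AlgebraicClosure ℚ)

theorem h90_unitsRep_eq_iff (g : GQ) (a b : Additive Qbarˣ) :
    unitsRep g a = b ↔
      g ((Additive.toMul a : Qbarˣ) : Qbar) = ((Additive.toMul b : Qbarˣ) : Qbar) := by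
  constructor
  · rintro rfl; rfl
  · intro h
    exact Additive.toMul.injective (Units.ext h)

theorem mem_KSx_iff (S : Finset Nat.Primes) (m : Additive Qbarˣ) :
    m ∈ KSx S ↔ ∃ F : IntermediateField ℚ Qbar, F.IsUnramifiedOutside S ∧
      ((Additive.toMul m : Qbarˣ) : Qbar) ∈ F := by
  have : IsGalois ℚ Qbar := Fermat.Agent.Lib.FrobeniusExists.isGalois_algebraicClosure_rat
  rw [mem_smooth_iff]
  constructor
  · rintro ⟨_, ⟨F, hF, rfl⟩, h⟩
    refine ⟨F, hF, ?_⟩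
    rw [← InfiniteGalois.fixedField_fixingSubgroup F, IntermediateField.mem_fixedField_iff]
    intro u hu
    exact (h90_unitsRep_eq_iff u m m).1 (h u hu)
  · rintro ⟨F, hF, h⟩
    refine ⟨_, ⟨F, hF, rfl⟩, fun u hu => ?_⟩
    rw [h90_unitsRep_eq_iff]
    exact (IntermediateField.mem_fixingSubgroup_iff _ u).1 hu _ h

theorem unitsRep_isDiscrete : IsDiscrete P.levAll unitsRep := by
  intro m
  have : Algebra.IsAlgebraic ℚ Qbar := AlgebraicClosure.isAlgebraic ℚ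
  have hint : IsIntegral ℚ ((Additive.toMul m : Qbarˣ) : Qbar) :=
    (Algebra.IsAlgebraic.isAlgebraic _).isIntegral
  refine ⟨_, ⟨IntermediateField.adjoin ℚ {((Additive.toMul m : Qbarˣ) : Qbar)},
    IntermediateField.adjoin.finiteDimensional hint, rfl⟩, fun u hu => ?_⟩
  rw [h90_unitsRep_eq_iff]
  exact (IntermediateField.mem_fixingSubgroup_iff _ u).1 hu _
    (IntermediateField.mem_adjoin_simple_self ℚ _)

/-- multiplicative form of Hilbert 90, for an arbitrary homomorphism `φ : D →* GQ` -/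
theorem h90_core {D : Type} [Group D] (φ : D →* GQ) (E : IntermediateField ℚ Qbar)
    (hfin : (E.fixingSubgroup.comap φ).FiniteIndex) (T : Subring Qbar)
    (ζ : D → Qbar) (h0 : ∀ g, ζ g ≠ 0) (hT : ∀ g, ζ g ∈ T) (hET : ∀ g, ∀ θ ∈ E, φ g θ ∈ T)
    (hcoc : ∀ g h : D, ζ (g * h) = φ g (ζ h) * ζ g)
    (hlev : ∀ g w : D, φ w ∈ E.fixingSubgroup → ζ (g * w) = ζ g) :
    ∃ b ∈ T, b ≠ 0 ∧ ∀ h : D, φ h b * ζ h = b := by
  classical
  set W : Subgroup D := E.fixingSubgroup.comap φ with hW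
  have : Fintype (D ⧸ W) := Subgroup.fintypeQuotientOfFiniteIndex
  -- the summands
  let ψ : Qbar → D ⧸ W → Qbar := fun θ x => ζ x.out * φ x.out θ
  have hψ : ∀ θ ∈ E, ∀ g : D, ψ θ (QuotientGroup.mk g) = ζ g * φ g θ := by
    intro θ hθ g
    obtain ⟨w, hw⟩ := QuotientGroup.mk_out_eq_mul W g
    have hwE : φ (w : D) ∈ E.fixingSubgroup := w.2
    show ζ (QuotientGroup.mk g : D ⧸ W).out * φ (QuotientGroup.mk g : D ⧸ W).out θ = _
    rw [hw, hlev g w hwE, map_mul]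
    congr 1
    show φ g (φ (w : D) θ) = φ g θ
    rw [(IntermediateField.mem_fixingSubgroup_iff _ _).1 hwE θ hθ]
  -- transformation rule
  have htr : ∀ θ ∈ E, ∀ h : D, φ h (∑ x, ψ θ x) * ζ h = ∑ x, ψ θ x := by
    intro θ hθ h
    rw [map_sum, Finset.sum_mul, ← Equiv.sum_comp (MulAction.toPerm h) (ψ θ)]
    refine Finset.sum_congr rfl fun x _ => ?_
    have hx : (MulAction.toPerm h x : D ⧸ W) = QuotientGroup.mk (h * x.out) := by
      conv_lhs => rw [← QuotientGroup.out_eq' x]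
      rfl
    rw [hx, hψ θ hθ, hcoc]
    have h3 : φ (h * x.out) θ = φ h (φ x.out θ) := by rw [map_mul]; rfl
    rw [h3]
    show φ h (ζ x.out * φ x.out θ) * ζ h = φ h (ζ x.out) * ζ h * φ h (φ x.out θ)
    rw [map_mul]; ring
  -- non vanishing
  have hne : ∃ θ ∈ E, ∑ x, ψ θ x ≠ 0 := by
    by_contra hcon
    push Not at hcon
    let f : D ⧸ W → (E →* Qbar) := fun x =>
      ((φ x.out : Qbar →ₐ[ℚ] Qbar).comp E.val : E →ₐ[ℚ] Qbar)
    have hf : Function.Injective f := by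
      intro x y hxy
      rw [← QuotientGroup.out_eq' x, ← QuotientGroup.out_eq' y, QuotientGroup.eq,
        Subgroup.mem_comap, IntermediateField.mem_fixingSubgroup_iff]
      intro θ hθ
      have h1 : φ x.out θ = φ y.out θ := DFunLike.congr_fun hxy (⟨θ, hθ⟩ : E)
      rw [map_mul, map_inv]
      show (φ x.out)⁻¹ (φ y.out θ) = θ
      rw [← h1]
      exact (φ x.out).symm_apply_apply θ
    have hli := (linearIndependent_monoidHom E Qbar).comp f hf
    rw [Fintype.linearIndependent_iff] at hli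
    have := hli (fun x => ζ x.out) (by
      funext θ
      rw [Finset.sum_apply]
      exact hcon θ.1 θ.2) (QuotientGroup.mk 1)
    exact h0 _ this
  obtain ⟨θ, hθ, hb⟩ := hne
  exact ⟨_, T.sum_mem fun x _ => T.mul_mem (hT _) (hET _ θ hθ), hb, htr θ hθ⟩

theorem h90_all {H : Type} [Group H] (f : H →* GQ) (V : Subgroup H) :
    L.C0.H1VanishOn (P.levAll.comap f) (unitsRep.comp f) V := by
  rintro z ⟨_, ⟨_, ⟨E, hE, rfl⟩, rfl⟩, hlev⟩ hcoc
  obtain ⟨b, -, hb0, hb⟩ := h90_core (f.comp V.subtype) E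
    ((P.levAll.comap (f.comp V.subtype)).finiteIndex _ ⟨_, ⟨E, hE, rfl⟩, rfl⟩) ⊤
    (fun g => ((Additive.toMul (z g.1) : Qbarˣ) : Qbar))
    (fun g => Units.ne_zero _) (fun _ => Subring.mem_top _) (fun _ _ _ => Subring.mem_top _)
    (fun g h => by
      show ((Additive.toMul (z (g.1 * h.1)) : Qbarˣ) : Qbar) = _
      rw [hcoc g.1 g.2 h.1 h.2]
      rfl)
    (fun g w hw => by
      show ((Additive.toMul (z (g.1 * w.1)) : Qbarˣ) : Qbar) = _
      rw [hlev g.1 w.1 hw])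
  refine ⟨Additive.ofMul (Units.mk0 b⁻¹ (inv_ne_zero hb0)), fun v hv => ?_⟩
  rw [eq_sub_iff_add_eq]
  apply Additive.toMul.injective
  apply Units.ext
  have h1 : f v b * ((Additive.toMul (z v) : Qbarˣ) : Qbar) = b := hb ⟨v, hv⟩
  show ((Additive.toMul (z v) : Qbarˣ) : Qbar) * b⁻¹ = f v (b⁻¹)
  rw [map_inv₀]
  have h2 : f v b ≠ 0 := by simpa using hb0
  rw [mul_inv_eq_iff_eq_mul₀ hb0, eq_comm, inv_mul_eq_iff_eq_mul₀ h2]
  exact h1.symm

/-- the ring `𝕂_S` -/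
def h90KS (S : Finset Nat.Primes) : Subring Qbar where
  carrier := {x | ∃ F : IntermediateField ℚ Qbar, F.IsUnramifiedOutside S ∧ x ∈ F}
  mul_mem' := by
    rintro a b ⟨F, hF, ha⟩ ⟨F', hF', hb⟩
    exact ⟨F ⊔ F', hF.sup hF', mul_mem ((le_sup_left : F ≤ F ⊔ F') ha)
      ((le_sup_right : F' ≤ F ⊔ F') hb)⟩
  one_mem' := ⟨⊥, IntermediateField.isUnramifiedOutside_bot S, one_mem _⟩
  add_mem' := by
    rintro a b ⟨F, hF, ha⟩ ⟨F', hF', hb⟩
    exact ⟨F ⊔ F', hF.sup hF', add_mem ((le_sup_left : F ≤ F ⊔ F') ha)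
      ((le_sup_right : F' ≤ F ⊔ F') hb)⟩
  zero_mem' := ⟨⊥, IntermediateField.isUnramifiedOutside_bot S, zero_mem _⟩
  neg_mem' := by
    rintro a ⟨F, hF, ha⟩
    exact ⟨F, hF, neg_mem ha⟩

theorem h90_S (S : Finset Nat.Primes) {H : Type} [Group H] (f : H →* GQ) (V : Subgroup H) :
    L.C0.H1VanishOn ((P.levS S).comap f) ((unitsRepS S).comp f) V := by
  rintro z ⟨_, ⟨_, ⟨E, hE, rfl⟩, rfl⟩, hlev⟩ hcoc
  obtain ⟨b, ⟨F, hF, hbF⟩, hb0, hb⟩ := h90_core (f.comp V.subtype) E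
    (((P.levS S).comap (f.comp V.subtype)).finiteIndex _ ⟨_, ⟨E, hE, rfl⟩, rfl⟩) (h90KS S)
    (fun g => toQ (z g.1))
    (fun g => Units.ne_zero _) (fun g => (mem_KSx_iff S _).1 (z g.1).2)
    (fun g θ hθ => ⟨_, P.isUnramifiedOutside_map hE (f g.1), ⟨θ, hθ, rfl⟩⟩)
    (fun g h => by
      show toQ (z (g.1 * h.1)) = _
      rw [hcoc g.1 g.2 h.1 h.2]
      rfl)
    (fun g w hw => by
      show toQ (z (g.1 * w.1)) = _
      rw [hlev g.1 w.1 hw])
  refine ⟨⟨Additive.ofMul (Units.mk0 b⁻¹ (inv_ne_zero hb0)),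
    (mem_KSx_iff S _).2 ⟨F, hF, inv_mem hbF⟩⟩, fun v hv => ?_⟩
  rw [eq_sub_iff_add_eq]
  apply Subtype.ext
  apply Additive.toMul.injective
  apply Units.ext
  have h1 : f v b * toQ (z v) = b := hb ⟨v, hv⟩
  show toQ (z v) * b⁻¹ = f v (b⁻¹)
  rw [map_inv₀]
  have h2 : f v b ≠ 0 := by simpa using hb0
  rw [mul_inv_eq_iff_eq_mul₀ hb0, eq_comm, inv_mul_eq_iff_eq_mul₀ h2]
  exact h1.symm

end Fermat.Agent.S55.G
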