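import Fermat.Agent.S55.G.K1
import Fermat.Agent.S55.G.K2Abs
import Fermat.Agent.S55.L.C0.CycMain

/-!
# S55 G-HP1 (auxiliary file): the cyclic data attached to `(U, U₁, X)`
-/

set_option autoImplicit false

namespace Fermat.Agent.S55.G

open ExtCitation NumberField IsDedekindDomain Fermat.Agent.S55.L.C0
open scoped Pointwise

local notation "Qbar" => AlgebraicClosure ℚ
local notation "GQ" => (AlgebraicClosure ℚ ≃ₐ[ℚ] AlgebraicClosure ℚ)

/-- a normal subgroup of prime index is the kernel of a character onto `ZMod p`. -/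
theorem hp1_exists_chi {G : Type} [Group G] (V : Subgroup G) [V.Normal] {p : ℕ} [Fact p.Prime]
    (hi : V.index = p) :
    ∃ (χ : G →* Multiplicative (ZMod p)) (σ : G), χ.ker = V ∧ χ σ = Multiplicative.ofAdd 1 := by
  subst hi
  have hfi : V.FiniteIndex := ⟨(Fact.out : V.index.Prime).ne_zero⟩
  have hcard : Nat.card (G ⧸ V) = V.index := (Subgroup.index_eq_card V).symm
  obtain ⟨σ, hσ⟩ : ∃ σ : G, σ ∉ V := by
    by_contra hcon
    push Not at hcon
    have : V = ⊤ := eq_top_iff.2 fun g _ => hcon g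
    have h1 : V.index = 1 := by rw [this, Subgroup.index_top]
    exact (Fact.out : V.index.Prime).one_lt.ne' h1
  have hσ1 : (σ : G ⧸ V) ≠ 1 := fun h => hσ ((QuotientGroup.eq_one_iff σ).1 h)
  obtain ⟨-, χ, hker, hχσ, -⟩ := exists_chi_of_cyclic V σ (fun g => by
    obtain ⟨i, hi⟩ := mem_powers_of_prime_card hcard hσ1 (g' := (g : G ⧸ V))
    refine ⟨i, ?_⟩
    apply QuotientGroup.eq.1
    exact hi)
  exact ⟨χ, σ, hker, hχσ⟩

variable {p : ℕ} [Fact p.Prime] {S : Finset Nat.Primes}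

omit [Fact p.Prime] in
theorem hp1_nsmul_zeta {z : KSx S} (hz : IsZeta p z) : p • z = 0 := by
  apply Subtype.ext
  show p • (z : Additive Qbarˣ) = 0
  apply Additive.toMul.injective
  apply Units.ext
  exact hz.pow_eq_one

/-- **G-HP1**, with `rs` and `IsCycData` unfolded. -/
theorem hp1_exists_isCycData {U U₁ : Subgroup GQ} (hU : (P.levS S).IsOpen U)
    (hU₁ : (P.levS S).IsOpen U₁) (hle : U₁ ≤ U) (hω : U ≤ (cycloChar p).ker)
    (hn : (U₁.subgroupOf U).Normal) (hi : U₁.relIndex U = p)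
    {X : GQ × GQ → ZMod p} (hX : IsLev₂ (P.levS S) X) (hc : CocOn (trivQ p) U X)
    {z : KSx S} (hz : IsZeta p z) (hs : SplitOn (P.levS S) (unitsRepS S) U₁ (vz z X)) :
    ∃ (χ : ↥U →* Multiplicative (ZMod p)) (a : KSx S),
      χ.ker = U₁.subgroupOf U ∧ (∀ g ∈ U, unitsRepS S g a = a) ∧
        vz z (X ∘ Prod.map U.subtype U.subtype) - cyc χ a ∈ B2 ((P.levS S).sub U) (rhoS S U) := by
  have hcont := (P.levS S).cont_comap U.subtype
  -- the restricted cocycle
  have hx₀ : X ∘ Prod.map U.subtype U.subtype ∈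
      Z2 ((P.levS S).sub U) (Representation.trivial (ZMod p) U (ZMod p)) := by
    rw [mem_Z2_iff]
    exact ⟨hX.precomp hcont, fun g h j => hc g g.2 h h.2 j j.2⟩
  have hvz := vz_mem_Z2 ((P.levS S).sub U) (rhoS S U) z (hp1_nsmul_zeta hz)
    (fun g => unitsRepS_zeta hz (hω g.2)) ⟨_, hx₀⟩
  obtain ⟨χ, σ, hker, hσ⟩ := hp1_exists_chi (U₁.subgroupOf U) hi
  have hρ : IsDiscrete ((P.levS S).sub U) (rhoS S U) :=
    (smoothRep_isDiscrete _ _).comp hcont
  have hχ : ((P.levS S).sub U).IsOpen χ.ker := by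
    rw [hker]
    exact hU₁.comap hcont
  have hx : SplitOn ((P.levS S).sub U) (rhoS S U) χ.ker
      (vz z (X ∘ Prod.map U.subtype U.subtype)) := by
    rw [hker]
    exact (splitOn_subgroupOf_iff (unitsRepS S) hU hle (vz z X)).2 hs
  obtain ⟨a, ha, hxa⟩ := exists_cyc_of_splitOn hρ hχ (h90_S S U.subtype _) hσ ⟨_, hvz⟩ hx
  exact ⟨χ, a, hker, fun g hg => ha ⟨g, hg⟩, hxa⟩

end Fermat.Agent.S55.G
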