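import Mathlib

/-!
# S55 G-HP5: finite group theory for the dévissage (Mathlib only)
-/

set_option autoImplicit false

namespace Fermat.Agent.S55.G

variable {G : Type*} [Group G] {p : ℕ} [Fact p.Prime]

/-- a group with a normal subgroup `W` of index `p ^ (n+1)` has a normal subgroup `H₁ ⊇ W` of index
`p`. -/
theorem hp5_exists_normal_index_p (W : Subgroup G) [W.Normal] {n : ℕ}
    (hW : W.index = p ^ (n + 1)) :
    ∃ H1 : Subgroup G, H1.Normal ∧ W ≤ H1 ∧ H1.index = p ∧ W.relIndex H1 = p ^ n := by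
  have hp : p.Prime := Fact.out
  have hcard : Nat.card (G ⧸ W) = p ^ (n + 1) := hW
  haveI : Finite (G ⧸ W) := Nat.finite_of_card_ne_zero (by rw [hcard]; exact pow_ne_zero _ hp.ne_zero)
  obtain ⟨K, hK⟩ := Sylow.exists_subgroup_card_pow_prime (G := G ⧸ W) p (n := n)
    (by rw [hcard]; exact pow_dvd_pow p (Nat.le_succ n))
  have hKi : K.index = p := by
    have h1 := K.card_mul_index
    rw [hK, hcard, pow_succ] at h1
    exact Nat.eq_of_mul_eq_mul_left (pow_pos hp.pos n) h1
  have hKn : K.Normal := by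
    apply Subgroup.normal_of_index_eq_minFac_card
    rw [hKi, hcard, hp.pow_minFac (Nat.succ_ne_zero n)]
  have hle : W ≤ K.comap (QuotientGroup.mk' W) := by
    intro w hw
    rw [Subgroup.mem_comap]
    have : QuotientGroup.mk' W w = 1 := (QuotientGroup.eq_one_iff w).mpr hw
    rw [this]
    exact one_mem _
  have hidx : (K.comap (QuotientGroup.mk' W)).index = p := by
    rw [Subgroup.index_comap_of_surjective _ (QuotientGroup.mk'_surjective W), hKi]
  refine ⟨K.comap (QuotientGroup.mk' W), hKn.comap _, hle, hidx, ?_⟩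
  have h2 := Subgroup.relIndex_mul_index hle
  rw [hidx, hW, pow_succ] at h2
  exact Nat.eq_of_mul_eq_mul_right hp.pos h2

/-- preimage of a Sylow `p`-subgroup of `G ⧸ W`. -/
theorem hp5_exists_sylow_over (W : Subgroup G) [W.Normal] [W.FiniteIndex] :
    ∃ (U : Subgroup G) (n : ℕ), W ≤ U ∧ W.relIndex U = p ^ n ∧ ¬ p ∣ U.index := by
  have : Finite (G ⧸ W) := Subgroup.finite_quotient_of_finiteIndex
  obtain ⟨P⟩ : Nonempty (Sylow p (G ⧸ W)) := inferInstance
  obtain ⟨n, hn⟩ := (P.2).exists_card_eq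
  have hle : W ≤ (P : Subgroup (G ⧸ W)).comap (QuotientGroup.mk' W) := by
    intro w hw
    rw [Subgroup.mem_comap]
    have : QuotientGroup.mk' W w = 1 := (QuotientGroup.eq_one_iff w).mpr hw
    rw [this]
    exact one_mem _
  have hidx : ((P : Subgroup (G ⧸ W)).comap (QuotientGroup.mk' W)).index
      = (P : Subgroup (G ⧸ W)).index :=
    Subgroup.index_comap_of_surjective _ (QuotientGroup.mk'_surjective W)
  refine ⟨(P : Subgroup (G ⧸ W)).comap (QuotientGroup.mk' W), n, hle, ?_, ?_⟩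
  · have h2 := Subgroup.relIndex_mul_index hle
    have h3 := (P : Subgroup (G ⧸ W)).card_mul_index
    rw [hidx] at h2
    have h4 : W.index = Nat.card (G ⧸ W) := rfl
    rw [h4, ← h3] at h2
    have hpos : 0 < (P : Subgroup (G ⧸ W)).index :=
      Nat.pos_of_ne_zero Subgroup.FiniteIndex.index_ne_zero
    rw [← hn]
    exact Nat.eq_of_mul_eq_mul_right hpos h2
  · rw [hidx]
    exact P.not_dvd_index

/-- relative version of `hp5_exists_normal_index_p`. -/
theorem hp5_exists_step {W P' : Subgroup G} (hWn : W.Normal) (hWP : W ≤ P') {r : ℕ}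
    (hr : W.relIndex P' = p ^ (r + 1)) :
    ∃ P₁ : Subgroup G, W ≤ P₁ ∧ P₁ ≤ P' ∧ (P₁.subgroupOf P').Normal ∧ P₁.relIndex P' = p ∧
      W.relIndex P₁ = p ^ r := by
  haveI : (W.subgroupOf P').Normal := hWn.subgroupOf P'
  obtain ⟨H1, hH1n, hle, hidx, hrel⟩ := hp5_exists_normal_index_p (p := p) (W.subgroupOf P') hr
  have hsub : (H1.map P'.subtype).subgroupOf P' = H1 :=
    Subgroup.comap_map_eq_self_of_injective Subtype.val_injective H1
  have hWmap : (W.subgroupOf P').map P'.subtype = W := by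
    rw [Subgroup.subgroupOf_map_subtype, inf_eq_left.2 hWP]
  refine ⟨H1.map P'.subtype, ?_, Subgroup.map_subtype_le H1, ?_, ?_, ?_⟩
  · rw [← hWmap]
    exact Subgroup.map_mono hle
  · rw [hsub]; exact hH1n
  · rw [Subgroup.relIndex, hsub, hidx]
  · rw [← hrel]
    conv_lhs => rw [← hWmap]
    exact Subgroup.relIndex_map_map_of_injective _ _ Subtype.val_injective

/-- relative version of `hp5_exists_sylow_over`. -/
theorem hp5_exists_sylow {W U : Subgroup G} (hWn : W.Normal) (hWf : W.FiniteIndex) (hWU : W ≤ U) :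
    ∃ (P' : Subgroup G) (r : ℕ), W ≤ P' ∧ P' ≤ U ∧ W.relIndex P' = p ^ r ∧
      ¬ p ∣ P'.relIndex U := by
  haveI : (W.subgroupOf U).Normal := hWn.subgroupOf U
  haveI : (W.subgroupOf U).FiniteIndex := by
    refine ⟨?_⟩
    have : W.IsFiniteRelIndex U := Subgroup.isFiniteRelIndex_of_finiteIndex
    exact Subgroup.relIndex_ne_zero
  obtain ⟨H, r, hle, hrel, hnd⟩ := hp5_exists_sylow_over (p := p) (W.subgroupOf U)
  have hsub : (H.map U.subtype).subgroupOf U = H :=
    Subgroup.comap_map_eq_self_of_injective Subtype.val_injective H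
  have hWmap : (W.subgroupOf U).map U.subtype = W := by
    rw [Subgroup.subgroupOf_map_subtype, inf_eq_left.2 hWU]
  refine ⟨H.map U.subtype, r, ?_, Subgroup.map_subtype_le H, ?_, ?_⟩
  · rw [← hWmap]
    exact Subgroup.map_mono hle
  · rw [← hrel]
    conv_lhs => rw [← hWmap]
    exact Subgroup.relIndex_map_map_of_injective _ _ Subtype.val_injective
  · rw [Subgroup.relIndex, hsub]; exact hnd

/-- Bézout in an additive group -/
theorem hp5_eq_zero_of_coprime {A : Type*} [AddCommGroup A] {a : A} {m n : ℕ}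
    (hmn : Nat.Coprime m n) (hm : m • a = 0) (hn : n • a = 0) : a = 0 := by
  have h1 := addOrderOf_dvd_of_nsmul_eq_zero hm
  have h2 := addOrderOf_dvd_of_nsmul_eq_zero hn
  have h3 : addOrderOf a ∣ 1 := hmn ▸ Nat.dvd_gcd h1 h2
  exact AddMonoid.addOrderOf_eq_one_iff.1 (Nat.dvd_one.1 h3)

end Fermat.Agent.S55.G
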