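import Fermat.Agent.S55.G.HPStep
import Fermat.Agent.S55.L.C0.Index
import Fermat.Agent.S55.G.HPGroupAux

/-!
# S55 G-HP (main): the Hasse principle for `H²(U, μ_p) → H²(U, 𝕂_Sˣ)`, by dévissage

`X` an `S`-level cochain on `GQ`, cocycle on the `S`-open subgroup `U ≤ ker ω`, locally trivial above `S`.
Then `vz z X` (`= ζ ^ X`) is the coboundary on `U` of an `S`-level cochain with values in `𝕂_Sˣ`.
-/

set_option autoImplicit false

namespace Fermat.Agent.S55.G

open ExtCitation Fermat.Agent.S55.L.C0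

local notation "Qbar" => AlgebraicClosure ℚ
local notation "GQ" => (AlgebraicClosure ℚ ≃ₐ[ℚ] AlgebraicClosure ℚ)

variable {p : ℕ} [Fact p.Prime] {S : Finset Nat.Primes}

lemma CocOn.mono {k : Type*} [CommRing k] {G : Type} [Group G] {A : Type*} [AddCommGroup A]
    [Module k A] {ρ : Representation k G A} {U U' : Subgroup G} (h : U' ≤ U) {x : G × G → A}
    (hx : CocOn ρ U x) : CocOn ρ U' x :=
  fun g hg h' hh j hj => hx g (h hg) h' (h hh) j (h hj)

/-- **G-HP5a**.  PROOF: `IsLev₂.exists_normal` gives a normal level `W₀` under which `X` is invariant;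
`U` contains a level; take a normal level `W ≤ W₀ ⊓ U` (`Lev.exists_normal_le_of_finite` or
`directed` + `normal`).  On `W × W`, `X` is constant `= X (1,1) =: c`, and `y := fun _ => c.val • z`
works: `z` is fixed by `W ≤ U ≤ ker ω` (same computation as `L.C0.exists_splitOn`). -/
theorem exists_level_splitOn {U : Subgroup GQ} (hU : (P.levS S).IsOpen U)
    (hω : U ≤ (cycloChar p).ker) {X : GQ × GQ → ZMod p} (hX : IsLev₂ (P.levS S) X)
    {z : KSx S} (hz : IsZeta p z) :
    ∃ W ∈ (P.levS S).sets, W.Normal ∧ W ≤ U ∧ SplitOn (P.levS S) (unitsRepS S) W (vz z X) := by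
  obtain ⟨W₀, hW₀, -, hr, -⟩ := hX.exists_normal
  obtain ⟨W, hW, hWn, hWle⟩ := ((Lev.isOpen_of_mem hW₀).inf hU).exists_normal
  refine ⟨W, hW, hWn, hWle.trans inf_le_right, fun _ => (X (1, 1)).val • z,
    isLev₁_const _ _, fun u hu u' hu' => ?_⟩
  have h1 : X (u, u') = X (1, 1) := by
    simpa using hr 1 1 u (hWle hu).1 u' (hWle hu').1
  have h2 : unitsRepS S u z = z := unitsRepS_zeta hz (hω (hWle hu).2)
  rw [vz_apply, h1, map_nsmul, h2]
  abel

/-- **G-HP5b** (`p`-groups).  PROOF by induction on `r`.  `r = 0`: `P' = W`.  `r + 1`: `P' / W` is a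
group of order `p ^ (r+1)`; it has a normal subgroup of index `p` (a maximal subgroup of a finite
`p`-group is normal of index `p`; or: the centre is nontrivial + induction; or
`Sylow.exists_subgroup_card_pow_prime` + `IsPGroup` normaliser growth; see also `F/RT/PGroup.lean`);
its preimage `P₁` satisfies `W ≤ P₁ ≤ P'`, `P₁.subgroupOf P'` normal, `P₁.relIndex P' = p`,
`W.relIndex P₁ = p ^ r`.  Apply the induction hypothesis to `P₁` and `hp_step` to `(P', P₁)`
(`CocOn.mono`, `LocTriv.mono`, openness: both contain the level `W`). -/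
theorem splitOn_of_pgroup (hp2 : p ≠ 2) (hpS : pPrime p ∈ S) {U : Subgroup GQ}
    (hω : U ≤ (cycloChar p).ker) {X : GQ × GQ → ZMod p} (hX : IsLev₂ (P.levS S) X)
    (hc : CocOn (trivQ p) U X) (hloc : LocTriv S U X) {z : KSx S} (hz : IsZeta p z)
    {W : Subgroup GQ} (hW : W ∈ (P.levS S).sets) (hWn : W.Normal)
    (hs : SplitOn (P.levS S) (unitsRepS S) W (vz z X)) (r : ℕ) (P' : Subgroup GQ) (hWP : W ≤ P')
    (hPU : P' ≤ U) (hr : W.relIndex P' = p ^ r) :
    SplitOn (P.levS S) (unitsRepS S) P' (vz z X) := by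
  induction r generalizing P' with
  | zero =>
    rw [pow_zero, Subgroup.relIndex_eq_one] at hr
    exact hs.mono hr
  | succ r ih =>
    obtain ⟨P₁, hWP₁, hP₁P, hn, hi, hr₁⟩ := hp5_exists_step hWn hWP hr
    have hs₁ := ih P₁ hWP₁ (hP₁P.trans hPU) hr₁
    exact hp_step hp2 hpS ⟨W, hW, hWP⟩ ⟨W, hW, hWP₁⟩ hP₁P (hPU.trans hω) hn hi hX (hc.mono hPU)
      (hloc.mono hPU) hz hs₁

theorem hp5_nsmul_zeta {z : KSx S} (hz : IsZeta p z) : p • z = 0 := by
  apply Subtype.ext
  have h := hz.pow_eq_one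
  have h2 : (Additive.toMul (z : Additive Qbarˣ)) ^ p = 1 := Units.ext (by simpa using h)
  exact congrArg Additive.ofMul h2

theorem hp5_mod_nsmul {A : Type*} [AddCommGroup A] {z : A} (hpz : p • z = 0) (m : ℕ) :
    (m % p) • z = m • z := by
  conv_rhs => rw [← Nat.div_add_mod m p, add_nsmul, mul_comm, mul_smul, hpz, smul_zero, zero_add]

theorem hp5_val_add_nsmul {A : Type*} [AddCommGroup A] {z : A} (hpz : p • z = 0) (a b : ZMod p) :
    (a + b).val • z = a.val • z + b.val • z := by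
  rw [ZMod.val_add, hp5_mod_nsmul hpz, add_nsmul]

/-- `vz z (rs U X)` is a level cocycle on `↥U`. -/
theorem hp5_vz_mem_Z2 {U : Subgroup GQ} (hω : U ≤ (cycloChar p).ker) {X : GQ × GQ → ZMod p}
    (hX : IsLev₂ (P.levS S) X) (hc : CocOn (trivQ p) U X) {z : KSx S} (hz : IsZeta p z) :
    (vz z X) ∘ Prod.map U.subtype U.subtype ∈ Z2 ((P.levS S).sub U) (rhoS S U) := by
  have hpz := hp5_nsmul_zeta hz
  rw [mem_Z2_iff]
  refine ⟨(hX.comp (fun c : ZMod p => c.val • z)).precomp ((P.levS S).cont_comap U.subtype),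
    fun g h j => ?_⟩
  have h1 := hc g g.2 h h.2 j j.2
  have h2 : unitsRepS S (g : GQ) z = z := unitsRepS_zeta hz (hω g.2)
  show (X ((g : GQ) * h, j)).val • z + (X ((g : GQ), (h : GQ))).val • z
    = unitsRepS S (g : GQ) ((X ((h : GQ), (j : GQ))).val • z) + (X ((g : GQ), (h : GQ) * j)).val • z
  rw [map_nsmul, h2, ← hp5_val_add_nsmul hpz, ← hp5_val_add_nsmul hpz, h1]
  rfl

/-- **G-HP5c** (Sylow + index).  PROOF.  `W` from `exists_level_splitOn`.  Let `P'` be the preimage in `U`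
of a Sylow `p`-subgroup of the finite group `U / W` : `W ≤ P' ≤ U`, `W.relIndex P' = p ^ r`,
`p ∤ P'.relIndex U`.  `splitOn_of_pgroup` gives `SplitOn .. P' (vz z X)`.  On the ambient group `↥U`:
`y := vz z (rs U X) ∈ Z2 ((P.levS S).sub U) (rhoS S U)`, split on `P'.subgroupOf U`
(`splitOn_subgroupOf_iff`), so `(P'.subgroupOf U).index • [y] = 0` (`index_smul_eq_zero`); also
`p • [y] = 0` since `p • z = 0`.  Bézout: `[y] = 0`, i.e. `y ∈ B2`; extend the cochain by zero
(`exists_extend`). -/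
theorem hp_main (hp2 : p ≠ 2) (hpS : pPrime p ∈ S) {U : Subgroup GQ}
    (hU : (P.levS S).IsOpen U) (hω : U ≤ (cycloChar p).ker) {X : GQ × GQ → ZMod p}
    (hX : IsLev₂ (P.levS S) X) (hc : CocOn (trivQ p) U X) (hloc : LocTriv S U X) {z : KSx S}
    (hz : IsZeta p z) :
    SplitOn (P.levS S) (unitsRepS S) U (vz z X) := by
  have hp : p.Prime := Fact.out
  have hpz := hp5_nsmul_zeta hz
  obtain ⟨W, hW, hWn, hWU, hs⟩ := exists_level_splitOn hU hω hX hz
  obtain ⟨P', r, hWP, hPU, hr, hnd⟩ :=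
    hp5_exists_sylow (p := p) hWn ((P.levS S).finiteIndex W hW) hWU
  have hsP := splitOn_of_pgroup hp2 hpS hω hX hc hloc hz hW hWn hs r P' hWP hPU hr
  set y : ↥(Z2 ((P.levS S).sub U) (rhoS S U)) := ⟨_, hp5_vz_mem_Z2 hω hX hc hz⟩ with hy
  have hdisc : IsDiscrete ((P.levS S).sub U) (rhoS S U) :=
    (smoothRep_isDiscrete _ _).comp ((P.levS S).cont_comap U.subtype)
  have hopen : ((P.levS S).sub U).IsOpen (P'.subgroupOf U) :=
    ⟨W.comap U.subtype, ⟨W, hW, rfl⟩, Subgroup.comap_mono hWP⟩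
  have h1 : (P'.subgroupOf U).index • H2π ((P.levS S).sub U) (rhoS S U) y = 0 :=
    index_smul_eq_zero hdisc hopen y ((splitOn_subgroupOf_iff _ hU hPU (vz z X)).2 hsP)
  have h2 : p • H2π ((P.levS S).sub U) (rhoS S U) y = 0 := by
    rw [← map_nsmul]
    have : p • y = 0 := by
      apply Subtype.ext
      funext t
      show p • ((X (Prod.map U.subtype U.subtype t)).val • z) = 0
      rw [smul_comm, hpz, smul_zero]
    rw [this, map_zero]
  have hcop : Nat.Coprime p (P'.subgroupOf U).index := (Nat.Prime.coprime_iff_not_dvd hp).2 hnd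
  have h3 := hp5_eq_zero_of_coprime hcop h2 h1
  rw [H2π_eq_zero_iff] at h3
  exact (splitOn_subgroupOf_iff _ hU le_rfl (vz z X)).1 (splitOn_of_mem_B2 _ h3)

end Fermat.Agent.S55.G
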