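import Fermat.Agent.S55.G.Ord
import Fermat.Agent.S55.P.Roots

/-!
# S55 G-K1: Kummer theory for `G_S`:  `H¹(U, 𝔽_p) ≃ VS / Kˣᵖ`

`K` unramified outside `S ∋ p`, `μ_p ⊂ K`, `U = K.fixingSubgroup`, levels `(P.levS S).sub U`.

PROOF.  Fix `ζ ∈ K` a primitive `p`-th root of unity (`U ≤ ker (cycloChar p)` says that `U` fixes
the `p`-th roots of unity of `ℚ̄`, so they lie in `K` by Galois theory).
`H1 L triv = Z1 L triv` (`B1 = 0` for the trivial representation) `=` level homomorphisms `U → ZMod p`.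
Map `κ : VS p (SK S K) → Z1`: for `a`, choose `α ∈ ℚ̄` with `α ^ p = a`; `κ a g := i` with
`g α = ζ ^ i * α`.  It is a homomorphism in `g` (as `g ζ = ζ`), independent of `α`, additive in `a`.
LEVEL: `K(α)` is unramified outside `S` by `P.isUnramifiedOutside_adjoin_root` (`n = p`): for `A` over
`q ∉ S`, `v := primeUnder K A`, `p ∣ ordv v a = - ordA A q a`, take `c := q ^ (ordA A q a / p)`.
KERNEL: `κ a = 0` iff `α` is fixed by `U` iff `α ∈ K` iff `a ∈ Kˣᵖ`.
SURJECTIVE: `χ : U → ZMod p` a level homomorphism; `g ↦ χ g • z` is a level 1-cocycle with values in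
`𝕂_Sˣ`; by `h90_S` it is `g ↦ g m - m`, `m ∈ 𝕂_Sˣ`; `a := m ^ p` is fixed by `U`, so `a ∈ K`; and
`ordA A q a = p * ordA A q m`, so `a ∈ VS` (`ordv_eq_neg_ordA`; every `v ∉ SK S K` is
`primeUnder K A` for some `A` over some `q ∉ S`: `P.exists_place_over`).
-/

set_option autoImplicit false

namespace Fermat.Agent.S55.G

open ExtCitation NumberField IsDedekindDomain
open scoped Pointwise

local notation "Qbar" => AlgebraicClosure ℚ
local notation "GQ" => (AlgebraicClosure ℚ ≃ₐ[ℚ] AlgebraicClosure ℚ)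

/-! ### discrete logarithm -/

open Classical in
/-- the discrete logarithm in base `ζ` -/
noncomputable def k1log (p : ℕ) (ζ x : Qbar) : ZMod p :=
  if h : ∃ i : ZMod p, ζ ^ i.val = x then h.choose else 0

section log

variable {p : ℕ} [Fact p.Prime] {ζ : Qbar} (hζ : IsPrimitiveRoot ζ p)
include hζ

theorem k1log_spec {x : Qbar} (hx : x ^ p = 1) : ζ ^ (k1log p ζ x).val = x := by
  have hp : p.Prime := Fact.out
  have h : ∃ i : ZMod p, ζ ^ i.val = x := by
    obtain ⟨i, hi, rfl⟩ := hζ.eq_pow_of_pow_eq_one hx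
    exact ⟨(i : ZMod p), by rw [ZMod.val_natCast, Nat.mod_eq_of_lt hi]⟩
  rw [k1log, dif_pos h]
  exact h.choose_spec

theorem k1_pow_val_inj {i j : ZMod p} (h : ζ ^ i.val = ζ ^ j.val) : i = j :=
  ZMod.val_injective p (hζ.pow_inj (ZMod.val_lt i) (ZMod.val_lt j) h)

theorem k1log_pow (i : ZMod p) : k1log p ζ (ζ ^ i.val) = i := by
  apply k1_pow_val_inj hζ
  rw [k1log_spec hζ]
  rw [← pow_mul, mul_comm, pow_mul, hζ.pow_eq_one, one_pow]

theorem k1_pow_val_add (i j : ZMod p) : ζ ^ (i + j).val = ζ ^ i.val * ζ ^ j.val := by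
  rw [← pow_add, ZMod.val_add, ← pow_eq_pow_mod _ hζ.pow_eq_one]

theorem k1log_mul {x y : Qbar} (hx : x ^ p = 1) (hy : y ^ p = 1) :
    k1log p ζ (x * y) = k1log p ζ x + k1log p ζ y := by
  apply k1_pow_val_inj hζ
  rw [k1log_spec hζ (by rw [mul_pow, hx, hy, one_mul]), k1_pow_val_add hζ, k1log_spec hζ hx,
    k1log_spec hζ hy]

theorem k1log_eq_zero_iff {x : Qbar} (hx : x ^ p = 1) : k1log p ζ x = 0 ↔ x = 1 := by
  constructor
  · intro h
    have := k1log_spec hζ hx
    rw [h, ZMod.val_zero, pow_zero] at this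
    exact this.symm
  · rintro rfl
    have := k1log_pow hζ 0
    rwa [ZMod.val_zero, pow_zero] at this

end log
theorem k1_cycloChar_spec (p : ℕ) [Fact p.Prime] (σ : GQ) {ζ : Qbar} (hζ : ζ ^ p = 1) :
    σ ζ = ζ ^ ((cycloChar p σ : (ZMod p)ˣ) : ZMod p).val := by
  have : NeZero p := ⟨(Fact.out : p.Prime).ne_zero⟩
  have hz : ζ ≠ 0 := by
    rintro rfl
    rw [zero_pow (Fact.out : p.Prime).ne_zero] at hζ
    exact zero_ne_one hζ
  have hmem : Units.mk0 ζ hz ∈ rootsOfUnity p Qbar := by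
    rw [mem_rootsOfUnity]
    ext
    simpa using hζ
  have := modularCyclotomicCharacter.spec (L := Qbar) (card_rootsOfUnity_eq_self p)
    (σ : Qbar ≃+* Qbar) hmem
  exact this

theorem k1_fix_of_mem_ker (p : ℕ) [Fact p.Prime] {σ : GQ} (hσ : σ ∈ (cycloChar p).ker)
    {ζ : Qbar} (hζ : ζ ^ p = 1) : σ ζ = ζ := by
  have h1 := k1_cycloChar_spec p σ hζ
  have : Fact (1 < p) := ⟨(Fact.out : p.Prime).one_lt⟩
  rwa [MonoidHom.mem_ker.1 hσ, Units.val_one, ZMod.val_one, pow_one] at h1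

theorem k1_exists_primitiveRoot (p : ℕ) [Fact p.Prime] : ∃ ζ : Qbar, IsPrimitiveRoot ζ p := by
  have : NeZero p := ⟨(Fact.out : p.Prime).ne_zero⟩
  have : NeZero (p : Qbar) := ⟨Nat.cast_ne_zero.mpr (NeZero.ne p)⟩
  exact HasEnoughRootsOfUnity.exists_primitiveRoot Qbar p

/-- there is a primitive `p`-th root of unity in `𝕂_S` -/
theorem exists_isZeta {p : ℕ} [Fact p.Prime] {S : Finset Nat.Primes} (hpS : pPrime p ∈ S) :
    ∃ z : KSx S, IsZeta p z := by
  obtain ⟨ζ, hζ⟩ := k1_exists_primitiveRoot p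
  have hp : p.Prime := Fact.out
  have h0 : ζ ≠ 0 := hζ.ne_zero hp.ne_zero
  refine ⟨⟨Additive.ofMul (Units.mk0 ζ h0), ?_⟩, hζ⟩
  rw [mem_KSx_iff]
  refine ⟨IntermediateField.adjoin ℚ {ζ}, P.isUnramifiedOutside_adjoin_rootOfUnity hp.pos ?_
    hζ.pow_eq_one, IntermediateField.mem_adjoin_simple_self ℚ ζ⟩
  intro q hq
  have : q = pPrime p := Subtype.ext ((Nat.prime_dvd_prime_iff_eq q.2 hp).1 hq)
  rw [this]; exact hpS

/-- in general `g z = ω(g) z` -/
theorem unitsRepS_zeta' {p : ℕ} [Fact p.Prime] {S : Finset Nat.Primes} {z : KSx S}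
    (hz : IsZeta p z) (g : GQ) : unitsRepS S g z = ((cycloChar p g : (ZMod p)ˣ) : ZMod p).val • z := by
  apply Subtype.ext
  apply Additive.toMul.injective
  apply Units.ext
  have h1 := k1_cycloChar_spec p g hz.pow_eq_one
  rw [smoothRep_apply_coe, coe_toMul_unitsRep, h1]
  simp

/-- `U ≤ ker ω` fixes `z` -/
theorem unitsRepS_zeta {p : ℕ} [Fact p.Prime] {S : Finset Nat.Primes} {z : KSx S}
    (hz : IsZeta p z) {g : GQ} (hg : g ∈ (cycloChar p).ker) : unitsRepS S g z = z := by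
  have : Fact (1 < p) := ⟨(Fact.out : p.Prime).one_lt⟩
  rw [unitsRepS_zeta' hz g, MonoidHom.mem_ker.1 hg, Units.val_one, ZMod.val_one, one_smul]

theorem k1_not_mem_SK {S : Finset Nat.Primes} (K : IntermediateField ℚ Qbar) [NumberField K]
    {q : Nat.Primes} (hq : q ∉ S) {A : ValuationSubring Qbar} (hA : A.LiesOverPrime (q : ℕ))
    (v : H.Pl K) (hv : v.asIdeal = P.primeUnder K A) : v ∉ SK S K := by
  rintro ⟨q', hq'S, hmem⟩
  rw [hv, P.mem_primeUnder] at hmem
  have h : ((((q' : ℕ) : 𝓞 K) : K) : Qbar) = ((q' : ℕ) : Qbar) := by simp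
  rw [h] at hmem
  refine P.roots_natCast_not_mem_nonunits q.2 hA ?_ hmem
  intro hd
  have : q = q' := Subtype.ext ((Nat.prime_dvd_prime_iff_eq q.2 q'.2).1 hd)
  exact hq (this ▸ hq'S)

theorem k1_mem_KSx {S : Finset Nat.Primes} {K : IntermediateField ℚ Qbar}
    (hK : K.IsUnramifiedOutside S) (u : Qbarˣ) (hu : (u : Qbar) ∈ K) :
    Additive.ofMul u ∈ KSx S := by
  rw [mem_KSx_iff]
  exact ⟨K, hK, hu⟩

theorem k1_unram {p : ℕ} [Fact p.Prime] {S : Finset Nat.Primes} (hpS : pPrime p ∈ S)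
    (K : IntermediateField ℚ Qbar) [NumberField K] (hK : K.IsUnramifiedOutside S)
    (a : Kˣ) (ha : a ∈ VS p (SK S K)) {b : Qbar} (hb : b ^ p = ((a : K) : Qbar)) :
    (K ⊔ IntermediateField.adjoin ℚ {b}).IsUnramifiedOutside S := by
  have hp : p.Prime := Fact.out
  have ha0 : ((a : K) : Qbar) ≠ 0 := by
    simp
  refine P.isUnramifiedOutside_adjoin_root hK hp.pos ?_ (a : K).2 hb ?_
  · intro q hq
    have : q = pPrime p := Subtype.ext ((Nat.prime_dvd_prime_iff_eq q.2 hp).1 hq)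
    rw [this]; exact hpS
  · intro q hq A hA
    let v : H.Pl K := ⟨P.primeUnder K A, inferInstance, P.primeUnder_ne_bot q.2.ne_zero hA⟩
    have hv : v ∉ SK S K := k1_not_mem_SK K hq hA v rfl
    obtain ⟨k, hk⟩ := ha v hv
    have h1 := ordv_eq_neg_ordA K hK hq A hA v rfl a
    have hord : HasOrd A q ((a : K) : Qbar) :=
      hasOrd_of_mem_KSx hq hA ⟨Additive.ofMul (Units.mk0 _ ha0), k1_mem_KSx hK _ (a : K).2⟩
    have h2 := (ordA_eq_iff hA _ hord).1 rfl
    have hq0 : ((q : ℕ) : Qbar) ≠ 0 := by exact_mod_cast q.2.ne_zero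
    refine ⟨((q : ℕ) : Qbar) ^ (-k), zpow_mem (natCast_mem K _) _, zpow_ne_zero _ hq0, ?_⟩
    have h3 : - ordA A q ((a : K) : Qbar) = p * k := by rw [← h1, hk]
    rw [h3] at h2
    have h4 : ((a : K) : Qbar) / (((q : ℕ) : Qbar) ^ (-k)) ^ p
        = ((a : K) : Qbar) * ((q : ℕ) : Qbar) ^ ((p : ℤ) * k) := by
      rw [div_eq_mul_inv, ← zpow_natCast, ← zpow_mul, ← zpow_neg]
      congr 2
      ring
    rw [h4]; exact h2

theorem k1_mem_VS {p : ℕ} [Fact p.Prime] {S : Finset Nat.Primes}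
    (K : IntermediateField ℚ Qbar) [NumberField K] (hK : K.IsUnramifiedOutside S)
    (a : Kˣ) (m : KSx S) (hm : toQ m ^ p = ((a : K) : Qbar)) : a ∈ VS p (SK S K) := by
  intro v hv
  obtain ⟨q, hq, g, hg⟩ := P.exists_place_over K v
  have hA : (g • padicPlace q).LiesOverPrime q :=
    (P.liesOverPrime_smul_iff _ g q).2 (P.padicPlace_liesOverPrime q)
  have hqS : (⟨q, hq.out⟩ : Nat.Primes) ∉ S := by
    intro h
    apply hv
    refine ⟨_, h, ?_⟩
    rw [hg]
    exact P.natCast_mem_primeUnder hA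
  have h1 := ordv_eq_neg_ordA K hK hqS (g • padicPlace q) hA v hg a
  rw [h1, ← hm]
  have h2 := ordA_pow hA (hasOrd_of_mem_KSx hqS hA m) p
  rw [toQ]
  erw [h2]
  exact (dvd_neg).2 (Dvd.intro _ rfl)


/-! ### the Kummer cochain -/

/-- a `p`-th root -/
noncomputable def k1root (p : ℕ) [Fact p.Prime] (a : Qbar) : Qbar :=
  (IsAlgClosed.exists_pow_nat_eq a (Fact.out : p.Prime).pos).choose

theorem k1root_pow (p : ℕ) [Fact p.Prime] (a : Qbar) : k1root p a ^ p = a :=
  (IsAlgClosed.exists_pow_nat_eq a (Fact.out : p.Prime).pos).choose_spec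

/-- the Kummer cochain -/
noncomputable def k1kap (p : ℕ) [Fact p.Prime] (ζ a : Qbar) (g : GQ) : ZMod p :=
  k1log p ζ (g (k1root p a) / k1root p a)

theorem k1_div_pow {p : ℕ} {g : GQ} {a β : Qbar} (ha : a ≠ 0) (hga : g a = a)
    (hβ : β ^ p = a) : (g β / β) ^ p = 1 := by
  rw [div_pow, ← map_pow, hβ, hga, div_self ha]

theorem k1kap_eq {p : ℕ} [Fact p.Prime] (ζ : Qbar) {g : GQ} (hg : g ∈ (cycloChar p).ker)
    {a β : Qbar} (ha : a ≠ 0) (hβ : β ^ p = a) :
    k1kap p ζ a g = k1log p ζ (g β / β) := by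
  have hp : p.Prime := Fact.out
  have hα := k1root_pow p a
  have hα0 : k1root p a ≠ 0 := by
    intro h; rw [h, zero_pow hp.ne_zero] at hα; exact ha hα.symm
  have hβ0 : β ≠ 0 := by
    intro h; rw [h, zero_pow hp.ne_zero] at hβ; exact ha hβ.symm
  have h1 : (β / k1root p a) ^ p = 1 := by rw [div_pow, hα, hβ, div_self ha]
  have h2 := k1_fix_of_mem_ker p hg h1
  rw [map_div₀] at h2
  have hgα0 : g (k1root p a) ≠ 0 := (map_ne_zero _).2 hα0
  rw [k1kap]
  congr 1
  rw [div_eq_div_iff hgα0 hα0] at h2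
  rw [div_eq_div_iff hα0 hβ0]
  linear_combination -h2

theorem k1_mem_of_fixed (K : IntermediateField ℚ Qbar) {x : Qbar}
    (h : ∀ g ∈ K.fixingSubgroup, g x = x) : x ∈ K := by
  have : IsGalois ℚ Qbar := Fermat.Agent.Lib.FrobeniusExists.isGalois_algebraicClosure_rat
  rw [← InfiniteGalois.fixedField_fixingSubgroup K, IntermediateField.mem_fixedField_iff]
  exact h

section main

variable {p : ℕ} [Fact p.Prime] {S : Finset Nat.Primes}
  (K : IntermediateField ℚ Qbar) [NumberField K]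

theorem k1kap_mem_Z1 (hpS : pPrime p ∈ S) (hK : K.IsUnramifiedOutside S)
    (hω : K.fixingSubgroup ≤ (cycloChar p).ker) {ζ : Qbar} (hζ : IsPrimitiveRoot ζ p)
    (a : Kˣ) (ha : a ∈ VS p (SK S K)) :
    (fun g : K.fixingSubgroup => k1kap p ζ ((a : K) : Qbar) (g : GQ)) ∈
      Z1 ((P.levS S).sub K.fixingSubgroup)
        (Representation.trivial (ZMod p) K.fixingSubgroup (ZMod p)) := by
  have ha0 : ((a : K) : Qbar) ≠ 0 := by simp
  have hfix : ∀ g ∈ K.fixingSubgroup, g ((a : K) : Qbar) = ((a : K) : Qbar) := fun g hg =>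
    (IntermediateField.mem_fixingSubgroup_iff _ _).1 hg _ (a : K).2
  have hα := k1root_pow p ((a : K) : Qbar)
  rw [mem_Z1_iff]
  constructor
  · refine ⟨_, ⟨_, ⟨_, k1_unram hpS K hK a ha hα, rfl⟩, rfl⟩, ?_⟩
    intro g u hu
    have hu' : (u : GQ) ∈ (K ⊔ IntermediateField.adjoin ℚ
        {k1root p ((a : K) : Qbar)}).fixingSubgroup := hu
    have h1 : (u : GQ) (k1root p ((a : K) : Qbar)) = k1root p ((a : K) : Qbar) :=
      (IntermediateField.mem_fixingSubgroup_iff _ _).1 hu' _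
        ((le_sup_right : _ ≤ K ⊔ _) (IntermediateField.mem_adjoin_simple_self ℚ _))
    show k1kap p ζ _ ((g : GQ) * (u : GQ)) = k1kap p ζ _ (g : GQ)
    rw [k1kap, k1kap, AlgEquiv.mul_apply, h1]
  · intro g h
    show k1kap p ζ _ ((g : GQ) * (h : GQ)) = k1kap p ζ _ (h : GQ) + k1kap p ζ _ (g : GQ)
    have h1 := k1_div_pow ha0 (hfix h h.2) hα
    have h2 := k1_div_pow ha0 (hfix g g.2) hα
    rw [k1kap, k1kap, k1kap, ← k1log_mul hζ h1 h2]
    congr 1
    have h3 := k1_fix_of_mem_ker p (hω g.2) h1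
    have hα0 : k1root p ((a : K) : Qbar) ≠ 0 := by
      intro h; rw [h, zero_pow (Fact.out : p.Prime).ne_zero] at hα; exact ha0 hα.symm
    rw [AlgEquiv.mul_apply]
    conv_rhs => rw [← h3]
    rw [map_div₀]
    have hgα0 : (g : GQ) (k1root p ((a : K) : Qbar)) ≠ 0 := (map_ne_zero _).2 hα0
    field_simp

end main

section main2

variable {p : ℕ} [Fact p.Prime] {S : Finset Nat.Primes}
  (K : IntermediateField ℚ Qbar) [NumberField K]

omit [NumberField K] in
theorem k1kap_mul (hω : K.fixingSubgroup ≤ (cycloChar p).ker) {ζ : Qbar}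
    (hζ : IsPrimitiveRoot ζ p) (a b : Kˣ) (g : K.fixingSubgroup) :
    k1kap p ζ (((a * b : Kˣ) : K) : Qbar) (g : GQ) =
      k1kap p ζ ((a : K) : Qbar) (g : GQ) + k1kap p ζ ((b : K) : Qbar) (g : GQ) := by
  have ha0 : ((a : K) : Qbar) ≠ 0 := by simp
  have hb0 : ((b : K) : Qbar) ≠ 0 := by simp
  have hab0 : (((a * b : Kˣ) : K) : Qbar) ≠ 0 := by simp
  have hfix : ∀ x : K, (g : GQ) (x : Qbar) = (x : Qbar) := fun x =>
    (IntermediateField.mem_fixingSubgroup_iff _ _).1 g.2 _ x.2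
  have hα := k1root_pow p ((a : K) : Qbar)
  have hβ := k1root_pow p ((b : K) : Qbar)
  have hαβ : (k1root p ((a : K) : Qbar) * k1root p ((b : K) : Qbar)) ^ p
      = (((a * b : Kˣ) : K) : Qbar) := by
    rw [mul_pow, hα, hβ]; simp
  rw [k1kap_eq ζ (hω g.2) hab0 hαβ, k1kap, k1kap,
    ← k1log_mul hζ (k1_div_pow ha0 (hfix _) hα) (k1_div_pow hb0 (hfix _) hβ)]
  congr 1
  rw [map_mul, mul_div_mul_comm]

omit [NumberField K] in
theorem k1kap_eq_zero_iff (hω : K.fixingSubgroup ≤ (cycloChar p).ker) {ζ : Qbar}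
    (hζ : IsPrimitiveRoot ζ p) (a : Kˣ) :
    (∀ g : K.fixingSubgroup, k1kap p ζ ((a : K) : Qbar) (g : GQ) = 0) ↔ a ∈ H.powRange p K := by
  have hp : p.Prime := Fact.out
  have ha0 : ((a : K) : Qbar) ≠ 0 := by simp
  have hfix : ∀ g ∈ K.fixingSubgroup, ∀ x : K, g (x : Qbar) = (x : Qbar) := fun g hg x =>
    (IntermediateField.mem_fixingSubgroup_iff _ _).1 hg _ x.2
  have hα := k1root_pow p ((a : K) : Qbar)
  have hα0 : k1root p ((a : K) : Qbar) ≠ 0 := by
    intro h; rw [h, zero_pow hp.ne_zero] at hα; exact ha0 hα.symm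
  constructor
  · intro h
    have hmem : k1root p ((a : K) : Qbar) ∈ K := by
      apply k1_mem_of_fixed
      intro g hg
      have h1 := h ⟨g, hg⟩
      rw [k1kap, k1log_eq_zero_iff hζ (k1_div_pow ha0 (hfix g hg _) hα)] at h1
      exact (div_eq_one_iff_eq hα0).1 h1
    have h0 : (⟨_, hmem⟩ : K) ≠ 0 := by
      intro h; exact hα0 (congrArg Subtype.val h)
    refine ⟨Units.mk0 ⟨_, hmem⟩ h0, ?_⟩
    apply Units.ext
    apply Subtype.ext
    simpa using hα
  · rintro ⟨b, rfl⟩ g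
    have hb0 : ((b : K) : Qbar) ≠ 0 := by simp
    have hb : ((b : K) : Qbar) ^ p = (((powMonoidHom p b : Kˣ) : K) : Qbar) := by simp
    rw [k1kap_eq ζ (hω g.2) ha0 hb, hfix g g.2, div_self hb0]
    exact (k1log_eq_zero_iff hζ (one_pow p)).2 rfl

theorem k1kap_surj (hK : K.IsUnramifiedOutside S)
    (hω : K.fixingSubgroup ≤ (cycloChar p).ker) {z : KSx S} (hz : IsZeta p z)
    (χ : K.fixingSubgroup → ZMod p)
    (hχ : χ ∈ Z1 ((P.levS S).sub K.fixingSubgroup)
        (Representation.trivial (ZMod p) K.fixingSubgroup (ZMod p))) :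
    ∃ a ∈ VS p (SK S K), ∀ g : K.fixingSubgroup, k1kap p (toQ z) ((a : K) : Qbar) (g : GQ) = χ g := by
  have hp : p.Prime := Fact.out
  rw [mem_Z1_iff] at hχ
  obtain ⟨hlev, hcoc⟩ := hχ
  have hpz : p • z = 0 := by
    apply Subtype.ext
    apply Additive.toMul.injective
    apply Units.ext
    simpa using hz.pow_eq_one
  have hadd : ∀ i j : ZMod p, (i + j).val • z = i.val • z + j.val • z := by
    intro i j
    rw [← add_smul, ZMod.val_add]
    conv_rhs => rw [← Nat.mod_add_div (i.val + j.val) p, add_smul, mul_comm p, mul_smul, hpz]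
    simp
  obtain ⟨m, hm⟩ := h90_S S K.fixingSubgroup.subtype ⊤ (fun g => (χ g).val • z)
    (hlev.comp (fun i : ZMod p => i.val • z)) (by
      intro v _ w _
      have h1 : ((unitsRepS S).comp K.fixingSubgroup.subtype) v ((χ w).val • z)
          = (χ w).val • z := by
        rw [map_nsmul]
        congr 1
        exact unitsRepS_zeta hz (hω v.2)
      rw [h1, hcoc v w]
      exact hadd _ _)
  -- translate
  have hm0 : toQ m ≠ 0 := Units.ne_zero _
  have hm' : ∀ g : K.fixingSubgroup, (g : GQ) (toQ m) / toQ m = toQ z ^ (χ g).val := by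
    intro g
    have h1 := hm g (Subgroup.mem_top g)
    have h2 := congrArg (fun x : KSx S => toQ x) h1
    have h3 : toQ ((χ g).val • z) = toQ z ^ (χ g).val := by
      simp [toQ]
    have h4 : toQ (((unitsRepS S).comp K.fixingSubgroup.subtype) g m - m)
        = (g : GQ) (toQ m) / toQ m := by
      simp only [toQ, AddSubgroupClass.coe_sub, toMul_sub, Units.val_div_eq_div_val]
      rfl
    simp only [h3, h4] at h2
    exact h2.symm
  have hzp : toQ z ^ p = 1 := hz.pow_eq_one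
  have hfixa : ∀ g ∈ K.fixingSubgroup, g (toQ m ^ p) = toQ m ^ p := by
    intro g hg
    have h1 := hm' ⟨g, hg⟩
    rw [div_eq_iff hm0] at h1
    have h1' : g (toQ m) = toQ z ^ (χ ⟨g, hg⟩).val * toQ m := h1
    rw [map_pow, h1', mul_pow, ← pow_mul, mul_comm _ p, pow_mul, hzp, one_pow, one_mul]
  have hmem : toQ m ^ p ∈ K := k1_mem_of_fixed K hfixa
  have h0 : (⟨_, hmem⟩ : K) ≠ 0 := by
    intro h; exact pow_ne_zero p hm0 (congrArg Subtype.val h)
  refine ⟨Units.mk0 ⟨_, hmem⟩ h0, k1_mem_VS K hK _ m rfl, fun g => ?_⟩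
  have ha0 : (((Units.mk0 (⟨_, hmem⟩ : K) h0 : Kˣ) : K) : Qbar) ≠ 0 := pow_ne_zero p hm0
  rw [k1kap_eq (toQ z) (hω g.2) ha0 (β := toQ m) rfl, hm' g]
  exact k1log_pow hz _

end main2

theorem card_H1 {p : ℕ} [Fact p.Prime] {S : Finset Nat.Primes} (hpS : pPrime p ∈ S)
    (K : IntermediateField ℚ Qbar) [NumberField K] (hK : K.IsUnramifiedOutside S)
    (hω : K.fixingSubgroup ≤ (cycloChar p).ker) :
    Nat.card (H1 ((P.levS S).sub K.fixingSubgroup)
        (Representation.trivial (ZMod p) K.fixingSubgroup (ZMod p))) =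
      (H.powRange p K).relIndex (VS p (SK S K)) := by
  obtain ⟨z, hz⟩ := exists_isZeta (p := p) hpS
  have hζ : IsPrimitiveRoot (toQ z) p := hz
  let f : VS p (SK S K) →* Multiplicative (H1 ((P.levS S).sub K.fixingSubgroup)
        (Representation.trivial (ZMod p) K.fixingSubgroup (ZMod p))) :=
    { toFun := fun a => Multiplicative.ofAdd (H1π ((P.levS S).sub K.fixingSubgroup)
        (Representation.trivial (ZMod p) K.fixingSubgroup (ZMod p))
        ⟨_, k1kap_mem_Z1 K hpS hK hω hζ (a : Kˣ) a.2⟩)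
      map_one' := by
        rw [← ofAdd_zero]
        congr 1
        rw [H1π_eq_zero_iff, mem_B1_iff]
        refine ⟨0, fun g => ?_⟩
        rw [map_zero, sub_zero]
        exact (k1kap_eq_zero_iff K hω hζ 1).2 (one_mem _) g
      map_mul' := by
        intro a b
        rw [← ofAdd_add, ← map_add]
        congr 2
        apply Subtype.ext
        funext g
        exact k1kap_mul K hω hζ a b g }
  have hker : f.ker = (H.powRange p K).subgroupOf (VS p (SK S K)) := by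
    ext a
    rw [MonoidHom.mem_ker, Subgroup.mem_subgroupOf, ← k1kap_eq_zero_iff K hω hζ]
    show Multiplicative.ofAdd _ = Multiplicative.ofAdd 0 ↔ _
    rw [Multiplicative.ofAdd.injective.eq_iff, H1π_eq_zero_iff, mem_B1_iff]
    constructor
    · rintro ⟨m, hm⟩ g
      have := hm g
      rwa [Representation.trivial_apply, sub_self] at this
    · intro h
      exact ⟨0, fun g => by rw [map_zero, sub_zero]; exact h g⟩
  have hsurj : Function.Surjective f := by
    intro y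
    obtain ⟨x, hx⟩ := Submodule.mkQ_surjective _ (Multiplicative.toAdd y)
    obtain ⟨a, ha, hax⟩ := k1kap_surj K hK hω hz x.1 x.2
    refine ⟨⟨a, ha⟩, ?_⟩
    show Multiplicative.ofAdd _ = y
    rw [← ofAdd_toAdd y, ← hx]
    congr 2
    apply Subtype.ext
    funext g
    exact hax g
  rw [Subgroup.relIndex, ← hker, Subgroup.index_ker, MonoidHom.range_eq_top.2 hsurj,
    Subgroup.card_top]
  rfl

end Fermat.Agent.S55.G
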