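import Fermat.Agent.S55.G.NormCrit
import Fermat.Agent.S55.G.K1
import Fermat.Agent.S55.G.K2Abs
import Fermat.Agent.S55.L.C0.CycMain
import Fermat.Agent.S55.G.HP1Aux

/-!
# S55 G-HP (step): one cyclic step of the dévissage of the Hasse principle

AMBIENT-GROUP LANGUAGE: `X : GQ × GQ → ZMod p` is a cochain on the whole of `GQ`, `S`-level, which is a
cocycle on the subgroup `U` (`CocOn (trivQ p) U X`) and locally trivial above `S` (`LocTriv S U X`).
`z ∈ 𝕂_Sˣ` a primitive `p`-th root of unity.  `U₁ ⊲ U` of index `p`, both `S`-open, `U ≤ ker ω`.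
GOAL: `vz z X` splits on `U₁` in `𝕂_Sˣ` ⇒ it splits on `U`.
`rs U X := X ∘ (U.subtype × U.subtype)` is the honest cochain on `↥U`.
-/

set_option autoImplicit false

namespace Fermat.Agent.S55.G

open ExtCitation NumberField IsDedekindDomain Fermat.Agent.S55.L.C0
open scoped Pointwise

local notation "Qbar" => AlgebraicClosure ℚ
local notation "GQ" => (AlgebraicClosure ℚ ≃ₐ[ℚ] AlgebraicClosure ℚ)

/-- restriction of a 2-cochain on `GQ` to a subgroup -/
noncomputable def rs {Y : Type*} (U : Subgroup GQ) (X : GQ × GQ → Y) : U × U → Y :=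
  X ∘ Prod.map U.subtype U.subtype

variable {p : ℕ} [Fact p.Prime] {S : Finset Nat.Primes}

/-- the cyclic data attached to `(U, U₁, X)` -/
def IsCycData (U U₁ : Subgroup GQ) (X : GQ × GQ → ZMod p) (z : KSx S)
    (χ : ↥U →* Multiplicative (ZMod p)) (a : KSx S) : Prop :=
  χ.ker = U₁.subgroupOf U ∧ (∀ g ∈ U, unitsRepS S g a = a) ∧
    vz z (rs U X) - cyc χ a ∈ B2 ((P.levS S).sub U) (rhoS S U)

/-- **G-HP1**.  PROOF.  `rs U X ∈ Z2 ((P.levS S).sub U) triv` (level: `IsLev₂` restricts along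
`cont_comap`), `vz z (rs U X) ∈ Z2 _ (rhoS S U)` (`vz_mem_Z2`, `unitsRepS_zeta`).
`U₁.subgroupOf U` is normal of index `p`, so the quotient is cyclic, generated by any `σ ∉ U₁`:
`exists_chi_of_cyclic` gives `χ : ↥U →* Multiplicative (ZMod index)`, transport along `index = p`.
`SplitOn` on `↥U`: `splitOn_subgroupOf_iff`.  `H1VanishOn`: `h90_S S U.subtype _`.
Discreteness: `(smoothRep_isDiscrete _ _).comp (cont_comap ..)`.  Then `exists_cyc_of_splitOn`. -/
theorem exists_isCycData (hpS : pPrime p ∈ S) {U U₁ : Subgroup GQ} (hU : (P.levS S).IsOpen U)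
    (hU₁ : (P.levS S).IsOpen U₁) (hle : U₁ ≤ U) (hω : U ≤ (cycloChar p).ker)
    (hn : (U₁.subgroupOf U).Normal) (hi : U₁.relIndex U = p)
    {X : GQ × GQ → ZMod p} (hX : IsLev₂ (P.levS S) X) (hc : CocOn (trivQ p) U X)
    {z : KSx S} (hz : IsZeta p z) (hs : SplitOn (P.levS S) (unitsRepS S) U₁ (vz z X)) :
    ∃ (χ : ↥U →* Multiplicative (ZMod p)) (a : KSx S), IsCycData U U₁ X z χ a :=
  hp1_exists_isCycData hU hU₁ hle hω hn hi hX hc hz hs

/-- **G-HP2** (places above `S`).  PROOF.  `W := U ⊓ conjSub (Dq q) g`; assume `W ≰ U₁`.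
`χ` restricted to `W` is nontrivial, so onto `ZMod p`: pick `τ ∈ W` with `χ τ = ofAdd 1`.
On `↥W` with levels `P.levAll.sub W` and module `rhoAll W` (`= ℚ̄ˣ`): `vz z X` is a coboundary
(`LocTriv` gives `X = d1 ξ` on `W`, `ξ` an all-level cochain on `GQ`, restrict it to `W`, apply `vz z`:
`vz_mem_B2_of_mem_B2`), `vz z X - cyc χ a` is a coboundary (restrict the `S`-level cochain; an `S`-level
cochain is an all-level cochain: `P.cont_levAll_levS`; coerce `KSx S → Additive ℚ̄ˣ`).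
So `cyc (χ.comp incl) a ∈ B2 (P.levAll.sub W) (rhoAll W)` (`cyc_comp`).  By
`exists_norm_of_cyc_mem_B2` (`unitsRep_isDiscrete`, `h90_all W.subtype _`) `a = ∑ i < p, τ^i b` with `b`
fixed by `ker (χ.comp incl) = W ∩ U₁`.  Translate to multiplicative notation. -/
theorem loc_norm_of_isCycData {U U₁ : Subgroup GQ} (hle : U₁ ≤ U) (hω : U ≤ (cycloChar p).ker)
    {X : GQ × GQ → ZMod p} (hloc : LocTriv S U X) {z : KSx S} (hz : IsZeta p z)
    {χ : ↥U →* Multiplicative (ZMod p)} {a : KSx S} (h : IsCycData U U₁ X z χ a)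
    (q : Nat.Primes) (hq : q ∈ S) (g : GQ) :
    U ⊓ conjSub (Dq q) g ≤ U₁ ∨
      ∃ τ ∈ U ⊓ conjSub (Dq q) g, τ ∉ U₁ ∧
        ∃ b : Qbar, (∀ w ∈ U₁ ⊓ conjSub (Dq q) g, w b = b) ∧
          toQ a = ∏ i ∈ Finset.range p, (τ ^ i) b := by
  classical
  set W : Subgroup GQ := U ⊓ conjSub (Dq q) g with hW
  by_cases hWU : W ≤ U₁
  · exact Or.inl hWU
  right
  obtain ⟨hker, hfix, hB⟩ := h
  obtain ⟨w, hwW, hwU₁⟩ := SetLike.not_le_iff_exists.mp hWU
  have hWleU : W ≤ U := inf_le_left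
  set incl : ↥W →* ↥U := Subgroup.inclusion hWleU with hincl
  have hp : p.Prime := Fact.out
  -- a generator
  have hmemker : ∀ (x : GQ) (hx : x ∈ U), (⟨x, hx⟩ : ↥U) ∈ χ.ker ↔ x ∈ U₁ := by
    intro x hx
    rw [hker, Subgroup.mem_subgroupOf]
  set c : ZMod p := Multiplicative.toAdd (χ ⟨w, hWleU hwW⟩) with hc
  have hc0 : c ≠ 0 := by
    intro h0
    apply hwU₁
    rw [← hmemker w (hWleU hwW), MonoidHom.mem_ker]
    exact Multiplicative.toAdd.injective h0
  set k : ℕ := (c⁻¹).val with hk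
  have hτW : w ^ k ∈ W := pow_mem hwW k
  have hχτ : χ ⟨w ^ k, hWleU hτW⟩ = Multiplicative.ofAdd 1 := by
    have e1 : (⟨w ^ k, hWleU hτW⟩ : ↥U) = ⟨w, hWleU hwW⟩ ^ k := rfl
    rw [e1, map_pow]
    apply Multiplicative.toAdd.injective
    rw [toAdd_pow, toAdd_ofAdd, ← hc, nsmul_eq_mul, hk, ZMod.natCast_zmod_val,
      inv_mul_cancel₀ hc0]
  have hτU₁ : w ^ k ∉ U₁ := by
    intro h1
    rw [← hmemker _ (hWleU hτW), MonoidHom.mem_ker, hχτ] at h1
    have h2 : (1 : ZMod p) = 0 := Multiplicative.ofAdd.injective h1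
    exact one_ne_zero h2
  refine ⟨w ^ k, hτW, hτU₁, ?_⟩
  -- the root of unity
  have hpz : p • (z : Additive Qbarˣ) = 0 := by
    apply Additive.toMul.injective
    apply Units.ext
    rw [toMul_nsmul, Units.val_pow_eq_pow_val]
    exact hz.pow_eq_one
  have hzfix : ∀ x : ↥W, rhoAll W x (z : Additive Qbarˣ) = z := by
    intro x
    exact congrArg Subtype.val (unitsRepS_zeta hz (hω (hWleU x.2)))
  -- (1) `vz z X` is a coboundary on `W`
  have h1 : vz (z : Additive Qbarˣ) (rs W X) ∈ B2 (P.levAll.sub W) (rhoAll W) := by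
    apply vz_mem_B2_of_mem_B2 _ _ _ hpz hzfix
    obtain ⟨ξ, hξ, hXξ⟩ := hloc q hq g
    rw [mem_B2_iff]
    exact ⟨ξ ∘ W.subtype, hξ.precomp (P.levAll.cont_comap _), fun x y => hXξ x x.2 y y.2⟩
  -- (2) `vz z X - cyc χ a` is a coboundary on `W`
  have hcont : Lev.Cont (P.levAll.sub W) ((P.levS S).sub U) incl := by
    rintro _ ⟨V, hV, rfl⟩
    obtain ⟨V₂, hV₂, hle₂⟩ := P.cont_levAll_levS S V hV
    exact ⟨V₂.comap W.subtype, ⟨V₂, hV₂, rfl⟩, fun x hx => hle₂ hx⟩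
  have h2 : vz (z : Additive Qbarˣ) (rs W X) - cyc (χ.comp incl) (a : Additive Qbarˣ)
      ∈ B2 (P.levAll.sub W) (rhoAll W) := by
    obtain ⟨η, hη, hηe⟩ := (mem_B2_iff _ _ _).mp hB
    rw [mem_B2_iff]
    refine ⟨fun x => ((η (incl x) : KSx S) : Additive Qbarˣ),
      (hη.precomp hcont).comp (fun m : KSx S => (m : Additive Qbarˣ)), fun x y => ?_⟩
    exact congrArg Subtype.val (hηe (incl x) (incl y))
  have h3 : cyc (χ.comp incl) (a : Additive Qbarˣ) ∈ B2 (P.levAll.sub W) (rhoAll W) := by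
    have := Submodule.sub_mem _ h1 h2
    rwa [sub_sub_cancel] at this
  obtain ⟨b, hb, hab⟩ := exists_norm_of_cyc_mem_B2 (L := P.levAll.sub W) (ρ := rhoAll W)
    (χ := χ.comp incl) (unitsRep_isDiscrete.comp (P.levAll.cont_comap _))
    (h90_all W.subtype _) (σ := ⟨w ^ k, hτW⟩) hχτ
    (fun x => congrArg Subtype.val (hfix x (hWleU x.2))) h3
  refine ⟨((Additive.toMul b : Qbarˣ) : Qbar), fun v hv => ?_, ?_⟩
  · have hvW : v ∈ W := ⟨hle hv.1, hv.2⟩
    have hvk : (⟨v, hvW⟩ : ↥W) ∈ (χ.comp incl).ker := by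
      rw [MonoidHom.mem_ker, MonoidHom.comp_apply]
      exact (hmemker v (hWleU hvW)).mpr hv.1
    have := hb _ hvk
    have h4 := congrArg (fun m : Additive Qbarˣ => ((Additive.toMul m : Qbarˣ) : Qbar)) this
    exact h4
  · have h4 := congrArg (fun m : Additive Qbarˣ => ((Additive.toMul m : Qbarˣ) : Qbar)) hab
    simp only [toMul_sum, Units.coe_prod] at h4
    exact h4

/-- **G-HP3** (places outside `S`: the valuation trick).  PROOF.  `W := U ⊓ D_A`; assume `W ≰ U₁`, pick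
`τ ∈ W` with `χ τ = ofAdd 1`.  `vz z X - cyc χ a = d1 h` on `U`, `h : U → 𝕂_Sˣ` an `S`-level cochain.
`o := ordHom hq A hA : 𝕂_Sˣ → ℤ` is additive, invariant under `D_A`
(`ordA_apply_of_mem_decomposition`) and kills `z` (`ordA_of_pow_eq_one`).
(i) `f := o ∘ h` restricted to `W₁ := W ∩ U₁` is a homomorphism to `ℤ` (there `cyc χ a = 0`:
`cyc_of_mem_ker_left`, and `o (vz z X) = 0`) with finite range (`IsLev₁.finite_range`), so `f = 0` on `W₁`
(if `f w = n ≠ 0` then `f (w ^ j) = j n` are pairwise distinct).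
(ii) sum over `(τ^i, τ)`, `i < p`: `∑ cyc χ a (τ^i, τ) = a` (only `i = p - 1` contributes; see the proof
of `exists_norm_of_cyc_mem_B2` in `L/C0/CycZero.lean`), `∑ d1 h (τ^i, τ) = ∑ τ^i (h τ) - h (τ^p) + h 1`.
Apply `o`: `- o a = p * o (h τ) - f (τ^p) + f 1 = p * o (h τ)`. -/
theorem ord_dvd_of_isCycData {U U₁ : Subgroup GQ} (hle : U₁ ≤ U) (hω : U ≤ (cycloChar p).ker)
    {X : GQ × GQ → ZMod p} {z : KSx S} (hz : IsZeta p z)
    {χ : ↥U →* Multiplicative (ZMod p)} {a : KSx S} (h : IsCycData U U₁ X z χ a)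
    (q : Nat.Primes) (hq : q ∉ S) (A : ValuationSubring Qbar) (hA : A.LiesOverPrime (q : ℕ)) :
    U ⊓ A.decompositionSubgroup ℚ ≤ U₁ ∨ (p : ℤ) ∣ ordA A q (toQ a) := by
  have hp : p.Prime := Fact.out
  by_cases hW : U ⊓ A.decompositionSubgroup ℚ ≤ U₁
  · exact Or.inl hW
  right
  obtain ⟨hker, -, hB⟩ := h
  obtain ⟨y, hy, hy2⟩ := (mem_B2_iff _ _ _).1 hB
  obtain ⟨o, ho⟩ : ∃ o : KSx S →+ ℤ, o = ordHom hq A hA := ⟨_, rfl⟩
  have hoz : o z = 0 := by
    rw [ho]
    exact ordA_of_pow_eq_one hA hp.pos hz.pow_eq_one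
  have hoD : ∀ σ ∈ A.decompositionSubgroup ℚ, ∀ m : KSx S, o (unitsRepS S σ m) = o m := by
    intro σ hσ m
    rw [ho]
    exact ordA_apply_of_mem_decomposition hσ _
  have hoa : ordA A q (toQ a) = o a := by rw [ho]; rfl
  rw [hoa]
  -- the key identity
  have hE : ∀ g k : ↥U, (g : GQ) ∈ A.decompositionSubgroup ℚ →
      -((((lval χ g + lval χ k) / p : ℕ) : ℤ) * o a) = o (y k) - o (y (g * k)) + o (y g) := by
    intro g k hg
    have h1 := congrArg o (hy2 g k)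
    rw [Pi.sub_apply, map_sub, vz_apply, map_nsmul, hoz, smul_zero, cyc_apply, map_nsmul, map_add,
      map_sub] at h1
    have h2 : o (rhoS S U g (y k)) = o (y k) := hoD _ hg _
    rw [h2] at h1
    rw [← h1]
    simp
  -- `f = o ∘ y` vanishes on `W ∩ ker χ`
  have hfin : (Set.range (o ∘ y)).Finite := (hy.comp o).finite_range
  have hadd : ∀ w w' : ↥U, (w : GQ) ∈ A.decompositionSubgroup ℚ → w ∈ χ.ker → w' ∈ χ.ker →
      o (y (w * w')) = o (y w) + o (y w') := by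
    intro w w' hw hwk hwk'
    have h1 := hE w w' hw
    rw [(lval_eq_zero_iff χ w).2 hwk, (lval_eq_zero_iff χ w').2 hwk'] at h1
    simp at h1
    linarith
  have hf1 : o (y 1) = 0 := by
    have := hadd 1 1 (Subgroup.one_mem _) (Subgroup.one_mem _) (Subgroup.one_mem _)
    rw [mul_one] at this
    linarith
  have hzero : ∀ w : ↥U, (w : GQ) ∈ A.decompositionSubgroup ℚ → w ∈ χ.ker → o (y w) = 0 := by
    intro w hw hwk
    by_contra hne
    have hpow : ∀ j : ℕ, o (y (w ^ j)) = j * o (y w) := by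
      intro j
      induction j with
      | zero => simp [hf1]
      | succ j ih =>
        rw [pow_succ', hadd w (w ^ j) hw hwk (Subgroup.pow_mem _ hwk j), ih]
        push_cast; ring
    have hinj : Function.Injective (fun j : ℕ => o (y (w ^ j))) := by
      intro i j hij
      simp only [hpow] at hij
      exact_mod_cast mul_right_cancel₀ hne hij
    exact Set.infinite_of_injective_forall_mem hinj
      (fun j => (⟨w ^ j, rfl⟩ : o (y (w ^ j)) ∈ Set.range (o ∘ y))) hfin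
  -- an element `τ` of `W` with `χ τ = 1`
  obtain ⟨τ₀, hτ₀', hτ₀U₁⟩ := SetLike.not_le_iff_exists.1 hW
  have hτ₀ : τ₀ ∈ U ∧ τ₀ ∈ A.decompositionSubgroup ℚ := Subgroup.mem_inf.1 hτ₀'
  obtain ⟨c, hc⟩ : ∃ c : ZMod p, c = Multiplicative.toAdd (χ ⟨τ₀, hτ₀.1⟩) := ⟨_, rfl⟩
  have hc0 : c ≠ 0 := by
    intro h0
    apply hτ₀U₁
    have : (⟨τ₀, hτ₀.1⟩ : ↥U) ∈ χ.ker := by
      rw [MonoidHom.mem_ker, ← toAdd_eq_zero, ← hc, h0]
    rw [hker] at this
    exact this
  obtain ⟨τ, hτdef⟩ : ∃ τ : ↥U, τ = (⟨τ₀, hτ₀.1⟩ : ↥U) ^ (c⁻¹).val := ⟨_, rfl⟩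
  have hτD : ∀ j : ℕ, ((τ ^ j : ↥U) : GQ) ∈ A.decompositionSubgroup ℚ := by
    intro j
    rw [hτdef]
    exact Subgroup.pow_mem _ (Subgroup.pow_mem _ hτ₀.2 _) _
  have hχτ : ∀ j : ℕ, Multiplicative.toAdd (χ (τ ^ j)) = (j : ZMod p) := by
    intro j
    rw [hτdef, map_pow χ, map_pow χ, toAdd_pow, toAdd_pow, ← hc, nsmul_eq_mul, nsmul_eq_mul,
      ZMod.natCast_zmod_val, inv_mul_cancel₀ hc0, mul_one]
  have hlval : ∀ j : ℕ, j < p → lval χ (τ ^ j) = j := by
    intro j hj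
    unfold lval
    rw [hχτ, ZMod.val_natCast_of_lt hj]
  have hlval1 : lval χ τ = 1 := by
    have := hlval 1 hp.one_lt
    rwa [pow_one] at this
  have hstep : ∀ j : ℕ, j < p → o (y (τ ^ j)) = j * o (y τ) := by
    intro j
    induction j with
    | zero => intro _; simp [hf1]
    | succ j ih =>
      intro hj
      have h1 := hE (τ ^ j) τ (hτD j)
      rw [hlval j (by omega), hlval1, Nat.div_eq_of_lt hj, ← pow_succ, ih (by omega)] at h1
      push_cast at h1 ⊢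
      linarith
  obtain ⟨p', rfl⟩ : ∃ p', p = p' + 1 := ⟨p - 1, by have := hp.pos; omega⟩
  have h1 := hE (τ ^ p') τ (hτD p')
  rw [hlval p' (by omega), hlval1, Nat.div_self (by omega), ← pow_succ, hstep p' (by omega)] at h1
  have h2 : o (y (τ ^ (p' + 1))) = 0 := by
    apply hzero _ (hτD _)
    rw [MonoidHom.mem_ker, ← toAdd_eq_zero, hχτ]
    exact ZMod.natCast_self _
  rw [h2] at h1
  refine ⟨- o (y τ), ?_⟩
  push_cast at h1 ⊢
  linarith

/-! ### auxiliary lemmas for G-HP4 -/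

theorem HP4_toQ_injective : Function.Injective (toQ (S := S)) := by
  intro m m' h
  exact Subtype.ext (Additive.toMul.injective (Units.ext h))

theorem HP4_toQ_add (m m' : KSx S) : toQ (m + m') = toQ m * toQ m' := rfl

theorem HP4_toQ_zero : toQ (0 : KSx S) = 1 := rfl

theorem HP4_toQ_sum {ι : Type*} (s : Finset ι) (F : ι → KSx S) :
    toQ (∑ i ∈ s, F i) = ∏ i ∈ s, toQ (F i) := by
  classical
  induction s using Finset.induction_on with
  | empty => simp [HP4_toQ_zero]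
  | insert i s hi ih => rw [Finset.sum_insert hi, Finset.prod_insert hi, HP4_toQ_add, ih]

theorem HP4_toQ_unitsRepS (g : GQ) (m : KSx S) : toQ (unitsRepS S g m) = g (toQ m) := rfl

theorem HP4_toQ_ne_zero (m : KSx S) : toQ m ≠ 0 := Units.ne_zero _

/-- Galois theory: `Fix K₁ ≤ Fix K → K ≤ K₁` -/
theorem HP4_le_of_fixingSubgroup_le {K K₁ : IntermediateField ℚ Qbar}
    (h : K₁.fixingSubgroup ≤ K.fixingSubgroup) : K ≤ K₁ := by
  have : IsGalois ℚ Qbar := Fermat.Agent.Lib.FrobeniusExists.isGalois_algebraicClosure_rat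
  rw [← InfiniteGalois.fixedField_fixingSubgroup K₁, IntermediateField.le_iff_le]
  exact h

theorem HP4_mem_of_fixed {K : IntermediateField ℚ Qbar} {x : Qbar}
    (h : ∀ g ∈ K.fixingSubgroup, g x = x) : x ∈ K := by
  have : IsGalois ℚ Qbar := Fermat.Agent.Lib.FrobeniusExists.isGalois_algebraicClosure_rat
  rw [← InfiniteGalois.fixedField_fixingSubgroup K, IntermediateField.mem_fixedField_iff]
  exact h

/-- a character to `ZMod p` with kernel of index `p` takes the value `1` -/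
theorem HP4_exists_chi_eq_one {G : Type*} [Group G] (χ : G →* Multiplicative (ZMod p))
    (h : χ.ker.index = p) : ∃ σ, χ σ = Multiplicative.ofAdd 1 := by
  have h1 : Nat.card χ.range = Nat.card (Multiplicative (ZMod p)) := by
    rw [← Subgroup.index_ker, h, Nat.card_eq_fintype_card, Fintype.card_multiplicative, ZMod.card]
  have h2 : χ.range = ⊤ := Subgroup.eq_top_of_card_eq _ h1
  have h3 : Multiplicative.ofAdd (1 : ZMod p) ∈ χ.range := by rw [h2]; trivial
  exact h3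

/-- **G-HP4** (assembly of the step).  PROOF.  `U = K.fixingSubgroup`, `U₁ = K₁.fixingSubgroup` with
`K ≤ K₁` unramified outside `S` (`P.exists_isUnramifiedOutside_of_le`; `K ≤ K₁` from `U₁ ≤ U` by Galois
theory: `IntermediateField.fixingSubgroup_le_iff`-type lemma / `fixedField_fixingSubgroup`).
`exists_isCycData` gives `χ, a`; `toQ a ∈ K`.  Pick `σ ∈ U` with `χ σ = ofAdd 1`.
`norm_criterion` (hypotheses: `loc_norm_of_isCycData`, `ord_dvd_of_isCycData`) gives `b ∈ K₁` with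
`a = ∏ σ^i b`; `b ≠ 0`, `b ∈ 𝕂_Sˣ` (`mem_KSx_iff`), fixed by `ker χ`.  `cyc_mem_B2_of_norm` gives
`cyc χ a ∈ B2`, so `vz z (rs U X) ∈ B2 ((P.levS S).sub U) (rhoS S U)`; extend the cochain `↥U → 𝕂_Sˣ` by
zero to `GQ` (`exists_extend`) to get `SplitOn (P.levS S) (unitsRepS S) U (vz z X)`. -/
theorem hp_step (hp2 : p ≠ 2) (hpS : pPrime p ∈ S) {U U₁ : Subgroup GQ}
    (hU : (P.levS S).IsOpen U) (hU₁ : (P.levS S).IsOpen U₁) (hle : U₁ ≤ U)
    (hω : U ≤ (cycloChar p).ker) (hn : (U₁.subgroupOf U).Normal) (hi : U₁.relIndex U = p)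
    {X : GQ × GQ → ZMod p} (hX : IsLev₂ (P.levS S) X) (hc : CocOn (trivQ p) U X)
    (hloc : LocTriv S U X) {z : KSx S} (hz : IsZeta p z)
    (hs : SplitOn (P.levS S) (unitsRepS S) U₁ (vz z X)) :
    SplitOn (P.levS S) (unitsRepS S) U (vz z X) := by
  obtain ⟨χ, a, hcd⟩ := exists_isCycData hpS hU hU₁ hle hω hn hi hX hc hz hs
  have hcd' := hcd
  obtain ⟨hker, hfix, hB⟩ := hcd'
  -- the fields
  obtain ⟨_, ⟨F, hF, rfl⟩, hFU⟩ := id hU
  obtain ⟨K, hK, -, hKU⟩ := P.exists_isUnramifiedOutside_of_le hF U hFU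
  obtain ⟨_, ⟨F₁, hF₁, rfl⟩, hFU₁⟩ := id hU₁
  obtain ⟨K₁, hK₁, -, hKU₁⟩ := P.exists_isUnramifiedOutside_of_le hF₁ U₁ hFU₁
  subst hKU hKU₁
  have hKK₁ : K ≤ K₁ := HP4_le_of_fixingSubgroup_le hle
  have haK : toQ a ∈ K := HP4_mem_of_fixed fun g hg => by
    rw [← HP4_toQ_unitsRepS, hfix g hg]
  -- the generator
  obtain ⟨σ, hσ⟩ := HP4_exists_chi_eq_one χ (by rw [hker]; exact hi)
  have hσ₁ : (σ : GQ) ∉ K₁.fixingSubgroup := by
    intro h
    have h1 : σ ∈ χ.ker := by rw [hker]; exact h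
    rw [MonoidHom.mem_ker, hσ] at h1
    have h2 : (1 : ZMod p) = 0 := Multiplicative.ofAdd.injective h1
    exact one_ne_zero h2
  obtain ⟨b, hbK₁, hab⟩ := norm_criterion hp2 hpS K K₁ hK₁ hKK₁ hω hn hi σ σ.2 hσ₁ (toQ a) haK
    (HP4_toQ_ne_zero a) (fun q hq g => loc_norm_of_isCycData hle hω hloc hz hcd q hq g)
    (fun q hq A hA => ord_dvd_of_isCycData hle hω hz hcd q hq A hA)
  have hb0 : b ≠ 0 := by
    rintro rfl
    apply HP4_toQ_ne_zero a
    rw [hab]
    exact Finset.prod_eq_zero (Finset.mem_range.2 (Fact.out (p := p.Prime)).pos) (map_zero _)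
  let b' : KSx S := ⟨Additive.ofMul (Units.mk0 b hb0), (mem_KSx_iff S _).2 ⟨K₁, hK₁, hbK₁⟩⟩
  have hb'Q : toQ b' = b := rfl
  have hb'fix : ∀ v ∈ χ.ker, rhoS S K.fixingSubgroup v b' = b' := by
    intro v hv
    rw [hker] at hv
    apply HP4_toQ_injective
    change (v : GQ) (toQ b') = toQ b'
    rw [hb'Q]
    exact (IntermediateField.mem_fixingSubgroup_iff _ _).1 hv b hbK₁
  have hsum : a = ∑ i ∈ Finset.range p, rhoS S K.fixingSubgroup (σ ^ i) b' := by
    apply HP4_toQ_injective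
    rw [HP4_toQ_sum, hab]
    rfl
  have hχ : ((P.levS S).sub K.fixingSubgroup).IsOpen χ.ker := by
    rw [hker]
    exact hU₁.comap ((P.levS S).cont_comap _)
  have hcyc : cyc χ a ∈ B2 ((P.levS S).sub K.fixingSubgroup) (rhoS S K.fixingSubgroup) := by
    rw [hsum]
    exact cyc_mem_B2_of_norm hχ hσ b' hb'fix
  have hmem : vz z (rs K.fixingSubgroup X) ∈
      B2 ((P.levS S).sub K.fixingSubgroup) (rhoS S K.fixingSubgroup) := by
    have := Submodule.add_mem _ hB hcyc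
    rwa [sub_add_cancel] at this
  exact (splitOn_subgroupOf_iff (unitsRepS S) hU le_rfl (vz z X)).1
    (splitOn_of_mem_B2 _ hmem)

end Fermat.Agent.S55.G
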