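/-
S55 G-IDX, auxiliary lemmas (helper76).
-/
import Fermat.Agent.S55.G.Defs
import Fermat.Agent.S55.H.TUnit
import Fermat.Agent.S55.H.U.TClass

set_option autoImplicit false

namespace Fermat.Agent.S55.G

open NumberField IsDedekindDomain

section ordv

variable {K : Type*} [Field K] [NumberField K]

lemma ordv_mul (v : H.Pl K) (a b : Kˣ) : ordv v (a * b) = ordv v a + ordv v b := by simp [ordv]

lemma ordv_inv (v : H.Pl K) (a : Kˣ) : ordv v a⁻¹ = - ordv v a := by simp [ordv]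

lemma ordv_div (v : H.Pl K) (a b : Kˣ) : ordv v (a / b) = ordv v a - ordv v b := by simp [ordv]

lemma ordv_pow (v : H.Pl K) (a : Kˣ) (n : ℕ) : ordv v (a ^ n) = n * ordv v a := by simp [ordv]

lemma ordv_one (v : H.Pl K) : ordv v (1 : Kˣ) = 0 := by simp [ordv]

lemma ordv_eq_zero_iff (v : H.Pl K) (a : Kˣ) : ordv v a = 0 ↔ v.valuation K (a : K) = 1 := by
  rw [← HeightOneSpectrum.valuationOfNeZero_eq, ordv]
  constructor
  · intro h
    have : v.valuationOfNeZero a = 1 := by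
      rw [← ofAdd_toAdd (v.valuationOfNeZero a), h, ofAdd_zero]
    rw [this]; rfl
  · intro h
    have : v.valuationOfNeZero a = 1 := by exact_mod_cast h
    rw [this, toAdd_one]

lemma mem_TUnit_iff_ordv {T : Finset (H.Pl K)} {x : Kˣ} :
    x ∈ H.TUnit K T ↔ ∀ v : H.Pl K, v ∉ T → ordv v x = 0 := by
  rw [H.mem_TUnit_iff]
  exact forall_congr' fun v => imp_congr_right fun _ => (ordv_eq_zero_iff v x).symm

lemma finite_ordv_ne_zero (a : Kˣ) : {v : H.Pl K | ordv v a ≠ 0}.Finite := by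
  have h1 := HeightOneSpectrum.Support.finite (𝓞 K) (a : K)
  have h2 := HeightOneSpectrum.Support.finite (𝓞 K) ((a⁻¹ : Kˣ) : K)
  refine (h1.union h2).subset ?_
  intro v hv
  rw [Set.mem_ofPred_eq, Ne, ordv_eq_zero_iff] at hv
  rcases lt_or_gt_of_ne hv with h | h
  · right
    change 1 < v.valuation K ((a⁻¹ : Kˣ) : K)
    rw [Units.val_inv_eq_inv_val, map_inv₀]
    exact (one_lt_inv₀ (zero_lt_iff.2 ((Valuation.ne_zero_iff _).2 a.ne_zero))).2 h
  · left
    exact h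

/-- the divisor of `a` divided by `p` (where possible) as a finitely supported function -/
lemma exists_div_finsupp (a : Kˣ) (p : ℕ) :
    ∃ D : H.Pl K →₀ ℤ, ∀ v, D v = ordv v a / p := by
  classical
  refine ⟨Finsupp.onFinset (finite_ordv_ne_zero a).toFinset (fun v => ordv v a / p) ?_, fun v => rfl⟩
  intro v hv
  rw [Set.Finite.mem_toFinset, Set.mem_ofPred_eq]
  intro h0
  rw [h0] at hv
  simp at hv

/-- if `p ∣ ord_v a` for all `v ∉ T` and `Cl_T = 1` then `a = e c ^ p` with a `T`-unit `e`. -/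
lemma exists_div_pow_mem_TUnit {T : Finset (H.Pl K)} (hT : H.TPrincipal K (T : Set (H.Pl K)))
    {p : ℕ} (a : Kˣ) (ha : ∀ v : H.Pl K, v ∉ T → (p : ℤ) ∣ ordv v a) :
    ∃ c : Kˣ, a / c ^ p ∈ H.TUnit K T := by
  obtain ⟨D, hD⟩ := exists_div_finsupp a p
  obtain ⟨c, hc⟩ := hT D
  refine ⟨c, mem_TUnit_iff_ordv.2 fun v hv => ?_⟩
  have h1 : ordv v c = D v := by
    rw [ordv, hc v (by simpa using hv), toAdd_ofAdd]
  rw [ordv_div, ordv_pow, h1, hD, Int.mul_ediv_cancel' (ha v hv), sub_self]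

end ordv

section main

variable {K : Type*} [Field K] [NumberField K] (p : ℕ) (T : Finset (H.Pl K)) (S₀ : Set (H.Pl K))

/-- the places in `T \ S₀` -/
abbrev RT : Type _ := {v : H.Pl K // v ∈ T ∧ v ∉ S₀}

/-- `a ↦ (ord_v a mod p)_{v ∈ T \ S₀}` -/
noncomputable def lam : Kˣ →* Multiplicative (RT T S₀ → ZMod p) where
  toFun a := Multiplicative.ofAdd (fun v => ((ordv v.1 a : ℤ) : ZMod p))
  map_one' := by
    rw [← ofAdd_zero]; congr 1; funext v; simp [ordv_one]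
  map_mul' a b := by
    rw [← ofAdd_add]; congr 1; funext v; simp [ordv_mul]

lemma lam_apply (a : Kˣ) (v : RT T S₀) :
    Multiplicative.toAdd (lam p T S₀ a) v = ((ordv v.1 a : ℤ) : ZMod p) := rfl

/-- `E_T ^ p` -/
noncomputable def Epow : Subgroup Kˣ := (H.TUnit K T).map (powMonoidHom p)

variable {p T S₀}

lemma Epow_le_TUnit : Epow p T ≤ H.TUnit K T := by
  rintro _ ⟨e, he, rfl⟩
  exact (H.TUnit K T).pow_mem he p

lemma Epow_le_ker : Epow p T ≤ (lam p T S₀).ker := by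
  rintro _ ⟨e, -, rfl⟩
  rw [MonoidHom.mem_ker, ← ofAdd_zero]
  change Multiplicative.ofAdd _ = _
  congr 1
  funext v
  rw [powMonoidHom_apply, ordv_pow]
  simp

instance finite_RT : Finite (RT T S₀) :=
  Finite.of_injective (fun v => (⟨v.1, v.2.1⟩ : T)) (by
    intro a b h
    exact Subtype.ext (congrArg (fun z : T => z.1) h))

lemma powRange_le_VS : H.powRange p K ≤ VS p S₀ := by
  rintro _ ⟨b, rfl⟩ v _
  rw [powMonoidHom_apply, ordv_pow]
  exact dvd_mul_right _ _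

lemma TUnit_inf_VS :
    H.TUnit K T ⊓ VS p S₀ = H.TUnit K T ⊓ (lam p T S₀).ker := by
  ext e
  simp only [Subgroup.mem_inf]
  refine and_congr_right fun he => ?_
  rw [MonoidHom.mem_ker]
  constructor
  · intro h
    rw [← ofAdd_zero]
    change Multiplicative.ofAdd _ = _
    congr 1
    funext v
    exact (ZMod.intCast_zmod_eq_zero_iff_dvd _ _).2 (h v.1 v.2.2)
  · intro h v hv
    by_cases hvT : v ∈ T
    · have h1 := lam_apply p T S₀ e ⟨v, hvT, hv⟩
      rw [h] at h1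
      exact (ZMod.intCast_zmod_eq_zero_iff_dvd _ _).1 h1.symm
    · rw [mem_TUnit_iff_ordv.1 he v hvT]
      exact dvd_zero _

lemma powRange_inf (hp : p ≠ 0) :
    H.powRange p K ⊓ (H.TUnit K T ⊓ VS p S₀) = Epow p T := by
  ext x
  constructor
  · rintro ⟨⟨b, rfl⟩, hb, -⟩
    refine ⟨b, mem_TUnit_iff_ordv.2 fun v hv => ?_, rfl⟩
    have h1 := mem_TUnit_iff_ordv.1 hb v hv
    rw [powMonoidHom_apply, ordv_pow] at h1
    rcases mul_eq_zero.1 h1 with h2 | h2
    · exact absurd (by exact_mod_cast h2) hp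
    · exact h2
  · rintro ⟨e, he, rfl⟩
    exact ⟨⟨e, rfl⟩, (H.TUnit K T).pow_mem he p, powRange_le_VS ⟨e, rfl⟩⟩

lemma VS_eq_sup (hT : H.TPrincipal K (T : Set (H.Pl K))) (hST : S₀ ⊆ T) :
    VS p S₀ = H.powRange p K ⊔ (H.TUnit K T ⊓ VS p S₀) := by
  apply le_antisymm
  · intro a ha
    obtain ⟨c, hc⟩ := exists_div_pow_mem_TUnit hT (p := p) a
      (fun v hv => ha v (fun h => hv (hST h)))
    have h1 : a = c ^ p * (a / c ^ p) := by rw [mul_div_cancel]
    rw [h1]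
    refine Subgroup.mul_mem_sup ⟨c, rfl⟩ ⟨hc, ?_⟩
    exact (VS p S₀).div_mem ha (powRange_le_VS ⟨c, rfl⟩)
  · exact sup_le powRange_le_VS inf_le_right

/-- Claim A -/
lemma relIndex_VS (hp : p ≠ 0) (hT : H.TPrincipal K (T : Set (H.Pl K))) (hST : S₀ ⊆ T) :
    (H.powRange p K).relIndex (VS p S₀) = (Epow p T).relIndex (H.TUnit K T ⊓ (lam p T S₀).ker) := by
  conv_lhs => rw [VS_eq_sup hT hST]
  rw [Subgroup.relIndex_sup_left, ← Subgroup.inf_relIndex_right, powRange_inf hp, TUnit_inf_VS]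

lemma relIndex_Epow : (Epow p T).relIndex (H.TUnit K T)
    = (powMonoidHom p : H.TUnit K T →* H.TUnit K T).range.index := by
  rw [Subgroup.relIndex]
  congr 1
  ext x
  rw [Subgroup.mem_subgroupOf]
  constructor
  · rintro ⟨e, he, hx⟩
    exact ⟨⟨e, he⟩, Subtype.ext hx⟩
  · rintro ⟨e, rfl⟩
    exact ⟨e, e.2, rfl⟩

open Classical in
/-- extension by zero -/
noncomputable def extZ : (RT T S₀ → ZMod p) →+ Dv p S₀ where
  toFun y := Finsupp.onFinset (T.subtype (· ∉ S₀))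
    (fun v => if h : v.1 ∈ T then y ⟨v.1, h, v.2⟩ else 0) (by
      intro v hv
      rw [Finset.mem_subtype]
      by_contra h
      rw [dif_neg h] at hv
      exact hv rfl)
  map_zero' := by
    ext v
    simp
  map_add' y z := by
    ext v
    simp only [Finsupp.onFinset_apply, Finsupp.coe_add, Pi.add_apply]
    split_ifs <;> simp

lemma extZ_apply_of_mem (y : RT T S₀ → ZMod p) (v : {v : H.Pl K // v ∉ S₀}) (h : v.1 ∈ T) :
    extZ y v = y ⟨v.1, h, v.2⟩ := by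
  simp [extZ, h]

lemma extZ_apply_of_notMem (y : RT T S₀ → ZMod p) (v : {v : H.Pl K // v ∉ S₀}) (h : v.1 ∉ T) :
    extZ y v = 0 := by
  simp [extZ, h]

/-- `(T \ S₀ → ZMod p) → Dv / PD` -/
noncomputable def psiZ : (RT T S₀ → ZMod p) →+ Dv p S₀ ⧸ PD p S₀ :=
  (QuotientAddGroup.mk' (PD p S₀)).comp extZ

lemma exists_lift_finsupp [NeZero p] (d : Dv p S₀) :
    ∃ D : H.Pl K →₀ ℤ, ∀ v : {v : H.Pl K // v ∉ S₀}, ((D v.1 : ℤ) : ZMod p) = d v := by
  classical
  refine ⟨Finsupp.onFinset (d.support.map (Function.Embedding.subtype _))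
    (fun v => if h : v ∉ S₀ then ((d ⟨v, h⟩).val : ℤ) else 0) ?_, ?_⟩
  · intro v hv
    by_cases h : v ∉ S₀
    · rw [dif_pos h] at hv
      rw [Finset.mem_map]
      refine ⟨⟨v, h⟩, ?_, rfl⟩
      rw [Finsupp.mem_support_iff]
      intro h0
      rw [h0] at hv
      simp at hv
    · rw [dif_neg h] at hv
      exact absurd rfl hv
  · intro v
    simp [v.2]

lemma psiZ_surjective [NeZero p] (hT : H.TPrincipal K (T : Set (H.Pl K))) :
    Function.Surjective (psiZ : (RT T S₀ → ZMod p) →+ Dv p S₀ ⧸ PD p S₀) := by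
  intro x
  obtain ⟨d, rfl⟩ := QuotientAddGroup.mk_surjective x
  obtain ⟨D, hD⟩ := exists_lift_finsupp d
  obtain ⟨c, hc⟩ := hT D
  have hc' : ∀ v : H.Pl K, v ∉ T → ordv v c = D v := fun v hv => by
    rw [ordv, hc v (by simpa using hv), toAdd_ofAdd]
  refine ⟨fun v => d ⟨v.1, v.2.2⟩ - ((ordv v.1 c : ℤ) : ZMod p), ?_⟩
  change ((extZ _ : Dv p S₀) : Dv p S₀ ⧸ PD p S₀) = (d : Dv p S₀ ⧸ PD p S₀)
  rw [QuotientAddGroup.eq]
  refine ⟨c, fun v => ?_⟩
  rw [Finsupp.add_apply, Finsupp.neg_apply]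
  by_cases h : v.1 ∈ T
  · rw [extZ_apply_of_mem _ v h]; ring
  · rw [extZ_apply_of_notMem _ v h, hc' v.1 h, hD]; ring

lemma mem_ker_psiZ_iff (hT : H.TPrincipal K (T : Set (H.Pl K))) (hST : S₀ ⊆ T)
    (y : RT T S₀ → ZMod p) :
    y ∈ (psiZ : (RT T S₀ → ZMod p) →+ Dv p S₀ ⧸ PD p S₀).ker ↔
      Multiplicative.ofAdd y ∈ (H.TUnit K T).map (lam p T S₀) := by
  rw [AddMonoidHom.mem_ker]
  change ((extZ y : Dv p S₀) : Dv p S₀ ⧸ PD p S₀) = 0 ↔ _
  rw [QuotientAddGroup.eq_zero_iff]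
  constructor
  · rintro ⟨a, ha⟩
    have hdvd : ∀ v : H.Pl K, v ∉ T → (p : ℤ) ∣ ordv v a := by
      intro v hv
      have h1 := ha ⟨v, fun h => hv (hST h)⟩
      rw [extZ_apply_of_notMem _ _ hv] at h1
      exact (ZMod.intCast_zmod_eq_zero_iff_dvd _ _).1 h1.symm
    obtain ⟨c, hc⟩ := exists_div_pow_mem_TUnit hT a hdvd
    refine ⟨a / c ^ p, hc, ?_⟩
    change Multiplicative.ofAdd _ = _
    congr 1
    funext v
    rw [ordv_div, ordv_pow, ← extZ_apply_of_mem y ⟨v.1, v.2.2⟩ v.2.1, ha]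
    simp
  · rintro ⟨e, he, hy⟩
    refine ⟨e, fun v => ?_⟩
    by_cases h : v.1 ∈ T
    · rw [extZ_apply_of_mem _ v h]
      have := congrArg (fun z : Multiplicative (RT T S₀ → ZMod p) =>
        Multiplicative.toAdd z ⟨v.1, h, v.2⟩) hy
      exact this.symm
    · rw [extZ_apply_of_notMem _ v h, mem_TUnit_iff_ordv.1 he v.1 h]; simp

/-- Claim B -/
lemma index_PD [NeZero p] (hT : H.TPrincipal K (T : Set (H.Pl K))) (hST : S₀ ⊆ T) :
    (PD p S₀).index = ((H.TUnit K T).map (lam p T S₀)).index := by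
  have h1 := AddSubgroup.index_ker (psiZ : (RT T S₀ → ZMod p) →+ Dv p S₀ ⧸ PD p S₀)
  rw [AddMonoidHom.range_eq_top.2 (psiZ_surjective hT), Nat.card_congr
    (AddSubgroup.topEquiv (G := Dv p S₀ ⧸ PD p S₀)).toEquiv, ← AddSubgroup.index_eq_card] at h1
  rw [← h1]
  have h2 : ((H.TUnit K T).map (lam p T S₀)) = AddSubgroup.toSubgroup
      (psiZ : (RT T S₀ → ZMod p) →+ Dv p S₀ ⧸ PD p S₀).ker := by
    ext y
    exact (mem_ker_psiZ_iff hT hST (Multiplicative.toAdd y)).symm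
  rw [h2]; rfl

end main

end Fermat.Agent.S55.G
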