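import Fermat.Agent.S55.G.HP1Aux
import Fermat.Agent.S55.G.N3Cyc
import Fermat.Agent.S55.L.B3Unram
import Fermat.Agent.S55.P.Roots

/-!
# S55 G-LOC4: the unramified character of order `p` of `D_l` (proof for `G/Loc.lean`)
-/

set_option autoImplicit false

namespace Fermat.Agent.S55.G

open ExtCitation Fermat.Agent.S55.L.C0
open scoped IntermediateField

local notation "Qbar" => AlgebraicClosure ℚ
local notation "GQ" => (AlgebraicClosure ℚ ≃ₐ[ℚ] AlgebraicClosure ℚ)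

variable {p : ℕ} [Fact p.Prime]

/-- **G-LOC4** with `IsUnrChar` unfolded. -/
theorem loc4_exists_char (l : Nat.Primes) :
    ∃ χ : ↥(Dq l) →* Multiplicative (ZMod p), (P.levAll.sub (Dq l)).IsOpen χ.ker ∧
      (∀ i : ↥(Dq l), (i : GQ) ∈ (primeLocalPlace l).inertiaSubgroupIn ℚ → χ i = 1) ∧
      Function.Surjective χ := by
  have hlp : Fact (l : ℕ).Prime := ⟨l.2⟩
  have hp : p.Prime := Fact.out
  have hF := L.isLocalFieldAt_hens (l : ℕ)
  have hl1 : 1 < (l : ℕ) := l.2.one_lt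
  have hlp1 : 1 < (l : ℕ) ^ p := Nat.one_lt_pow hp.ne_zero hl1
  have hN : (l : ℕ) ^ p - 1 ≠ 0 := by omega
  obtain ⟨ζ, hζ⟩ := L.B3.exists_primitiveRoot_Qbar hN
  have hζ' : IsPrimitiveRoot ζ
      (Nat.card (IsLocalRing.ResidueField (L.OO (l : ℕ) (L.hens (l : ℕ)))) ^ p - 1) := by
    rw [L.card_residueField_hens]; exact hζ
  obtain ⟨hE, hgal, -, hdeg, -⟩ := hF.unram_adjoin hp.pos hζ'
  have hn : (((L.hens (l : ℕ) ⊔ ℚ⟮ζ⟯).fixingSubgroup).subgroupOf (Dq l)).Normal :=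
    (hF.isGalois_iff hE le_sup_left).1 hgal
  have hidx : (((L.hens (l : ℕ) ⊔ ℚ⟮ζ⟯).fixingSubgroup).subgroupOf (Dq l)).index = p := by
    have := hF.finrank_eq_relIndex hE le_sup_left
    rw [hdeg] at this
    exact this.symm
  obtain ⟨χ, σ, hker, hσ⟩ := hp1_exists_chi _ hidx
  have hmem : ∀ i : ↥(Dq l), (i : GQ) ζ = ζ → χ i = 1 := by
    intro i hi
    rw [← MonoidHom.mem_ker, hker, Subgroup.mem_subgroupOf, IntermediateField.fixingSubgroup_sup]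
    exact ⟨i.2, P.roots_mem_fixingSubgroup_adjoin hi⟩
  refine ⟨χ, ?_, ?_, ?_⟩
  · have hfd : FiniteDimensional ℚ ℚ⟮ζ⟯ := L.B3.finiteDimensional_adjoin hN hζ
    refine ⟨(ℚ⟮ζ⟯.fixingSubgroup).comap (Dq l).subtype, ⟨_, ⟨ℚ⟮ζ⟯, hfd, rfl⟩, rfl⟩, ?_⟩
    intro i hi
    rw [MonoidHom.mem_ker]
    apply hmem
    have hi' : (i : GQ) ∈ ℚ⟮ζ⟯.fixingSubgroup := hi
    exact (IntermediateField.mem_fixingSubgroup_iff _ _).1 hi' ζ
      (IntermediateField.mem_adjoin_simple_self ℚ ζ)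
  · intro i hi
    apply hmem
    refine inertia_fixes_root (primeLocalPlace l) l.2 (P.padicPlace_liesOverPrime (l : ℕ)) ?_ _ hi hζ
    intro hdvd
    have h1 : (l : ℕ) ∣ (l : ℕ) ^ p := dvd_pow_self _ hp.ne_zero
    have h2 : (l : ℕ) ∣ 1 := by
      have := (Nat.dvd_sub h1 hdvd)
      rwa [Nat.sub_sub_self hlp1.le] at this
    exact l.2.one_lt.ne' (Nat.dvd_one.1 h2)
  · intro n
    refine ⟨σ ^ (Multiplicative.toAdd n).val, ?_⟩
    have : NeZero p := ⟨hp.ne_zero⟩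
    rw [map_pow, hσ, ← ofAdd_nsmul, nsmul_eq_mul, mul_one, ZMod.natCast_val, ZMod.cast_id']
    rfl

end Fermat.Agent.S55.G
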