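import Fermat.Agent.S55.G.Ord
import Fermat.Agent.S55.L.C0.CycMain
import Fermat.Agent.S55.P.Glue.Defs

/-!
# S55 G-LOC2 (auxiliary file): `cyc χ a` a coboundary ⇒ `orderOf (χ τ) ∣ ord a`

The statement `loc2_main` is `orderOf_dvd_ord_of_cyc_mem_B2` of `G/Loc.lean` with the two fields of
`IsUnrChar` as explicit hypotheses.
-/

set_option autoImplicit false

namespace Fermat.Agent.S55.G

open ExtCitation Fermat.Agent.S55.L.C0
open scoped Pointwise

local notation "Qbar" => AlgebraicClosure ℚ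
local notation "GQ" => (AlgebraicClosure ℚ ≃ₐ[ℚ] AlgebraicClosure ℚ)

theorem loc2_liesOverPrime (l : Nat.Primes) : (primeLocalPlace l).LiesOverPrime (l : ℕ) := by
  have : Fact (l : ℕ).Prime := ⟨l.2⟩
  exact P.padicPlace_liesOverPrime (l : ℕ)

/-- `ord` of a finite sum in `Additive ℚ̄ˣ` -/
theorem loc2_ordA_sum {A : ValuationSubring Qbar} {q : ℕ} (hA : A.LiesOverPrime q) {ι : Type*}
    (s : Finset ι) (f : ι → Additive Qbarˣ)
    (hf : ∀ i ∈ s, HasOrd A q ((Additive.toMul (f i) : Qbarˣ) : Qbar)) :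
    HasOrd A q ((Additive.toMul (∑ i ∈ s, f i) : Qbarˣ) : Qbar) ∧
      ordA A q ((Additive.toMul (∑ i ∈ s, f i) : Qbarˣ) : Qbar) =
        ∑ i ∈ s, ordA A q ((Additive.toMul (f i) : Qbarˣ) : Qbar) := by
  classical
  induction s using Finset.induction_on with
  | empty =>
    simp only [Finset.sum_empty, toMul_zero, Units.val_one]
    exact ⟨hasOrd_of_isUnitAt Ord_isUnitAt_one, ordA_one hA⟩
  | insert j s hj ih =>
    obtain ⟨h1, h2⟩ := ih fun i hi => hf i (Finset.mem_insert_of_mem hi)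
    have h3 := hf j (Finset.mem_insert_self j s)
    rw [Finset.sum_insert hj, Finset.sum_insert hj, toMul_add, Units.val_mul]
    exact ⟨h3.mul h1, by rw [ordA_mul hA h3 h1, h2]⟩

theorem loc2_hasOrd_apply {A : ValuationSubring Qbar} {q : ℕ} {σ : GQ}
    (hσ : σ ∈ A.decompositionSubgroup ℚ) {x : Qbar} (hx : HasOrd A q x) : HasOrd A q (σ x) := by
  have h1 : σ • A = A := hσ
  have h2 := (hasOrd_smul_iff (A := A) (q := q) σ x).2 hx
  rwa [h1] at h2

theorem loc2_isDiscrete (W : Subgroup GQ) : IsDiscrete (P.levAll.sub W) (rhoAll W) := by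
  intro m
  obtain ⟨V, hV, h⟩ := unitsRep_isDiscrete m
  exact ⟨V.comap W.subtype, ⟨V, hV, rfl⟩, fun u hu => h u hu⟩

theorem loc2_orderOf_dvd_index {G H : Type*} [Group G] [Group H] (χ : G →* H) (τ : G) :
    orderOf (χ τ) ∣ χ.ker.index := by
  rw [Subgroup.index_ker]
  have hmem : χ τ ∈ χ.range := ⟨τ, rfl⟩
  have h : orderOf (χ τ) = orderOf (⟨χ τ, hmem⟩ : χ.range) :=
    (Subgroup.orderOf_mk (χ τ) hmem).symm
  rw [h]
  exact orderOf_dvd_natCard _

theorem loc2_main (l : Nat.Primes) {n : ℕ} [NeZero n]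
    {χ : ↥(Dq l) →* Multiplicative (ZMod n)}
    (hopen : (P.levAll.sub (Dq l)).IsOpen χ.ker)
    (hin : ∀ i : ↥(Dq l), (i : GQ) ∈ (primeLocalPlace l).inertiaSubgroupIn ℚ → χ i = 1)
    {a : Additive Qbarˣ} (ha : ∀ g ∈ Dq l, unitsRep g a = a)
    (h : cyc χ a ∈ B2 (P.levAll.sub (Dq l)) (rhoAll (Dq l))) (τ : ↥(Dq l)) :
    (orderOf (χ τ) : ℤ) ∣ ordA (primeLocalPlace l) l ((Additive.toMul a : Qbarˣ) : Qbar) := by
  have hA := loc2_liesOverPrime l
  have hD : Dq l = (primeLocalPlace l).decompositionSubgroup ℚ :=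
    P.decGrp_eq_decompositionSubgroup l
  have hzero : cycH2 (P.levAll.sub (Dq l)) (rhoAll (Dq l)) χ hopen ⟨a, fun g => ha g g.2⟩ = 0 := by
    rw [cycH2_apply, H2π_eq_zero_iff]
    exact h
  obtain ⟨b, hb, hab⟩ := (cycH2_eq_zero_iff χ (loc2_isDiscrete (Dq l)) hopen
    (h90_all (Dq l).subtype χ.ker) ⟨a, fun g => ha g g.2⟩).1 hzero
  have hbord : HasOrd (primeLocalPlace l) l ((Additive.toMul b : Qbarˣ) : Qbar) := by
    refine P.exists_zpow_mul_isUnitAt _ l.2 hA (Units.ne_zero _) fun σ hσ => ?_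
    have hσD : σ ∈ Dq l := by
      rw [hD]
      exact P.inertiaSubgroupIn_le_decompositionSubgroup _ hσ
    have h1 : unitsRep σ b = b := hb ⟨σ, hσD⟩ (hin ⟨σ, hσD⟩ hσ)
    rw [← coe_toMul_unitsRep, h1]
  have hfin : Finite (↥(Dq l) ⧸ χ.ker) := by
    have : Finite χ.range := inferInstance
    exact Finite.of_equiv _ (QuotientGroup.quotientKerEquivRange χ).symm.toEquiv
  have := Fintype.ofFinite (↥(Dq l) ⧸ χ.ker)
  have hab' : a = ∑ c : ↥(Dq l) ⧸ χ.ker, rhoAll (Dq l) c.out b := by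
    rw [← finsum_eq_sum_of_fintype]
    exact hab
  have hterm : ∀ c : ↥(Dq l) ⧸ χ.ker,
      ((Additive.toMul (rhoAll (Dq l) c.out b) : Qbarˣ) : Qbar) =
        (c.out : GQ) ((Additive.toMul b : Qbarˣ) : Qbar) := fun c => rfl
  have hmem : ∀ c : ↥(Dq l) ⧸ χ.ker,
      (c.out : GQ) ∈ (primeLocalPlace l).decompositionSubgroup ℚ := fun c => hD ▸ c.out.2
  obtain ⟨-, hsum⟩ := loc2_ordA_sum hA Finset.univ (fun c : ↥(Dq l) ⧸ χ.ker => rhoAll (Dq l) c.out b)
    (fun c _ => by rw [hterm]; exact loc2_hasOrd_apply (hmem c) hbord)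
  rw [hab', hsum]
  have hconst : ∀ c ∈ (Finset.univ : Finset (↥(Dq l) ⧸ χ.ker)),
      ordA (primeLocalPlace l) l ((Additive.toMul (rhoAll (Dq l) c.out b) : Qbarˣ) : Qbar) =
        ordA (primeLocalPlace l) l ((Additive.toMul b : Qbarˣ) : Qbar) := fun c _ => by
    rw [hterm, ordA_apply_of_mem_decomposition (hmem c)]
  rw [Finset.sum_congr rfl hconst, Finset.sum_const, Finset.card_univ, nsmul_eq_mul]
  apply Dvd.dvd.mul_right
  have h1 := loc2_orderOf_dvd_index χ τ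
  rw [Subgroup.index, Nat.card_eq_fintype_card] at h1
  exact_mod_cast h1

end Fermat.Agent.S55.G
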