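import Fermat.Agent.S55.G.N2Defs
import Fermat.Agent.S55.L.C1LCF
import Fermat.Agent.S55.L.C2Arith
import Fermat.Agent.S55.G.Loc4
import Fermat.Agent.S55.G.LocAux2

/-!
# S55 G-LOC: unramified characters of the decomposition group `D = Dq l`

`A := primeLocalPlace l`, `I := A.inertiaSubgroupIn ℚ ≤ D`, module `rhoAll D` (`= ℚ̄ˣ`), levels
`P.levAll.sub D`.  `χ : ↥D →* Multiplicative (ZMod n)` with open kernel, trivial on `I`.
From block [L] (with `unitsRep = L.rhoQ`, `D = (L.hens l).fixingSubgroup`, `L.memQ`, `L.lcfQ`,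
`L.isGalLev_levAll`): `L.LCF.torsion_dies`, `L.units_normQ`, `L.IsLocalFieldAt.unram_adjoin`,
`L.normalIdx_iff`, `L.unrA_iff`.
-/

set_option autoImplicit false

namespace Fermat.Agent.S55.G

open ExtCitation Fermat.Agent.S55.L.C0

local notation "Qbar" => AlgebraicClosure ℚ
local notation "GQ" => (AlgebraicClosure ℚ ≃ₐ[ℚ] AlgebraicClosure ℚ)

/-- `χ` is an unramified character of `D_l` with open kernel -/
structure IsUnrChar (l : Nat.Primes) {n : ℕ} (χ : ↥(Dq l) →* Multiplicative (ZMod n)) : Prop where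
  isOpen : (P.levAll.sub (Dq l)).IsOpen χ.ker
  inertia : ∀ i : ↥(Dq l), (i : GQ) ∈ (primeLocalPlace l).inertiaSubgroupIn ℚ → χ i = 1

variable {p : ℕ} [Fact p.Prime]

theorem Loc_liesOver (l : Nat.Primes) : (primeLocalPlace l).LiesOverPrime (l : ℕ) :=
  haveI : Fact (l : ℕ).Prime := ⟨l.2⟩
  P.padicPlace_liesOverPrime (l : ℕ)

theorem Loc_Dq_eq (l : Nat.Primes) :
    haveI : Fact (l : ℕ).Prime := ⟨l.2⟩
    Dq l = (L.hens (l : ℕ)).fixingSubgroup := rfl

/-- membership in `L.unitsQ` in terms of `P.IsUnitAt` -/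
theorem Loc_mem_unitsQ_iff (l : Nat.Primes) (a : Additive Qbarˣ) :
    haveI : Fact (l : ℕ).Prime := ⟨l.2⟩
    a ∈ L.unitsQ (l : ℕ) ↔ P.IsUnitAt (primeLocalPlace l) ((Additive.toMul a : Qbarˣ) : Qbar) := by
  have : Fact (l : ℕ).Prime := ⟨l.2⟩
  rw [L.mem_unitsQ, ValuationSubring.mem_unitGroup_iff]
  show (primeLocalPlace l).valuation _ = 1 ↔ _
  set A := primeLocalPlace l
  set x : Qbar := ((Additive.toMul a : Qbarˣ) : Qbar) with hx
  have hx0 : x ≠ 0 := Units.ne_zero _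
  constructor
  · intro h
    refine ⟨(A.valuation_le_one_iff _).1 h.le, (A.valuation_le_one_iff _).1 ?_, hx0⟩
    rw [map_inv₀, h, inv_one]
  · rintro ⟨h1, h2, -⟩
    have h1' := (A.valuation_le_one_iff _).2 h1
    have h2' := (A.valuation_le_one_iff _).2 h2
    have hv0 : A.valuation x ≠ 0 := (Valuation.ne_zero_iff _).2 hx0
    rw [map_inv₀, inv_le_one₀ (zero_lt_iff.2 hv0)] at h2'
    exact le_antisymm h1' h2'

/-- the prime `l` as an element of `ℚ̄ˣ` (additively) -/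
noncomputable def Loc_lam (l : Nat.Primes) : Additive Qbarˣ :=
  Additive.ofMul (Units.mk0 ((l : ℕ) : Qbar) (Nat.cast_ne_zero.2 l.2.ne_zero))

theorem Loc_lam_fixed (l : Nat.Primes) (g : GQ) : L.rhoQ g (Loc_lam l) = Loc_lam l := by
  apply Additive.toMul.injective
  apply Units.ext
  rw [L.rhoQ_apply]
  exact map_natCast g _

theorem Loc_coe_sub_zsmul (l : Nat.Primes) (a : Additive Qbarˣ) (n : ℤ) :
    ((Additive.toMul (a - n • Loc_lam l) : Qbarˣ) : Qbar) =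
      ((Additive.toMul a : Qbarˣ) : Qbar) * ((l : ℕ) : Qbar) ^ (-n) := by
  rw [toMul_sub, toMul_zsmul, div_eq_mul_inv, Units.val_mul, ← zpow_neg, Units.val_zpow_eq_zpow_val]
  rfl

/-- an element fixed by inertia is `n • l + unit` -/
theorem Loc_exists_sub_mem_units (l : Nat.Primes) (a : Additive Qbarˣ)
    (h : ∀ i ∈ (primeLocalPlace l).inertiaSubgroupIn ℚ, L.rhoQ i a = a) :
    haveI : Fact (l : ℕ).Prime := ⟨l.2⟩
    ∃ n : ℤ, a - n • Loc_lam l ∈ L.unitsQ (l : ℕ) := by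
  obtain ⟨n, hn⟩ := P.exists_zpow_mul_isUnitAt (primeLocalPlace l) l.2 (Loc_liesOver l)
    (x := ((Additive.toMul a : Qbarˣ) : Qbar)) (Units.ne_zero _) (fun i hi => by
      have := h i hi
      rw [← L.rhoQ_apply, this])
  refine ⟨n, ?_⟩
  rw [Loc_mem_unitsQ_iff, Loc_coe_sub_zsmul]
  exact hn

/-- an element fixed by inertia has an integral valuation (`P.exists_zpow_mul_isUnitAt`) -/
theorem hasOrd_of_inertia_fixed (l : Nat.Primes) {x : Qbar} (hx : x ≠ 0)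
    (h : ∀ i ∈ (primeLocalPlace l).inertiaSubgroupIn ℚ, i x = x) :
    HasOrd (primeLocalPlace l) l x :=
  P.exists_zpow_mul_isUnitAt (primeLocalPlace l) l.2 (Loc_liesOver l) hx h

/-- **G-LOC0**: a subgroup `V ≤ D_l` containing the inertia group is unramified in the sense of [L].
PROOF.  `π` a uniformiser for `D`: `l = k • π + unit`; `π` is fixed by `I`, so `π = j • l + unit`
(`hasOrd_of_inertia_fixed`), so `k j = 1`.  Every `a ∈ A^V` is fixed by `I`: `a = n • l + unit`. -/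
theorem unrA_of_inertia_le (l : Nat.Primes) {V : Subgroup GQ} (hV : V ≤ Dq l)
    (hI : (primeLocalPlace l).inertiaSubgroupIn ℚ ≤ V) :
    haveI : Fact (l : ℕ).Prime := ⟨l.2⟩
    L.UnrA L.rhoQ (L.unitsQ (l : ℕ)) V (Dq l) := by
  have : Fact (l : ℕ).Prime := ⟨l.2⟩
  intro π hπ
  refine ⟨L.AU_mono L.rhoQ hV hπ.mem, fun a ha => ?_, hπ.free⟩
  obtain ⟨k, hk⟩ := hπ.span (Loc_lam l) (fun u _ => Loc_lam_fixed l u)
  obtain ⟨n, hn⟩ := Loc_exists_sub_mem_units l a (fun i hi => ha i (hI hi))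
  refine ⟨n * k, ?_⟩
  have h1 : a - (n * k) • π = (a - n • Loc_lam l) + n • (Loc_lam l - k • π) := by
    rw [zsmul_sub, mul_zsmul]
    abel
  rw [h1]
  exact (L.unitsQ (l : ℕ)).add_mem hn ((L.unitsQ (l : ℕ)).zsmul_mem hk n)

theorem Loc_inertia_le_Dq (l : Nat.Primes) :
    (primeLocalPlace l).inertiaSubgroupIn ℚ ≤ Dq l := by
  have : Fact (l : ℕ).Prime := ⟨l.2⟩
  have h1 : Dq l = (primeLocalPlace l).decompositionSubgroup ℚ := P.fixingSubgroup_hens (l : ℕ)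
  rw [h1]
  exact P.inertiaSubgroupIn_le_decompositionSubgroup _

theorem Loc_subgroupOf_map {G : Type} [Group G] (D : Subgroup G) (K : Subgroup ↥D) :
    (K.map D.subtype).subgroupOf D = K :=
  Subgroup.comap_map_eq_self_of_injective D.subtype_injective K

/-- the kernel of an unramified character, as a subgroup of `GQ` -/
theorem Loc_inertia_le_ker (l : Nat.Primes) {n : ℕ} {χ : ↥(Dq l) →* Multiplicative (ZMod n)}
    (hχ : IsUnrChar l χ) :
    (primeLocalPlace l).inertiaSubgroupIn ℚ ≤ χ.ker.map (Dq l).subtype := fun i hi =>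
  ⟨⟨i, Loc_inertia_le_Dq l hi⟩, hχ.inertia _ hi, rfl⟩

theorem Loc_relOpen_ker (l : Nat.Primes) {n : ℕ} {χ : ↥(Dq l) →* Multiplicative (ZMod n)}
    (hχ : IsUnrChar l χ) : L.RelOpen P.levAll (χ.ker.map (Dq l).subtype) (Dq l) := by
  obtain ⟨_, ⟨W, hW, rfl⟩, hWk⟩ := hχ.isOpen
  exact ⟨W, hW, fun x hx => ⟨⟨x, hx.2⟩, hWk hx.1, rfl⟩⟩

omit [Fact p.Prime] in
theorem Loc_normalIdx_ker (l : Nat.Primes) {n : ℕ} {χ : ↥(Dq l) →* Multiplicative (ZMod n)}
    (hχ : IsUnrChar l χ) (hidx : χ.ker.index = p) :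
    L.NormalIdx P.levAll p (χ.ker.map (Dq l).subtype) (Dq l) where
  le := Subgroup.map_subtype_le _
  relOpen := Loc_relOpen_ker l hχ
  normal := by rw [Loc_subgroupOf_map]; infer_instance
  index := by rw [Subgroup.relIndex, Loc_subgroupOf_map, hidx]

/-- **G-LOC1**: `[D : ker χ] = p`, `p ∣ ord a` ⇒ `cyc χ a` is a coboundary.
PROOF.  `a = (p k) • l + u`, `u` a unit at `A` fixed by `D`.  `V := ker χ` (mapped to `GQ`) is
`NormalIdx levAll p V D` and `UnrA` (`unrA_of_inertia_le`): `u = Nm s p y`, `y ∈ A^V` (`L.units_normQ`),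
and `(p k) • l = Nm s p (k • l)`.  So `a` is a norm: `cycH2_eq_zero_iff` (valid for non surjective `χ`;
`IsNormFrom`, `finsum_out_eq_sum` with the representatives `s ^ i`, `i < p`), `h90_all`,
`unitsRep_isDiscrete`. -/
theorem cyc_mem_B2_of_dvd_ord (l : Nat.Primes) {n : ℕ} [NeZero n]
    {χ : ↥(Dq l) →* Multiplicative (ZMod n)} (hχ : IsUnrChar l χ) (hidx : χ.ker.index = p)
    {a : Additive Qbarˣ} (ha : ∀ g ∈ Dq l, unitsRep g a = a)
    (hord : (p : ℤ) ∣ ordA (primeLocalPlace l) l ((Additive.toMul a : Qbarˣ) : Qbar)) :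
    cyc χ a ∈ B2 (P.levAll.sub (Dq l)) (rhoAll (Dq l)) := by
  have : Fact (l : ℕ).Prime := ⟨l.2⟩
  obtain ⟨m, hm, χ', hsurj, hker, hmidx, hcarry⟩ := exists_surjective_chi χ
  have hmp : m = p := hmidx.trans hidx
  subst hmp
  obtain ⟨σ, hσ⟩ := hsurj (Multiplicative.ofAdd 1)
  have hcyc : cyc χ a = cyc χ' a := by
    funext ⟨g, h⟩; simp only [cyc_apply, hcarry]
  rw [unitsRep_eq_rhoQ] at ha
  set V : Subgroup GQ := χ.ker.map (Dq l).subtype with hV
  have hN : L.NormalIdx P.levAll m V (Dq l) := Loc_normalIdx_ker l hχ hidx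
  have hU : L.UnrA L.rhoQ (L.unitsQ (l : ℕ)) V (Dq l) :=
    unrA_of_inertia_le l (Subgroup.map_subtype_le _) (Loc_inertia_le_ker l hχ)
  -- `σ ∉ V`
  have hσV : (σ : GQ) ∉ V := by
    rintro ⟨τ, hτ, hτσ⟩
    have h1 : τ = σ := Subtype.ext hτσ
    rw [h1, SetLike.mem_coe, ← hker, MonoidHom.mem_ker, hσ] at hτ
    have h2 : (1 : ZMod m) = 0 := Multiplicative.ofAdd.injective hτ
    have hp1 : Fact (1 < m) := ⟨(Fact.out : m.Prime).one_lt⟩
    exact one_ne_zero h2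
  -- decomposition of `a`
  obtain ⟨k, hk⟩ := hord
  have hHas : HasOrd (primeLocalPlace l) l ((Additive.toMul a : Qbarˣ) : Qbar) :=
    hasOrd_of_inertia_fixed l (Units.ne_zero _) (fun i hi => by
      have := ha i (Loc_inertia_le_Dq l hi)
      rw [← L.rhoQ_apply, this])
  set u : Additive Qbarˣ := a - ((m : ℤ) * k) • Loc_lam l with hu
  have hu1 : u ∈ L.AU L.rhoQ (Dq l) := by
    intro g hg
    rw [hu, map_sub, map_zsmul, ha g hg, Loc_lam_fixed]
  have hu2 : u ∈ L.unitsQ (l : ℕ) := by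
    rw [Loc_mem_unitsQ_iff, hu, Loc_coe_sub_zsmul, ← hk]
    exact ordA_spec hHas
  obtain ⟨y, hy, hNy⟩ := L.units_normQ L.isGalLev_levAll
    ⟨L.hens (l : ℕ), L.isLocalFieldAt_hens (l : ℕ), rfl⟩ hN hU σ.1 σ.2 hσV u hu1 hu2
  set b : Additive Qbarˣ := k • Loc_lam l + y with hb
  have hbfix : ∀ v ∈ χ'.ker, rhoAll (Dq l) v b = b := by
    intro v hv
    show unitsRep (v : GQ) b = b
    rw [unitsRep_eq_rhoQ, hb, map_add, map_zsmul, Loc_lam_fixed]
    rw [hy (v : GQ) ⟨v, hker ▸ hv, rfl⟩]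
  have hsum : ∑ i ∈ Finset.range m, rhoAll (Dq l) (σ ^ i) b = a := by
    have h1 : ∀ i ∈ Finset.range m, rhoAll (Dq l) (σ ^ i) b =
        k • Loc_lam l + L.rhoQ ((σ : GQ) ^ i) y := by
      intro i _
      show unitsRep ((σ ^ i : ↥(Dq l)) : GQ) b = _
      rw [unitsRep_eq_rhoQ, hb, map_add, map_zsmul, Loc_lam_fixed]
      rfl
    rw [Finset.sum_congr rfl h1, Finset.sum_add_distrib, ← L.Nm_apply, hNy, Finset.sum_const,
      Finset.card_range, hu, ← natCast_zsmul, ← mul_zsmul', mul_comm k (m : ℤ)]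
    abel
  rw [hcyc, ← hsum]
  exact cyc_mem_B2_of_norm (hker ▸ hχ.isOpen) hσ b hbfix

/-- **G-LOC2**: `cyc χ a` a coboundary ⇒ `orderOf (χ τ) ∣ ord a`.
PROOF.  `cycH2_eq_zero_iff`: `a = ∑ᶠ c : D ⧸ ker χ, c.out • b`, `b` fixed by `ker χ ⊇ I`, so `HasOrd b`;
`ordA` is `D`-invariant: `ord a = [D : ker χ] * ord b`, and `orderOf (χ τ) ∣ |range χ| = [D : ker χ]`. -/
theorem orderOf_dvd_ord_of_cyc_mem_B2 (l : Nat.Primes) {n : ℕ} [NeZero n]
    {χ : ↥(Dq l) →* Multiplicative (ZMod n)} (hχ : IsUnrChar l χ)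
    {a : Additive Qbarˣ} (ha : ∀ g ∈ Dq l, unitsRep g a = a)
    (h : cyc χ a ∈ B2 (P.levAll.sub (Dq l)) (rhoAll (Dq l))) (τ : ↥(Dq l)) :
    (orderOf (χ τ) : ℤ) ∣ ordA (primeLocalPlace l) l ((Additive.toMul a : Qbarˣ) : Qbar) :=
  loc2_main l hχ.isOpen hχ.inertia ha h τ

/-- **G-LOC3**: a `p`-torsion class dies on the kernel of any nontrivial unramified character of
`p`-power order.  PROOF.  `χ.range` is a nontrivial subgroup of the cyclic `p`-group `ZMod (p^m)`; let `R'` be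
its subgroup of index `p`, `V := χ⁻¹ R'` (mapped to `GQ`): `NormalIdx levAll p V D`, `I ≤ V`, so `UnrA`.
`L.LCF.torsion_dies (L.lcfQ ..)` gives `rres2 .. [Y] = 0`, i.e. `SplitOn` on `V.subgroupOf D`
(`rres2_eq_res`, `res_H2π_eq_zero_iff`; see the header of `L/C1Defs.lean`), `SplitOn.mono` to `ker χ`. -/
theorem splitOn_ker_of_torsion (l : Nat.Primes) {m : ℕ}
    {χ : ↥(Dq l) →* Multiplicative (ZMod (p ^ m))} (hχ : IsUnrChar l χ) (hne : ∃ τ, χ τ ≠ 1)
    (Y : ↥(Z2 (P.levAll.sub (Dq l)) (rhoAll (Dq l))))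
    (hpY : ∀ t, p • (Y : ↥(Dq l) × ↥(Dq l) → Additive Qbarˣ) t = 0) :
    SplitOn (P.levAll.sub (Dq l)) (rhoAll (Dq l)) χ.ker
      (Y : ↥(Dq l) × ↥(Dq l) → Additive Qbarˣ) := by
  haveI : Fact (l : ℕ).Prime := ⟨l.2⟩
  have hp : p.Prime := Fact.out
  set W : Subgroup GQ := χ.ker.map (Dq l).subtype with hW
  have hWD : W ≤ Dq l := L.C1g.map_subtype_le _
  have hWo : L.RelOpen P.levAll W (Dq l) := L.C1g.relOpen_of_isOpen hχ.isOpen
  have hWn : (W.subgroupOf (Dq l)).Normal := by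
    rw [hW, L.C1g.subgroupOf_map_subtype]; infer_instance
  have hidx : ∃ n, W.relIndex (Dq l) = p ^ (n + 1) := by
    rw [hW, L.C1g.relIndex_map_subtype, Subgroup.index_ker]
    have h1 : Nat.card χ.range ∣ p ^ m := by
      have := Subgroup.card_subgroup_dvd_card χ.range
      rwa [Nat.card_congr Multiplicative.toAdd, Nat.card_zmod] at this
    obtain ⟨j, -, hj⟩ := (Nat.dvd_prime_pow hp).mp h1
    cases j with
    | zero =>
      exfalso
      obtain ⟨τ, hτ⟩ := hne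
      rw [pow_zero, Subgroup.card_eq_one] at hj
      have : χ τ ∈ χ.range := ⟨τ, rfl⟩
      rw [hj, Subgroup.mem_bot] at this
      exact hτ this
    | succ n => exact ⟨n, hj⟩
  obtain ⟨n, hn⟩ := hidx
  obtain ⟨V, hWV, hV, -⟩ := L.exists_normalIdx_of_relIndex_pow hWD hWo hWn hn
  have hID : (primeLocalPlace l).inertiaSubgroupIn ℚ ≤ Dq l := by
    rw [show Dq l = (primeLocalPlace l).decompositionSubgroup ℚ from
      P.decGrp_eq_decompositionSubgroup l]
    exact P.inertiaSubgroupIn_le_decompositionSubgroup _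
  have hI : (primeLocalPlace l).inertiaSubgroupIn ℚ ≤ V := fun i hi =>
    hWV ⟨⟨i, hID hi⟩, hχ.inertia _ hi, rfl⟩
  have hur := unrA_of_inertia_le l hV.le hI
  have hmem : (L.lcfQ (l : ℕ) p L.isGalLev_levAll).mem (Dq l) :=
    ⟨L.hens (l : ℕ), L.isLocalFieldAt_hens (l : ℕ), rfl⟩
  have hkerV : χ.ker ≤ V.subgroupOf (Dq l) := fun x hx =>
    Subgroup.mem_subgroupOf.mpr (hWV ⟨x, hx, rfl⟩)
  have key : ∀ ρ : Representation ℤ GQ (Additive Qbarˣ), ρ = L.rhoQ →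
      ∀ Y : ↥(Z2 (P.levAll.sub (Dq l)) (ρ.comp (Dq l).subtype)),
        (∀ t, p • (Y : ↥(Dq l) × ↥(Dq l) → Additive Qbarˣ) t = 0) →
        SplitOn (P.levAll.sub (Dq l)) (ρ.comp (Dq l).subtype) χ.ker
          (Y : ↥(Dq l) × ↥(Dq l) → Additive Qbarˣ) := by
    rintro ρ rfl Y hpY
    have hpx : p • H2π (P.levAll.sub (Dq l)) (L.rs L.rhoQ (Dq l)) Y = 0 := by
      rw [← map_nsmul]
      have : p • Y = 0 := by
        apply Subtype.ext
        funext t
        exact hpY t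
      rw [this, map_zero]
    have h1 := (L.lcfQ (l : ℕ) p L.isGalLev_levAll).torsion_dies hmem hV hur _ hpx
    rw [L.rres2_eq_zero_iff hV.le hV.relOpen] at h1
    exact h1.mono hkerV
  exact key unitsRep unitsRep_eq_rhoQ Y hpY

/-- **G-LOC4**: the unramified character of order `p`.
PROOF.  `E := hens l ⊔ ℚ(ζ)`, `ζ` a primitive `(l ^ p - 1)`-th root of unity
(`L.IsLocalFieldAt.unram_adjoin` with `F = hens l`, `m = p`, residue field of cardinality `l`:
`L.card_residueField_hens`): Galois, cyclic of degree `p`.  `V := E.fixingSubgroup` is normal of index `p`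
in `D` (`L.IsLocalFieldAt.isGalois_iff`, `finrank_eq_relIndex`), contains `I` (`I ≤ D` fixes `hens l`, and
`inertia_fixes_root`), open.  `exists_chi_of_cyclic`. -/
theorem exists_isUnrChar (l : Nat.Primes) :
    ∃ χ : ↥(Dq l) →* Multiplicative (ZMod p), IsUnrChar l χ ∧ Function.Surjective χ := by
  obtain ⟨χ, h1, h2, h3⟩ := loc4_exists_char (p := p) l
  exact ⟨χ, ⟨h1, h2⟩, h3⟩

end Fermat.Agent.S55.G
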