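/-
S55, block G: (N3) in the shape of the field `n3` of `LocSys.CoreNumbers`
(`L = P.levS S`, `ι = ↥S`, `Dv q = P.decGrp q`, `ω = cycloChar p`) (helper76).
-/
import Fermat.Agent.S55.G.N3
import Fermat.Agent.S55.P.Glue.Defs

set_option autoImplicit false

namespace Fermat.Agent.S55.G

open ExtCitation

local notation "Qbar" => AlgebraicClosure ℚ
local notation "GQ" => (AlgebraicClosure ℚ ≃ₐ[ℚ] AlgebraicClosure ℚ)

theorem isOpenS_iff_levS {S : Finset Nat.Primes} {U : Subgroup GQ} :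
    IsOpenS S U ↔ (P.levS S).IsOpen U := by
  constructor
  · rintro ⟨F, hF, hFU⟩
    exact ⟨_, ⟨F, hF, rfl⟩, hFU⟩
  · rintro ⟨_, ⟨F, hF, rfl⟩, hFU⟩
    exact ⟨F, hF, hFU⟩

variable {p : ℕ} [Fact p.Prime]

/-- **(N3)**, CORE shape. -/
theorem n3_core (hp2 : p ≠ 2) (S : Finset Nat.Primes) (hpS : pPrime p ∈ S) (U : Subgroup GQ)
    (hU : (P.levS S).IsOpen U) (hω : U ≤ (cycloChar p).ker) :
    ∃ (n : ℕ) (c : ℕ → Subgroup GQ), c 0 = U ∧
      (∀ i, c (i + 1) ≤ c i ∧ (P.levS S).IsOpen (c (i + 1)) ∧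
        ((c (i + 1)).subgroupOf (c i)).Normal ∧ (c (i + 1)).relIndex (c i) = p) ∧
      ∑ v : ↥S, Nat.card (DoubleCoset.Quotient (c n : Set GQ) (P.decGrp v.1 : Set GQ)) ≤ p ^ n := by
  obtain ⟨c, h0, hc, n, hn⟩ := N3 hp2 S hpS U (isOpenS_iff_levS.2 hU) hω
  refine ⟨n, c, h0, fun i => ⟨(hc i).2.1, isOpenS_iff_levS.1 (hc (i + 1)).1, (hc i).2.2.1,
    (hc i).2.2.2⟩, ?_⟩
  rw [Finset.sum_coe_sort S (fun q => Nat.card (DoubleCoset.Quotient (c n : Set GQ)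
    (P.decGrp q : Set GQ)))]
  refine le_trans (le_of_eq (Finset.sum_congr rfl fun q _ => ?_)) hn
  rw [P.decGrp_eq_range q]; rfl

end Fermat.Agent.S55.G
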