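/-
S55, block G, package G-N2C-1 (helper56): the cyclotomic character mod `r` on `D_l`, `l ≠ r`:
a Frobenius exists, inertia is trivial, `ℚ(ζ_r)` is `S'`-open.  Everything from helper76's `N3*`.
-/
import Fermat.Agent.S55.G.N3Core
import Fermat.Agent.S55.P.HensDec

set_option autoImplicit false

namespace Fermat.Agent.S55.G.N2CycA

open ExtCitation

local notation "Qbar" => AlgebraicClosure ℚ
local notation "GQ" => (AlgebraicClosure ℚ ≃ₐ[ℚ] AlgebraicClosure ℚ)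

variable {r : ℕ} [Fact r.Prime]

theorem exists_primitiveRoot : ∃ ζ : Qbar, IsPrimitiveRoot ζ r := by
  obtain ⟨ζ, hζ⟩ := exists_primitiveRoot_pow r 1
  exact ⟨ζ, by simpa using hζ⟩

/-- the value of `cycloChar r` is detected on one primitive root. -/
theorem cycloChar_eq_of_apply (σ : GQ) (c : ℕ) {ζ : Qbar} (hζ : IsPrimitiveRoot ζ r)
    (h : σ ζ = ζ ^ c) : ((cycloChar r σ : (ZMod r)ˣ) : ZMod r) = (c : ZMod r) := by
  have hr : r.Prime := Fact.out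
  have : NeZero r := ⟨hr.ne_zero⟩
  have h1 := n3_cycloChar_spec r σ hζ.pow_eq_one
  rw [h] at h1
  have hfin : IsOfFinOrder ζ :=
    isOfFinOrder_iff_pow_eq_one.mpr ⟨r, hr.pos, hζ.pow_eq_one⟩
  have h2 := hfin.pow_eq_pow_iff_modEq.mp h1
  rw [← hζ.eq_orderOf] at h2
  have h3 := (ZMod.natCast_eq_natCast_iff _ _ _).mpr h2
  rw [h3, ZMod.natCast_val, ZMod.cast_id]

theorem mem_ker_cycloChar_of_apply (σ : GQ) {ζ : Qbar} (hζ : IsPrimitiveRoot ζ r)
    (h : σ ζ = ζ) : σ ∈ (cycloChar r).ker := by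
  rw [MonoidHom.mem_ker]
  apply Units.ext
  rw [cycloChar_eq_of_apply σ 1 hζ (by rw [pow_one, h])]
  simp

theorem primeLocalPlace_liesOverPrime (l : Nat.Primes) :
    (primeLocalPlace l).LiesOverPrime (l : ℕ) := by
  have : Fact (l : ℕ).Prime := ⟨l.2⟩
  exact P.padicPlace_liesOverPrime (q := (l : ℕ))

/-- (i) a Frobenius: some `d ∈ D_l` acts on `μ_r` by `ζ ↦ ζ ^ l`. -/
theorem exists_frob_cyclo (l : Nat.Primes) (hl : (l : ℕ) ≠ r) :
    ∃ d ∈ P.decGrp l, ((cycloChar r d : (ZMod r)ˣ) : ZMod r) = ((l : ℕ) : ZMod r) := by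
  have hr : r.Prime := Fact.out
  have : Fact (l : ℕ).Prime := ⟨l.2⟩
  obtain ⟨ζ, hζ⟩ := exists_primitiveRoot (r := r)
  have hμ : IsPrimitiveRoot (padicEmbedding (l : ℕ) ζ) r :=
    hζ.map_of_injective (n3_padicEmbedding_injective (l : ℕ))
  have hdiv : ¬ (l : ℕ) ∣ r := fun hd => hl ((Nat.prime_dvd_prime_iff_eq l.2 hr).1 hd)
  obtain ⟨σ, hσ⟩ := exists_frob_root hμ hdiv
  refine ⟨localGaloisToGlobal (l : ℕ) σ, ?_, cycloChar_eq_of_apply _ (l : ℕ) hζ ?_⟩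
  · rw [P.decGrp_eq_range l]
    exact ⟨σ, rfl⟩
  · apply n3_padicEmbedding_injective (l : ℕ)
    rw [padicEmbedding_localGaloisToGlobal, hσ, map_pow]

/-- (iii) inertia at `l ≠ r` acts trivially on `μ_r`. -/
theorem inertia_le_ker_cyclo (l : Nat.Primes) (hl : (l : ℕ) ≠ r) :
    (primeLocalPlace l).inertiaSubgroupIn ℚ ≤ (cycloChar r).ker := by
  have hr : r.Prime := Fact.out
  intro σ hσ
  obtain ⟨ζ, hζ⟩ := exists_primitiveRoot (r := r)
  have hdiv : ¬ (l : ℕ) ∣ r := fun hd => hl ((Nat.prime_dvd_prime_iff_eq l.2 hr).1 hd)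
  exact mem_ker_cycloChar_of_apply σ hζ
    (inertia_fixes_root _ l.2 (primeLocalPlace_liesOverPrime l) hdiv σ hσ hζ)

/-- (v) `ℚ(ζ_r)` is unramified outside `r`. -/
theorem isOpen_ker_cyclo {S' : Finset Nat.Primes} (hr : ∃ rr ∈ S', (rr : ℕ) = r) :
    (P.levS S').IsOpen (cycloChar r).ker := by
  obtain ⟨rr, hrr, hrr'⟩ := hr
  have hmem : pPrime r ∈ S' := by
    have : rr = pPrime r := Subtype.ext hrr'
    exact this ▸ hrr
  refine isOpenS_iff_levS.1 ((isOpenS_ker_chiMod r hmem 1).mono ?_)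
  intro σ hσ
  obtain ⟨ζ, hζ⟩ := exists_primitiveRoot_pow r 1
  have h1 := (mem_ker_chiMod_chiP r σ 1 hζ).1 hσ
  exact mem_ker_cycloChar_of_apply σ (by simpa using hζ) h1

end Fermat.Agent.S55.G.N2CycA
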