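import Fermat.Agent.S55.G.Sha2LK
import Fermat.Agent.S55.G.K2Abs
import Fermat.Agent.S55.F.Basic
import Fermat.Agent.S55.L.C0.Index
import Fermat.Agent.S55.L.C0.Bridge

/-!
# S55 G-LKmu + G-CD (proofs for `G/N2Defs.lean`)

* `LKmu_splitOn_mu_of_splitOn_units` : local Kummer injectivity with twisted coefficients;
* `CD_splitOn_of_coprime_relIndex`   : coprime descent.
-/

set_option autoImplicit false

namespace Fermat.Agent.S55.G

open ExtCitation Fermat.Agent.S55.L.C0

local notation "Qbar" => AlgebraicClosure ℚ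
local notation "GQ" => (AlgebraicClosure ℚ ≃ₐ[ℚ] AlgebraicClosure ℚ)

variable {p : ℕ} [Fact p.Prime]

/-- `g ζ = ζ ^ ω(g)` -/
theorem LKmu_unitsRep_zeta {ζ : Additive Qbarˣ} (hζ : p • ζ = 0) (g : GQ) :
    unitsRep g ζ = ((cycloChar p g : (ZMod p)ˣ) : ZMod p).val • ζ := by
  have : NeZero p := ⟨(Fact.out : p.Prime).ne_zero⟩
  have hmem : Additive.toMul ζ ∈ rootsOfUnity p Qbar := by
    rw [mem_rootsOfUnity]
    exact hζ
  have h1 := modularCyclotomicCharacter.spec Qbar (card_rootsOfUnity_eq_self p)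
    (g : Qbar ≃+* Qbar) hmem
  apply Additive.toMul.injective
  apply Units.ext
  exact h1

/-- `g (ζ ^ i) = ζ ^ (ω(g) i)` -/
theorem LKmu_unitsRep_val_smul {ζ : Additive Qbarˣ} (hζ : p • ζ = 0) (g : GQ) (i : ZMod p) :
    unitsRep g (i.val • ζ) = (((cycloChar p g : (ZMod p)ˣ) : ZMod p) * i).val • ζ := by
  rw [map_nsmul, LKmu_unitsRep_zeta hζ, smul_smul, ZMod.val_mul, k2_mod_smul hζ, mul_comm]

/-- **G-LKmu** local Kummer theory with twisted coefficients, ANY subgroup `W`. -/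
theorem LKmu_splitOn_mu_of_splitOn_units (W : Subgroup GQ) {X : GQ × GQ → ZMod p}
    {ζ : Additive Qbarˣ} (hζ : IsPrimitiveRoot ((Additive.toMul ζ : Qbarˣ) : Qbar) p)
    (h : SplitOn P.levAll unitsRep W (vz ζ X)) :
    SplitOn P.levAll (F.mu (cycloChar p)) W X := by
  classical
  obtain ⟨y, hy, hXy⟩ := h
  have hpζ : p • ζ = 0 := by
    have := (LK_zsmul_eq_zero_iff hζ (p : ℤ)).2 (by simp)
    simpa using this
  -- `p • y` is a cocycle on `W`
  have hcoc : ∀ v ∈ W, ∀ w ∈ W, p • y (v * w) = unitsRep v (p • y w) + p • y v := by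
    intro v hv w hw
    have h1 := hXy v hv w hw
    have h2 : p • (unitsRep v (y w) - y (v * w) + y v) = 0 := by
      rw [← h1, vz_apply, smul_comm, hpζ, smul_zero]
    rw [nsmul_add, nsmul_sub, sub_add_eq_add_sub, sub_eq_zero] at h2
    rw [← h2, map_nsmul]
  have hlev : IsLev₁ (P.levAll.comap (MonoidHom.id GQ)) (fun g => p • y g) :=
    (hy.precomp (P.levAll.cont_comap (MonoidHom.id GQ))).comp (p • ·)
  obtain ⟨m, hm⟩ := h90_all (MonoidHom.id GQ) W (fun g => p • y g) hlev hcoc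
  obtain ⟨β, rfl⟩ := LK_exists_nsmul (p := p) m
  -- the corrected cochain
  set y' : GQ → Additive Qbarˣ := fun g => y g - d0 unitsRep β g with hy'
  have hy'lev : IsLev₁ P.levAll y' := hy.map₂ (d0_isLev₁ unitsRep_isDiscrete β) (· - ·)
  have hy'p : ∀ v ∈ W, p • y' v = 0 := by
    intro v hv
    have := hm v hv
    simp only [hy', d0_apply]
    have h3 : p • y v = unitsRep v (p • β) - p • β := this
    rw [nsmul_sub, nsmul_sub, h3, map_nsmul, sub_self]
  have hd : ∀ u u', unitsRep u (y' u') - y' (u * u') + y' u =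
      unitsRep u (y u') - y (u * u') + y u := by
    intro u u'
    have := congrFun (d1_d0 (ρ := unitsRep) β) (u, u')
    simp only [d1_apply, Pi.zero_apply] at this
    simp only [hy', map_sub]
    have e : unitsRep u (y u') - unitsRep u (d0 unitsRep β u') - (y (u * u') - d0 unitsRep β (u * u'))
        + (y u - d0 unitsRep β u) = (unitsRep u (y u') - y (u * u') + y u) -
        (unitsRep u (d0 unitsRep β u') - d0 unitsRep β (u * u') + d0 unitsRep β u) := by abel
    rw [e, this, sub_zero]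
  -- the `ZMod p`-valued cochain
  let φ : Additive Qbarˣ → ZMod p := fun a =>
    if h : ∃ i : ZMod p, a = i.val • ζ then h.choose else 0
  have hφ : ∀ a : Additive Qbarˣ, p • a = 0 → a = (φ a).val • ζ := by
    intro a ha
    have hex := LK_exists_val hζ ha
    simp only [φ, dif_pos hex]
    exact hex.choose_spec
  refine ⟨φ ∘ y', hy'lev.comp φ, fun u hu u' hu' => ?_⟩
  have h1 := hXy u hu u' hu'
  rw [← hd u u', vz_apply, hφ _ (hy'p u' hu'), hφ _ (hy'p _ (W.mul_mem hu hu')),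
    hφ _ (hy'p u hu), LKmu_unitsRep_val_smul hpζ] at h1
  have h2 : (((X (u, u')).val : ℤ) -
      (((((cycloChar p u : (ZMod p)ˣ) : ZMod p) * φ (y' u')).val : ℤ) - (φ (y' (u * u'))).val +
        (φ (y' u)).val)) • ζ = 0 := by
    rw [sub_smul, add_smul, sub_smul, natCast_zsmul, natCast_zsmul, natCast_zsmul, natCast_zsmul,
      ← h1, sub_self]
  rw [LK_zsmul_eq_zero_iff hζ] at h2
  have : NeZero p := ⟨(Fact.out : p.Prime).ne_zero⟩
  push_cast at h2
  simp only [ZMod.natCast_val, ZMod.cast_id', id_eq] at h2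
  rw [sub_eq_zero] at h2
  rw [h2]
  rfl

/-- **G-CD** coprime descent. -/
theorem CD_splitOn_of_coprime_relIndex {G : Type} [Group G] {Lv : Lev G} {A : Type*}
    [AddCommGroup A] {ρ : Representation ℤ G A} (hρ : IsDiscrete Lv ρ) {X : G × G → A}
    (hX : X ∈ Z2 Lv ρ) {n : ℕ} (hnX : ∀ t, n • X t = 0) {U V : Subgroup G} (hU : Lv.IsOpen U)
    (hUV : U ≤ V) (hcop : Nat.Coprime (U.relIndex V) n) (h : SplitOn Lv ρ U X) :
    SplitOn Lv ρ V X := by
  have hV : Lv.IsOpen V := hU.mono hUV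
  rw [← resSub_eq_zero_iff ρ hV ⟨X, hX⟩, PairHom.H2map_mk]
  set x' := (PairHom.res (LH := Lv.sub V) ρ V.subtype (Lv.cont_comap V.subtype)).Z2map ⟨X, hX⟩
    with hx'
  have hsplit : SplitOn (Lv.sub V) (ρ.comp V.subtype) (U.subgroupOf V) (x' : V × V → A) :=
    (splitOn_subgroupOf_iff ρ hV hUV X).2 h
  have h1 := index_smul_eq_zero (hρ.comp (Lv.cont_comap V.subtype))
    (hU.comap (Lv.cont_comap V.subtype)) x' hsplit
  have h2 : n • H2π (Lv.sub V) (ρ.comp V.subtype) x' = 0 := by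
    rw [← map_nsmul]
    have : n • x' = 0 := by
      apply Subtype.ext
      funext t
      exact hnX _
    rw [this, map_zero]
  have h3 : (Nat.gcd (U.relIndex V) n : ℤ) • H2π (Lv.sub V) (ρ.comp V.subtype) x' = 0 := by
    rw [Nat.gcd_eq_gcd_ab, add_smul, mul_comm, mul_smul, natCast_zsmul]
    rw [show U.relIndex V • H2π (Lv.sub V) (ρ.comp V.subtype) x' = 0 from h1, smul_zero, zero_add,
      mul_comm, mul_smul, natCast_zsmul, h2, smul_zero]
  rw [hcop] at h3
  simpa using h3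

end Fermat.Agent.S55.G
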