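import Fermat.Agent.S55.G.N3Cyc
import Fermat.Agent.S55.P.Val
import Fermat.Agent.S55.P.Glue.Defs
import Fermat.Agent.S14.T1.DictB

/-!
# S55 G-N2C (auxiliary): decomposition and inertia groups acting on `μ_r`, via `ℚ(ζ_r)`
-/

set_option autoImplicit false

namespace Fermat.Agent.S55.G

open NumberField ExtCitation
open scoped Pointwise

local notation "Qbar" => AlgebraicClosure ℚ
local notation "GQ" => (AlgebraicClosure ℚ ≃ₐ[ℚ] AlgebraicClosure ℚ)

variable {r : ℕ} [Fact r.Prime]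

theorem n2c_isCyclotomicExtension {ζ : Qbar} (hζ : IsPrimitiveRoot ζ r) :
    IsCyclotomicExtension {r} ℚ (IntermediateField.adjoin ℚ {ζ}) := by
  have : NeZero r := ⟨(Fact.out : r.Prime).ne_zero⟩
  have := Fermat.Agent.Lib.FrobeniusExists.isGalois_algebraicClosure_rat
  have := hζ.intermediateField_adjoin_isCyclotomicExtension ℚ
  exact this

/-- the cyclotomic character is detected on one primitive root -/
theorem n2c_cycloChar_eq {ζ : Qbar} (hζ : IsPrimitiveRoot ζ r) (σ : GQ) (c : (ZMod r)ˣ)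
    (h : σ ζ = ζ ^ (c : ZMod r).val) : cycloChar r σ = c := by
  have : NeZero r := ⟨(Fact.out : r.Prime).ne_zero⟩
  have h1 := n3_cycloChar_spec r σ hζ.pow_eq_one
  rw [h] at h1
  have h2 := hζ.pow_inj (ZMod.val_lt _) (ZMod.val_lt _) h1
  exact (Units.ext (ZMod.val_injective r h2)).symm

theorem n2c_liesOver (E : IntermediateField ℚ Qbar) (A : ValuationSubring Qbar) {l : ℕ}
    (hl : l.Prime) (hA : A.LiesOverPrime l) :
    (P.primeUnder E A).LiesOver (Ideal.span {(l : ℤ)}) := by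
  have : Fact l.Prime := ⟨hl⟩
  have hmax : (Ideal.span {(l : ℤ)}).IsMaximal := Int.ideal_span_isMaximal_of_prime l
  refine ⟨hmax.eq_of_le (Ideal.IsPrime.ne_top (Ideal.comap_isPrime _ _)) ?_⟩
  rw [Ideal.span_singleton_le_iff_mem, Ideal.under_def, Ideal.mem_comap]
  have := P.natCast_mem_primeUnder (K := E) hA
  simpa using this

/-- `D_A` acts on `μ_r` through powers of `l` (`A` over `l ≠ r`). -/
theorem n2c_cyclo_mem_powers (A : ValuationSubring Qbar) {l : ℕ} (hl : l.Prime)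
    (hA : A.LiesOverPrime l) (hlr : l ≠ r) (d : GQ) (hd : d ∈ A.decompositionSubgroup ℚ) :
    ∃ k : ℕ, ((cycloChar r d : (ZMod r)ˣ) : ZMod r) = (l : ZMod r) ^ k := by
  have hr : r.Prime := Fact.out
  have : NeZero r := ⟨hr.ne_zero⟩
  have : Fact l.Prime := ⟨hl⟩
  obtain ⟨ζ, hζ⟩ := HasEnoughRootsOfUnity.exists_primitiveRoot Qbar r
  set E : IntermediateField ℚ Qbar := IntermediateField.adjoin ℚ {ζ} with hE
  have hcyc : IsCyclotomicExtension {r} ℚ E := n2c_isCyclotomicExtension hζ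
  have hnf : NumberField E := IsCyclotomicExtension.numberField {r} ℚ E
  have hgal : IsGalois ℚ E := IsCyclotomicExtension.isGalois {r} ℚ E
  have hζE : ζ ∈ E := IntermediateField.mem_adjoin_simple_self ℚ ζ
  obtain ⟨σ, hσ⟩ := Fermat.Agent.S14.exists_restrict E d
  have hPmax : (P.primeUnder E A).IsMaximal :=
    (P.primeUnder_isPrime E A).isMaximal (P.primeUnder_ne_bot hl.ne_zero hA)
  have hPover := n2c_liesOver E A hl hA
  have hn : l.Coprime r := (Nat.coprime_primes hl hr).mpr hlr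
  have hstab : σ ∈ MulAction.stabilizer Gal(E/ℚ) (P.primeUnder E A) := by
    rw [MulAction.mem_stabilizer_iff]
    ext x
    rw [Ideal.mem_pointwise_smul_iff_inv_smul_mem, P.mem_primeUnder, P.mem_primeUnder]
    have h1 : d (((σ⁻¹ • x : 𝓞 E) : E) : Qbar) = ((x : E) : Qbar) := by
      rw [← hσ]
      have : σ ((σ⁻¹ • x : 𝓞 E) : E) = (x : E) := by
        change σ (σ⁻¹ (x : E)) = (x : E)
        simp [AlgEquiv.aut_inv]
      rw [this]
    rw [← h1, P.apply_mem_nonunits_iff A hd]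
  have h1 := IsCyclotomicExtension.Rat.mem_zpowers_galEquivZMod_of_mem_stabilizer r E l
    (P.primeUnder E A) hn hstab
  have h2 : cycloChar r d = IsCyclotomicExtension.Rat.galEquivZMod r E σ := by
    apply n2c_cycloChar_eq hζ
    have h3 := IsCyclotomicExtension.Rat.galEquivZMod_apply_of_pow_eq r E σ (x := ⟨ζ, hζE⟩)
      (Subtype.ext hζ.pow_eq_one)
    have h4 := congrArg (fun z : E => (z : Qbar)) h3
    simp only [hσ] at h4
    exact h4
  rw [← h2, ← mem_powers_iff_mem_zpowers] at h1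
  obtain ⟨k, hk⟩ := h1
  refine ⟨k, ?_⟩
  rw [← hk, Units.val_pow_eq_pow_val, ZMod.coe_unitOfCoprime]

/-- the inertia group of a place over `r` surjects onto `(ℤ/r)ˣ`. -/
theorem n2c_inertia_cyclo_surjective (A : ValuationSubring Qbar) (hA : A.LiesOverPrime r)
    (u : (ZMod r)ˣ) : ∃ i ∈ A.inertiaSubgroupIn ℚ, cycloChar r i = u := by
  have hr : r.Prime := Fact.out
  have : NeZero r := ⟨hr.ne_zero⟩
  obtain ⟨ζ, hζ⟩ := HasEnoughRootsOfUnity.exists_primitiveRoot Qbar r
  set E : IntermediateField ℚ Qbar := IntermediateField.adjoin ℚ {ζ} with hE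
  have hcyc : IsCyclotomicExtension {r} ℚ E := n2c_isCyclotomicExtension hζ
  have hnf : NumberField E := IsCyclotomicExtension.numberField {r} ℚ E
  have hfd : FiniteDimensional ℚ E := hnf.to_finiteDimensional
  have hgal : IsGalois ℚ E := IsCyclotomicExtension.isGalois {r} ℚ E
  have hζE : ζ ∈ E := IntermediateField.mem_adjoin_simple_self ℚ ζ
  have hPover := n2c_liesOver E A hr hA
  set p : Ideal ℤ := Ideal.span {(r : ℤ)} with hp
  have hpm : p.IsMaximal := Int.ideal_span_isMaximal_of_prime r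
  have hp0 : p ≠ ⊥ := by
    rw [hp, Ne, Ideal.span_singleton_eq_bot]
    exact_mod_cast hr.ne_zero
  have f2 : Finite (ℤ ⧸ p) := Ideal.finiteQuotientOfFreeOfNeBot p hp0
  have f4 : Finite p.ResidueField := inferInstance
  have h1 := Ideal.card_inertia_eq_ramificationIdxIn (G := Gal(E/ℚ)) p (P.primeUnder E A)
  rw [IsCyclotomicExtension.Rat.ramificationIdxIn_eq_of_prime r E] at h1
  have h2 : Nat.card Gal(E/ℚ) = r - 1 := by
    rw [Nat.card_congr (IsCyclotomicExtension.Rat.galEquivZMod r E).toEquiv,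
      Nat.card_eq_fintype_card, ZMod.card_units]
  have htop : Ideal.inertia Gal(E/ℚ) (P.primeUnder E A) = ⊤ :=
    Subgroup.eq_top_of_card_eq _ (h1.trans h2.symm)
  set σ : Gal(E/ℚ) := (IsCyclotomicExtension.Rat.galEquivZMod r E).symm u with hσ
  have hσI : σ ∈ Ideal.inertia Gal(E/ℚ) (P.primeUnder E A) := by rw [htop]; trivial
  obtain ⟨i, hi, hiE⟩ := Fermat.Agent.S14.lift_inertia E A σ (fun y => by
    have h3 : σ • y - y ∈ P.primeUnder E A := hσI y
    rw [P.mem_primeUnder] at h3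
    exact h3)
  refine ⟨i, hi, ?_⟩
  apply n2c_cycloChar_eq hζ
  have h3 := IsCyclotomicExtension.Rat.galEquivZMod_apply_of_pow_eq r E σ (x := ⟨ζ, hζE⟩)
    (Subtype.ext hζ.pow_eq_one)
  have h4 := congrArg (fun z : E => (z : Qbar)) h3
  rw [hσ, MulEquiv.apply_symm_apply] at h4
  rw [show i ζ = i ((⟨ζ, hζE⟩ : E) : Qbar) from rfl, hiE]
  exact h4

theorem n2c_liesOverPrime (l : Nat.Primes) : (primeLocalPlace l).LiesOverPrime (l : ℕ) := by
  have : Fact (l : ℕ).Prime := ⟨l.2⟩
  exact P.padicPlace_liesOverPrime (l : ℕ)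

end Fermat.Agent.S55.G
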