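import Fermat.Agent.S55.G.N2Defs
import Fermat.Agent.S55.G.N2CycA
import Fermat.Agent.S55.G.N2CycAux

/-!
# S55 G-N2C: the cyclotomic character mod `r` on decomposition and inertia groups

`A_l := primeLocalPlace l`, `Dq l = D_{A_l}` (`P.decGrp_eq_decompositionSubgroup`).
Useful: `G/N3Cyc.lean`, `G/N3Local.lean` (helper76): `exists_frob_root`, `inertia_fixes_root`,
`exists_local_frob`, `exists_local_at_p`, `n3_cycloChar_spec`; `L.c3_apply_of_pow_eq_one`;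
`P.roots_eq_one_of_sub_one_mem_nonunits` (reduction is injective on roots of unity of order prime to `l`);
`Fermat.Agent.Lib.FrobeniusExists.exists_isFrobeniusAt_rat`.
-/

set_option autoImplicit false

namespace Fermat.Agent.S55.G

open ExtCitation

local notation "Qbar" => AlgebraicClosure ℚ
local notation "GQ" => (AlgebraicClosure ℚ ≃ₐ[ℚ] AlgebraicClosure ℚ)

variable {r : ℕ} [Fact r.Prime]

/-- (i) a Frobenius: some `d ∈ D_l` acts on `μ_r` by `ζ ↦ ζ ^ l`. -/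
theorem exists_frob_cyclo (l : Nat.Primes) (hl : (l : ℕ) ≠ r) :
    ∃ d ∈ Dq l, ((cycloChar r d : (ZMod r)ˣ) : ZMod r) = ((l : ℕ) : ZMod r) :=
  N2CycA.exists_frob_cyclo l hl

/-- (ii) `D_l` acts on `μ_r` through powers of `l`.
PROOF.  `d ∈ D_A` induces a ring automorphism `d̄` of the residue field `κ = A/𝔪` (char `l`).  `ζ̄ ∈ κ` is a
primitive `r`-th root of unity, `k₀ := 𝔽_l(ζ̄)` is a finite field stable under `d̄`
(`d̄ ζ̄ = ζ̄ ^ c`, `c = cycloChar r d`); every automorphism of a finite field is a power of the Frobenius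
(`FiniteField.bijective_frobeniusAlgEquivOfAlgebraic_pow` or: `ζ̄` is a root of
`∏_{k < f} (X - ζ̄ ^ (l ^ k)) ∈ 𝔽_l[X]`...), so `ζ̄ ^ c = ζ̄ ^ (l ^ k)`, so `c = l ^ k` in `ZMod r`. -/
theorem cyclo_mem_powers (l : Nat.Primes) (hl : (l : ℕ) ≠ r) (d : GQ) (hd : d ∈ Dq l) :
    ∃ k : ℕ, ((cycloChar r d : (ZMod r)ˣ) : ZMod r) = ((l : ℕ) : ZMod r) ^ k :=
  n2c_cyclo_mem_powers (primeLocalPlace l) l.2 (n2c_liesOverPrime l) hl d
    (by rw [← P.decGrp_eq_decompositionSubgroup]; exact hd)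

/-- (iii) inertia at `l ≠ r` acts trivially on `μ_r` (`inertia_fixes_root`). -/
theorem inertia_le_ker_cyclo (l : Nat.Primes) (hl : (l : ℕ) ≠ r) :
    (primeLocalPlace l).inertiaSubgroupIn ℚ ≤ (cycloChar r).ker :=
  N2CycA.inertia_le_ker_cyclo l hl

/-- (iv) inertia at `r` surjects onto `(ℤ/r)ˣ`.
PROOF.  `D_r → (ℤ/r)ˣ` is onto (`exists_local_at_p` with `n = 1`).  `Hh := cycloChar r (I)`, a subgroup
(normal in the abelian group).  `π := ∏_{c ∈ Hh} (1 - ζ ^ c)` is fixed by `I`, so `π = r ^ n * unit`, `n ∈ ℤ`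
(`P.exists_zpow_mul_isUnitAt`).  All `1 - ζ ^ c` (`c ∈ (ℤ/r)ˣ`) are conjugate under `D_r`, so associated
at `A` (`(1 - ζ^c)/(1 - ζ)` and its inverse are in `A`; or directly: they are algebraic integers), and
`∏_{c ∈ (ℤ/r)ˣ} (1 - ζ ^ c) = r` (`Polynomial.cyclotomic` evaluated at `1`).  So
`π ^ (r - 1) = r ^ |Hh| * unit`, `n (r - 1) = |Hh|`, `1 ≤ |Hh| ≤ r - 1`: `|Hh| = r - 1`. -/
theorem inertia_cyclo_surjective (rr : Nat.Primes) (h : (rr : ℕ) = r) (u : (ZMod r)ˣ) :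
    ∃ i ∈ (primeLocalPlace rr).inertiaSubgroupIn ℚ, cycloChar r i = u :=
  n2c_inertia_cyclo_surjective (primeLocalPlace rr) (h ▸ n2c_liesOverPrime rr) u

/-- (v) `ℚ(ζ_r)` is unramified outside `r` (`P.isUnramifiedOutside_adjoin_rootOfUnity`). -/
theorem isOpen_ker_cyclo {S' : Finset Nat.Primes} (hr : ∃ rr ∈ S', (rr : ℕ) = r) :
    (P.levS S').IsOpen (cycloChar r).ker :=
  N2CycA.isOpen_ker_cyclo hr

end Fermat.Agent.S55.G
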