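import Fermat.Agent.S55.L.C0.CycDefs
import Fermat.Agent.S55.Fc.Inst.Datum

/-!
# S55 G-VT: the valuation trick (abstract) ; G-CJ: conjugation ; coprime descent
-/

set_option autoImplicit false

namespace Fermat.Agent.S55.G

open Fermat.Agent.S55.L.C0

/-- **G-VT**.  `Y - cyc χ a = d1 h`, `h` with finite range, `o : A → ℤ` additive, `H`-invariant, killing `Y`.
Then the order of `χ τ` divides `o a`, for every `τ`.
PROOF.  `f := orderOf (χ τ)`, `e := lval χ τ`.  `o (h 1) = 0` (identity at `(1,1)`; `cyc χ a (1,1) = 0`).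
`s := τ ^ f ∈ ker χ`; the identity at `(s^j, s)` (`cyc_of_mem_ker_right`) gives
`o (h (s^(j+1))) = o (h (s^j)) + o (h s)`, so `o (h (s^j)) = j * o (h s)`; finite range ⇒ `o (h s) = 0`.
Sum of the identity over `(τ^i, τ)`, `i < f`:  `- t * o a = f * o (h τ) - o (h (τ^f)) + o (h 1)` where
`t = ∑ i < f, (lval (τ^i) + e) / n`.  As `lval (τ^(i+1)) = (lval (τ^i) + e) % n` (`lval_mul`),
`n * t = f * e` (telescoping, `Nat.div_add_mod`).  `f = n / gcd n e` (additive order of `e` in `ZMod n`: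
`ZMod.addOrderOf_coe`), so `t = e / gcd n e` is prime to `f`.  Hence `f ∣ o a`. -/
theorem vt_abs {H : Type} [Group H] {A : Type*} [AddCommGroup A] (ρ : Representation ℤ H A)
    {n : ℕ} [NeZero n] (χ : H →* Multiplicative (ZMod n)) (a : A) (Y : H × H → A) (h : H → A)
    (hfin : (Set.range h).Finite)
    (hY : ∀ g k, Y (g, k) - cyc χ a (g, k) = ρ g (h k) - h (g * k) + h g)
    (o : A →+ ℤ) (hoρ : ∀ g b, o (ρ g b) = o b) (hoY : ∀ t, o (Y t) = 0) (τ : H) :
    (orderOf (χ τ) : ℤ) ∣ o a := by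
  classical
  have hn : 0 < n := Nat.pos_of_ne_zero (NeZero.ne n)
  set φ : H → ℤ := fun g => o (h g) with hφ
  have key : ∀ g k, φ (g * k) = φ g + φ k + (((lval χ g + lval χ k) / n : ℕ) : ℤ) * o a := by
    intro g k
    have h1 := congrArg o (hY g k)
    rw [map_sub, hoY, cyc_apply, map_nsmul, map_add, map_sub, hoρ] at h1
    simp only [nsmul_eq_mul] at h1
    show o (h (g * k)) = o (h g) + o (h k) + _
    linarith
  have hl1 : lval χ 1 = 0 := (lval_eq_zero_iff χ 1).2 (one_mem _)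
  have h1 : φ 1 = 0 := by
    have := key 1 1
    rw [mul_one, hl1] at this
    simp at this
    linarith
  set f := orderOf (χ τ) with hf
  have hs : τ ^ f ∈ χ.ker := by rw [MonoidHom.mem_ker, map_pow, pow_orderOf_eq_one]
  have hls : lval χ (τ ^ f) = 0 := (lval_eq_zero_iff χ _).2 hs
  have hsj : ∀ j : ℕ, φ ((τ ^ f) ^ j) = j * φ (τ ^ f) := by
    intro j
    induction j with
    | zero => simp [h1]
    | succ j ih =>
      rw [pow_succ, key, ih, hls, add_zero, Nat.div_eq_of_lt (lval_lt χ _)]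
      push_cast
      ring
  have hφs : φ (τ ^ f) = 0 := by
    by_contra hne
    have hinj : Function.Injective (fun j : ℕ => φ ((τ ^ f) ^ j)) := by
      intro i j hij
      simp only [hsj] at hij
      exact_mod_cast mul_right_cancel₀ hne hij
    have hfinφ : (Set.range φ).Finite := by
      have : Set.range φ = o '' Set.range h := by
        rw [← Set.range_comp]; rfl
      rw [this]; exact hfin.image _
    exact Set.infinite_of_injective_forall_mem hinj
      (fun j => (⟨(τ ^ f) ^ j, rfl⟩ : φ ((τ ^ f) ^ j) ∈ Set.range φ)) hfinφ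
  set e := lval χ τ with he
  have hsum : ∀ m : ℕ, φ (τ ^ m) = m * φ τ +
      ((∑ i ∈ Finset.range m, (lval χ (τ ^ i) + e) / n : ℕ) : ℤ) * o a := by
    intro m
    induction m with
    | zero => simp [h1]
    | succ m ih =>
      rw [pow_succ, key, ih, Finset.sum_range_succ]
      push_cast
      ring
  have hsum2 : ∀ m : ℕ, m * e =
      n * (∑ i ∈ Finset.range m, (lval χ (τ ^ i) + e) / n) + lval χ (τ ^ m) := by
    intro m
    induction m with
    | zero => simp [hl1]
    | succ m ih =>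
      rw [Finset.sum_range_succ, pow_succ, lval_mul, Nat.succ_mul, ih, mul_add]
      have := Nat.div_add_mod (lval χ (τ ^ m) + e) n
      linarith
  set t : ℕ := ∑ i ∈ Finset.range f, (lval χ (τ ^ i) + e) / n with ht
  have h2 : (f : ℤ) * φ τ + (t : ℤ) * o a = 0 := by
    rw [← hsum f]; exact hφs
  have h3 : f * e = n * t := by
    have := hsum2 f
    rw [hls, add_zero] at this
    exact this
  have hfe : f = n / n.gcd e := by
    have h4 : orderOf (χ τ) = addOrderOf (Multiplicative.toAdd (χ τ)) :=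
      orderOf_ofAdd_eq_addOrderOf (Multiplicative.toAdd (χ τ))
    have h5 : Multiplicative.toAdd (χ τ) = ((e : ℕ) : ZMod n) :=
      (ZMod.natCast_zmod_val _).symm
    rw [hf, h4, h5, ZMod.addOrderOf_coe e (NeZero.ne n)]
  have hg : 0 < n.gcd e := Nat.gcd_pos_of_pos_left e hn
  have hn' : n = f * n.gcd e := by
    rw [hfe, Nat.div_mul_cancel (Nat.gcd_dvd_left n e)]
  have he' : e = (e / n.gcd e) * n.gcd e := (Nat.div_mul_cancel (Nat.gcd_dvd_right n e)).symm
  have hcop : Nat.Coprime f (e / n.gcd e) := by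
    rw [hfe]; exact Nat.coprime_div_gcd_div_gcd hg
  have hte : t = e / n.gcd e := by
    have h6 : n * t = n * (e / n.gcd e) := by
      generalize e / n.gcd e = e' at he'
      generalize n.gcd e = g at he' hn'
      rw [← h3, he', hn']
      ring
    exact Nat.eq_of_mul_eq_mul_left hn h6
  rw [← hte] at hcop
  have hcop' : IsCoprime (f : ℤ) (t : ℤ) := Nat.isCoprime_iff_coprime.2 hcop
  refine hcop'.dvd_of_dvd_mul_left ⟨-φ τ, ?_⟩
  linarith

/-- **G-CJ**.  A cocycle on the whole group which splits on `W` splits on `g W g⁻¹`.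
PROOF.  `X = d1 y` on `W`.  Put `y' a := ρ g (y (g⁻¹ a g)) + X (a, g) - X (g, g⁻¹ a g)`.
For `a = g a₀ g⁻¹`, `b = g b₀ g⁻¹` the cocycle identities for `(g, a₀, b₀)`, `(a, g, b₀)`, `(a, b, g)` give
`X (a, b) = ρ g (X (a₀, b₀)) + d1 t (a, b)`, `t a = X (a, g) - X (g, g⁻¹ a g)`.
Levels: `IsLev₂.left/right`, `IsLev₁.mul_left/mul_right`, `exists_normal` (see also `Fc/Conj.lean`). -/
theorem splitOn_conjSub {k : Type*} [CommRing k] {G : Type} [Group G] {L : Lev G} {A : Type*}
    [AddCommGroup A] [Module k A] {ρ : Representation k G A} {X : G × G → A} (hX : X ∈ Z2 L ρ)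
    (W : Subgroup G) (g : G) (h : SplitOn L ρ W X) : SplitOn L ρ (conjSub W g) X := by
  obtain ⟨hlev, hc⟩ := (mem_Z2_iff L ρ X).1 hX
  obtain ⟨y, hy, hxy⟩ := h
  refine ⟨fun a => ρ g (y (g⁻¹ * a * g)) + X (a, g) - X (g, g⁻¹ * a * g), ?_, ?_⟩
  · have h1 : IsLev₁ L (fun a => ρ g (y (g⁻¹ * a * g))) :=
      ((hy.mul_right g).mul_left g⁻¹).comp (ρ g)
    have h2 : IsLev₁ L (fun a => X (a, g)) := hlev.left g
    have h3 : IsLev₁ L (fun a => X (g, g⁻¹ * a * g)) := ((hlev.right g).mul_right g).mul_left g⁻¹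
    exact (h1.map₂ h2 (· + ·)).map₂ h3 (· - ·)
  · intro a ha b hb
    rw [mem_conjSub] at ha hb
    have hab : g⁻¹ * (a * b) * g = (g⁻¹ * a * g) * (g⁻¹ * b * g) := by group
    have hga : g * (g⁻¹ * a * g) = a * g := by group
    have hgb : g * (g⁻¹ * b * g) = b * g := by group
    simp only [hab]
    generalize g⁻¹ * a * g = a₀ at ha hga
    generalize g⁻¹ * b * g = b₀ at hb hgb
    have e1 := hc g a₀ b₀
    have e2 := hc a g b₀
    have e3 := hc a b g
    have e4 := congrArg (ρ g) (hxy a₀ ha b₀ hb)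
    rw [hga] at e1
    rw [hgb] at e2
    have e5 : ρ a (ρ g (y b₀)) = ρ g (ρ a₀ (y b₀)) := by
      rw [← Module.End.mul_apply, ← map_mul, ← hga, map_mul, Module.End.mul_apply]
    simp only [map_add, map_sub] at e4 ⊢
    rw [e5]
    linear_combination (norm := abel) e3 - e2 + e1 + e4

end Fermat.Agent.S55.G
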