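import Fermat.Agent.S55.G.Sha2
import Fermat.Agent.S55.G.VT
import Fermat.Agent.S55.L.C3Final
import Fermat.Agent.S55.G.N2LKmu

/-!
# S55 G-N2: definitions and general lemmas for (N2)

`muG p` : `μ_p` as a representation of `GQ` on `ZMod p`.  `psi θ = θ ∘ cycloChar r`.
-/

set_option autoImplicit false

noncomputable section

namespace Fermat.Agent.S55.G

open ExtCitation Fermat.Agent.S55.L.C0

local notation "Qbar" => AlgebraicClosure ℚ
local notation "GQ" => (AlgebraicClosure ℚ ≃ₐ[ℚ] AlgebraicClosure ℚ)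

/-- `μ_p` -/
abbrev muG (p : ℕ) [Fact p.Prime] : Representation (ZMod p) GQ (ZMod p) := F.mu (cycloChar p)

/-- the character of `GQ` cut out by `θ` on `(ℤ/r)ˣ` -/
def psi {r n : ℕ} [Fact r.Prime] (θ : (ZMod r)ˣ →* Multiplicative (ZMod n)) :
    GQ →* Multiplicative (ZMod n) := θ.comp (cycloChar r)

/-- the auxiliary prime `r` for `l₀` -/
structure IsAux (p l₀ r m : ℕ) [Fact r.Prime] (θ : (ZMod r)ˣ →* Multiplicative (ZMod (p ^ m))) :
    Prop where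
  ne_p : r ≠ p
  ne_l : r ≠ l₀
  surj : Function.Surjective θ
  ord : ∀ u : (ZMod r)ˣ, (u : ZMod r) = (l₀ : ZMod r) → orderOf (θ u) = p

variable {p : ℕ} [Fact p.Prime] {S : Finset Nat.Primes}

theorem unitsRep_eq_rhoQ : unitsRep = L.rhoQ := rfl

theorem muG_apply (g : GQ) (t : ZMod p) : muG p g t = ((cycloChar p g : (ZMod p)ˣ) : ZMod p) * t :=
  rfl

/-- `S ⊆ S'`: an `S`-level cochain is an `S'`-level cochain -/
theorem cont_levS_mono {S S' : Finset Nat.Primes} (h : S ⊆ S') :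
    Lev.Cont (P.levS S') (P.levS S) (MonoidHom.id GQ) := by
  rintro _ ⟨F, hF, rfl⟩
  exact ⟨_, ⟨F, hF.mono h, rfl⟩, le_rfl⟩

theorem mem_Z2_levS_mono {S S' : Finset Nat.Primes} (h : S ⊆ S') {X : GQ × GQ → ZMod p}
    (hX : X ∈ Z2 (P.levS S) (muG p)) : X ∈ Z2 (P.levS S') (muG p) := by
  rw [mem_Z2_iff] at hX ⊢
  exact ⟨hX.1.precomp (cont_levS_mono h), hX.2⟩

theorem mem_Z2_levAll {X : GQ × GQ → ZMod p} (hX : X ∈ Z2 (P.levS S) (muG p)) :
    X ∈ Z2 P.levAll (muG p) := by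
  rw [mem_Z2_iff] at hX ⊢
  exact ⟨hX.1.precomp (P.cont_levAll_levS S), hX.2⟩

/-! ### `i ↦ i.val • z` when `g z = ω(g) z` -/

/-- `g (i.val • z) = (ω g * i).val • z` -/
theorem n2_rho_k2Iota {Γ : Type} [Group Γ] {A : Type*} [AddCommGroup A]
    (ρ : Representation ℤ Γ A) (ω : Γ →* (ZMod p)ˣ) {z : A} (hpz : p • z = 0)
    (hz : ∀ g, ρ g z = ((ω g : (ZMod p)ˣ) : ZMod p).val • z) (g : Γ) (i : ZMod p) :
    ρ g (k2Iota z hpz i) = k2Iota z hpz (((ω g : (ZMod p)ˣ) : ZMod p) * i) := by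
  rw [k2Iota_apply, k2Iota_apply, map_nsmul, hz, ZMod.val_mul, k2_mod_smul hpz, mul_comm, mul_smul]

theorem n2_vz_mem_Z2 {Γ : Type} [Group Γ] {Lv : Lev Γ} {A : Type*} [AddCommGroup A]
    (ρ : Representation ℤ Γ A) (ω : Γ →* (ZMod p)ˣ) {z : A} (hpz : p • z = 0)
    (hz : ∀ g, ρ g z = ((ω g : (ZMod p)ˣ) : ZMod p).val • z) {X : Γ × Γ → ZMod p}
    (hX : X ∈ Z2 Lv (F.mu ω)) : vz z X ∈ Z2 Lv ρ := by
  rw [mem_Z2_iff] at hX ⊢
  refine ⟨k2_vz_isLev₂ Lv z hX.1, fun g h j => ?_⟩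
  show k2Iota z hpz (X (g * h, j)) + k2Iota z hpz (X (g, h))
    = ρ g (k2Iota z hpz (X (h, j))) + k2Iota z hpz (X (g, h * j))
  rw [n2_rho_k2Iota ρ ω hpz hz, ← map_add, ← map_add, hX.2 g h j]
  rfl

theorem n2_splitOn_vz {Γ : Type} [Group Γ] {Lv : Lev Γ} {A : Type*} [AddCommGroup A]
    (ρ : Representation ℤ Γ A) (ω : Γ →* (ZMod p)ˣ) {z : A} (hpz : p • z = 0)
    (hz : ∀ g, ρ g z = ((ω g : (ZMod p)ˣ) : ZMod p).val • z) {W : Subgroup Γ} {X : Γ × Γ → ZMod p}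
    (h : SplitOn Lv (F.mu ω) W X) : SplitOn Lv ρ W (vz z X) := by
  obtain ⟨y, hy, hXy⟩ := h
  refine ⟨vz z y, k2_vz_isLev₁ Lv z hy, fun u hu u' hu' => ?_⟩
  show k2Iota z hpz (X (u, u'))
    = ρ u (k2Iota z hpz (y u')) - k2Iota z hpz (y (u * u')) + k2Iota z hpz (y u)
  rw [n2_rho_k2Iota ρ ω hpz hz, ← map_sub, ← map_add, hXy u hu u' hu']
  rfl

theorem n2_nsmul_zeta {ζ : Additive Qbarˣ}
    (hζ : IsPrimitiveRoot ((Additive.toMul ζ : Qbarˣ) : Qbar) p) : p • ζ = 0 := by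
  have h2 : (Additive.toMul ζ) ^ p = 1 := Units.ext (by simpa using hζ.pow_eq_one)
  exact congrArg Additive.ofMul h2

/-- `g ζ = ω(g) ζ` in `ℚ̄ˣ` -/
theorem n2_unitsRep_zeta {ζ : Additive Qbarˣ}
    (hζ : IsPrimitiveRoot ((Additive.toMul ζ : Qbarˣ) : Qbar) p) (g : GQ) :
    unitsRep g ζ = ((cycloChar p g : (ZMod p)ˣ) : ZMod p).val • ζ := by
  apply Additive.toMul.injective
  apply Units.ext
  have h1 := k1_cycloChar_spec p g hζ.pow_eq_one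
  rw [coe_toMul_unitsRep, h1]
  simp

/-- `ζ ^ X` is a cocycle with values in `𝕂_Sˣ` (`unitsRepS_zeta'`) -/
theorem vz_mem_Z2_mu {X : GQ × GQ → ZMod p} (hX : X ∈ Z2 (P.levS S) (muG p)) {z : KSx S}
    (hz : IsZeta p z) : vz z X ∈ Z2 (P.levS S) (unitsRepS S) :=
  n2_vz_mem_Z2 (unitsRepS S) (cycloChar p) (hp5_nsmul_zeta hz) (unitsRepS_zeta' hz) hX

theorem vz_mem_Z2_mu_all {X : GQ × GQ → ZMod p} (hX : X ∈ Z2 P.levAll (muG p))
    {ζ : Additive Qbarˣ} (hζ : IsPrimitiveRoot ((Additive.toMul ζ : Qbarˣ) : Qbar) p) :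
    vz ζ X ∈ Z2 P.levAll unitsRep :=
  n2_vz_mem_Z2 unitsRep (cycloChar p) (n2_nsmul_zeta hζ) (n2_unitsRep_zeta hζ) hX

/-- on `ker ω`, `μ_p` is trivial -/
theorem n2_muG_apply_of_mem_ker {g : GQ} (hg : g ∈ (cycloChar p).ker) (t : ZMod p) :
    muG p g t = t := by
  rw [muG_apply, MonoidHom.mem_ker.1 hg, Units.val_one, one_mul]

/-- on `U ≤ ker ω`, `μ_p` is trivial -/
theorem splitOn_mu_iff_triv {Lv : Lev GQ} {W : Subgroup GQ} (hω : W ≤ (cycloChar p).ker)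
    (X : GQ × GQ → ZMod p) : SplitOn Lv (muG p) W X ↔ SplitOn Lv (trivQ p) W X := by
  constructor
  · rintro ⟨y, hy, h⟩
    refine ⟨y, hy, fun u hu u' hu' => ?_⟩
    rw [h u hu u' hu', n2_muG_apply_of_mem_ker (hω hu)]
    rfl
  · rintro ⟨y, hy, h⟩
    refine ⟨y, hy, fun u hu u' hu' => ?_⟩
    rw [h u hu u' hu', n2_muG_apply_of_mem_ker (hω hu)]
    rfl

theorem cocOn_triv_of_mem_Z2_mu {Lv : Lev GQ} {X : GQ × GQ → ZMod p} (hX : X ∈ Z2 Lv (muG p))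
    {U : Subgroup GQ} (hω : U ≤ (cycloChar p).ker) : CocOn (trivQ p) U X := by
  rw [mem_Z2_iff] at hX
  intro g hg h _ j _
  rw [hX.2 g h j, n2_muG_apply_of_mem_ker (hω hg)]
  rfl

/-- **G-LKmu** local Kummer theory with twisted coefficients, ANY subgroup `W`: same proof as
`splitOn_triv_of_splitOn_units` (`G/Sha2.lean`), using `g (i.val • ζ) = (ω g * i).val • ζ`. -/
theorem splitOn_mu_of_splitOn_units (W : Subgroup GQ) {X : GQ × GQ → ZMod p} {ζ : Additive Qbarˣ}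
    (hζ : IsPrimitiveRoot ((Additive.toMul ζ : Qbarˣ) : Qbar) p)
    (h : SplitOn P.levAll unitsRep W (vz ζ X)) : SplitOn P.levAll (muG p) W X :=
  LKmu_splitOn_mu_of_splitOn_units W hζ h

/-- the easy converse (apply `vz ζ` to the cochain) -/
theorem splitOn_units_of_splitOn_mu (W : Subgroup GQ) {X : GQ × GQ → ZMod p} {ζ : Additive Qbarˣ}
    (hζ : IsPrimitiveRoot ((Additive.toMul ζ : Qbarˣ) : Qbar) p)
    (h : SplitOn P.levAll (muG p) W X) : SplitOn P.levAll unitsRep W (vz ζ X) :=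
  n2_splitOn_vz unitsRep (cycloChar p) (n2_nsmul_zeta hζ) (n2_unitsRep_zeta hζ) h

/-- **G-CD** coprime descent.  PROOF: ambient group `↥V`: `rs V X ∈ Z2 (L.sub V) _` splits on
`U.subgroupOf V` (`splitOn_subgroupOf_iff`), so `(U.subgroupOf V).index • [X] = 0`
(`index_smul_eq_zero`), `p • [X] = 0`, Bézout; `splitOn_iff_rs_mem_B2`-type glue (here for a general
group: `resSub_eq_zero_iff`). -/
theorem splitOn_of_coprime_relIndex {G : Type} [Group G] {Lv : Lev G} {A : Type*} [AddCommGroup A]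
    {ρ : Representation ℤ G A} (hρ : IsDiscrete Lv ρ) {X : G × G → A} (hX : X ∈ Z2 Lv ρ) {n : ℕ}
    (hnX : ∀ t, n • X t = 0) {U V : Subgroup G} (hU : Lv.IsOpen U) (hUV : U ≤ V)
    (hcop : Nat.Coprime (U.relIndex V) n) (h : SplitOn Lv ρ U X) : SplitOn Lv ρ V X :=
  CD_splitOn_of_coprime_relIndex hρ hX hnX hU hUV hcop h

end Fermat.Agent.S55.G

end
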