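/-
S55 G-TAME1 (helper76): `r` is a local norm from the tame extension cut out by `θ ∘ cycloChar r` at `r`.
-/
import Fermat.Agent.S55.G.N2Cyc

set_option autoImplicit false

namespace Fermat.Agent.S55.G

open ExtCitation Fermat.Agent.S55.L.C0

local notation "Qbar" => AlgebraicClosure ℚ
local notation "GQ" => (AlgebraicClosure ℚ ≃ₐ[ℚ] AlgebraicClosure ℚ)

section core

variable {r : ℕ} [Fact r.Prime]

lemma tame1_apply_pow_val (g : GQ) {ζ : Qbar} (hζ : ζ ^ r = 1) (x : ZMod r) :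
    g (ζ ^ x.val) = ζ ^ (x * (cycloChar r g : (ZMod r)ˣ)).val := by
  rw [map_pow, n3_cycloChar_spec r g hζ, ← pow_mul, ZMod.val_mul, ← pow_eq_pow_mod _ hζ, mul_comm]

/-- `π = ∏_{s ∈ H} (1 - ζ ^ s)` -/
noncomputable def tame1Pi (H : Subgroup (ZMod r)ˣ) [Fintype H] (ζ : Qbar) : Qbar :=
  ∏ s : H, (1 - ζ ^ (((s : (ZMod r)ˣ) : ZMod r)).val)

lemma tame1_apply_pi (H : Subgroup (ZMod r)ˣ) [Fintype H] (g : GQ) {ζ : Qbar} (hζ : ζ ^ r = 1) :
    g (tame1Pi H ζ) =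
      ∏ s : H, (1 - ζ ^ ((((s : (ZMod r)ˣ) * cycloChar r g : (ZMod r)ˣ) : ZMod r)).val) := by
  rw [tame1Pi, map_prod]
  refine Finset.prod_congr rfl fun s _ => ?_
  rw [map_sub, map_one, tame1_apply_pow_val g hζ, Units.val_mul]

lemma tame1_apply_pi_of_mem (H : Subgroup (ZMod r)ˣ) [Fintype H] {g : GQ}
    (hg : cycloChar r g ∈ H) {ζ : Qbar} (hζ : ζ ^ r = 1) :
    g (tame1Pi H ζ) = tame1Pi H ζ := by
  rw [tame1_apply_pi H g hζ, tame1Pi]
  exact Fintype.prod_equiv (Equiv.mulRight (⟨cycloChar r g, hg⟩ : H)) _ _ (fun s => rfl)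

lemma tame1_prod_units_one_sub {ζ : Qbar} (hζ : IsPrimitiveRoot ζ r) :
    ∏ u : (ZMod r)ˣ, (1 - ζ ^ ((u : ZMod r)).val) = (r : Qbar) := by
  have hr : r.Prime := Fact.out
  obtain ⟨n, hn⟩ : ∃ n, r = n + 1 := ⟨r - 1, by have := hr.pos; omega⟩
  have h1 := IsPrimitiveRoot.prod_one_sub_pow_eq_order (n := n) (μ := ζ) (hn ▸ hζ)
  have h2 : ((n : Qbar) + 1) = (r : Qbar) := by rw [hn]; push_cast; ring
  rw [← h2, ← h1]
  have hcop : ∀ k, k ∈ Finset.range n → Nat.Coprime (k + 1) r := by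
    intro k hk
    rw [Finset.mem_range] at hk
    exact ((Nat.Prime.coprime_iff_not_dvd hr).2
      (fun hd => by have := Nat.le_of_dvd (by omega) hd; omega)).symm
  symm
  refine Finset.prod_bij (fun k hk => ZMod.unitOfCoprime (k + 1) (hcop k hk))
    (fun _ _ => Finset.mem_univ _) ?_ ?_ ?_
  · intro a ha b hb hab
    have h3 := congrArg (fun u : (ZMod r)ˣ => ((u : ZMod r)).val) hab
    simp only [ZMod.coe_unitOfCoprime] at h3
    rw [Finset.mem_range] at ha hb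
    rw [ZMod.val_natCast_of_lt (by omega), ZMod.val_natCast_of_lt (by omega)] at h3
    omega
  · intro u _
    have hu0 : ((u : ZMod r)).val ≠ 0 := by
      rw [Ne, ZMod.val_eq_zero]
      exact u.ne_zero
    have hlt : ((u : ZMod r)).val < r := ZMod.val_lt _
    refine ⟨((u : ZMod r)).val - 1, Finset.mem_range.2 (by omega), ?_⟩
    apply Units.ext
    rw [ZMod.coe_unitOfCoprime, Nat.sub_add_cancel (by omega), ZMod.natCast_val, ZMod.cast_id]
  · intro k hk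
    rw [Finset.mem_range] at hk
    rw [ZMod.coe_unitOfCoprime, ZMod.val_natCast_of_lt (by omega)]

/-- the norm of `π` is `r`, for any subgroup `W` of `GQ` on which `cycloChar r` is onto -/
theorem tame1_core (H : Subgroup (ZMod r)ˣ) [Fintype H] (W : Subgroup GQ)
    (hW : ∀ u : (ZMod r)ˣ, ∃ d ∈ W, cycloChar r d = u) (K : Subgroup W)
    (hK : ∀ w : W, w ∈ K ↔ cycloChar r (w : GQ) ∈ H) [Fintype (↥W ⧸ K)] {ζ : Qbar}
    (hζ : IsPrimitiveRoot ζ r) :
    ∏ c : ↥W ⧸ K, ((c.out : ↥W) : GQ) (tame1Pi H ζ) = (r : Qbar) := by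
  classical
  rw [← tame1_prod_units_one_sub hζ]
  let Φ : (↥W ⧸ K) × H → (ZMod r)ˣ := fun x => (x.2 : (ZMod r)ˣ) * cycloChar r ((x.1.out : ↥W) : GQ)
  have hbij : Function.Bijective Φ := by
    constructor
    · rintro ⟨c, s⟩ ⟨c', s'⟩ h
      have h' : (s : (ZMod r)ˣ) * cycloChar r ((c.out : ↥W) : GQ)
          = (s' : (ZMod r)ˣ) * cycloChar r ((c'.out : ↥W) : GQ) := h
      have h1 : (c.out : ↥W)⁻¹ * c'.out ∈ K := by
        rw [hK]
        have h2 : cycloChar r (((c.out : ↥W)⁻¹ * c'.out : ↥W) : GQ)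
            = (s : (ZMod r)ˣ) * (s' : (ZMod r)ˣ)⁻¹ := by
          rw [Subgroup.coe_mul, Subgroup.coe_inv, map_mul, map_inv, inv_mul_eq_iff_eq_mul,
            mul_comm, mul_assoc, mul_comm _ (cycloChar r _), ← mul_assoc,
            h', mul_comm (s' : (ZMod r)ˣ), mul_assoc, mul_inv_cancel, mul_one]
        rw [h2]
        exact H.mul_mem s.2 (H.inv_mem s'.2)
      have h3 : c = c' := by
        have := QuotientGroup.eq.2 h1
        rwa [QuotientGroup.out_eq', QuotientGroup.out_eq'] at this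
      subst h3
      exact Prod.ext rfl (Subtype.ext (mul_right_cancel h'))
    · intro u
      obtain ⟨d, hd, hdu⟩ := hW u
      obtain ⟨k, hk⟩ := QuotientGroup.mk_out_eq_mul K (⟨d, hd⟩ : ↥W)
      have hkH : cycloChar r ((k : ↥W) : GQ) ∈ H := (hK _).1 k.2
      refine ⟨(((⟨d, hd⟩ : ↥W) : ↥W ⧸ K), ⟨(cycloChar r ((k : ↥W) : GQ))⁻¹, H.inv_mem hkH⟩), ?_⟩
      show (cycloChar r ((k : ↥W) : GQ))⁻¹ * cycloChar r ((_ : ↥W) : GQ) = u
      rw [hk, Subgroup.coe_mul, map_mul, hdu, mul_comm u, inv_mul_cancel_left]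
  rw [← Fintype.prod_bijective Φ hbij (fun x => (1 - ζ ^ ((Φ x : (ZMod r)ˣ) : ZMod r).val)) _
    (fun _ => rfl), Fintype.prod_prod_type]
  refine Finset.prod_congr rfl fun c _ => ?_
  rw [tame1_apply_pi H _ hζ.pow_eq_one]

end core

variable {r n : ℕ} [Fact r.Prime] [NeZero n]

/-- **G-TAME1** (with `ratA` unfolded). -/
theorem tame1_main (rr : Nat.Primes) (hrr : (rr : ℕ) = r)
    (θ : (ZMod r)ˣ →* Multiplicative (ZMod n)) (x : Additive Qbarˣ)
    (hx : ((Additive.toMul x : Qbarˣ) : Qbar) = (r : Qbar)) :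
    IsNormFrom (rhoAll (Dq rr)) ((psi θ).comp (Dq rr).subtype).ker x := by
  classical
  have hr : r.Prime := Fact.out
  set K := ((psi θ).comp (Dq rr).subtype).ker with hK
  have : Finite (↥(Dq rr) ⧸ K) := Subgroup.finite_quotient_of_finiteIndex
  have : Fintype (↥(Dq rr) ⧸ K) := Fintype.ofFinite _
  have : Fintype θ.ker := Fintype.ofFinite _
  have hDq : Dq rr = (primeLocalPlace rr).decompositionSubgroup ℚ :=
    P.decGrp_eq_decompositionSubgroup rr
  obtain ⟨ζ, hζ⟩ := N2CycA.exists_primitiveRoot (r := r)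
  have hprod := tame1_core θ.ker (Dq rr)
    (fun u => by
      obtain ⟨i, hi, hiu⟩ := inertia_cyclo_surjective rr hrr u
      exact ⟨i, hDq ▸ P.inertiaSubgroupIn_le_decompositionSubgroup _ hi, hiu⟩)
    K (fun w => Iff.rfl) hζ
  have hπ0 : tame1Pi θ.ker ζ ≠ 0 := by
    intro h0
    rw [h0] at hprod
    have h1 : ∏ c : ↥(Dq rr) ⧸ K, ((c.out : ↥(Dq rr)) : GQ) (0 : Qbar) = 0 :=
      Finset.prod_eq_zero (Finset.mem_univ (1 : ↥(Dq rr) ⧸ K)) (map_zero _)
    rw [h1] at hprod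
    exact (Nat.cast_ne_zero.2 hr.ne_zero) hprod.symm
  refine ⟨Additive.ofMul (Units.mk0 _ hπ0), fun v hv => ?_, ?_⟩
  · apply Additive.toMul.injective
    apply Units.ext
    exact tame1_apply_pi_of_mem θ.ker (g := (v : GQ)) hv hζ.pow_eq_one
  · rw [finsum_eq_sum_of_fintype]
    apply Additive.toMul.injective
    apply Units.ext
    rw [hx, toMul_sum, Units.coe_prod, ← hprod]
    rfl

end Fermat.Agent.S55.G
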