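import Fermat.Agent.S55.G.Loc
import Fermat.Agent.S55.G.N2Cyc
import Fermat.Agent.Lib.FrobeniusExists

/-!
# S55 G-TAME (auxiliary): representatives of `D ⧸ K` in the inertia group, the Gauss-type product
-/

set_option autoImplicit false

namespace Fermat.Agent.S55.G

open ExtCitation Fermat.Agent.S55.L.C0

local notation "Qbar" => AlgebraicClosure ℚ
local notation "GQ" => (AlgebraicClosure ℚ ≃ₐ[ℚ] AlgebraicClosure ℚ)

variable {r n : ℕ} [Fact r.Prime]

/-- representatives of `D ⧸ K` in the inertia group, indexed by `(ℤ/r)ˣ ⧸ ker θ` -/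
theorem tame_exists_reps (rr : Nat.Primes) (hrr : (rr : ℕ) = r)
    (θ : (ZMod r)ˣ →* Multiplicative (ZMod n)) :
    ∃ rep : ((ZMod r)ˣ ⧸ θ.ker) → ↥(Dq rr),
      (∀ q, ((rep q : ↥(Dq rr)) : GQ) ∈ (primeLocalPlace rr).inertiaSubgroupIn ℚ) ∧
      (∀ q, cycloChar r (rep q : GQ) = q.out) ∧
      Function.Bijective
        (fun q => ((rep q : ↥(Dq rr)) : ↥(Dq rr) ⧸ ((psi θ).comp (Dq rr).subtype).ker)) := by
  choose i hi hci using fun q : (ZMod r)ˣ ⧸ θ.ker => inertia_cyclo_surjective rr hrr q.out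
  have hID : ∀ q, i q ∈ Dq rr := fun q => by
    rw [show Dq rr = _ from P.decGrp_eq_decompositionSubgroup rr]
    exact P.inertiaSubgroupIn_le_decompositionSubgroup _ (hi q)
  refine ⟨fun q => ⟨i q, hID q⟩, hi, hci, ?_, ?_⟩
  · intro q q' h
    have h1 := QuotientGroup.eq.1 h
    rw [MonoidHom.mem_ker] at h1
    have h2 : θ ((cycloChar r (i q))⁻¹ * cycloChar r (i q')) = 1 := by
      rw [← map_inv, ← map_mul]; exact h1
    rw [hci, hci] at h2
    have h3 : (QuotientGroup.mk q.out : (ZMod r)ˣ ⧸ θ.ker) = QuotientGroup.mk q'.out :=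
      QuotientGroup.eq.2 h2
    rwa [QuotientGroup.out_eq', QuotientGroup.out_eq'] at h3
  · intro c
    induction c using QuotientGroup.induction_on with
    | H d =>
      refine ⟨QuotientGroup.mk (cycloChar r (d : GQ)), QuotientGroup.eq.2 ?_⟩
      rw [MonoidHom.mem_ker]
      show θ (cycloChar r ((i (QuotientGroup.mk (cycloChar r (d : GQ))))⁻¹ * (d : GQ))) = 1
      rw [map_mul, map_inv, hci]
      have h1 : (QuotientGroup.mk (QuotientGroup.mk (cycloChar r (d : GQ)) :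
          (ZMod r)ˣ ⧸ θ.ker).out : (ZMod r)ˣ ⧸ θ.ker) = QuotientGroup.mk (cycloChar r (d : GQ)) :=
        QuotientGroup.out_eq' _
      exact QuotientGroup.eq.1 h1

/-- `U ≃ (U ⧸ H) × H` at the level of products -/
theorem tame_prod_quot {U M : Type*} [Group U] [Fintype U] [CommMonoid M] (H : Subgroup U)
    [Fintype (U ⧸ H)] [Fintype H] (f : U → M) :
    ∏ q : U ⧸ H, ∏ h : H, f (q.out * h) = ∏ u : U, f u := by
  rw [← Fintype.prod_prod_type' (f := fun (q : U ⧸ H) (h : H) => f (q.out * h))]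
  refine Fintype.prod_bijective (fun x : (U ⧸ H) × H => x.1.out * (x.2 : U)) ⟨?_, ?_⟩ _ _
    (fun _ => rfl)
  · rintro ⟨q, h⟩ ⟨q', h'⟩ hx
    simp only at hx
    have h1 : q = q' := by
      have := congrArg (QuotientGroup.mk : U → U ⧸ H) hx
      rwa [QuotientGroup.mk_mul_of_mem _ h.2, QuotientGroup.mk_mul_of_mem _ h'.2,
        QuotientGroup.out_eq', QuotientGroup.out_eq'] at this
    subst h1
    have h2 : (h : U) = h' := mul_left_cancel hx
    rw [Subtype.ext h2]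
  · intro u
    refine ⟨⟨QuotientGroup.mk u, ⟨(QuotientGroup.mk u : U ⧸ H).out⁻¹ * u,
      QuotientGroup.eq.1 (QuotientGroup.out_eq' _)⟩⟩, ?_⟩
    simp

/-- `∏_{u ∈ (ℤ/r)ˣ} (1 - ζ ^ u) = r` -/
theorem tame_prod_units {ζ : Qbar} (hζ : IsPrimitiveRoot ζ r) :
    ∏ u : (ZMod r)ˣ, (1 - ζ ^ (u : ZMod r).val) = (r : Qbar) := by
  have hr : r.Prime := Fact.out
  obtain ⟨k, rfl⟩ : ∃ k, r = k + 1 := ⟨r - 1, (Nat.succ_pred_eq_of_pos hr.pos).symm⟩
  have h1 := hζ.prod_one_sub_pow_eq_order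
  rw [Nat.cast_add, Nat.cast_one, ← h1]
  refine Finset.prod_bij (fun u _ => (u : ZMod (k + 1)).val - 1) ?_ ?_ ?_ ?_
  · intro u _
    have := ZMod.val_lt (u : ZMod (k + 1))
    have h0 : (u : ZMod (k + 1)).val ≠ 0 := by
      rw [Ne, ZMod.val_eq_zero]; exact u.ne_zero
    rw [Finset.mem_range]; omega
  · intro u _ u' _ h
    have h0 : (u : ZMod (k + 1)).val ≠ 0 := by
      rw [Ne, ZMod.val_eq_zero]; exact u.ne_zero
    have h0' : (u' : ZMod (k + 1)).val ≠ 0 := by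
      rw [Ne, ZMod.val_eq_zero]; exact u'.ne_zero
    apply Units.ext
    apply ZMod.val_injective
    omega
  · intro j hj
    rw [Finset.mem_range] at hj
    have hne : ((j + 1 : ℕ) : ZMod (k + 1)) ≠ 0 := by
      rw [Ne, ZMod.natCast_eq_zero_iff]
      intro hd
      have := Nat.le_of_dvd (Nat.succ_pos j) hd
      omega
    refine ⟨Units.mk0 _ hne, Finset.mem_univ _, ?_⟩
    rw [Units.val_mk0, ZMod.val_natCast, Nat.mod_eq_of_lt (by omega)]
    rfl
  · intro u _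
    have h0 : (u : ZMod (k + 1)).val ≠ 0 := by
      rw [Ne, ZMod.val_eq_zero]; exact u.ne_zero
    rw [Nat.sub_add_cancel (Nat.pos_of_ne_zero h0)]

/-- the Galois action on `1 - ζ ^ u` -/
theorem tame_apply_one_sub {ζ : Qbar} (hζ : IsPrimitiveRoot ζ r) (g : GQ) (u : (ZMod r)ˣ) :
    g (1 - ζ ^ (u : ZMod r).val) = 1 - ζ ^ ((cycloChar r g * u : (ZMod r)ˣ) : ZMod r).val := by
  rw [map_sub, map_one, map_pow, n3_cycloChar_spec r g hζ.pow_eq_one, ← pow_mul, Units.val_mul,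
    ZMod.val_mul, ← pow_eq_pow_mod _ hζ.pow_eq_one]

theorem tame_one_sub_ne_zero {ζ : Qbar} (hζ : IsPrimitiveRoot ζ r) (u : (ZMod r)ˣ) :
    1 - ζ ^ (u : ZMod r).val ≠ 0 := by
  intro h
  have h1 : ζ ^ (u : ZMod r).val = 1 := (sub_eq_zero.1 h).symm
  have h2 := (hζ.pow_eq_one_iff_dvd _).1 h1
  have h3 : ((u : ZMod r).val : ZMod r) = 0 := (ZMod.natCast_eq_zero_iff _ _).2 h2
  rw [ZMod.natCast_val, ZMod.cast_id] at h3
  exact u.ne_zero h3

section place

variable (A : ValuationSubring Qbar) {r : ℕ}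

theorem tame_charP (hr : r.Prime) (hA : A.LiesOverPrime r) :
    CharP (IsLocalRing.ResidueField A) r := by
  refine (CharP.charP_iff_prime_eq_zero hr).mpr ?_
  have h1 : ((r : A) : Qbar) ∈ A.nonunits := by
    have h0 : (r : Qbar) ∈ A.nonunits := hA
    simpa using h0
  have h2 : (r : A) ∈ IsLocalRing.maximalIdeal A := by
    rw [IsLocalRing.mem_maximalIdeal]
    exact (ValuationSubring.coe_mem_nonunits_iff).mp h1
  have h3 := (IsLocalRing.residue_eq_zero_iff (r : A)).mpr h2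
  simpa using h3

/-- a product of conjugates of a non-unit is not a rational `r`-unit -/
theorem tame_not_nonunit (hr : r.Prime) (hA : A.LiesOverPrime r) {ι : Type*} [Fintype ι]
    [Nonempty ι] (δ : ι → GQ) (hδ : ∀ q, δ q ∈ A.decompositionSubgroup ℚ) {x : Qbar}
    {M M' : ℤ} (hM : ¬ (r : ℤ) ∣ M) (hprod : (M' : Qbar) * ∏ q, δ q x = M) :
    x ∉ A.nonunits := by
  intro hx
  have := tame_charP A hr hA
  have h1 : ∀ q, δ q x ∈ A.nonunits := fun q => (P.apply_mem_nonunits_iff A (hδ q) x).2 hx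
  have h2 : ∀ q, ∃ y : A, y ∈ IsLocalRing.maximalIdeal A ∧ (y : Qbar) = δ q x := fun q => by
    obtain ⟨hm, hy⟩ := ValuationSubring.mem_nonunits_iff_exists_mem_maximalIdeal.1 (h1 q)
    exact ⟨⟨_, hm⟩, hy, rfl⟩
  choose y hy hyx using h2
  obtain ⟨q₀⟩ := ‹Nonempty ι›
  have h3 : (M' : A) * ∏ q, y q ∈ IsLocalRing.maximalIdeal A :=
    Ideal.mul_mem_left _ _ (Ideal.prod_mem _ (Finset.mem_univ q₀) (hy q₀))
  have h4 : (M' : A) * ∏ q, y q = (M : A) := by
    apply Subtype.ext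
    push_cast
    simp only [hyx]
    exact hprod
  rw [h4] at h3
  have h5 := (IsLocalRing.residue_eq_zero_iff (M : A)).mpr h3
  rw [map_intCast, CharP.intCast_eq_zero_iff _ r] at h5
  exact hM h5

/-- core of G-TAME2 at a place -/
theorem tame_core (hr : r.Prime) (hA : A.LiesOverPrime r) {ι : Type*} [Fintype ι] [Nonempty ι]
    (δ : ι → GQ) (hδ : ∀ q, δ q ∈ A.inertiaSubgroupIn ℚ) {β : Qbar}
    (hfix : ∀ d ∈ A.decompositionSubgroup ℚ, ∃ i ∈ A.inertiaSubgroupIn ℚ, d β = i β)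
    {N D : ℤ} (hN : ¬ (r : ℤ) ∣ N) (hD : ¬ (r : ℤ) ∣ D)
    (hprod : (D : Qbar) * ∏ q, δ q β = N) :
    ∃ c : ℤ, (r : ℤ) ∣ N - D * c ^ Fintype.card ι := by
  have hchar := tame_charP A hr hA
  have hfact : Fact r.Prime := ⟨hr⟩
  have hN0 : (N : Qbar) ≠ 0 := by
    intro h
    have : N = 0 := by exact_mod_cast h
    exact hN (this ▸ dvd_zero _)
  have hP0 : ∏ q, δ q β ≠ 0 := by
    intro h
    rw [h, mul_zero] at hprod
    exact hN0 hprod.symm
  have hβA : β ∈ A := by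
    have h1 : (N : Qbar) * ∏ q, δ q β⁻¹ = D := by
      simp only [map_inv₀, Finset.prod_inv_distrib]
      rw [← hprod]
      field_simp
    have h2 := tame_not_nonunit A hr hA δ
      (fun q => P.inertiaSubgroupIn_le_decompositionSubgroup A (hδ q)) hD h1
    rw [P.mem_nonunits_iff_inv_notMem, not_or, not_not, inv_inv] at h2
    exact h2.2
  have hI : ∀ i ∈ A.inertiaSubgroupIn ℚ, ∃ z : A, (z : Qbar) = i β ∧
      IsLocalRing.residue A z = IsLocalRing.residue A ⟨β, hβA⟩ := by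
    intro i hi
    obtain ⟨hiD, hi2⟩ := (P.mem_inertiaSubgroupIn_iff A i).1 hi
    refine ⟨⟨i β, ((P.mem_decompositionSubgroup_iff A i).1 hiD β).2 hβA⟩, rfl, ?_⟩
    rw [← sub_eq_zero, ← map_sub, IsLocalRing.residue_eq_zero_iff]
    exact ValuationSubring.coe_mem_nonunits_iff.mp (hi2 β hβA)
  choose z hz hzres using fun q => hI (δ q) (hδ q)
  have h1 : (D : A) * ∏ q, z q = (N : A) := by
    apply Subtype.ext
    push_cast
    simp only [hz]
    exact hprod
  have h2 := congrArg (IsLocalRing.residue A) h1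
  rw [map_mul, map_prod, map_intCast, map_intCast] at h2
  simp only [hzres, Finset.prod_const, Finset.card_univ] at h2
  obtain ⟨φ, hφD, hφ⟩ := Fermat.Agent.Lib.FrobeniusExists.exists_isFrobeniusAt_rat A hr hA
  have h3 : (IsLocalRing.residue A ⟨β, hβA⟩) ^ r = IsLocalRing.residue A ⟨β, hβA⟩ := by
    rw [← hφ]
    obtain ⟨i, hi, hiβ⟩ := hfix φ hφD
    obtain ⟨w, hw, hwres⟩ := hI i hi
    have h4 : (⟨φ, hφD⟩ : A.decompositionSubgroup ℚ) • (⟨β, hβA⟩ : A) = w := by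
      apply Subtype.ext
      rw [hw, ← hiβ]
      rfl
    have h5 : (⟨φ, hφD⟩ : A.decompositionSubgroup ℚ) • IsLocalRing.residue A ⟨β, hβA⟩ =
        IsLocalRing.residue A ((⟨φ, hφD⟩ : A.decompositionSubgroup ℚ) • (⟨β, hβA⟩ : A)) := rfl
    rw [h5, h4, hwres]
  rw [← Subfield.mem_bot_iff_pow_eq_self, mem_bot_iff_intCast r] at h3
  obtain ⟨c, hc⟩ := h3
  refine ⟨c, ?_⟩
  rw [← CharP.intCast_eq_zero_iff (IsLocalRing.ResidueField A) r]
  push_cast
  rw [hc, h2, sub_self]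

end place

end Fermat.Agent.S55.G
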