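/-
S55 G-TAME2 (helper76): a rational `r`-unit which is a local norm from the tame extension cut out by
`θ ∘ cycloChar r` at `r` is killed by `θ`.
-/
import Fermat.Agent.S55.G.N2Cyc
import Fermat.Agent.S55.P.Roots

set_option autoImplicit false

namespace Fermat.Agent.S55.G

open ExtCitation ValuationSubring Fermat.Agent.S55.L.C0

local notation "Qbar" => AlgebraicClosure ℚ
local notation "GQ" => (AlgebraicClosure ℚ ≃ₐ[ℚ] AlgebraicClosure ℚ)

section core

variable {r : ℕ} [Fact r.Prime] {A : ValuationSubring Qbar}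

theorem tame2_frob_spec (σ : GQ) (ℓ : ℕ) (hσ : A.IsFrobeniusAt σ ℓ) (a : Qbar) (ha : a ∈ A) :
    ∃ h : σ a ∈ A, IsLocalRing.residue A ⟨σ a, h⟩ = (IsLocalRing.residue A ⟨a, ha⟩) ^ ℓ := by
  obtain ⟨hd, hτ⟩ := hσ
  have hmem : σ a ∈ A :=
    ((A.subMulAction ℚ).smul_mem (⟨σ, hd⟩ : A.decompositionSubgroup ℚ) ha)
  exact ⟨hmem, hτ (IsLocalRing.residue A ⟨a, ha⟩)⟩

lemma tame2_charP_residueField (hA : A.LiesOverPrime r) :
    CharP (IsLocalRing.ResidueField A) r := by
  have hr : r.Prime := Fact.out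
  have hq0 : (r : IsLocalRing.ResidueField A) = 0 := by
    have h3 : ((r : A)) ∈ IsLocalRing.maximalIdeal A := by
      rw [← coe_mem_nonunits_iff]
      have hA' : (r : Qbar) ∈ A.nonunits := hA
      simpa using hA'
    have := (IsLocalRing.residue_eq_zero_iff _).mpr h3
    simpa using this
  exact (CharP.charP_iff_prime_eq_zero hr).2 hq0

lemma tame2_intCast_not_mem_nonunits (hA : A.LiesOverPrime r) {D : ℤ} (hD : ¬ (r : ℤ) ∣ D) :
    (D : Qbar) ∉ A.nonunits := by
  have := tame2_charP_residueField hA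
  intro h
  have h1 : ((D : A)) ∈ IsLocalRing.maximalIdeal A := by
    rw [← coe_mem_nonunits_iff]
    simpa using h
  have h2 := (IsLocalRing.residue_eq_zero_iff _).2 h1
  rw [map_intCast] at h2
  exact hD ((CharP.intCast_eq_zero_iff (IsLocalRing.ResidueField A) r D).1 h2)

lemma tame2_prod_mem_nonunits {ι : Type*} (t : Finset ι) (ht : t.Nonempty) (f : ι → Qbar)
    (h : ∀ i ∈ t, f i ∈ A.nonunits) : ∏ i ∈ t, f i ∈ A.nonunits := by
  induction ht using Finset.Nonempty.cons_induction with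
  | singleton a => simpa using h a (by simp)
  | cons a s ha hs ih =>
    rw [Finset.prod_cons]
    exact A.nonunits.mul_mem (h a (by simp)) (ih fun i hi => h i (by simp [hi]))

/-- every `d ∈ D_A` acts trivially modulo `𝔪_A` on the fixed field of `D_A ∩ ker (cycloChar r)` -/
theorem tame2_residue_apply (hA : A.LiesOverPrime r) {y : Qbar} (hy : y ∈ A)
    (hfix : ∀ w ∈ A.decompositionSubgroup ℚ, cycloChar r w = 1 → w y = y) (d : GQ)
    (hd : d ∈ A.decompositionSubgroup ℚ) :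
    ∃ h : d y ∈ A, IsLocalRing.residue A ⟨d y, h⟩ = IsLocalRing.residue A ⟨y, hy⟩ := by
  obtain ⟨i, hi, hiu⟩ := n2c_inertia_cyclo_surjective A hA (cycloChar r d)
  have hiD := P.inertiaSubgroupIn_le_decompositionSubgroup A hi
  have hk : (i⁻¹ * d) y = y := by
    apply hfix _ (Subgroup.mul_mem _ (Subgroup.inv_mem _ hiD) hd)
    rw [map_mul, map_inv, hiu, inv_mul_cancel]
  have hdy : d y = i y := by
    have h1 : d = i * (i⁻¹ * d) := by group
    calc d y = (i * (i⁻¹ * d)) y := by rw [← h1]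
      _ = i ((i⁻¹ * d) y) := rfl
      _ = i y := by rw [hk]
  obtain ⟨h, hres⟩ := n3_inertia_spec A i hi y hy
  refine ⟨hdy ▸ h, ?_⟩
  rw [← hres]
  congr 1
  exact Subtype.ext hdy

/-- the residue field of the fixed field of `D_A ∩ ker (cycloChar r)` is `𝔽_r` -/
theorem tame2_exists_int (hA : A.LiesOverPrime r) {y : Qbar} (hy : y ∈ A)
    (hfix : ∀ w ∈ A.decompositionSubgroup ℚ, cycloChar r w = 1 → w y = y) :
    ∃ c : ℤ, IsLocalRing.residue A ⟨y, hy⟩ = (c : IsLocalRing.ResidueField A) := by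
  have hr : r.Prime := Fact.out
  have := tame2_charP_residueField hA
  obtain ⟨φ, hφ⟩ := Fermat.Agent.Lib.FrobeniusExists.exists_isFrobeniusAt_rat A hr hA
  obtain ⟨h1, hres1⟩ := tame2_residue_apply hA hy hfix φ hφ.mem_decompositionSubgroup
  obtain ⟨h2, hres2⟩ := tame2_frob_spec φ r hφ y hy
  have h3 : (IsLocalRing.residue A ⟨y, hy⟩) ^ r = IsLocalRing.residue A ⟨y, hy⟩ := by
    rw [← hres2, hres1]
  have h4 := (Subfield.mem_bot_iff_pow_eq_self (IsLocalRing.ResidueField A) r).2 h3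
  obtain ⟨c, hc⟩ := (mem_bot_iff_intCast r (IsLocalRing.ResidueField A)).1 h4
  exact ⟨c, hc.symm⟩

/-- the arithmetic core of G-TAME2 -/
theorem tame2_core (hA : A.LiesOverPrime r) {ι : Type*} [Fintype ι] [Nonempty ι] (s : ι → GQ)
    (hs : ∀ i, s i ∈ A.decompositionSubgroup ℚ) {b : Qbar}
    (hb : ∀ w ∈ A.decompositionSubgroup ℚ, cycloChar r w = 1 → w b = b) (N D : ℤ)
    (hN : ¬ (r : ℤ) ∣ N) (hD : ¬ (r : ℤ) ∣ D) (hab : (N : Qbar) / (D : Qbar) = ∏ i, s i b) :
    ∃ c : ℤ, (N : ZMod r) = (D : ZMod r) * (c : ZMod r) ^ Fintype.card ι := by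
  have hchar := tame2_charP_residueField hA
  have hNn := tame2_intCast_not_mem_nonunits hA hN
  have hDn := tame2_intCast_not_mem_nonunits hA hD
  have hD0 : (D : Qbar) ≠ 0 := fun h => hDn ((P.mem_nonunits_iff_inv_notMem A _).2 (Or.inl h))
  have hN0 : (N : Qbar) ≠ 0 := fun h => hNn ((P.mem_nonunits_iff_inv_notMem A _).2 (Or.inl h))
  have hDinv : (D : Qbar)⁻¹ ∈ A := by
    by_contra h
    exact hDn ((P.mem_nonunits_iff_inv_notMem A _).2 (Or.inr h))
  have hbA : b ∈ A := by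
    by_contra hbA
    have h1 : b⁻¹ ∈ A.nonunits := by
      rw [P.mem_nonunits_iff_inv_notMem, inv_inv]
      exact Or.inr hbA
    have h2 : ∏ i, s i b⁻¹ ∈ A.nonunits :=
      tame2_prod_mem_nonunits _ Finset.univ_nonempty _
        fun i _ => (P.apply_mem_nonunits_iff A (hs i) _).2 h1
    have h3 : ∏ i, s i b⁻¹ = ((N : Qbar) / (D : Qbar))⁻¹ := by
      rw [hab, ← Finset.prod_inv_distrib]
      exact Finset.prod_congr rfl fun i _ => map_inv₀ _ _
    rw [h3, P.mem_nonunits_iff_inv_notMem, inv_inv] at h2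
    rcases h2 with h2 | h2
    · rw [inv_eq_zero] at h2
      exact div_ne_zero hN0 hD0 h2
    · apply h2
      rw [div_eq_mul_inv]
      exact A.mul_mem _ _ (intCast_mem A N) hDinv
  obtain ⟨c, hc⟩ := tame2_exists_int hA hbA hb
  have hmem : ∀ i, s i b ∈ A := fun i => (tame2_residue_apply hA hbA hb (s i) (hs i)).1
  have hres : ∀ i, IsLocalRing.residue A ⟨s i b, hmem i⟩ = (c : IsLocalRing.ResidueField A) := by
    intro i
    obtain ⟨h, hh⟩ := tame2_residue_apply hA hbA hb (s i) (hs i)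
    rw [← hc, ← hh]
  have hprodA : (D : A) * ∏ i, (⟨s i b, hmem i⟩ : A) = (N : A) := by
    apply Subtype.ext
    have h9 : ((∏ i, (⟨s i b, hmem i⟩ : A) : A) : Qbar) = ∏ i, s i b := map_prod A.subtype _ _
    rw [MulMemClass.coe_mul, h9, ← hab]
    simp only [SubringClass.coe_intCast]
    field_simp
  have h5 := congrArg (IsLocalRing.residue A) hprodA
  rw [map_mul, map_prod, Finset.prod_congr rfl (fun i _ => hres i), Finset.prod_const,
    Finset.card_univ, map_intCast, map_intCast] at h5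
  have h6 : (((N - D * c ^ Fintype.card ι : ℤ)) : IsLocalRing.ResidueField A) = 0 := by
    push_cast
    rw [h5, sub_self]
  have h7 := (CharP.intCast_eq_zero_iff (IsLocalRing.ResidueField A) r _).1 h6
  refine ⟨c, ?_⟩
  have h8 := (ZMod.intCast_zmod_eq_zero_iff_dvd _ r).2 h7
  push_cast at h8
  exact sub_eq_zero.1 h8

end core

variable {r n : ℕ} [Fact r.Prime] [NeZero n]

/-- **G-TAME2** (with `ratA` unfolded). -/
theorem tame2_main (rr : Nat.Primes) (hrr : (rr : ℕ) = r)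
    (θ : (ZMod r)ˣ →* Multiplicative (ZMod n)) (N D : ℤ) (hN : ¬ (r : ℤ) ∣ N) (hD : ¬ (r : ℤ) ∣ D)
    (x : Additive Qbarˣ) (hx : ((Additive.toMul x : Qbarˣ) : Qbar) = (N : Qbar) / (D : Qbar))
    (h : IsNormFrom (rhoAll (Dq rr)) ((psi θ).comp (Dq rr).subtype).ker x)
    (uN uD : (ZMod r)ˣ) (huN : (uN : ZMod r) = (N : ZMod r)) (huD : (uD : ZMod r) = (D : ZMod r)) :
    θ uN = θ uD := by
  classical
  obtain ⟨b, hb, hab⟩ := h
  set K := ((psi θ).comp (Dq rr).subtype).ker with hK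
  haveI : Finite (↥(Dq rr) ⧸ K) := Subgroup.finite_quotient_of_finiteIndex
  haveI : Fintype (↥(Dq rr) ⧸ K) := Fintype.ofFinite _
  rw [finsum_eq_sum_of_fintype] at hab
  have hA : (primeLocalPlace rr).LiesOverPrime r := hrr ▸ n2c_liesOverPrime rr
  have hDq : Dq rr = (primeLocalPlace rr).decompositionSubgroup ℚ :=
    P.decGrp_eq_decompositionSubgroup rr
  have hab' : (N : Qbar) / (D : Qbar)
      = ∏ c : ↥(Dq rr) ⧸ K, ((c.out : ↥(Dq rr)) : GQ) ((Additive.toMul b : Qbarˣ) : Qbar) := by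
    rw [← hx, hab, toMul_sum, Units.coe_prod]
    rfl
  obtain ⟨c, hc⟩ := tame2_core hA (fun c : ↥(Dq rr) ⧸ K => ((c.out : ↥(Dq rr)) : GQ))
    (fun c => hDq ▸ (c.out : ↥(Dq rr)).2)
    (b := ((Additive.toMul b : Qbarˣ) : Qbar))
    (fun w hw hw1 => by
      have h1 := hb ⟨w, hDq ▸ hw⟩ (by
        rw [hK, MonoidHom.mem_ker]
        show θ (cycloChar r w) = 1
        rw [hw1, map_one])
      exact congrArg (fun z : Additive Qbarˣ => ((Additive.toMul z : Qbarˣ) : Qbar)) h1)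
    N D hN hD hab'
  have hcard : Fintype.card (↥(Dq rr) ⧸ K) = K.index := by
    rw [Subgroup.index_eq_card, Nat.card_eq_fintype_card]
  rw [hcard] at hc
  have hN0 : (N : ZMod r) ≠ 0 := by
    rw [Ne, ZMod.intCast_zmod_eq_zero_iff_dvd]
    exact hN
  have hc0 : (c : ZMod r) ≠ 0 := by
    intro h0
    apply hN0
    rw [hc, h0, zero_pow (Subgroup.FiniteIndex.index_ne_zero), mul_zero]
  set uc : (ZMod r)ˣ := Units.mk0 (c : ZMod r) hc0 with huc
  have hu : uN = uD * uc ^ K.index := by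
    apply Units.ext
    rw [Units.val_mul, Units.val_pow_eq_pow_val, huN, huD, huc, Units.val_mk0, hc]
  obtain ⟨i, hi, hiu⟩ := inertia_cyclo_surjective rr hrr uc
  have hiD : i ∈ Dq rr := hDq ▸ P.inertiaSubgroupIn_le_decompositionSubgroup _ hi
  have h1 : (⟨i, hiD⟩ : ↥(Dq rr)) ^ K.index ∈ K := Subgroup.pow_index_mem K _
  rw [hK, MonoidHom.mem_ker, map_pow] at h1
  have h2 : θ uc ^ K.index = 1 := by
    rw [← hiu]
    exact h1
  rw [hu, map_mul, map_pow, h2, mul_one]

end Fermat.Agent.S55.G
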