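/-
S55, block G: `dim (CoInd_U^G k)^D = # U \ G / D` (helper76).
-/
import Mathlib
import Fermat.Agent.S55.G.N3Group

set_option autoImplicit false

namespace Fermat.Agent.S55.G

open Representation Module

variable {k : Type*} [Field k] {G D : Type*} [Group G] [Group D]

lemma coind_triv_apply_coe (U : Subgroup G) (g : G)
    (f : coindV U.subtype (Representation.trivial k U k)) (x : G) :
    ((coind U.subtype (Representation.trivial k U k) g) f).1 x = f.1 (x * g) := rfl

/-- invariants of `D` in `CoInd_U^G k` = functions on `U \ G / r(D)`. -/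
noncomputable def invCoindEquiv (U : Subgroup G) (r : D →* G) :
    Representation.invariants ((coind U.subtype (Representation.trivial k U k)).comp r) ≃ₗ[k]
      (DoubleCoset.Quotient (U : Set G) r.range → k) where
  toFun f := fun x => Quotient.liftOn' x (fun g => f.1.1 g) (by
    intro a b hab
    obtain ⟨u, hu, d, ⟨d, rfl⟩, rfl⟩ := DoubleCoset.rel_iff.1 hab
    have h1 : f.1.1 (u * a * r d) = f.1.1 (u * a) :=
      (coind_triv_apply_coe U (r d) f.1 (u * a)).symm.trans
        (congrArg (fun φ => φ.1 (u * a)) (f.2 d))
    have h2 := f.1.2 ⟨u, hu⟩ a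
    simp only [Subgroup.subtype_apply, Representation.trivial_apply] at h2
    change f.1.1 a = f.1.1 (u * a * r d)
    rw [h1, h2])
  map_add' f g := by
    ext x
    obtain ⟨a, rfl⟩ := Quotient.exists_rep x
    rfl
  map_smul' c f := by
    ext x
    obtain ⟨a, rfl⟩ := Quotient.exists_rep x
    rfl
  invFun φ := ⟨⟨fun g => φ (DoubleCoset.mk U r.range g), by
      intro u g
      simp only [Subgroup.subtype_apply, Representation.trivial_apply]
      congr 1
      rw [eq_comm, DoubleCoset.eq]
      exact ⟨u, u.2, 1, one_mem _, by simp⟩⟩, by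
      intro d
      apply Subtype.ext
      funext g
      change φ (DoubleCoset.mk U r.range (g * r d)) = φ (DoubleCoset.mk U r.range g)
      congr 1
      rw [eq_comm, DoubleCoset.eq]
      exact ⟨1, one_mem _, r d, ⟨d, rfl⟩, by simp⟩⟩
  left_inv f := by
    apply Subtype.ext
    apply Subtype.ext
    funext g
    rfl
  right_inv φ := by
    ext x
    obtain ⟨a, rfl⟩ := Quotient.exists_rep x
    rfl

theorem finrank_invariants_coind (U : Subgroup G) [U.FiniteIndex] (r : D →* G) :
    finrank k (Representation.invariants
      ((coind U.subtype (Representation.trivial k U k)).comp r)) = ndc U r.range := by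
  have := finite_dc U r.range
  have := Fintype.ofFinite (DoubleCoset.Quotient (U : Set G) r.range)
  rw [(invCoindEquiv (k := k) U r).finrank_eq, Module.finrank_fintype_fun_eq_card, ndc,
    Nat.card_eq_fintype_card]

end Fermat.Agent.S55.G
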