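import Fermat.Agent.S55.G.NormCritUnram
import Fermat.Agent.S55.G.N3Cyc
import Fermat.Agent.S55.P.HNT.Main

/-!
# S55 G-NC: the Hasse norm theorem in Galois-group language  (INTERFACE [H] → [G])

`K ≤ K₁` number fields inside `ℚ̄`, unramified outside `S ∋ p`, `μ_p ⊂ K` (so `K` is totally complex,
`p` odd), `K₁ / K` cyclic of degree `p`, `σ` a generator.  `a ∈ Kˣ` is a global norm as soon as
* at every place `g • plq q` (`q ∈ S`) which does not split in `K₁`, `a` is a norm from the henselian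
  field `ℚ̄^(W₁)`, `W₁ = Fix K₁ ∩ g D_q g⁻¹`, to `ℚ̄^W`, `W = Fix K ∩ g D_q g⁻¹`;
* at every place `A` over `q ∉ S` which does not split, `p ∣ ord_A a`.

PROOF (from the exports of [H], see report #851):
`H.hnt [IsGalois K L] (finrank K L = p) [IsTotallyComplex K] (∀ v, a ∈ H.locNorm L v) : a ∈ H.normRange L`,
`H.locNorm_eq_top_of_split`, `H.mem_locNorm_of_unram`, with `L := K₁` as a `K`-algebra
(`(IntermediateField.inclusion hKK₁).toRingHom.toAlgebra`, or `IntermediateField.extendScalars`).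
Every `v : H.Pl K` is `P.primeUnder K A`, `A = g • padicPlace q` (`P.exists_place_over`).
`Gal(K₁/K) = {σ^i}`, `Algebra.norm K y = ∏ i < p, σ^i y` (`Algebra.norm_eq_prod_automorphisms`).
(a) `Fix K ∩ D_A ≤ Fix K₁`: the `p` places `σ^i • A` induce pairwise distinct primes of `K₁` above `v`
(`P.primeUnder_smul_eq_iff` for `K₁`): `v` splits.
(b) `q ∉ S`, not split: `K₁/K` is unramified at `v` and `ordv v a = - ordA A q a ∈ pℤ`.
(c) `q ∈ S`, `τ ∈ W \ Fix K₁`, `a = ∏ τ^i b`: `τ` generates `Gal(K₁/K)`, so `N y = ∏ τ^i y` for `y ∈ K₁`;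
`b ∈ g (hens q ⊔ g⁻¹ K₁)`; approximate `b` by `y ∈ K₁` (`P.exists_prod_close_one`, transported by `g`:
`P.Close.smul`), so `a / N y` is close to `1` at `A`, i.e. in `H.nearOne v m`
(`P.valuation_le_exp_of_close`).
-/

set_option autoImplicit false
set_option linter.unusedVariables false

namespace Fermat.Agent.S55.G

open ExtCitation NumberField IsDedekindDomain
open scoped Pointwise

local notation "Qbar" => AlgebraicClosure ℚ
local notation "GQ" => (AlgebraicClosure ℚ ≃ₐ[ℚ] AlgebraicClosure ℚ)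

theorem conjSub_Dq (q : ℕ) [hq : Fact q.Prime] (g : GQ) :
    conjSub (Dq ⟨q, hq.out⟩) g = (g • padicPlace q).decompositionSubgroup ℚ := by
  rw [P.decompositionSubgroup_smul, ← P.fixingSubgroup_hens]
  rfl

theorem norm_criterion {p : ℕ} [Fact p.Prime] (hp2 : p ≠ 2) {S : Finset Nat.Primes}
    (hpS : pPrime p ∈ S) (K K₁ : IntermediateField ℚ Qbar) (hK₁ : K₁.IsUnramifiedOutside S)
    (hKK₁ : K ≤ K₁) (hω : K.fixingSubgroup ≤ (cycloChar p).ker)
    (hn : (K₁.fixingSubgroup.subgroupOf K.fixingSubgroup).Normal)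
    (hi : K₁.fixingSubgroup.relIndex K.fixingSubgroup = p)
    (σ : GQ) (hσ : σ ∈ K.fixingSubgroup) (hσ₁ : σ ∉ K₁.fixingSubgroup)
    (a : Qbar) (ha : a ∈ K) (ha0 : a ≠ 0)
    (hS : ∀ q ∈ S, ∀ g : GQ, K.fixingSubgroup ⊓ conjSub (Dq q) g ≤ K₁.fixingSubgroup ∨
      ∃ τ ∈ K.fixingSubgroup ⊓ conjSub (Dq q) g, τ ∉ K₁.fixingSubgroup ∧
        ∃ b : Qbar, (∀ w ∈ K₁.fixingSubgroup ⊓ conjSub (Dq q) g, w b = b) ∧
          a = ∏ i ∈ Finset.range p, (τ ^ i) b)
    (hnS : ∀ q : Nat.Primes, q ∉ S → ∀ A : ValuationSubring Qbar, A.LiesOverPrime (q : ℕ) →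
      K.fixingSubgroup ⊓ A.decompositionSubgroup ℚ ≤ K₁.fixingSubgroup ∨ (p : ℤ) ∣ ordA A q a) :
    ∃ b ∈ K₁, a = ∏ i ∈ Finset.range p, (σ ^ i) b := by
  classical
  have hp : p.Prime := Fact.out
  let alg := (IntermediateField.inclusion hKK₁).toRingHom.toAlgebra
  have : FiniteDimensional ℚ K₁ := hK₁.1
  have : FiniteDimensional ℚ K :=
    FiniteDimensional.of_injective (IntermediateField.inclusion hKK₁).toLinearMap
      (IntermediateField.inclusion hKK₁).injective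
  have : NumberField K := P.numberField_of_finiteDimensional K
  have : NumberField K₁ := P.numberField_of_finiteDimensional K₁
  have : IsGalois K K₁ := (Fermat.Agent.S55.L.B2a.isGalois_iff hKK₁).2 hn
  have hdeg : Module.finrank K K₁ = p :=
    (Fermat.Agent.S55.L.B2a.finrank_eq_relIndex hKK₁).trans hi
  have hp3 : 2 < p := lt_of_le_of_ne hp.two_le (Ne.symm hp2)
  -- `μ_p ⊆ K`
  have hgalQ : IsGalois ℚ Qbar := Fermat.Agent.Lib.FrobeniusExists.isGalois_algebraicClosure_rat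
  obtain ⟨ζ, hζ⟩ : ∃ ζ : Qbar, IsPrimitiveRoot ζ p :=
    HasEnoughRootsOfUnity.exists_primitiveRoot Qbar p
  have hζK : ζ ∈ K := by
    rw [← InfiniteGalois.fixedField_fixingSubgroup K, IntermediateField.mem_fixedField_iff]
    intro s hs
    have h1 := n3_cycloChar_spec p s (ζ := ζ) hζ.pow_eq_one
    have h2 : cycloChar p s = 1 := hω hs
    rw [h2] at h1
    have : Fact (1 < p) := ⟨hp.one_lt⟩
    simpa [ZMod.val_one] using h1
  have hζ' : IsPrimitiveRoot (⟨ζ, hζK⟩ : K) p :=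
    IsPrimitiveRoot.of_map_of_injective (f := K.val) (hf := K.val.injective) hζ
  have : IsTotallyComplex K := H.isTotallyComplex_of_primitiveRoot hp3 hζ'
  have ha0' : (⟨a, ha⟩ : K) ≠ 0 := fun h0 => ha0 (congrArg Subtype.val h0)
  set a' : Kˣ := Units.mk0 ⟨a, ha⟩ ha0' with ha'
  have hall : ∀ v : H.Pl K, a' ∈ H.locNorm K₁ v := by
    intro v
    obtain ⟨q, hq, g, hv⟩ := P.exists_place_over K v
    have hA : (g • padicPlace q).LiesOverPrime q :=
      (P.liesOverPrime_smul_iff _ g q).2 (P.padicPlace_liesOverPrime q)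
    have hv' : v = P.plUnder K (g • padicPlace q) hq.out hA := HeightOneSpectrum.ext hv
    rw [hv']
    by_cases hqS : (⟨q, hq.out⟩ : Nat.Primes) ∈ S
    · have h1 := hS ⟨q, hq.out⟩ hqS g
      rw [conjSub_Dq q g] at h1
      rcases h1 with hs | ⟨τ, hτ, hτL, y, hy, hya⟩
      · rw [P.locNorm_eq_top_of_inf_le hKK₁ hp hn hi _ hq.out hA hs]
        exact Subgroup.mem_top _
      · exact P.mem_locNorm_of_local_norm hKK₁ hp hn hi q g hA hτ.1 hτ.2 hτL hy a' hya.symm
    · rcases hnS ⟨q, hq.out⟩ hqS (g • padicPlace q) hA with hs | hd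
      · rw [P.locNorm_eq_top_of_inf_le hKK₁ hp hn hi _ hq.out hA hs]
        exact Subgroup.mem_top _
      · exact mem_locNorm_of_dvd_ordA hp hKK₁ hK₁ hn hi (q := ⟨q, hq.out⟩) hqS
          (g • padicPlace q) hA a' hd
  obtain ⟨y, hy⟩ := H.hnt K₁ hp hdeg a' hall
  refine ⟨((y : K₁) : Qbar), (y : K₁).2, ?_⟩
  rw [← P.coe_norm_eq_prod hKK₁ hp hn hi hσ hσ₁ (y : K₁)]
  have h1 := congrArg (fun u : Kˣ => ((u : K) : Qbar)) hy
  simpa [ha'] using h1.symm

end Fermat.Agent.S55.G
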