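import Fermat.Agent.S55.G.Ord
import Fermat.Agent.S55.P.HNT.Norm
import Fermat.Agent.S55.P.Doset
import Fermat.Agent.S55.H.Main

/-!
# S55 G-NC (b): unramified places.  `p ∣ ord_A a` and `q ∉ S` imply `a ∈ H.locNorm L v`.
-/

set_option autoImplicit false

namespace Fermat.Agent.S55.G

open ExtCitation NumberField IsDedekindDomain
open scoped Pointwise

local notation "Qbar" => AlgebraicClosure ℚ
local notation "GQ" => (AlgebraicClosure ℚ ≃ₐ[ℚ] AlgebraicClosure ℚ)

/-- the valuation in terms of `ordv` -/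
theorem valuation_eq_exp_ordv {K : Type*} [Field K] [NumberField K] (v : H.Pl K) (a : Kˣ) :
    v.valuation K (a : K) = WithZero.exp (ordv v a) := by
  rw [← HeightOneSpectrum.valuationOfNeZero_eq, ordv, WithZero.exp, ofAdd_toAdd]

/-- `q` is a uniformiser at every place over `q ∉ S` of an `S`-unramified number field -/
theorem valuation_natCast_of_notMem {S : Finset Nat.Primes} (K : IntermediateField ℚ Qbar)
    [NumberField K] (hK : K.IsUnramifiedOutside S) {q : Nat.Primes} (hq : q ∉ S)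
    (A : ValuationSubring Qbar) (hA : A.LiesOverPrime (q : ℕ)) (v : H.Pl K)
    (hv : v.asIdeal = P.primeUnder K A) :
    v.valuation K ((q : ℕ) : K) = WithZero.exp (-1 : ℤ) := by
  have hq0 : (((q : ℕ) : K)) ≠ 0 := by exact_mod_cast q.2.ne_zero
  have h1 := ordv_eq_neg_ordA K hK hq A hA v hv (Units.mk0 _ hq0)
  have h2 : (((Units.mk0 (((q : ℕ) : K)) hq0 : Kˣ) : K) : Qbar) = ((q : ℕ) : Qbar) := by simp
  rw [h2, ordA_prime hA] at h1
  have h3 := valuation_eq_exp_ordv v (Units.mk0 _ hq0)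
  rw [h1] at h3
  exact h3

theorem mem_locNorm_of_dvd_ordA {p : ℕ} (hp : p.Prime) {S : Finset Nat.Primes}
    {K L : IntermediateField ℚ Qbar} (h : K ≤ L) [NumberField K] [NumberField L]
    [IsTotallyComplex K] (hL : L.IsUnramifiedOutside S)
    (hN : (L.fixingSubgroup.subgroupOf K.fixingSubgroup).Normal)
    (hidx : L.fixingSubgroup.relIndex K.fixingSubgroup = p) {q : Nat.Primes} (hq : q ∉ S)
    (A : ValuationSubring Qbar) (hA : A.LiesOverPrime (q : ℕ)) (a : Kˣ)
    (hd : (p : ℤ) ∣ ordA A q (((a : K) : Qbar))) :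
    letI := (IntermediateField.inclusion h).toRingHom.toAlgebra
    a ∈ H.locNorm L (P.plUnder K A q.2 hA) := by
  let _ := (IntermediateField.inclusion h).toRingHom.toAlgebra
  have hK : K.IsUnramifiedOutside S := hL.of_le h
  have hgal : IsGalois K L := (Fermat.Agent.S55.L.B2a.isGalois_iff h).2 hN
  have hdeg : Module.finrank K L = p := (Fermat.Agent.S55.L.B2a.finrank_eq_relIndex h).trans hidx
  have hqfact : Fact (q : ℕ).Prime := ⟨q.2⟩
  set v : H.Pl K := P.plUnder K A q.2 hA with hv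
  have hvq : v.valuation K ((q : ℕ) : K) = WithZero.exp (-1 : ℤ) :=
    valuation_natCast_of_notMem K hK hq A hA v rfl
  obtain ⟨j, hj⟩ := hd
  refine H.mem_locNorm_of_unram L hp hdeg v ?_ a (-j) ?_
  · intro w hw
    have hlies : w.asIdeal.LiesOver v.asIdeal := ⟨by rw [← hw]; rfl⟩
    -- `q ∈ w`
    have hqw : (((q : ℕ) : 𝓞 L)) ∈ w.asIdeal := by
      have h1 : (((q : ℕ) : 𝓞 K)) ∈ v.asIdeal := P.natCast_mem_primeUnder hA
      have h2 : algebraMap (𝓞 K) (𝓞 L) (((q : ℕ) : 𝓞 K)) ∈ w.asIdeal := by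
        rw [hlies.over] at h1
        exact h1
      simpa using h2
    have := w.isPrime
    obtain ⟨g, hg⟩ := P.exists_primeUnder_eq L (q : ℕ) w.asIdeal hqw
    have hA' : (g • padicPlace (q : ℕ)).LiesOverPrime (q : ℕ) :=
      (P.liesOverPrime_smul_iff _ g _).2 (P.padicPlace_liesOverPrime _)
    have hwq : w.valuation L ((q : ℕ) : L) = WithZero.exp (-1 : ℤ) :=
      valuation_natCast_of_notMem L hL hq _ hA' w hg.symm
    have h3 := HeightOneSpectrum.valuation_liesOver L v w ((q : ℕ) : K)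
    rw [map_natCast (algebraMap K L), hvq, hwq, ← WithZero.exp_nsmul, WithZero.exp_inj] at h3
    have h4 : ((v.asIdeal.ramificationIdx' w.asIdeal : ℕ) : ℤ) = 1 := by
      simp only [nsmul_eq_mul, mul_neg, mul_one, neg_inj] at h3
      exact h3
    exact_mod_cast h4
  · rw [valuation_eq_exp_ordv, ordv_eq_neg_ordA K hK hq A hA v rfl a, hj]
    congr 1
    ring

end Fermat.Agent.S55.G
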