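import Fermat.Agent.S55.G.H90
import Fermat.Agent.S55.P.ValueGroup
import Fermat.Agent.S55.P.Val

/-!
# S55 G-ORD: the normalised valuation `ordA A q x ∈ ℤ` at a place `A` of `ℚ̄` over `q`, on elements
which are unramified at `A` (e.g. `x ∈ 𝕂_S`, `q ∉ S`)

`ordA A q x = n` iff `x * q ^ (-n)` is a unit at `A` (`P.IsUnitAt`).  Existence of `n` for
`x ∈ 𝕂_Sˣ`: `P.exists_zpow_mul_isUnitAt_of_isUnramifiedOutside`; uniqueness: `P.zpow_isUnitAt_iff`
and `P.IsUnitAt.mul/inv`.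
-/

set_option autoImplicit false

noncomputable section

namespace Fermat.Agent.S55.G

open ExtCitation NumberField IsDedekindDomain
open scoped Pointwise

local notation "Qbar" => AlgebraicClosure ℚ
local notation "GQ" => (AlgebraicClosure ℚ ≃ₐ[ℚ] AlgebraicClosure ℚ)

open Classical in
/-- the integer `n` such that `x * q ^ (-n)` is a unit at `A` (`0` if there is none) -/
def ordA (A : ValuationSubring Qbar) (q : ℕ) (x : Qbar) : ℤ :=
  if h : ∃ n : ℤ, P.IsUnitAt A (x * (q : Qbar) ^ (-n)) then h.choose else 0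

/-- `x` has a valuation in `ℤ` at `A` -/
def HasOrd (A : ValuationSubring Qbar) (q : ℕ) (x : Qbar) : Prop :=
  ∃ n : ℤ, P.IsUnitAt A (x * (q : Qbar) ^ (-n))

variable {A : ValuationSubring Qbar} {q : ℕ}

theorem Ord_isUnitAt_one : P.IsUnitAt A 1 :=
  ⟨A.one_mem, by rw [inv_one]; exact A.one_mem, one_ne_zero⟩

/-- either `q ≠ 0` or the exponent is `0` -/
theorem Ord_cond {x : Qbar} {n : ℤ} (h : P.IsUnitAt A (x * (q : Qbar) ^ (-n))) :
    (q : Qbar) ≠ 0 ∨ n = 0 := by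
  by_cases hq : (q : Qbar) = 0
  · right
    have h1 : (q : Qbar) ^ (-n) ≠ 0 := right_ne_zero_of_mul h.2.2
    rw [hq] at h1
    by_contra hn
    exact h1 (zero_zpow _ (neg_ne_zero.2 hn))
  · exact Or.inl hq

theorem Ord_unique (hA : A.LiesOverPrime q) {x : Qbar} {n m : ℤ}
    (hn : P.IsUnitAt A (x * (q : Qbar) ^ (-n))) (hm : P.IsUnitAt A (x * (q : Qbar) ^ (-m))) :
    n = m := by
  have hx : x ≠ 0 := left_ne_zero_of_mul hn.2.2
  rcases Ord_cond hn with hq | hn0
  · have h := hn.inv.mul hm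
    have h1 : (x * (q : Qbar) ^ (-n))⁻¹ * (x * (q : Qbar) ^ (-m)) = (q : Qbar) ^ (n - m) := by
      calc (x * (q : Qbar) ^ (-n))⁻¹ * (x * (q : Qbar) ^ (-m))
          = (x⁻¹ * x) * ((q : Qbar) ^ n * (q : Qbar) ^ (-m)) := by
            rw [mul_inv, zpow_neg, inv_inv]; ring
        _ = (q : Qbar) ^ (n - m) := by
            rw [inv_mul_cancel₀ hx, one_mul, ← zpow_add₀ hq, sub_eq_add_neg]
    rw [h1, P.zpow_isUnitAt_iff A hA] at h
    omega
  · rcases Ord_cond hm with hq | hm0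
    · have h := hn.inv.mul hm
      have h1 : (x * (q : Qbar) ^ (-n))⁻¹ * (x * (q : Qbar) ^ (-m)) = (q : Qbar) ^ (n - m) := by
        calc (x * (q : Qbar) ^ (-n))⁻¹ * (x * (q : Qbar) ^ (-m))
            = (x⁻¹ * x) * ((q : Qbar) ^ n * (q : Qbar) ^ (-m)) := by
              rw [mul_inv, zpow_neg, inv_inv]; ring
          _ = (q : Qbar) ^ (n - m) := by
              rw [inv_mul_cancel₀ hx, one_mul, ← zpow_add₀ hq, sub_eq_add_neg]
      rw [h1, P.zpow_isUnitAt_iff A hA] at h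
      omega
    · rw [hn0, hm0]

theorem ordA_spec {x : Qbar} (hx : HasOrd A q x) :
    P.IsUnitAt A (x * (q : Qbar) ^ (-(ordA A q x))) := by
  have hx' : ∃ n : ℤ, P.IsUnitAt A (x * (q : Qbar) ^ (-n)) := hx
  unfold ordA
  rw [dif_pos hx']
  exact hx'.choose_spec

theorem ordA_eq_iff (hA : A.LiesOverPrime q) {x : Qbar} (n : ℤ) (hx : HasOrd A q x) :
    ordA A q x = n ↔ P.IsUnitAt A (x * (q : Qbar) ^ (-n)) := by
  constructor
  · rintro rfl
    exact ordA_spec hx
  · intro h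
    exact Ord_unique hA (ordA_spec hx) h

theorem ordA_eq_of_isUnitAt (hA : A.LiesOverPrime q) {x : Qbar} {n : ℤ}
    (h : P.IsUnitAt A (x * (q : Qbar) ^ (-n))) : ordA A q x = n :=
  (ordA_eq_iff hA n ⟨n, h⟩).2 h

theorem HasOrd.ne_zero {x : Qbar} (hx : HasOrd A q x) : x ≠ 0 := by
  obtain ⟨n, hn⟩ := hx
  exact left_ne_zero_of_mul hn.2.2

theorem hasOrd_of_isUnitAt {x : Qbar} (hx : P.IsUnitAt A x) : HasOrd A q x :=
  ⟨0, by rwa [neg_zero, zpow_zero, mul_one]⟩

theorem hasOrd_of_mem_KSx {S : Finset Nat.Primes} {q : Nat.Primes} (hq : q ∉ S)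
    {A : ValuationSubring Qbar} (hA : A.LiesOverPrime (q : ℕ)) (m : KSx S) :
    HasOrd A q ((Additive.toMul (m : Additive Qbarˣ) : Qbarˣ) : Qbar) := by
  obtain ⟨V, ⟨F, hF, rfl⟩, hfix⟩ := m.2
  refine P.exists_zpow_mul_isUnitAt A q.2 hA (Units.ne_zero _) fun σ hσ => ?_
  have h1 := hfix σ (hF.2 q hq A hA hσ)
  rw [← coe_toMul_unitsRep, h1]

theorem Ord_isUnitAt_mul {x y : Qbar} {n m : ℤ} (hn : P.IsUnitAt A (x * (q : Qbar) ^ (-n)))
    (hm : P.IsUnitAt A (y * (q : Qbar) ^ (-m))) :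
    P.IsUnitAt A (x * y * (q : Qbar) ^ (-(n + m))) := by
  have h := hn.mul hm
  have h1 : (q : Qbar) ^ (-(n + m)) = (q : Qbar) ^ (-n) * (q : Qbar) ^ (-m) := by
    rw [neg_add]
    apply zpow_add'
    rcases Ord_cond hn with hq | hn0
    · exact Or.inl hq
    · rcases Ord_cond hm with hq | hm0
      · exact Or.inl hq
      · exact Or.inr (Or.inr ⟨by rw [hn0, neg_zero], by rw [hm0, neg_zero]⟩)
  rw [h1]
  have h2 : x * y * ((q : Qbar) ^ (-n) * (q : Qbar) ^ (-m))
      = x * (q : Qbar) ^ (-n) * (y * (q : Qbar) ^ (-m)) := by ring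
  rw [h2]
  exact h

theorem Ord_isUnitAt_inv {x : Qbar} {n : ℤ} (hn : P.IsUnitAt A (x * (q : Qbar) ^ (-n))) :
    P.IsUnitAt A (x⁻¹ * (q : Qbar) ^ (-(-n))) := by
  have h := hn.inv
  rwa [mul_inv, ← zpow_neg] at h

theorem HasOrd.mul {x y : Qbar} (hx : HasOrd A q x) (hy : HasOrd A q y) : HasOrd A q (x * y) := by
  obtain ⟨n, hn⟩ := hx
  obtain ⟨m, hm⟩ := hy
  exact ⟨n + m, Ord_isUnitAt_mul hn hm⟩

theorem HasOrd.inv {x : Qbar} (hx : HasOrd A q x) : HasOrd A q x⁻¹ := by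
  obtain ⟨n, hn⟩ := hx
  exact ⟨-n, Ord_isUnitAt_inv hn⟩

theorem ordA_mul (hA : A.LiesOverPrime q) {x y : Qbar} (hx : HasOrd A q x) (hy : HasOrd A q y) :
    ordA A q (x * y) = ordA A q x + ordA A q y :=
  ordA_eq_of_isUnitAt hA (Ord_isUnitAt_mul (ordA_spec hx) (ordA_spec hy))

theorem ordA_inv (hA : A.LiesOverPrime q) {x : Qbar} (hx : HasOrd A q x) :
    ordA A q x⁻¹ = - ordA A q x :=
  ordA_eq_of_isUnitAt hA (Ord_isUnitAt_inv (ordA_spec hx))

theorem ordA_eq_zero_of_isUnitAt (hA : A.LiesOverPrime q) {x : Qbar} (hx : P.IsUnitAt A x) :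
    ordA A q x = 0 :=
  ordA_eq_of_isUnitAt hA (by rwa [neg_zero, zpow_zero, mul_one])

theorem ordA_one (hA : A.LiesOverPrime q) : ordA A q 1 = 0 :=
  ordA_eq_zero_of_isUnitAt hA Ord_isUnitAt_one

theorem HasOrd.pow {x : Qbar} (hx : HasOrd A q x) (n : ℕ) : HasOrd A q (x ^ n) := by
  induction n with
  | zero => rw [pow_zero]; exact hasOrd_of_isUnitAt Ord_isUnitAt_one
  | succ n ih => rw [pow_succ]; exact ih.mul hx

theorem ordA_pow (hA : A.LiesOverPrime q) {x : Qbar} (hx : HasOrd A q x) (n : ℕ) :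
    ordA A q (x ^ n) = n * ordA A q x := by
  induction n with
  | zero => rw [pow_zero, ordA_one hA]; simp
  | succ n ih =>
    rw [pow_succ, ordA_mul hA (hx.pow n) hx, ih]
    push_cast
    ring

/-- (`q ≠ 0` is needed: `A.LiesOverPrime 0` holds for every `A`, and `ordA A 0 0 = 0`.
The extra hypothesis is found automatically when `q` is the coercion of a `Nat.Primes`, or when
`q ≠ 0` / `q.Prime` is in the context, so that `ordA_prime hA` still works.) -/
theorem ordA_prime (hA : A.LiesOverPrime q)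
    (hq : q ≠ 0 := by
      first
        | assumption
        | exact Nat.Prime.ne_zero (Subtype.property _)
        | exact Nat.Prime.ne_zero (by assumption)
        | exact NeZero.ne _) : ordA A q (q : Qbar) = 1 := by
  apply ordA_eq_of_isUnitAt hA
  have hq' : (q : Qbar) ≠ 0 := by exact_mod_cast hq
  rw [zpow_neg, zpow_one, mul_inv_cancel₀ hq']
  exact Ord_isUnitAt_one

theorem hasOrd_prime (hq : q ≠ 0) : HasOrd A q (q : Qbar) := by
  refine ⟨1, ?_⟩
  have hq' : (q : Qbar) ≠ 0 := by exact_mod_cast hq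
  rw [zpow_neg, zpow_one, mul_inv_cancel₀ hq']
  exact Ord_isUnitAt_one

/-- roots of unity -/
theorem ordA_of_pow_eq_one (hA : A.LiesOverPrime q) {x : Qbar} {n : ℕ} (hn : 0 < n)
    (hx : x ^ n = 1) : ordA A q x = 0 :=
  ordA_eq_zero_of_isUnitAt hA (P.isUnitAt_of_pow_eq_one hn hx)

/-- transport of structure -/
theorem Ord_isUnitAt_smul_iff (g : GQ) (x : Qbar) : P.IsUnitAt (g • A) (g x) ↔ P.IsUnitAt A x := by
  unfold P.IsUnitAt
  rw [← map_inv₀, P.apply_mem_smul_iff, P.apply_mem_smul_iff, Ne, map_eq_zero_iff _ g.injective]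

theorem Ord_pred_smul (g : GQ) (x : Qbar) :
    (fun n : ℤ => P.IsUnitAt (g • A) (g x * (q : Qbar) ^ (-n))) =
      fun n : ℤ => P.IsUnitAt A (x * (q : Qbar) ^ (-n)) := by
  funext n
  rw [← Ord_isUnitAt_smul_iff g (x * (q : Qbar) ^ (-n)), map_mul, map_zpow₀, map_natCast]

open Classical in
/-- `ordA` only depends on the predicate -/
theorem Ord_ordA_eq (A : ValuationSubring Qbar) (q : ℕ) (x : Qbar) :
    ordA A q x = (fun P : ℤ → Prop => if h : ∃ n : ℤ, P n then h.choose else 0)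
      (fun n : ℤ => P.IsUnitAt A (x * (q : Qbar) ^ (-n))) := rfl

theorem ordA_smul (g : GQ) (x : Qbar) : ordA (g • A) q (g x) = ordA A q x := by
  rw [Ord_ordA_eq, Ord_ordA_eq, Ord_pred_smul]

theorem hasOrd_smul_iff (g : GQ) (x : Qbar) : HasOrd (g • A) q (g x) ↔ HasOrd A q x := by
  unfold HasOrd
  have := Ord_pred_smul (A := A) (q := q) g x
  constructor
  · rintro ⟨n, hn⟩
    exact ⟨n, (congrFun this n).mp hn⟩
  · rintro ⟨n, hn⟩
    exact ⟨n, (congrFun this n).mpr hn⟩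

/-- invariance under the decomposition group -/
theorem ordA_apply_of_mem_decomposition {σ : GQ} (hσ : σ ∈ A.decompositionSubgroup ℚ) (x : Qbar) :
    ordA A q (σ x) = ordA A q x := by
  have h1 : σ • A = A := hσ
  have h2 := ordA_smul (A := A) (q := q) σ x
  rwa [h1] at h2

/-- the additive map `ord_A : 𝕂_Sˣ → ℤ` -/
def ordHom {S : Finset Nat.Primes} {q : Nat.Primes} (hq : q ∉ S) (A : ValuationSubring Qbar)
    (hA : A.LiesOverPrime (q : ℕ)) : KSx S →+ ℤ where
  toFun m := ordA A q ((Additive.toMul (m : Additive Qbarˣ) : Qbarˣ) : Qbar)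
  map_zero' := ordA_one hA
  map_add' m m' := ordA_mul hA (hasOrd_of_mem_KSx hq hA m) (hasOrd_of_mem_KSx hq hA m')

/-- comparison with the valuation of the number field `K` (unramified at `q`); recall that
`ordv v π = -1` for a uniformiser `π`.
PROOF: `n := ordA A q a`; `a * q ^ (-n)` is a unit at `A`, so `v.valuation K (a * q^(-n)) = 1`
(`P.valuation_eq_one_iff`); it remains to see `v.valuation K q = exp (-1)`: let `π ∈ K` with
`v.valuation K π = exp (-1)`; `π ∈ 𝕂_S` has `ordA A q π = j ∈ ℤ`, `j ≥ 1` as `π` is a nonunit at `A`;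
`v (q) = exp (-e)`, `e ≥ 1`, `q / π ^ e` is a unit at `v`, so at `A`: `1 = e * j`, so `e = 1`. -/
theorem ordv_eq_neg_ordA {S : Finset Nat.Primes} (K : IntermediateField ℚ Qbar) [NumberField K]
    (hK : K.IsUnramifiedOutside S) {q : Nat.Primes} (hq : q ∉ S) (A : ValuationSubring Qbar)
    (hA : A.LiesOverPrime (q : ℕ)) (v : H.Pl K) (hv : v.asIdeal = P.primeUnder K A) (a : Kˣ) :
    ordv v a = - ordA A q (((a : K) : Qbar)) := by
  have hq0 : (((q : ℕ) : K)) ≠ 0 := by exact_mod_cast q.2.ne_zero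
  have hvq0 : v.valuation K ((q : ℕ) : K) ≠ 0 := (Valuation.ne_zero_iff _).mpr hq0
  -- the valuation of `b ∈ Kˣ` is `v(q) ^ ordA b`
  have key : ∀ b : K, b ≠ 0 →
      v.valuation K b = (v.valuation K ((q : ℕ) : K)) ^ (ordA A q (b : Qbar)) := by
    intro b hb
    have hb' : HasOrd A q (b : Qbar) :=
      P.exists_zpow_mul_isUnitAt_of_isUnramifiedOutside hK hq A hA b.2 (by simpa using hb)
    have h1 := ordA_spec hb'
    have h2 : ((b * ((q : ℕ) : K) ^ (-(ordA A q (b : Qbar))) : K) : Qbar)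
        = (b : Qbar) * ((q : ℕ) : Qbar) ^ (-(ordA A q (b : Qbar))) := by
      push_cast
      rfl
    rw [← h2, ← P.valuation_eq_one_iff K v A hv, map_mul, map_zpow₀, zpow_neg] at h1
    exact (mul_inv_eq_one₀ (zpow_ne_zero _ hvq0)).1 h1
  -- `v(q) = exp (-1)`
  obtain ⟨π, hπ⟩ := v.valuation_exists_uniformizer K
  have hπ0 : π ≠ 0 := by
    rintro rfl
    rw [map_zero] at hπ
    exact WithZero.exp_ne_zero.symm hπ
  set e : ℤ := WithZero.log (v.valuation K ((q : ℕ) : K)) with he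
  have hve : v.valuation K ((q : ℕ) : K) = WithZero.exp e := (WithZero.exp_log hvq0).symm
  have hlt : v.valuation K ((q : ℕ) : K) < 1 := by
    have h1 : (((q : ℕ) : K)) = algebraMap (𝓞 K) K ((q : ℕ) : 𝓞 K) := by simp
    rw [h1, v.valuation_lt_one_iff_mem, hv]
    exact P.natCast_mem_primeUnder hA
  have he0 : e < 0 := by
    rw [hve, ← WithZero.exp_zero, WithZero.exp_lt_exp] at hlt
    exact hlt
  have h3 := key π hπ0
  rw [hπ, hve, ← WithZero.exp_zsmul, WithZero.exp_inj, smul_eq_mul] at h3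
  have he1 : e = -1 := by
    have hu : IsUnit e := IsUnit.of_mul_eq_one (-(ordA A q (π : Qbar))) (by linarith)
    rcases Int.isUnit_iff.1 hu with h | h
    · omega
    · exact h
  have h4 := key a a.ne_zero
  rw [hve, he1, ← WithZero.exp_zsmul, ← v.valuationOfNeZero_eq, WithZero.exp_eq_coe_ofAdd,
    WithZero.coe_inj] at h4
  unfold ordv
  rw [h4, toAdd_ofAdd, smul_eq_mul]
  ring

/-- a nonzero algebraic number is a unit at almost all places: in terms of the primes of `K`.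
PROOF: `x` and `x⁻¹` are integral over `ℤ[1/N]` for some `N ≥ 1`; if `q ∤ N` then `x, x⁻¹ ∈ A`
(valuation rings are integrally closed and `1/N ∈ A`).  The primes of `K` containing a prime factor
of `N` are finitely many. -/
theorem finite_setOf_not_isUnitAt (K : IntermediateField ℚ Qbar) [NumberField K] {x : Qbar}
    (hx : x ≠ 0) :
    {v : H.Pl K | ∃ A : ValuationSubring Qbar, v.asIdeal = P.primeUnder K A ∧
      ¬ P.IsUnitAt A x}.Finite := by
  have halg : ∀ y : Qbar, IsAlgebraic ℤ y := fun y =>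
    (IsFractionRing.isAlgebraic_iff ℤ ℚ Qbar).2
      ((AlgebraicClosure.isAlgebraic ℚ).isAlgebraic y)
  obtain ⟨N, hN0, hN⟩ := (halg x).exists_integral_multiple
  obtain ⟨N', hN'0, hN'⟩ := (halg x⁻¹).exists_integral_multiple
  have hd0 : ((N * N' : ℤ) : 𝓞 K) ≠ 0 := by
    exact_mod_cast mul_ne_zero hN0 hN'0
  have hI : Ideal.span {((N * N' : ℤ) : 𝓞 K)} ≠ 0 := by
    rw [Ne, Ideal.zero_eq_bot, Ideal.span_singleton_eq_bot]
    exact hd0
  refine (Ideal.finite_factors hI).subset ?_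
  rintro v ⟨A, hv, hx'⟩
  show v.asIdeal ∣ Ideal.span {((N * N' : ℤ) : 𝓞 K)}
  rw [Ideal.dvd_span_singleton, hv, P.mem_primeUnder]
  by_contra hcon
  apply hx'
  have hcast : ((((N * N' : ℤ) : 𝓞 K) : K) : Qbar) = (N : Qbar) * (N' : Qbar) := by
    push_cast
    rfl
  rw [hcast, P.mem_nonunits_iff_inv_notMem] at hcon
  push Not at hcon
  obtain ⟨-, hinv⟩ := hcon
  have hNq : (N : Qbar) ≠ 0 := by exact_mod_cast hN0
  have hN'q : (N' : Qbar) ≠ 0 := by exact_mod_cast hN'0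
  have h1 : (N : Qbar)⁻¹ ∈ A := by
    have : (N : Qbar)⁻¹ = (N' : Qbar) * ((N : Qbar) * (N' : Qbar))⁻¹ := by
      field_simp
    rw [this]
    exact A.mul_mem _ _ (intCast_mem A N') hinv
  have h2 : (N' : Qbar)⁻¹ ∈ A := by
    have : (N' : Qbar)⁻¹ = (N : Qbar) * ((N : Qbar) * (N' : Qbar))⁻¹ := by
      field_simp
    rw [this]
    exact A.mul_mem _ _ (intCast_mem A N) hinv
  have h3 : N • x ∈ A := Fermat.Agent.Lib.FrobeniusExists.integralClosure_le A ⟨_, hN⟩
  have h4 : N' • x⁻¹ ∈ A := Fermat.Agent.Lib.FrobeniusExists.integralClosure_le A ⟨_, hN'⟩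
  refine ⟨?_, ?_, hx⟩
  · have : x = (N : Qbar)⁻¹ * (N • x) := by
      rw [zsmul_eq_mul, inv_mul_cancel_left₀ hNq]
    rw [this]
    exact A.mul_mem _ _ h1 h3
  · have : x⁻¹ = (N' : Qbar)⁻¹ * (N' • x⁻¹) := by
      rw [zsmul_eq_mul, inv_mul_cancel_left₀ hN'q]
    rw [this]
    exact A.mul_mem _ _ h2 h4

end Fermat.Agent.S55.G

end
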