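import Fermat.Agent.S55.G.H90

/-!
# S55 G-LK: local Kummer injectivity `H²(W, μ_p) → H²(W, ℚ̄ˣ)` (proofs for `G/Sha2.lean`)
-/

set_option autoImplicit false

namespace Fermat.Agent.S55.G

open ExtCitation Fermat.Agent.S55.L.C0

local notation "Qbar" => AlgebraicClosure ℚ
local notation "GQ" => (AlgebraicClosure ℚ ≃ₐ[ℚ] AlgebraicClosure ℚ)

variable {p : ℕ} [Fact p.Prime] {S : Finset Nat.Primes}

/-- `ker ω` fixes the `p`-th roots of unity of `ℚ̄` -/
theorem LK_unitsRep_zeta {ζ : Additive Qbarˣ} (hζ : p • ζ = 0) {g : GQ}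
    (hg : g ∈ (cycloChar p).ker) : unitsRep g ζ = ζ := by
  have : NeZero p := ⟨(Fact.out : p.Prime).ne_zero⟩
  have hmem : Additive.toMul ζ ∈ rootsOfUnity p Qbar := by
    rw [mem_rootsOfUnity]
    exact hζ
  have h1 := modularCyclotomicCharacter.spec Qbar (card_rootsOfUnity_eq_self p)
    (g : Qbar ≃+* Qbar) hmem
  have h2 : modularCyclotomicCharacter Qbar (card_rootsOfUnity_eq_self p) (g : Qbar ≃+* Qbar) = 1 :=
    hg
  rw [h2] at h1
  have hp1 : ((1 : (ZMod p)ˣ) : ZMod p).val = 1 := by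
    have : Fact (1 < p) := ⟨(Fact.out : p.Prime).one_lt⟩
    rw [Units.val_one, ZMod.val_one]
  rw [hp1, pow_one] at h1
  apply Additive.toMul.injective
  apply Units.ext
  exact h1

theorem LK_addOrderOf {ζ : Additive Qbarˣ}
    (hζ : IsPrimitiveRoot ((Additive.toMul ζ : Qbarˣ) : Qbar) p) : addOrderOf ζ = p := by
  have h1 : IsPrimitiveRoot (Additive.toMul ζ : Qbarˣ) p := IsPrimitiveRoot.coe_units_iff.1 hζ
  have h2 := h1.eq_orderOf
  rw [h2]
  exact addOrderOf_ofMul_eq_orderOf (Additive.toMul ζ)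

theorem LK_zsmul_eq_zero_iff {ζ : Additive Qbarˣ}
    (hζ : IsPrimitiveRoot ((Additive.toMul ζ : Qbarˣ) : Qbar) p) (a : ℤ) :
    a • ζ = 0 ↔ (a : ZMod p) = 0 := by
  rw [← addOrderOf_dvd_iff_zsmul_eq_zero, LK_addOrderOf hζ, ZMod.intCast_zmod_eq_zero_iff_dvd]

theorem LK_exists_val {ζ : Additive Qbarˣ}
    (hζ : IsPrimitiveRoot ((Additive.toMul ζ : Qbarˣ) : Qbar) p) {a : Additive Qbarˣ}
    (ha : p • a = 0) : ∃ i : ZMod p, a = i.val • ζ := by
  have : NeZero p := ⟨(Fact.out : p.Prime).ne_zero⟩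
  have h2 : (Additive.toMul a : Qbarˣ) ^ p = 1 := ha
  have h3 : ((Additive.toMul a : Qbarˣ) : Qbar) ^ p = 1 := by
    rw [← Units.val_pow_eq_pow_val, h2, Units.val_one]
  obtain ⟨i, hi, hia⟩ := hζ.eq_pow_of_pow_eq_one h3
  refine ⟨(i : ZMod p), ?_⟩
  rw [ZMod.val_natCast, Nat.mod_eq_of_lt hi]
  apply Additive.toMul.injective
  apply Units.ext
  rw [← hia]
  rfl

theorem LK_exists_nsmul (m : Additive Qbarˣ) : ∃ β : Additive Qbarˣ, m = p • β := by
  obtain ⟨b, hb⟩ := IsAlgClosed.exists_pow_nat_eq ((Additive.toMul m : Qbarˣ) : Qbar)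
    (Fact.out : p.Prime).pos
  have hb0 : b ≠ 0 := by
    rintro rfl
    rw [zero_pow (Fact.out : p.Prime).ne_zero] at hb
    exact (Additive.toMul m : Qbarˣ).ne_zero hb.symm
  refine ⟨Additive.ofMul (Units.mk0 b hb0), ?_⟩
  apply Additive.toMul.injective
  apply Units.ext
  rw [← hb]
  rfl

/-- **G-LK** local Kummer theory: `H²(W, μ_p) → H²(W, ℚ̄ˣ)` is injective, for ANY subgroup
`W ≤ ker ω`. -/
theorem LK_splitOn_triv_of_splitOn_units {W : Subgroup GQ} (hω : W ≤ (cycloChar p).ker)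
    {X : GQ × GQ → ZMod p} {ζ : Additive Qbarˣ}
    (hζ : IsPrimitiveRoot ((Additive.toMul ζ : Qbarˣ) : Qbar) p)
    (h : SplitOn P.levAll unitsRep W (vz ζ X)) : SplitOn P.levAll (trivQ p) W X := by
  classical
  obtain ⟨y, hy, hXy⟩ := h
  have hpζ : p • ζ = 0 := by
    have := (LK_zsmul_eq_zero_iff hζ (p : ℤ)).2 (by simp)
    simpa using this
  -- `p • y` is a cocycle on `W`
  have hcoc : ∀ v ∈ W, ∀ w ∈ W, p • y (v * w) = unitsRep v (p • y w) + p • y v := by
    intro v hv w hw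
    have h1 := hXy v hv w hw
    have h2 : p • (unitsRep v (y w) - y (v * w) + y v) = 0 := by
      rw [← h1, vz_apply, smul_comm, hpζ, smul_zero]
    rw [nsmul_add, nsmul_sub, sub_add_eq_add_sub, sub_eq_zero] at h2
    rw [← h2, map_nsmul]
  have hlev : IsLev₁ (P.levAll.comap (MonoidHom.id GQ)) (fun g => p • y g) :=
    (hy.precomp (P.levAll.cont_comap (MonoidHom.id GQ))).comp (p • ·)
  obtain ⟨m, hm⟩ := h90_all (MonoidHom.id GQ) W (fun g => p • y g) hlev hcoc
  obtain ⟨β, rfl⟩ := LK_exists_nsmul (p := p) m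
  -- the corrected cochain
  set y' : GQ → Additive Qbarˣ := fun g => y g - d0 unitsRep β g with hy'
  have hy'lev : IsLev₁ P.levAll y' := hy.map₂ (d0_isLev₁ unitsRep_isDiscrete β) (· - ·)
  have hy'p : ∀ v ∈ W, p • y' v = 0 := by
    intro v hv
    have := hm v hv
    simp only [hy', d0_apply]
    have h3 : p • y v = unitsRep v (p • β) - p • β := this
    rw [nsmul_sub, nsmul_sub, h3, map_nsmul, sub_self]
  have hd : ∀ u u', unitsRep u (y' u') - y' (u * u') + y' u =
      unitsRep u (y u') - y (u * u') + y u := by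
    intro u u'
    have := congrFun (d1_d0 (ρ := unitsRep) β) (u, u')
    simp only [d1_apply, Pi.zero_apply] at this
    simp only [hy', map_sub]
    have e : unitsRep u (y u') - unitsRep u (d0 unitsRep β u') - (y (u * u') - d0 unitsRep β (u * u'))
        + (y u - d0 unitsRep β u) = (unitsRep u (y u') - y (u * u') + y u) -
        (unitsRep u (d0 unitsRep β u') - d0 unitsRep β (u * u') + d0 unitsRep β u) := by abel
    rw [e, this, sub_zero]
  -- the `ZMod p`-valued cochain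
  let φ : Additive Qbarˣ → ZMod p := fun a =>
    if h : ∃ i : ZMod p, a = i.val • ζ then h.choose else 0
  have hφ : ∀ a : Additive Qbarˣ, p • a = 0 → a = (φ a).val • ζ := by
    intro a ha
    have hex := LK_exists_val hζ ha
    simp only [φ, dif_pos hex]
    exact hex.choose_spec
  refine ⟨φ ∘ y', hy'lev.comp φ, fun u hu u' hu' => ?_⟩
  have h1 := hXy u hu u' hu'
  rw [← hd u u', vz_apply, hφ _ (hy'p u' hu'), hφ _ (hy'p _ (W.mul_mem hu hu')),
    hφ _ (hy'p u hu), map_nsmul, LK_unitsRep_zeta hpζ (hω hu)] at h1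
  have h2 : (((X (u, u')).val : ℤ) - ((φ (y' u')).val - (φ (y' (u * u'))).val + (φ (y' u)).val))
      • ζ = 0 := by
    rw [sub_smul, add_smul, sub_smul, natCast_zsmul, natCast_zsmul, natCast_zsmul, natCast_zsmul,
      ← h1, sub_self]
  rw [LK_zsmul_eq_zero_iff hζ] at h2
  have : NeZero p := ⟨(Fact.out : p.Prime).ne_zero⟩
  push_cast at h2
  simp only [ZMod.natCast_val, ZMod.cast_id', id_eq] at h2
  rw [sub_eq_zero] at h2
  rw [h2]
  rfl

omit [Fact p.Prime] in
/-- an `S`-level splitting in `𝕂_Sˣ` is an all-level splitting in `ℚ̄ˣ` -/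
theorem LK_splitOn_units_of_splitOn_S {W : Subgroup GQ} {X : GQ × GQ → ZMod p} {z : KSx S}
    (h : SplitOn (P.levS S) (unitsRepS S) W (vz z X)) :
    SplitOn P.levAll unitsRep W (vz (z : Additive Qbarˣ) X) := by
  obtain ⟨y, hy, hXy⟩ := h
  refine ⟨fun g => (y g : Additive Qbarˣ),
    (hy.precomp (P.cont_levAll_levS S)).comp Subtype.val, fun u hu u' hu' => ?_⟩
  have := congrArg Subtype.val (hXy u hu u' hu')
  simpa using this

end Fermat.Agent.S55.G
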