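import Fermat.Agent.S55.G.HPMain
import Fermat.Agent.S55.G.K2Abs
import Fermat.Agent.S55.G.Sha2LK

/-!
# S55 G-SH: `Ш²(U, 𝔽_p) = ker (H²(U, μ_p) → H²(U, 𝕂_Sˣ))`
-/

set_option autoImplicit false

namespace Fermat.Agent.S55.G

open ExtCitation Fermat.Agent.S55.L.C0

local notation "Qbar" => AlgebraicClosure ℚ
local notation "GQ" => (AlgebraicClosure ℚ ≃ₐ[ℚ] AlgebraicClosure ℚ)

variable {p : ℕ} [Fact p.Prime] {S : Finset Nat.Primes}

open Classical in
/-- extension by zero of a 2-cochain on `U` to `GQ` -/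
noncomputable def ext0 {Y : Type*} [Zero Y] (U : Subgroup GQ) (x : U × U → Y) : GQ × GQ → Y :=
  fun t => if h : t.1 ∈ U ∧ t.2 ∈ U then x (⟨t.1, h.1⟩, ⟨t.2, h.2⟩) else 0

theorem ext0_apply_of_mem {Y : Type*} [Zero Y] {U : Subgroup GQ} (x : U × U → Y) {g h : GQ}
    (hg : g ∈ U) (hh : h ∈ U) : ext0 U x (g, h) = x (⟨g, hg⟩, ⟨h, hh⟩) := by
  unfold ext0
  rw [dif_pos ⟨hg, hh⟩]

theorem ext0_apply_of_not {Y : Type*} [Zero Y] {U : Subgroup GQ} (x : U × U → Y) {g h : GQ}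
    (hgh : ¬ (g ∈ U ∧ h ∈ U)) : ext0 U x (g, h) = 0 := by
  unfold ext0
  rw [dif_neg hgh]

theorem rs_ext0 {Y : Type*} [Zero Y] (U : Subgroup GQ) (x : U × U → Y) : rs U (ext0 U x) = x := by
  funext ⟨a, b⟩
  exact ext0_apply_of_mem x a.2 b.2

/-- **G-SH1** glue.  (`x` is right invariant under `V.comap U.subtype`, `V` a level; `U ⊇ V'` a level;
take a level `≤ V ⊓ V'`.) -/
theorem isLev₂_ext0 {Y : Type*} [Zero Y] {Lv : Lev GQ} {U : Subgroup GQ} (hU : Lv.IsOpen U)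
    {x : U × U → Y} (hx : IsLev₂ (Lv.sub U) x) : IsLev₂ Lv (ext0 U x) := by
  obtain ⟨_, ⟨V, hV, rfl⟩, hinv⟩ := hx
  obtain ⟨V₀, hV₀, hV₀U⟩ := hU
  obtain ⟨W, hW, hWle⟩ := Lv.directed V hV V₀ hV₀
  refine ⟨W, hW, fun g h u hu v hv => ?_⟩
  have huU : u ∈ U := hV₀U (hWle hu).2
  have hvU : v ∈ U := hV₀U (hWle hv).2
  by_cases hgh : g ∈ U ∧ h ∈ U
  · rw [ext0_apply_of_mem x (U.mul_mem hgh.1 huU) (U.mul_mem hgh.2 hvU),
      ext0_apply_of_mem x hgh.1 hgh.2]
    exact hinv ⟨g, hgh.1⟩ ⟨h, hgh.2⟩ ⟨u, huU⟩ (hWle hu).1 ⟨v, hvU⟩ (hWle hv).1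
  · rw [ext0_apply_of_not x hgh, ext0_apply_of_not x]
    rintro ⟨h1, h2⟩
    exact hgh ⟨(Subgroup.mul_mem_cancel_right U huU).mp h1,
      (Subgroup.mul_mem_cancel_right U hvU).mp h2⟩

theorem cocOn_ext0 {U : Subgroup GQ} {Lv : Lev GQ}
    (x : ↥(Z2 (Lv.sub U) (Representation.trivial (ZMod p) U (ZMod p)))) :
    CocOn (trivQ p) U (ext0 U (x : U × U → ZMod p)) := by
  intro g hg h hh j hj
  rw [ext0_apply_of_mem _ (U.mul_mem hg hh) hj, ext0_apply_of_mem _ hg hh,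
    ext0_apply_of_mem _ hh hj, ext0_apply_of_mem _ hg (U.mul_mem hh hj)]
  exact Z2.cocycle x ⟨g, hg⟩ ⟨h, hh⟩ ⟨j, hj⟩

/-- **G-SH1** a level 1-cochain on an ARBITRARY subgroup `W` extends to a level cochain on the ambient
group.  PROOF: `y` is right invariant under `V.comap W.subtype`, `V` a level, w.l.o.g. normal.
`y' g := y w` if `g = w * v` with `w ∈ W`, `v ∈ V` (well defined), `0` if `g ∉ W V`. -/
theorem exists_extend_of_subgroup {G : Type} [Group G] (Lv : Lev G) (W : Subgroup G) {Y : Type*}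
    [Zero Y] (y : W → Y) (hy : IsLev₁ (Lv.sub W) y) :
    ∃ y' : G → Y, IsLev₁ Lv y' ∧ ∀ w : W, y' w = y w := by
  classical
  obtain ⟨_, ⟨V, hV, rfl⟩, hinv⟩ := hy
  -- independence of the decomposition `g = w * v`
  have hwd : ∀ (w w' : W) (v v' : G), v ∈ V → v' ∈ V → (w : G) * v = (w' : G) * v' →
      y w = y w' := by
    intro w w' v v' hv hv' h
    have h1 : ((w⁻¹ * w' : W) : G) = v * v'⁻¹ := by
      push_cast
      rw [eq_mul_inv_iff_mul_eq, mul_assoc, ← h, inv_mul_cancel_left]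
    have h2 : (w⁻¹ * w' : W) ∈ V.comap W.subtype := by
      show ((w⁻¹ * w' : W) : G) ∈ V
      rw [h1]
      exact V.mul_mem hv (V.inv_mem hv')
    have h3 := hinv w (w⁻¹ * w') h2
    rw [mul_inv_cancel_left] at h3
    exact h3.symm
  let y' : G → Y := fun g =>
    if h : ∃ w : W, ∃ v ∈ V, g = (w : G) * v then y h.choose else 0
  have hy' : ∀ (g : G) (w : W) (v : G), v ∈ V → g = (w : G) * v → y' g = y w := by
    intro g w v hv hg
    have h : ∃ w : W, ∃ v ∈ V, g = (w : G) * v := ⟨w, v, hv, hg⟩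
    obtain ⟨v₀, hv₀, hg₀⟩ := h.choose_spec
    show (if h : ∃ w : W, ∃ v ∈ V, g = (w : G) * v then y h.choose else 0) = y w
    rw [dif_pos h]
    exact hwd _ _ v₀ v hv₀ hv (hg₀.symm.trans hg)
  refine ⟨y', ⟨V, hV, fun g u hu => ?_⟩, fun w => hy' w w 1 V.one_mem (mul_one _).symm⟩
  by_cases h : ∃ w : W, ∃ v ∈ V, g = (w : G) * v
  · obtain ⟨w, v, hv, hg⟩ := h
    rw [hy' g w v hv hg, hy' (g * u) w (v * u) (V.mul_mem hv hu) (by rw [hg, mul_assoc])]
  · have h' : ¬ ∃ w : W, ∃ v ∈ V, g * u = (w : G) * v := by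
      rintro ⟨w, v, hv, hg⟩
      exact h ⟨w, v * u⁻¹, V.mul_mem hv (V.inv_mem hu), by
        rw [← mul_assoc, ← hg, mul_inv_cancel_right]⟩
    show (if h : ∃ w : W, ∃ v ∈ V, g * u = (w : G) * v then y h.choose else 0)
      = (if h : ∃ w : W, ∃ v ∈ V, g = (w : G) * v then y h.choose else 0)
    rw [dif_neg h, dif_neg h']

/-- **G-SH1** `SplitOn` on the ambient group versus `B2` of an ARBITRARY subgroup -/
theorem splitOn_iff_rs_mem_B2 {k : Type*} [CommRing k] {A : Type*} [AddCommGroup A] [Module k A]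
    (Lv : Lev GQ) (ρ : Representation k GQ A) (W : Subgroup GQ) (X : GQ × GQ → A) :
    SplitOn Lv ρ W X ↔ rs W X ∈ B2 (Lv.sub W) (ρ.comp W.subtype) := by
  rw [mem_B2_iff]
  constructor
  · rintro ⟨y, hy, h⟩
    exact ⟨y ∘ W.subtype, hy.precomp (Lv.cont_comap W.subtype), fun g g' => h g g.2 g' g'.2⟩
  · rintro ⟨y, hy, h⟩
    obtain ⟨y', hy', hyy⟩ := exists_extend_of_subgroup Lv W y hy
    refine ⟨y', hy', fun u hu u' hu' => ?_⟩
    have h1 := h ⟨u, hu⟩ ⟨u', hu'⟩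
    have h2 := hyy ⟨u, hu⟩
    have h3 := hyy ⟨u', hu'⟩
    have h4 := hyy (⟨u, hu⟩ * ⟨u', hu'⟩)
    simp only [Subgroup.coe_mul] at h2 h3 h4
    rw [h2, h3, h4]
    exact h1

/-- membership in `LocSys.sha2U`, unfolded -/
theorem mem_sha2U_iff_forall {G : Type} [Group G] (𝒮 : LocSys G) (k : Type*) [CommRing k]
    (U : Subgroup G) (c : H2 (𝒮.L.sub U) (Representation.trivial k U k)) :
    c ∈ 𝒮.sha2U k U ↔ ∀ (v : 𝒮.ι) (g : G), (trivRes k
      (Subgroup.inclusion (inf_le_left : U ⊓ conjSub (𝒮.Dv v) g ≤ U))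
        (𝒮.cont_inclusion _)).H2map c = 0 := by
  unfold LocSys.sha2U
  simp only [Submodule.mem_iInf, LinearMap.mem_ker]

/-- the restriction of a class with trivial coefficients to a smaller subgroup dies iff the cocycle
splits there -/
theorem trivRes_H2map_eq_zero_iff {G : Type} [Group G] (𝒮 : LocSys G) (k : Type*) [CommRing k]
    {U W : Subgroup G} (h : W ≤ U)
    (x : ↥(Z2 (𝒮.L.sub U) (Representation.trivial k U k))) :
    (trivRes k (Subgroup.inclusion h) (𝒮.cont_inclusion h)).H2map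
        (H2π (𝒮.L.sub U) (Representation.trivial k U k) x) = 0 ↔
      ∃ y : W → k, IsLev₁ (𝒮.L'.sub W) y ∧ ∀ a b : W,
        (x : U × U → k) (Subgroup.inclusion h a, Subgroup.inclusion h b)
          = y b - y (a * b) + y a := by
  rw [PairHom.H2map_mk, H2π_eq_zero_iff, mem_B2_iff]
  rfl

/-- **G-SH2**.  Unfold `LocSys.sha2U`, `Submodule.mem_iInf`, `LinearMap.mem_ker`, `PairHom.H2map` on
`H2π`, `H2π_eq_zero_iff`; then `splitOn_iff_rs_mem_B2` for `W = U ⊓ conjSub (Dq q) g`. -/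
theorem mem_sha2U_iff {U : Subgroup GQ}
    (x : ↥(Z2 ((P.levS S).sub U) (Representation.trivial (ZMod p) U (ZMod p)))) :
    H2π ((P.levS S).sub U) (Representation.trivial (ZMod p) U (ZMod p)) x ∈
        (locSys S).sha2U (ZMod p) U ↔
      LocTriv S U (ext0 U (x : U × U → ZMod p)) := by
  refine (mem_sha2U_iff_forall (locSys S) (ZMod p) U _).trans ?_
  unfold LocTriv
  have key : ∀ (q : Nat.Primes) (g : GQ),
      (∃ y : ↥(U ⊓ conjSub (Dq q) g) → ZMod p,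
        IsLev₁ (P.levAll.sub (U ⊓ conjSub (Dq q) g)) y ∧ ∀ a b : ↥(U ⊓ conjSub (Dq q) g),
        (x : U × U → ZMod p) (Subgroup.inclusion inf_le_left a, Subgroup.inclusion inf_le_left b)
          = y b - y (a * b) + y a) ↔
      SplitOn P.levAll (trivQ p) (U ⊓ conjSub (Dq q) g) (ext0 U (x : U × U → ZMod p)) := by
    intro q g
    rw [splitOn_iff_rs_mem_B2, mem_B2_iff]
    have e : ∀ a b : ↥(U ⊓ conjSub (Dq q) g),
        rs (U ⊓ conjSub (Dq q) g) (ext0 U (x : U × U → ZMod p)) (a, b)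
          = (x : U × U → ZMod p) (Subgroup.inclusion inf_le_left a,
              Subgroup.inclusion inf_le_left b) :=
      fun a b => ext0_apply_of_mem _ a.2.1 b.2.1
    constructor
    · rintro ⟨y, hy, h⟩
      exact ⟨y, hy, fun a b => (e a b).trans (h a b)⟩
    · rintro ⟨y, hy, h⟩
      exact ⟨y, hy, fun a b => (e a b).symm.trans (h a b)⟩
  constructor
  · intro h q hq g
    exact (key q g).mp ((trivRes_H2map_eq_zero_iff (locSys S) (ZMod p) inf_le_left x).mp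
      (h ⟨q, hq⟩ g))
  · intro h v g
    exact (trivRes_H2map_eq_zero_iff (locSys S) (ZMod p) inf_le_left x).mpr
      ((key v.1 g).mpr (h v.1 v.2 g))

/-- **G-LK** local Kummer theory: `H²(W, μ_p) → H²(W, ℚ̄ˣ)` is injective, for ANY subgroup `W ≤ ker ω`.
PROOF.  `vz ζ X = d1 h` on `W`, `h : GQ → ℚ̄ˣ` all-level.  `p • h` is a cocycle on `W`; by
`h90_all (MonoidHom.id GQ) W` (`Lev.comap id` has the same level cochains; or use `f = W.subtype`)
`p • h w = w m - m` on `W`.  `ℚ̄` is algebraically closed: `m = p • β`.  `h' := h - d0 β` is level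
(`d0_isLev₁ unitsRep_isDiscrete`), `p • h' = 0` on `W`, `d1 h' = d1 h`.  For `g : GQ` let `ξ g : ZMod p`
be the `i` with `h' g = i.val • ζ` if there is one, `0` otherwise (a function of the value `h' g`, so
level).  On `W`: `vz ζ X = d1 (vz ζ ξ)`, `ζ` fixed by `W`, `i ↦ i.val • ζ` additive and injective:
`X = d1 ξ` on `W`. -/
theorem splitOn_triv_of_splitOn_units {W : Subgroup GQ} (hω : W ≤ (cycloChar p).ker)
    {X : GQ × GQ → ZMod p} {ζ : Additive Qbarˣ}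
    (hζ : IsPrimitiveRoot ((Additive.toMul ζ : Qbarˣ) : Qbar) p)
    (h : SplitOn P.levAll unitsRep W (vz ζ X)) : SplitOn P.levAll (trivQ p) W X :=
  LK_splitOn_triv_of_splitOn_units hω hζ h

/-- an `S`-level splitting in `𝕂_Sˣ` is an all-level splitting in `ℚ̄ˣ` -/
theorem splitOn_units_of_splitOn_S {W : Subgroup GQ} {X : GQ × GQ → ZMod p} {z : KSx S}
    (h : SplitOn (P.levS S) (unitsRepS S) W (vz z X)) :
    SplitOn P.levAll unitsRep W (vz (z : Additive Qbarˣ) X) :=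
  LK_splitOn_units_of_splitOn_S h

/-- **G-SH3**  `Ш² = split classes`.  (⊆) `mem_sha2U_iff`, `hp_main`, `splitOn_iff_rs_mem_B2`, `rs_ext0`.
(⊇) `splitOn_units_of_splitOn_S`, `SplitOn.mono`, `splitOn_triv_of_splitOn_units`. -/
theorem sha2U_eq_splitClasses (hp2 : p ≠ 2) (hpS : pPrime p ∈ S) {U : Subgroup GQ}
    (hU : (P.levS S).IsOpen U) (hω : U ≤ (cycloChar p).ker) {z : KSx S} (hz : IsZeta p z)
    (c : H2 ((P.levS S).sub U) (Representation.trivial (ZMod p) U (ZMod p))) :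
    c ∈ (locSys S).sha2U (ZMod p) U ↔ c ∈ splitClasses ((P.levS S).sub U) (rhoS S U) z := by
  have hrs : ∀ x : U × U → ZMod p, rs U (vz z (ext0 U x)) = vz z x := by
    intro x
    have h1 : rs U (vz z (ext0 U x)) = vz z (rs U (ext0 U x)) := rfl
    rw [h1, rs_ext0]
  constructor
  · intro hc
    obtain ⟨x, rfl⟩ := Submodule.mkQ_surjective _ c
    have hloc := (mem_sha2U_iff x).1 hc
    have hs := hp_main hp2 hpS hU hω (isLev₂_ext0 hU (Z2.isLev x)) (cocOn_ext0 x) hloc hz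
    rw [splitOn_iff_rs_mem_B2, hrs] at hs
    exact ⟨x, rfl, hs⟩
  · rintro ⟨x, rfl, hx⟩
    rw [mem_sha2U_iff]
    intro q _ g
    have hs : SplitOn (P.levS S) (unitsRepS S) U (vz z (ext0 U (x : U × U → ZMod p))) := by
      rw [splitOn_iff_rs_mem_B2, hrs]
      exact hx
    exact splitOn_triv_of_splitOn_units (inf_le_left.trans hω) hz
      (splitOn_units_of_splitOn_S (hs.mono inf_le_left))

end Fermat.Agent.S55.G
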