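import Fermat.Agent.S55.Fc.Inst.Datum
import Fermat.Agent.S55.P.Glue.Defs
import Fermat.Agent.S55.G.N3

/-!
# S55, block G: the concrete `LocSys` on `Gal(ℚ̄/ℚ)`  (G-SYS)

`sys S`: global levels `P.levS S`, all levels `P.levAll`, index set `↥S`, decomposition groups
`P.decGrp q`.  `dl p S q = 1` if `q = p` and `0` otherwise.
The target of blocks [G] and [L] is `(sys S).CoreNumbers (cycloChar p) (dl p S)`.
-/

set_option autoImplicit false

noncomputable section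

namespace Fermat.Agent.S55.G

open ExtCitation

local notation "Qbar" => AlgebraicClosure ℚ
local notation "GQ" => (AlgebraicClosure ℚ ≃ₐ[ℚ] AlgebraicClosure ℚ)

/-- the arithmetic `LocSys` -/
def sys (S : Finset Nat.Primes) : LocSys GQ where
  L := P.levS S
  L' := P.levAll
  fine := P.cont_levAll_levS S
  ι := ↥S
  Dv := fun q => P.decGrp q.1

/-- the local degrees: `1` at `p`, `0` elsewhere -/
def dl (p : ℕ) [Fact p.Prime] (S : Finset Nat.Primes) : (sys S).ι → ℕ :=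
  fun q => if q.1 = pPrime p then 1 else 0

variable {p : ℕ} [Fact p.Prime] {S : Finset Nat.Primes}

@[simp] lemma sys_L : (sys S).L = P.levS S := rfl
@[simp] lemma sys_L' : (sys S).L' = P.levAll := rfl
lemma sys_Dv (q : S) : (sys S).Dv q = P.decGrp q.1 := rfl

lemma isOpen_levS_iff {U : Subgroup GQ} : (P.levS S).IsOpen U ↔ IsOpenS S U := by
  constructor
  · rintro ⟨_, ⟨F, hF, rfl⟩, h⟩
    exact ⟨F, hF, h⟩
  · rintro ⟨F, hF, h⟩
    exact ⟨_, ⟨F, hF, rfl⟩, h⟩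

lemma sys_ne (hpS : pPrime p ∈ S) : Nonempty (sys S).ι := ⟨⟨pPrime p, hpS⟩⟩

lemma dl_sum (hpS : pPrime p ∈ S) : ∑ v, dl p S v = 1 := by
  classical
  show ∑ v : S, (if v.1 = pPrime p then 1 else 0) = 1
  rw [Finset.sum_eq_single (⟨pPrime p, hpS⟩ : S)]
  · simp
  · intro b _ hb
    rw [if_neg]
    intro h
    exact hb (Subtype.ext h)
  · intro h
    exact absurd (Finset.mem_univ _) h

lemma sU_eq (U : Subgroup GQ) :
    (sys S).sU U = ∑ q ∈ S, ndc U (primeLocalToGlobal q).range := by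
  classical
  show ∑ v : S, Nat.card (DoubleCoset.Quotient (U : Set GQ) (P.decGrp v.1 : Set GQ)) = _
  rw [← Finset.sum_coe_sort S]
  refine Finset.sum_congr rfl fun q _ => ?_
  rw [P.decGrp_eq_range]
  rfl

/-- field `n3` of `CoreNumbers` -/
theorem sys_n3 (hp2 : p ≠ 2) (hpS : pPrime p ∈ S) (U : Subgroup GQ) (hU : (sys S).L.IsOpen U)
    (hω : U ≤ (cycloChar p).ker) :
    ∃ (n : ℕ) (c : ℕ → Subgroup GQ), c 0 = U ∧
      (∀ i, c (i + 1) ≤ c i ∧ (sys S).L.IsOpen (c (i + 1)) ∧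
        ((c (i + 1)).subgroupOf (c i)).Normal ∧
        (c (i + 1)).relIndex (c i) = p) ∧ (sys S).sU (c n) ≤ p ^ n := by
  obtain ⟨c, h0, hc, n, hn⟩ := N3 hp2 S hpS U (isOpen_levS_iff.1 hU) hω
  refine ⟨n, c, h0, fun i => ⟨(hc i).2.1, isOpen_levS_iff.2 (hc (i + 1)).1, (hc i).2.2.1,
    (hc i).2.2.2⟩, ?_⟩
  rw [sU_eq]
  exact hn

end Fermat.Agent.S55.G

end
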