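import Fermat.Agent.S55.G.Loc
import Fermat.Agent.S55.G.N2Cyc

/-!
# S55 G-UR1: the core of "classes of `H²(G_S, μ_p)` are locally trivial outside `S`"

`ur_abs` is the abstract cohomological argument (normalise the cochain on the inertia group, then the
valuation trick `vt_abs`), `ur_core_aux` is its application to `D = Dq q`.
-/

set_option autoImplicit false

namespace Fermat.Agent.S55.G

open ExtCitation Fermat.Agent.S55.L.C0

local notation "Qbar" => AlgebraicClosure ℚ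
local notation "GQ" => (AlgebraicClosure ℚ ≃ₐ[ℚ] AlgebraicClosure ℚ)

/-- the abstract argument.  `I ⊲ H` ("inertia"), `χ` trivial on `I`, `Y` a cocycle which is inflated
from `H / I` with values fixed by `I`, `Y - cyc χ a = d1 h`; `o` is additive on the `I`-fixed vectors,
`H`-invariant and kills `Y`.  Then `orderOf (χ τ) ∣ o a`. -/
theorem ur_abs {H : Type} [Group H] (Lv : Lev H) {A : Type*} [AddCommGroup A]
    (ρ : Representation ℤ H A) (hρ : IsDiscrete Lv ρ) (I : Subgroup H) (hI : I.Normal)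
    (hH90 : H1VanishOn Lv ρ I)
    {n : ℕ} [NeZero n] (χ : H →* Multiplicative (ZMod n)) (hχI : I ≤ χ.ker)
    (a : A) (ha : ∀ g, ρ g a = a) (Y : H × H → A)
    (hYc : ∀ g h j, Y (g * h, j) + Y (g, h) = ρ g (Y (h, j)) + Y (g, h * j))
    (hYr : ∀ g k, ∀ i ∈ I, ∀ j ∈ I, Y (g * i, k * j) = Y (g, k))
    (hYl : ∀ g k, ∀ i ∈ I, ∀ j ∈ I, Y (i * g, j * k) = Y (g, k))
    (hYI : ∀ t, ∀ i ∈ I, ρ i (Y t) = Y t)
    (h : H → A) (hlev : IsLev₁ Lv h)
    (hY : ∀ g k, Y (g, k) - cyc χ a (g, k) = ρ g (h k) - h (g * k) + h g)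
    (o : A → ℤ)
    (hoadd : ∀ x y, (∀ i ∈ I, ρ i x = x) → (∀ i ∈ I, ρ i y = y) → o (x + y) = o x + o y)
    (hoρ : ∀ g b, o (ρ g b) = o b) (hoY : ∀ t, o (Y t) = 0) (τ : H) :
    (orderOf (χ τ) : ℤ) ∣ o a := by
  classical
  set m₀ : A := Y (1, 1) with hm₀
  have e1 : ∀ g, Y (1, g) = m₀ := by
    intro g
    have := hYc 1 1 g
    simp only [mul_one, one_mul, map_one, Module.End.one_apply, add_right_inj] at this
    exact this.symm
  have e2 : ∀ g, Y (g, 1) = ρ g m₀ := by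
    intro g
    have := hYc g 1 1
    simpa using this
  -- normalise `Y`
  set h₁ : H → A := fun g => h g - m₀ with hh₁
  have hh₁lev : IsLev₁ Lv h₁ := hlev.comp (· - m₀)
  set Y₁ : H × H → A := fun t => Y t - ρ t.1 m₀ with hY₁def
  have hY₁ : ∀ g k, Y₁ (g, k) - cyc χ a (g, k) = ρ g (h₁ k) - h₁ (g * k) + h₁ g := by
    intro g k
    have h0 := hY g k
    simp only [hY₁def, hh₁, map_sub]
    rw [sub_right_comm, h0]
    abel
  have hY₁r : ∀ g, ∀ i ∈ I, Y₁ (g, i) = 0 := by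
    intro g i hi
    have h0 := hYr g 1 1 I.one_mem i hi
    simp only [mul_one, one_mul] at h0
    simp only [hY₁def, h0, e2, sub_self]
  have hY₁l : ∀ g, ∀ i ∈ I, Y₁ (i, g) = 0 := by
    intro g i hi
    have h0 := hYl 1 g i hi 1 I.one_mem
    simp only [mul_one, one_mul] at h0
    simp only [hY₁def, h0, e1]
    rw [hm₀, hYI (1, 1) i hi, sub_self]
  -- `h₁` is a cocycle on `I`
  have hc : ∀ v ∈ I, ∀ w ∈ I, h₁ (v * w) = ρ v (h₁ w) + h₁ v := by
    intro v hv w hw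
    have h0 := hY₁ v w
    rw [hY₁r v w hw, cyc_of_mem_ker_left χ a (hχI hv), sub_zero] at h0
    have h2 : ρ v (h₁ w) + h₁ v - h₁ (v * w) = 0 := by
      rw [h0]; abel
    exact (sub_eq_zero.1 h2).symm
  obtain ⟨m, hm⟩ := hH90 h₁ hh₁lev hc
  set h₂ : H → A := fun g => h₁ g - (ρ g m - m) with hh₂
  have hh₂lev : IsLev₁ Lv h₂ := hh₁lev.map₂ (d0_isLev₁ hρ m) (· - ·)
  have hY₂ : ∀ g k, Y₁ (g, k) - cyc χ a (g, k) = ρ g (h₂ k) - h₂ (g * k) + h₂ g := by
    intro g k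
    rw [hY₁]
    simp only [hh₂, map_sub, map_mul, Module.End.mul_apply]
    abel
  have hh₂I : ∀ i ∈ I, h₂ i = 0 := fun i hi => by simp only [hh₂, hm i hi, sub_self]
  have hr : ∀ g, ∀ i ∈ I, h₂ (g * i) = h₂ g := by
    intro g i hi
    have h0 := hY₂ g i
    rw [hY₁r g i hi, cyc_of_mem_ker_right χ a (hχI hi), sub_zero, hh₂I i hi, map_zero,
      zero_sub] at h0
    have h2 : h₂ g - h₂ (g * i) = 0 := by
      rw [h0]; abel
    exact (sub_eq_zero.1 h2).symm
  have hl : ∀ g, ∀ i ∈ I, h₂ (i * g) = ρ i (h₂ g) := by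
    intro g i hi
    have h0 := hY₂ i g
    rw [hY₁l g i hi, cyc_of_mem_ker_left χ a (hχI hi), sub_zero, hh₂I i hi, add_zero] at h0
    exact (sub_eq_zero.1 h0.symm).symm
  have hfix : ∀ g, ∀ i ∈ I, ρ i (h₂ g) = h₂ g := by
    intro g i hi
    rw [← hl g i hi]
    have h1 : g⁻¹ * i * g ∈ I := by simpa using hI.conj_mem i hi g⁻¹
    have h0 := hr g _ h1
    rwa [show g * (g⁻¹ * i * g) = i * g by group] at h0
  -- the submodule of `I`-fixed vectors
  let A' : Submodule ℤ A :=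
    { carrier := {x | ∀ i ∈ I, ρ i x = x}
      add_mem' := fun {x y} hx hy i hi => by rw [map_add, hx i hi, hy i hi]
      zero_mem' := fun i _ => map_zero _
      smul_mem' := fun c x hx i hi => by rw [map_smul, hx i hi] }
  have hstab : ∀ g, ∀ w ∈ A', ρ g w ∈ A' := by
    intro g w hw i hi
    have h1 : g⁻¹ * i * g ∈ I := by simpa using hI.conj_mem i hi g⁻¹
    calc ρ i (ρ g w) = ρ g (ρ (g⁻¹ * i * g) w) := by
          rw [← Module.End.mul_apply, ← Module.End.mul_apply, ← map_mul, ← map_mul]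
          congr 2
          group
      _ = ρ g w := by rw [hw _ h1]
  let o' : A' →+ ℤ := AddMonoidHom.mk' (fun x => o x) (fun x y => hoadd x y x.2 y.2)
  have haA : a ∈ A' := fun i _ => ha i
  have hm₀A : m₀ ∈ A' := hYI (1, 1)
  have hY₁A : ∀ t, Y₁ t ∈ A' := fun t => A'.sub_mem (hYI t) (hstab t.1 m₀ hm₀A)
  refine vt_abs (subRep ρ A' hstab) χ (⟨a, haA⟩ : A') (fun t => ⟨Y₁ t, hY₁A t⟩)
    (fun g => ⟨h₂ g, hfix g⟩) ?_ ?_ o' ?_ ?_ τ
  · refine Set.Finite.of_finite_image (f := Subtype.val) ?_ Subtype.val_injective.injOn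
    rw [← Set.range_comp]
    exact hh₂lev.finite_range
  · intro g k
    apply Subtype.ext
    have h0 := hY₂ g k
    rw [cyc_apply] at h0
    rw [cyc_apply]
    exact h0
  · intro g b
    exact hoρ g b
  · intro t
    show o (Y₁ t) = 0
    have h1 := hoadd (Y₁ t) (ρ t.1 m₀) (hY₁A t) (hstab t.1 m₀ hm₀A)
    have h2 : Y₁ t + ρ t.1 m₀ = Y t := by simp only [hY₁def, sub_add_cancel]
    rw [h2, hoY, hoρ, hm₀, hoY, add_zero] at h1
    exact h1.symm

variable {p : ℕ} [Fact p.Prime] {S : Finset Nat.Primes}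

theorem ur_liesOverPrime (q : Nat.Primes) : (primeLocalPlace q).LiesOverPrime (q : ℕ) := by
  have : Fact (q : ℕ).Prime := ⟨q.2⟩
  exact P.padicPlace_liesOverPrime (q : ℕ)

/-- **G-UR1** (same statement as `ur_core` of `G/UR.lean`). -/
theorem ur_core_aux (hpS : pPrime p ∈ S) {X : GQ × GQ → ZMod p} (hX : X ∈ Z2 (P.levS S) (muG p))
    {q : Nat.Primes} (hq : q ∉ S) {ζ : Additive Qbarˣ}
    (hζ : IsPrimitiveRoot ((Additive.toMul ζ : Qbarˣ) : Qbar) p)
    {χ : ↥(Dq q) →* Multiplicative (ZMod p)} (hχ : IsUnrChar q χ) (hsurj : Function.Surjective χ)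
    {a : Additive Qbarˣ} (ha : ∀ g ∈ Dq q, unitsRep g a = a)
    (hB : rs (Dq q) (vz ζ X) - cyc χ a ∈ B2 (P.levAll.sub (Dq q)) (rhoAll (Dq q))) :
    (p : ℤ) ∣ ordA (primeLocalPlace q) q ((Additive.toMul a : Qbarˣ) : Qbar) := by
  classical
  have hA : (primeLocalPlace q).LiesOverPrime (q : ℕ) := ur_liesOverPrime q
  have hD : Dq q = (primeLocalPlace q).decompositionSubgroup ℚ :=
    P.decGrp_eq_decompositionSubgroup q
  have hID : (primeLocalPlace q).inertiaSubgroupIn ℚ ≤ Dq q := by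
    rw [hD]; exact P.inertiaSubgroupIn_le_decompositionSubgroup _
  set I : Subgroup ↥(Dq q) := ((primeLocalPlace q).inertiaSubgroupIn ℚ).subgroupOf (Dq q) with hIdef
  have hImem : ∀ i : ↥(Dq q), i ∈ I ↔ (i : GQ) ∈ (primeLocalPlace q).inertiaSubgroupIn ℚ :=
    fun i => Subgroup.mem_subgroupOf
  have hIn : I.Normal := ⟨fun i hi g => by
    rw [hImem] at hi ⊢
    exact P.conj_mem_inertiaSubgroupIn _ (hD ▸ g.2) hi⟩
  obtain ⟨h, hlev, hh⟩ := (mem_B2_iff _ _ _).1 hB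
  have hX' := (mem_Z2_iff _ _ _).1 hX
  obtain ⟨U, ⟨F, hF, rfl⟩, -, hXr, hXl⟩ := hX'.1.exists_normal
  have hIU : (primeLocalPlace q).inertiaSubgroupIn ℚ ≤ F.fixingSubgroup := hF.2 q hq _ hA
  have hYZ := (mem_Z2_iff _ _ _).1 (vz_mem_Z2_mu_all (mem_Z2_levAll hX) hζ)
  have hqp : (q : ℕ) ≠ p := by
    intro h0
    apply hq
    have : q = pPrime p := Subtype.ext h0
    rw [this]
    exact hpS
  have hp1 : Fact (1 < p) := ⟨(Fact.out : p.Prime).one_lt⟩
  have hζp : (Additive.toMul ζ : Qbarˣ) ^ p = 1 := by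
    apply Units.ext
    rw [Units.val_pow_eq_pow_val]
    exact hζ.pow_eq_one
  have hζI : ∀ i ∈ (primeLocalPlace q).inertiaSubgroupIn ℚ, unitsRep i ζ = ζ := by
    intro i hi
    rw [h90_unitsRep_eq_iff, L.c3_apply_of_pow_eq_one i hζp]
    have h1 : cycloChar p i = 1 := inertia_le_ker_cyclo q hqp hi
    rw [h1, Units.val_one, ZMod.val_one, pow_one]
  obtain ⟨τ, hτ⟩ := hsurj (Multiplicative.ofAdd 1)
  have hord : orderOf (χ τ) = p := by
    rw [hτ, orderOf_ofAdd_eq_addOrderOf, ZMod.addOrderOf_one]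
  have hfixQ : ∀ x : Additive Qbarˣ, (∀ i ∈ I, rhoAll (Dq q) i x = x) →
      HasOrd (primeLocalPlace q) q ((Additive.toMul x : Qbarˣ) : Qbar) := by
    intro x hx
    refine hasOrd_of_inertia_fixed q (Units.ne_zero _) fun i hi => ?_
    exact (h90_unitsRep_eq_iff i x x).1 (hx ⟨i, hID hi⟩ ((hImem _).2 hi))
  have key := ur_abs (P.levAll.sub (Dq q)) (rhoAll (Dq q))
    (unitsRep_isDiscrete.comp (P.levAll.cont_comap _)) I hIn (h90_all (Dq q).subtype I) χ
    (fun i hi => hχ.inertia i ((hImem i).1 hi)) a (fun g => ha g g.2) (rs (Dq q) (vz ζ X))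
    (fun g k j => hYZ.2 g k j)
    (fun g k i hi j hj => by
      show vz ζ X ((g : GQ) * i, (k : GQ) * j) = vz ζ X ((g : GQ), (k : GQ))
      rw [vz_apply, vz_apply, hXr _ _ _ (hIU ((hImem i).1 hi)) _ (hIU ((hImem j).1 hj))])
    (fun g k i hi j hj => by
      show vz ζ X ((i : GQ) * g, (j : GQ) * k) = vz ζ X ((g : GQ), (k : GQ))
      rw [vz_apply, vz_apply, hXl _ _ _ (hIU ((hImem i).1 hi)) _ (hIU ((hImem j).1 hj))])
    (fun t i hi => by
      show unitsRep (i : GQ) (vz ζ X ((t.1 : GQ), (t.2 : GQ))) = vz ζ X ((t.1 : GQ), (t.2 : GQ))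
      rw [vz_apply, map_nsmul, hζI _ ((hImem i).1 hi)])
    h hlev hh
    (fun x => ordA (primeLocalPlace q) q ((Additive.toMul x : Qbarˣ) : Qbar))
    (fun x y hx hy => by
      show ordA (primeLocalPlace q) q
        (((Additive.toMul x : Qbarˣ) : Qbar) * ((Additive.toMul y : Qbarˣ) : Qbar)) = _
      exact ordA_mul hA (hfixQ x hx) (hfixQ y hy))
    (fun g b => by
      show ordA (primeLocalPlace q) q ((g : GQ) ((Additive.toMul b : Qbarˣ) : Qbar)) = _
      exact ordA_apply_of_mem_decomposition (hD ▸ g.2) _)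
    (fun t => by
      show ordA (primeLocalPlace q) q
        ((Additive.toMul (vz ζ X ((t.1 : GQ), (t.2 : GQ))) : Qbarˣ) : Qbar) = 0
      refine ordA_of_pow_eq_one hA (Fact.out : p.Prime).pos ?_
      rw [vz_apply, toMul_nsmul, ← Units.val_pow_eq_pow_val, ← pow_mul, mul_comm, pow_mul, hζp,
        one_pow, Units.val_one])
    τ
  rw [hord] at key
  exact key

end Fermat.Agent.S55.G
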