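import Fermat.Agent.S55.G.Loc
import Fermat.Agent.S55.G.N2Cyc
import Fermat.Agent.S55.G.URCore

/-!
# S55 G-UR: classes of `H²(G_S, μ_p)` are locally trivial outside `S`
-/

set_option autoImplicit false

namespace Fermat.Agent.S55.G

open ExtCitation Fermat.Agent.S55.L.C0

local notation "Qbar" => AlgebraicClosure ℚ
local notation "GQ" => (AlgebraicClosure ℚ ≃ₐ[ℚ] AlgebraicClosure ℚ)

variable {p : ℕ} [Fact p.Prime] {S : Finset Nat.Primes}

/-- **G-UR1** (core).  `D := Dq q`, `I` the inertia group, `q ∉ S ∋ p`.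
PROOF.  (0) `exists_normalised` (for `(P.levS S, muG p)`): `X = X₀ + d1 c`, `X₀` normalised, `c` an `S`-level
cochain; `vz ζ X = vz ζ X₀ + d1 (vz ζ c)`; so we may assume `X (1, g) = 0 = X (g, 1)`.
`IsLev₂.exists_normal`: `X` is left and right invariant under a level `F.fixingSubgroup ⊇ I`
(definition of `IsUnramifiedOutside`).  So `X (g, i) = 0 = X (i, g)` for `i ∈ I`.
(1) `rs D (vz ζ X) - cyc χ a = d1 h`, `h : ↥D → ℚ̄ˣ` level.  On `I × I` the left side vanishes: `h` is a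
cocycle on `I`; `h90_all D.subtype (I.subgroupOf D)`: `h i = i m - m`; replace `h` by `h - d0 m`
(level: `d0_isLev₁`): `h = 0` on `I`.
(2) identity at `(g, i)`: `h (g i) = h g`; at `(i, g)`: `h (i g) = i (h g)`; `I ⊲ D`
(`P.conj_mem_inertiaSubgroupIn`): `i (h g) = h g`.
(3) `vt_abs` with `H = ↥D`, `A' := {x ∈ Additive ℚ̄ˣ fixed by I}` (a `D`-stable submodule, `subRep`),
`o := ordA (primeLocalPlace q) q` (additive on `A'` by `hasOrd_of_inertia_fixed`, `ordA_mul`;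
`D`-invariant by `ordA_apply_of_mem_decomposition`; kills `ζ`; `ζ ∈ A'` by `inertia_le_ker_cyclo` with
`r := p`, as `q ≠ p`), `τ` with `χ τ = ofAdd 1` of order `p`. -/
theorem ur_core (hpS : pPrime p ∈ S) {X : GQ × GQ → ZMod p} (hX : X ∈ Z2 (P.levS S) (muG p))
    {q : Nat.Primes} (hq : q ∉ S) {ζ : Additive Qbarˣ}
    (hζ : IsPrimitiveRoot ((Additive.toMul ζ : Qbarˣ) : Qbar) p)
    {χ : ↥(Dq q) →* Multiplicative (ZMod p)} (hχ : IsUnrChar q χ) (hsurj : Function.Surjective χ)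
    {a : Additive Qbarˣ} (ha : ∀ g ∈ Dq q, unitsRep g a = a)
    (hB : rs (Dq q) (vz ζ X) - cyc χ a ∈ B2 (P.levAll.sub (Dq q)) (rhoAll (Dq q))) :
    (p : ℤ) ∣ ordA (primeLocalPlace q) q ((Additive.toMul a : Qbarˣ) : Qbar) :=
  ur_core_aux hpS hX hq hζ hχ hsurj ha hB

/-- `splitOn_ker_of_torsion`, with `ZMod n`, `n = p ^ m`. -/
theorem ur2_splitOn_ker (l : Nat.Primes) {n m : ℕ} (hn : n = p ^ m)
    {χ : ↥(Dq l) →* Multiplicative (ZMod n)} (hχ : IsUnrChar l χ) (hne : ∃ τ, χ τ ≠ 1)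
    (Y : ↥(Z2 (P.levAll.sub (Dq l)) (rhoAll (Dq l))))
    (hpY : ∀ t, p • (Y : ↥(Dq l) × ↥(Dq l) → Additive Qbarˣ) t = 0) :
    SplitOn (P.levAll.sub (Dq l)) (rhoAll (Dq l)) χ.ker
      (Y : ↥(Dq l) × ↥(Dq l) → Additive Qbarˣ) := by
  subst hn
  exact splitOn_ker_of_torsion l hχ hne Y hpY

/-- **G-UR2**.  PROOF.  `χ` from `exists_isUnrChar`.  `Y := rs D (vz ζ X) ∈ Z2 (levAll.sub D) (rhoAll D)`
(`vz_mem_Z2_mu_all`, restriction), `p • Y = 0`.  `splitOn_ker_of_torsion` (`m = 1`, transport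
`ZMod (p ^ 1) = ZMod p`) + `exists_cyc_of_splitOn` (`h90_all`, `unitsRep_isDiscrete`): `Y - cyc χ a ∈ B2`.
`ur_core`: `p ∣ ord a`.  `cyc_mem_B2_of_dvd_ord` (`χ.ker.index = p` as `χ` is onto): `cyc χ a ∈ B2`.
So `Y ∈ B2`; `splitOn_iff_rs_mem_B2`; `splitOn_mu_of_splitOn_units`. -/
theorem ur_split (hpS : pPrime p ∈ S) {X : GQ × GQ → ZMod p} (hX : X ∈ Z2 (P.levS S) (muG p))
    {q : Nat.Primes} (hq : q ∉ S) : SplitOn P.levAll (muG p) (Dq q) X := by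
  -- a primitive `p`-th root of unity
  obtain ⟨ζ0, hζ0⟩ : ∃ ζ0 : Qbar, IsPrimitiveRoot ζ0 p :=
    HasEnoughRootsOfUnity.exists_primitiveRoot Qbar p
  have hp0 : p ≠ 0 := (Fact.out : p.Prime).ne_zero
  set ζ : Additive Qbarˣ := Additive.ofMul (Units.mk0 ζ0 (hζ0.ne_zero hp0)) with hζdef
  have hζ : IsPrimitiveRoot ((Additive.toMul ζ : Qbarˣ) : Qbar) p := hζ0
  obtain ⟨χ, hχ, hsurj⟩ := exists_isUnrChar (p := p) q
  -- the restricted cocycle
  have hZ := vz_mem_Z2_mu_all (mem_Z2_levAll hX) hζ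
  have hY : rs (Dq q) (vz ζ X) ∈ Z2 (P.levAll.sub (Dq q)) (rhoAll (Dq q)) := by
    rw [mem_Z2_iff] at hZ ⊢
    exact ⟨hZ.1.precomp (P.levAll.cont_comap (Dq q).subtype), fun g h j => hZ.2 g h j⟩
  have hpY : ∀ t, p • rs (Dq q) (vz ζ X) t = 0 := by
    intro t
    show p • ((X (Prod.map (Dq q).subtype (Dq q).subtype t)).val • ζ) = 0
    rw [smul_comm, n2_nsmul_zeta hζ, smul_zero]
  obtain ⟨σ, hσ⟩ := hsurj (Multiplicative.ofAdd 1)
  have hne : ∃ τ, χ τ ≠ 1 := by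
    refine ⟨σ, ?_⟩
    rw [hσ]
    intro h
    have h1 : (1 : ZMod p) = 0 := Multiplicative.ofAdd.injective h
    exact one_ne_zero h1
  have hsplit : SplitOn (P.levAll.sub (Dq q)) (rhoAll (Dq q)) χ.ker (rs (Dq q) (vz ζ X)) :=
    ur2_splitOn_ker q (pow_one p).symm hχ hne ⟨_, hY⟩ hpY
  have hdisc : IsDiscrete (P.levAll.sub (Dq q)) (rhoAll (Dq q)) :=
    unitsRep_isDiscrete.comp (P.levAll.cont_comap (Dq q).subtype)
  obtain ⟨a, ha, hB⟩ := exists_cyc_of_splitOn hdisc hχ.isOpen (h90_all (Dq q).subtype χ.ker) hσ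
    ⟨_, hY⟩ hsplit
  have ha' : ∀ g ∈ Dq q, unitsRep g a = a := fun g hg => ha ⟨g, hg⟩
  have hord := ur_core hpS hX hq hζ hχ hsurj ha' hB
  have hidx : χ.ker.index = p := by
    rw [Subgroup.index_ker, MonoidHom.range_eq_top.2 hsurj, Subgroup.card_top, Nat.card_eq_fintype_card]
    simp [ZMod.card]
  have hcyc := cyc_mem_B2_of_dvd_ord q hχ hidx ha' hord
  have hYB : rs (Dq q) (vz ζ X) ∈ B2 (P.levAll.sub (Dq q)) (rhoAll (Dq q)) := by
    have := (B2 (P.levAll.sub (Dq q)) (rhoAll (Dq q))).add_mem hB hcyc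
    simpa using this
  exact splitOn_mu_of_splitOn_units (Dq q) hζ
    ((splitOn_iff_rs_mem_B2 P.levAll unitsRep (Dq q) (vz ζ X)).2 hYB)

end Fermat.Agent.S55.G
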